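import Fermat.Agent.AbVar.GrowthMain

/-!
# Growth lemma (S26-A5, helper70)
-/

set_option autoImplicit false

open MvPolynomial Module

namespace Fermat.Agent.AbVar

open Growth

/-! A5 -/
theorem growth {K F P : Type*} [Field K] [Field F] [Algebra K F] (O : P → Subring F)
    (hK : ∀ p (a : K), algebraMap K F a ∈ O p)
    (hint : ∀ p (y : F), IsIntegral (O p) y → y ∈ O p)
    (hcen : ∀ V : ValuationSubring F, (∀ a : K, algebraMap K F a ∈ V) → ∃ p, ∀ y ∈ O p, y ∈ V)
    {g : ℕ} (x : Fin g → F) (hx : AlgebraicIndependent K x)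
    (hfin : FiniteDimensional (IntermediateField.adjoin K (Set.range x)) F)
    (hsep : Algebra.IsSeparable (IntermediateField.adjoin K (Set.range x)) F)
    (t : P → F) (ht0 : ∀ p, t p ≠ 0) (ht : ∀ p, t p ∈ O p)
    (T : Finset F) (hT : ∀ p, ∃ τ ∈ T, τ ≠ 0 ∧ τ / t p ∈ O p)
    (hxt : ∀ i p, x i * t p ∈ O p)
    (π : F →+* F) (hπK : ∀ a : K, π (algebraMap K F a) = algebraMap K F a)
    (hπfin : FiniteDimensional π.fieldRange F) (hπsep : Algebra.IsSeparable π.fieldRange F)
    (πP : P → P) (hπO : ∀ p, ∀ y ∈ O (πP p), π y ∈ O p)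
    (hπint : ∀ q (y : F), (∀ p, πP p = q → y ∈ O p) → IsIntegral ((O q).map π) y)
    (N : ℕ) (hN1 : 1 ≤ N) (φ : F) (hφ : φ ≠ 0)
    (hN : ∀ p, φ * π (t (πP p)) / t p ^ N ∈ O p ∧ t p ^ N / (φ * π (t (πP p))) ∈ O p) :
    Module.finrank π.fieldRange F = N ^ g := by
  classical
  set t' : P → F := fun p => π (t (πP p)) with ht'def
  have ht' : ∀ p, t' p ∈ O p := fun p => hπO p _ (ht (πP p))
  have ht0' : ∀ p, t' p ≠ 0 := fun p => by
    rw [ht'def]
    exact (map_ne_zero π).mpr (ht0 _)
  -- the upper bound
  obtain ⟨C, hC⟩ := upper hx T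
  have hV : ∀ m, ∀ y ∈ VV O t hK m, ∀ V : ValuationSubring F,
      (∀ a : K, algebraMap K F a ∈ V) → ∃ τ ∈ T, τ ≠ 0 ∧ y * τ ^ m ∈ V := by
    intro m y hy V hV
    obtain ⟨p, hp⟩ := hcen V hV
    obtain ⟨τ, hτ, hτ0, hτp⟩ := hT p
    refine ⟨τ, hτ, hτ0, ?_⟩
    have h1 : y * τ ^ m = (y * t p ^ m) * (τ / t p) ^ m := by
      have h0 := ht0 p
      have h2 : t p * (τ / t p) = τ := by field_simp
      rw [mul_assoc, ← mul_pow, h2]
    rw [h1]
    exact mul_mem (hp _ (hy p)) (pow_mem (hp _ hτp) m)
  have hfd : ∀ m, FiniteDimensional K (VV O t hK m) := fun m => (hC m _ (hV m)).1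
  have hub : ∀ m, finrank K (VV O t hK m) ≤ C * (m + 1) ^ g := fun m => (hC m _ (hV m)).2
  -- `V' m ≅ V (N m)`
  have hiff1 : ∀ m, ∀ y ∈ VV O t' hK m, y * φ⁻¹ ^ m ∈ VV O t hK (N * m) := by
    intro m y hy p
    have h1 : y * φ⁻¹ ^ m * t p ^ (N * m) = (y * t' p ^ m) * (t p ^ N / (φ * t' p)) ^ m := by
      have h0 := ht0' p
      have h2 : t' p * (t p ^ N / (φ * t' p)) = φ⁻¹ * t p ^ N := by field_simp
      rw [pow_mul, mul_assoc, mul_assoc, ← mul_pow, ← mul_pow, h2]
    rw [h1]
    exact mul_mem (hy p) (pow_mem (hN p).2 m)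
  have hiff2 : ∀ m, ∀ y ∈ VV O t hK (N * m), y * φ ^ m ∈ VV O t' hK m := by
    intro m y hy p
    have h1 : y * φ ^ m * t' p ^ m = (y * t p ^ (N * m)) * (φ * t' p / t p ^ N) ^ m := by
      have h0 := pow_ne_zero N (ht0 p)
      have h2 : t p ^ N * (φ * t' p / t p ^ N) = φ * t' p := by field_simp
      rw [pow_mul, mul_assoc, mul_assoc, ← mul_pow, ← mul_pow, h2]
    rw [h1]
    exact mul_mem (hy p) (pow_mem (hN p).1 m)
  let f1 : ∀ m, VV O t' hK m →ₗ[K] VV O t hK (N * m) := fun m =>
    LinearMap.restrict (LinearMap.mulRight K (φ⁻¹ ^ m)) (hiff1 m)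
  have hf1 : ∀ m, Function.Injective (f1 m) := by
    intro m a b hab
    have h1 := congrArg Subtype.val hab
    change (a : F) * φ⁻¹ ^ m = b * φ⁻¹ ^ m at h1
    exact Subtype.ext (mul_right_cancel₀ (pow_ne_zero m (inv_ne_zero hφ)) h1)
  let f2 : ∀ m, VV O t hK (N * m) →ₗ[K] VV O t' hK m := fun m =>
    LinearMap.restrict (LinearMap.mulRight K (φ ^ m)) (hiff2 m)
  have hf2 : ∀ m, Function.Injective (f2 m) := by
    intro m a b hab
    have h1 := congrArg Subtype.val hab
    change (a : F) * φ ^ m = b * φ ^ m at h1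
    exact Subtype.ext (mul_right_cancel₀ (pow_ne_zero m hφ) h1)
  have hfd' : ∀ m, FiniteDimensional K (VV O t' hK m) := fun m => by
    have := hfd (N * m)
    exact Module.Finite.of_injective (f1 m) (hf1 m)
  -- the basis
  obtain ⟨d, hd, ⟨e⟩⟩ : ∃ d, finrank π.fieldRange F = d ∧
      Nonempty (Basis (Fin d) π.fieldRange F) := ⟨_, rfl, ⟨Module.finBasis π.fieldRange F⟩⟩
  choose c hc hcm using fun l => exists_denominator_pi O hK hint hx t ht hxt π πP hπO ht' (e l)
  obtain ⟨m0, hm0⟩ := exists_common (ht := ht') (Finset.univ.image fun l => π (c l) * e l) (by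
    intro y hy
    obtain ⟨l, -, rfl⟩ := Finset.mem_image.mp hy
    exact hcm l)
  have hm0' : ∀ l p, π (c l) * e l * t' p ^ m0 ∈ O p := fun l p =>
    hm0 _ (Finset.mem_image_of_mem _ (Finset.mem_univ l)) p
  -- (3)
  have h3 : ∀ m, d * finrank K (VV O t hK m) ≤ finrank K (VV O t hK (N * (m + m0))) := by
    intro m
    have hmem : ∀ v : Fin d → VV O t hK m,
        ∑ l, π (c l) * e l * π (v l : F) ∈ VV O t' hK (m + m0) := by
      intro v
      refine sum_mem fun l _ => ?_
      intro p
      have h1 : π (c l) * e l * π (v l : F) * t' p ^ (m + m0) =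
          (π (c l) * e l * t' p ^ m0) * π ((v l : F) * t (πP p) ^ m) := by
        rw [map_mul, map_pow]
        ring
      rw [h1]
      exact mul_mem (hm0' l p) (hπO p _ ((v l).2 (πP p)))
    let Ψ : (Fin d → VV O t hK m) →ₗ[K] VV O t' hK (m + m0) :=
      { toFun := fun v => ⟨∑ l, π (c l) * e l * π (v l : F), hmem v⟩
        map_add' := fun v w => by
          refine Subtype.ext ?_
          change ∑ l, π (c l) * e l * π ((v l : F) + w l) =
            ∑ l, π (c l) * e l * π (v l : F) + ∑ l, π (c l) * e l * π (w l : F)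
          rw [← Finset.sum_add_distrib]
          refine Finset.sum_congr rfl fun l _ => ?_
          rw [map_add, mul_add]
        map_smul' := fun a v => by
          refine Subtype.ext ?_
          change ∑ l, π (c l) * e l * π (a • (v l : F)) = a • ∑ l, π (c l) * e l * π (v l : F)
          rw [Finset.smul_sum]
          refine Finset.sum_congr rfl fun l _ => ?_
          rw [Algebra.smul_def, Algebra.smul_def, map_mul, hπK]
          ring }
    have hΨ : Function.Injective Ψ := by
      rw [injective_iff_map_eq_zero]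
      intro v hv
      have h1 : ∑ l, π (c l) * e l * π (v l : F) = 0 := congrArg Subtype.val hv
      have h2 : ∑ l, (⟨π (c l * (v l : F)), ⟨_, rfl⟩⟩ : π.fieldRange) • e l = 0 := by
        rw [← h1]
        refine Finset.sum_congr rfl fun l _ => ?_
        rw [Algebra.smul_def]
        change π (c l * (v l : F)) * e l = _
        rw [map_mul]
        ring
      have h3 := (Fintype.linearIndependent_iff.mp e.linearIndependent) _ h2
      funext l
      have h4 : π (c l * (v l : F)) = 0 := congrArg Subtype.val (h3 l)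
      rw [map_eq_zero] at h4
      exact Subtype.ext ((mul_eq_zero.mp h4).resolve_left (hc l))
    have := hfd' (m + m0)
    have h5 := LinearMap.finrank_le_finrank_of_injective hΨ
    rw [Module.finrank_pi_fintype, Finset.sum_const, Finset.card_univ, Fintype.card_fin,
      smul_eq_mul] at h5
    have := hfd (N * (m + m0))
    exact h5.trans (LinearMap.finrank_le_finrank_of_injective (hf1 (m + m0)))
  -- (4)
  have h4 : ∀ m, finrank K (VV O t hK (N * m)) ≤ d * finrank K (VV O t hK (m + m0)) := by
    intro m
    have hmem : ∀ y ∈ VV O t' hK m, ∀ l,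
        inv π (Algebra.trace π.fieldRange F (y * (π (c l) * e l))) ∈ VV O t hK (m + m0) := by
      intro y hy l q
      have h1 : IsIntegral ((O q).map π) (y * (π (c l) * e l) * π (t q) ^ (m + m0)) := by
        refine hπint q _ fun p hp => ?_
        subst hp
        have h2 : y * (π (c l) * e l) * π (t (πP p)) ^ (m + m0) =
            (y * t' p ^ m) * (π (c l) * e l * t' p ^ m0) := by
          rw [ht'def]
          ring
        rw [h2]
        exact mul_mem (hy p) (hm0' l p)
      have h2 := trace_mem π (hint q) h1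
      convert h2 using 1
      apply π.injective
      have h5 : y * (π (c l) * e l) * π (t q) ^ (m + m0) =
          (⟨π (t q ^ (m + m0)), ⟨_, rfl⟩⟩ : π.fieldRange) • (y * (π (c l) * e l)) := by
        rw [Algebra.smul_def]
        change _ = π (t q ^ (m + m0)) * _
        rw [map_pow]
        ring
      rw [h5, map_smul, smul_eq_mul, pi_inv, map_mul, pi_inv, mul_comm]
      rfl
    let Ξ : VV O t' hK m →ₗ[K] (Fin d → VV O t hK (m + m0)) :=
      LinearMap.pi fun l =>
        { toFun := fun y => ⟨inv π (Algebra.trace π.fieldRange F ((y : F) * (π (c l) * e l))),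
            hmem y y.2 l⟩
          map_add' := fun y z => by
            refine Subtype.ext ?_
            change inv π (Algebra.trace π.fieldRange F (((y : F) + z) * (π (c l) * e l))) =
              inv π (Algebra.trace π.fieldRange F ((y : F) * (π (c l) * e l))) +
              inv π (Algebra.trace π.fieldRange F ((z : F) * (π (c l) * e l)))
            rw [add_mul, map_add, map_add]
          map_smul' := fun a y => by
            refine Subtype.ext ?_
            change inv π (Algebra.trace π.fieldRange F ((a • (y : F)) * (π (c l) * e l))) =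
              a • inv π (Algebra.trace π.fieldRange F ((y : F) * (π (c l) * e l)))
            have h5 : (a • (y : F)) * (π (c l) * e l) =
                (⟨π (algebraMap K F a), ⟨_, rfl⟩⟩ : π.fieldRange) •
                  ((y : F) * (π (c l) * e l)) := by
              rw [Algebra.smul_def (A := F) (R := π.fieldRange), Algebra.smul_def a, mul_assoc]
              change _ = π (algebraMap K F a) * _
              rw [hπK]
            rw [h5, map_smul, smul_eq_mul, map_mul, Algebra.smul_def]
            congr 1
            apply π.injective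
            rw [pi_inv] }
    have hΞ : Function.Injective Ξ := by
      rw [injective_iff_map_eq_zero]
      rintro ⟨y, hy⟩ h0
      have h5 : ∀ l, Algebra.trace π.fieldRange F (y * e l) = 0 := by
        intro l
        have h6 := congrArg Subtype.val (congrFun h0 l)
        change inv π (Algebra.trace π.fieldRange F (y * (π (c l) * e l))) = 0 at h6
        rw [map_eq_zero] at h6
        have h7 : y * (π (c l) * e l) = (⟨π (c l), ⟨_, rfl⟩⟩ : π.fieldRange) • (y * e l) := by
          rw [Algebra.smul_def]
          change _ = π (c l) * _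
          ring
        rw [h7, map_smul, smul_eq_mul] at h6
        refine (mul_eq_zero.mp h6).resolve_left fun h8 => hc l ?_
        have h9 : π (c l) = 0 := congrArg Subtype.val h8
        rwa [map_eq_zero] at h9
      have h6 : Algebra.traceForm π.fieldRange F y = 0 := by
        apply e.ext
        intro l
        rw [Algebra.traceForm_apply, h5]
        rfl
      have h7 : y = 0 := by
        have hnd := traceForm_nondegenerate π.fieldRange F
        exact hnd.1 y fun z => by rw [h6]; rfl
      exact Subtype.ext h7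
    have := hfd (m + m0)
    have h5 := LinearMap.finrank_le_finrank_of_injective hΞ
    rw [Module.finrank_pi_fintype, Finset.sum_const, Finset.card_univ, Fintype.card_fin,
      smul_eq_mul] at h5
    have := hfd' m
    exact (LinearMap.finrank_le_finrank_of_injective (hf2 m)).trans h5
  rw [hd]
  refine numeric (fun m => finrank K (VV O t hK m)) g d N m0 C hN1 ?_ ?_ h3 h4 hub ?_
  · rw [← hd]
    exact Module.finrank_pos
  · intro m n hmn
    have := hfd n
    exact Submodule.finrank_mono (VV_mono ht hmn)
  · exact lower O hx ht hxt hfd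

end Fermat.Agent.AbVar
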