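import Fermat.Agent.AbVar.Centre
import Fermat.Agent.AbVar.Growth

/-!
# S26: final assembly from the theorem of the cube
-/

set_option autoImplicit false
universe u
open CategoryTheory CategoryTheory.Limits AlgebraicGeometry TopologicalSpace NeronModelInfra
  GoodReductionJacobian
open GoodReductionJacobian.RelativeGroupLaw (idPoint)
open Fermat.Agent.Jac

namespace Fermat.Agent.AbVar

namespace Asm

/-- A function satisfying the relation of the cube is quadratic after symmetrisation. -/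
theorem quad_pow {G H : Type*} [CommGroup G] [CommGroup H] (Λ : G → H)
    (hΛ : ∀ x y z, Λ (x * y * z) * Λ x * Λ y * Λ z =
      Λ (x * y) * Λ (x * z) * Λ (y * z) * Λ 1) (x : G) (n : ℕ) :
    Λ (x ^ n) * Λ ((x ^ n)⁻¹) * (Λ 1 * Λ 1)⁻¹ = (Λ x * Λ x⁻¹ * (Λ 1 * Λ 1)⁻¹) ^ (n ^ 2) := by
  set c : G → H := fun y => Λ y * Λ y⁻¹ * (Λ 1 * Λ 1)⁻¹ with hc
  change c (x ^ n) = c x ^ (n ^ 2)
  -- the square relation for `c`
  have hc1 : c 1 = 1 := by simp [hc]
  have hrec : ∀ y : G, c (y * x * x) * c y * c x ^ 2 = c (y * x) ^ 2 * c (x * x) := by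
    intro y
    have h1 := hΛ y x x
    have h2 := hΛ y⁻¹ x⁻¹ x⁻¹
    have e1 : (y * x * x)⁻¹ = y⁻¹ * x⁻¹ * x⁻¹ := by rw [mul_inv, mul_inv]
    have e2 : (y * x)⁻¹ = y⁻¹ * x⁻¹ := by rw [mul_inv]
    have e3 : (x * x)⁻¹ = x⁻¹ * x⁻¹ := by rw [mul_inv]
    have h3 : Λ (y * x * x) * Λ y * (Λ x) ^ 2 = Λ (y * x) ^ 2 * Λ (x * x) * Λ 1 := by
      rw [pow_two, pow_two, ← mul_assoc]; exact h1
    have h4 : Λ (y⁻¹ * x⁻¹ * x⁻¹) * Λ y⁻¹ * (Λ x⁻¹) ^ 2 =
        Λ (y⁻¹ * x⁻¹) ^ 2 * Λ (x⁻¹ * x⁻¹) * Λ 1 := by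
      rw [pow_two, pow_two, ← mul_assoc]; exact h2
    simp only [hc, e1, e2, e3]
    have h5 : (Λ (y * x * x) * Λ y * (Λ x) ^ 2) * (Λ (y⁻¹ * x⁻¹ * x⁻¹) * Λ y⁻¹ * (Λ x⁻¹) ^ 2) =
        (Λ (y * x) ^ 2 * Λ (x * x) * Λ 1) * (Λ (y⁻¹ * x⁻¹) ^ 2 * Λ (x⁻¹ * x⁻¹) * Λ 1) := by
      rw [h3, h4]
    have e4 : ∀ a b a' b' d d' l : H,
        (a * a' * (l * l)⁻¹) * (b * b' * (l * l)⁻¹) * (d * d' * (l * l)⁻¹) ^ 2 =
          (a * b * d ^ 2) * (a' * b' * d' ^ 2) * ((l * l)⁻¹) ^ 4 := by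
      intro a b a' b' d d' l
      simp only [pow_succ, pow_zero, one_mul]
      simp only [mul_assoc, mul_comm, mul_left_comm]
    rw [e4, h5]
    generalize Λ (y * x) = a
    generalize Λ (x * x) = b
    generalize Λ (y⁻¹ * x⁻¹) = a'
    generalize Λ (x⁻¹ * x⁻¹) = b'
    generalize Λ 1 = l
    simp only [pow_succ, pow_zero, one_mul, mul_inv]
    have : a * a * b * l * (a' * a' * b' * l) = (a * a' * (a * a') * (b * b')) * (l * l) := by
      simp only [mul_comm, mul_left_comm]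
    rw [this]
    have e5 : l⁻¹ * l⁻¹ * (l⁻¹ * l⁻¹) * (l⁻¹ * l⁻¹) * (l⁻¹ * l⁻¹) =
      (l * l)⁻¹ * (l⁻¹ * l⁻¹ * (l⁻¹ * l⁻¹) * (l⁻¹ * l⁻¹)) := by
      rw [mul_inv]; simp only [mul_assoc]
    rw [e5, mul_assoc, mul_inv_cancel_left]
    simp only [mul_assoc, mul_comm, mul_left_comm]
  have h2 : c (x * x) = c x ^ 4 := by
    have h1 := hΛ x x x⁻¹
    have h2 := hΛ x⁻¹ x⁻¹ x
    rw [mul_inv_cancel_right] at h1
    rw [inv_mul_cancel_right] at h2
    simp only [mul_inv_cancel, inv_mul_cancel] at h1 h2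
    simp only [hc, mul_inv]
    have e3 : Λ (x * x) * (Λ 1 ^ 3) = Λ x ^ 3 * Λ x⁻¹ := by
      rw [show Λ (x * x) * Λ 1 ^ 3 = Λ (x * x) * Λ 1 * Λ 1 * Λ 1 by
        simp only [pow_succ, pow_zero, one_mul, mul_assoc], ← h1]
      simp only [pow_succ, pow_zero, one_mul]
    have e4 : Λ (x⁻¹ * x⁻¹) * (Λ 1 ^ 3) = Λ x⁻¹ ^ 3 * Λ x := by
      rw [show Λ (x⁻¹ * x⁻¹) * Λ 1 ^ 3 = Λ (x⁻¹ * x⁻¹) * Λ 1 * Λ 1 * Λ 1 by
        simp only [pow_succ, pow_zero, one_mul, mul_assoc], ← h2]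
      simp only [pow_succ, pow_zero, one_mul]
    have e3' := eq_mul_inv_of_mul_eq e3
    have e4' := eq_mul_inv_of_mul_eq e4
    rw [e3', e4']
    generalize Λ x = a
    generalize Λ x⁻¹ = b
    generalize Λ 1 = l
    simp only [pow_succ, pow_zero, one_mul, mul_inv]
    simp only [mul_assoc, mul_comm, mul_left_comm]
  have key : ∀ n : ℕ, c (x ^ n) = c x ^ (n ^ 2) ∧ c (x ^ (n + 1)) = c x ^ ((n + 1) ^ 2) := by
    intro n
    induction n with
    | zero => simp [hc1]
    | succ n ih =>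
      refine ⟨ih.2, ?_⟩
      have h3 := hrec (x ^ n)
      rw [← pow_succ, ← pow_succ, ih.1, ih.2, h2] at h3
      have h4 : c (x ^ (n + 1 + 1)) * (c x ^ (n ^ 2) * c x ^ 2) =
          c x ^ ((n + 1 + 1) ^ 2) * (c x ^ (n ^ 2) * c x ^ 2) := by
        rw [← mul_assoc, h3, ← pow_mul, ← pow_add, ← pow_add, ← pow_add]
        congr 1
        ring
      exact mul_right_cancel h4
  exact (key n).1


section Polar

variable {X : Scheme.{u}} [IsIntegral X] {K : Type u} [Field K] [IsAlgClosed K]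
  (f : X ⟶ Spec (CommRingCat.of K))

/-- the polar divisor of finitely many functions -/
theorem exists_polar_fin [Smooth f] {ι : Type*} (s : Finset ι) (x : ι → X.functionField) :
    ∃ D : CDiv X, (∀ p, D.t p ∈ stalkIn p) ∧ ∀ i ∈ s, ∀ p, x i * D.t p ∈ stalkIn p := by
  classical
  induction s using Finset.induction_on with
  | empty => exact ⟨DivPic.oneD, fun p => one_mem _, by simp⟩
  | insert i s hi ih =>
    obtain ⟨D, hD, H⟩ := ih
    obtain ⟨E, hE, H'⟩ := exists_polar f (x i)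
    refine ⟨DivPic.mulD D E, fun p => mul_mem (hD p) (hE p), ?_⟩
    intro j hj p
    change x j * (D.t p * E.t p) ∈ stalkIn p
    rcases Finset.mem_insert.mp hj with rfl | hj
    · have := mul_mem (H' p) (hD p)
      rwa [mul_assoc, mul_comm (E.t p)] at this
    · have := mul_mem (H j hj p) (hE p)
      rwa [mul_assoc] at this

end Polar

section Group

variable {K : Type u} [Field K] {A : Scheme.{u}} {f : A ⟶ Spec (CommRingCat.of K)}
  (L : RelativeGroupLaw K f)

theorem inv_natural' {T T' : Scheme.{u}} (t : T ⟶ Spec (CommRingCat.of K))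
    (t' : T' ⟶ Spec (CommRingCat.of K)) (ψ : T' ⟶ T) (hψ : ψ ≫ t = t') (x : SchemeHomOver t f) :
    schemeHomOverComp ψ hψ (L.inv t x) = L.inv t' (schemeHomOverComp ψ hψ x) := by
  let := L.pointGroup t'
  have h1 : L.mul t' (schemeHomOverComp ψ hψ (L.inv t x)) (schemeHomOverComp ψ hψ x) =
      L.one t' := by
    rw [← L.mul_natural t t' ψ hψ, L.inv_mul_cancel, L.one_natural t t' ψ hψ]
  exact eq_inv_of_mul_eq_one_left h1

/-- the inversion morphism -/
noncomputable def invHom : A ⟶ A := (L.inv f idPoint).1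

theorem comp_invHom {T : Scheme.{u}} (t : T ⟶ Spec (CommRingCat.of K)) (x : SchemeHomOver t f) :
    x.1 ≫ invHom L = (L.inv t x).1 := by
  have h := inv_natural' L f t x.1 x.2 idPoint
  have h1 : schemeHomOverComp x.1 x.2 idPoint = x := Subtype.ext (Category.comp_id _)
  rw [h1] at h
  rw [← h]
  rfl

theorem invHom_invHom : invHom L ≫ invHom L = 𝟙 A := by
  have h := comp_invHom L f (L.inv f idPoint)
  let := L.pointGroup f
  have h1 : L.inv f (L.inv f idPoint) = idPoint := inv_inv (idPoint : SchemeHomOver f f)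
  rw [h1] at h
  exact h

instance : IsIso (invHom L) := ⟨invHom L, invHom_invHom L, invHom_invHom L⟩

theorem map_one_eq_one (ℓ : Pic A) : Pic.map (L.one f).1 ℓ = 1 := by
  apply DivPic.map_of_const
  intro x y
  have h := L.one_natural (𝟙 (Spec (CommRingCat.of K))) f f (Category.comp_id _)
  rw [← h, schemeHomOverComp_coe]
  change (L.one (𝟙 (Spec (CommRingCat.of K)))).1 (f x) = (L.one (𝟙 (Spec (CommRingCat.of K)))).1 (f y)
  congr 1
  exact Subsingleton.elim _ _

/-- from the theorem of the cube: `[n]` acts by `n ^ 2` on symmetric classes, up to torsion -/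
theorem pic_nsmul (hc : L.IsCommutative)
    (ℓ : Pic A)
    (hcube : ∀ x y z : SchemeHomOver f f, ∃ m : ℕ, 1 ≤ m ∧
      (Pic.map (L.mul f (L.mul f x y) z).1 ℓ * Pic.map x.1 ℓ * Pic.map y.1 ℓ *
        Pic.map z.1 ℓ) ^ m =
      (Pic.map (L.mul f x y).1 ℓ * Pic.map (L.mul f x z).1 ℓ * Pic.map (L.mul f y z).1 ℓ *
        Pic.map (L.one f).1 ℓ) ^ m) (n : ℕ) :
    ∃ m : ℕ, 1 ≤ m ∧ Pic.map (L.schemeNsmul n) (ℓ * Pic.map (invHom L) ℓ) ^ m =
      ((ℓ * Pic.map (invHom L) ℓ) ^ (n ^ 2)) ^ m := by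
  let := commPointGroup L hc f
  have hmk : ∀ a b : Pic A, (QuotientGroup.mk a : Pic A ⧸ CommGroup.torsion (Pic A)) =
      QuotientGroup.mk b ↔ ∃ m : ℕ, 1 ≤ m ∧ a ^ m = b ^ m := by
    intro a b
    rw [QuotientGroup.eq, CommGroup.mem_torsion, isOfFinOrder_iff_pow_eq_one]
    refine exists_congr fun m => and_congr Iff.rfl ?_
    rw [mul_pow, inv_pow, inv_mul_eq_one]
  let Λ : SchemeHomOver f f → Pic A ⧸ CommGroup.torsion (Pic A) := fun y =>
    QuotientGroup.mk (Pic.map y.1 ℓ)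
  have hΛ : ∀ x y z, Λ (x * y * z) * Λ x * Λ y * Λ z =
      Λ (x * y) * Λ (x * z) * Λ (y * z) * Λ 1 := fun x y z => (hmk _ _).mpr (hcube x y z)
  have h1 : Λ 1 = 1 := by
    change QuotientGroup.mk (Pic.map (L.one f).1 ℓ) = _
    rw [map_one_eq_one]
    rfl
  have h2 := quad_pow Λ hΛ idPoint n
  rw [h1, mul_one, inv_one, mul_one, mul_one] at h2
  have h3 : (idPoint : SchemeHomOver f f) ^ n = L.nsmul f n idPoint :=
    (nsmul_eq_pow L hc f n idPoint).symm
  rw [h3] at h2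
  have h4 : Λ (idPoint : SchemeHomOver f f) = QuotientGroup.mk ℓ := by
    change QuotientGroup.mk (Pic.map (𝟙 A) ℓ) = _
    rw [Pic.map_id_apply]
  have h5 : Λ (idPoint : SchemeHomOver f f)⁻¹ = QuotientGroup.mk (Pic.map (invHom L) ℓ) := rfl
  have h6 : Λ (L.nsmul f n idPoint)⁻¹ =
      QuotientGroup.mk (Pic.map (L.schemeNsmul n) (Pic.map (invHom L) ℓ)) := by
    change QuotientGroup.mk (Pic.map (L.inv f (L.nsmul f n idPoint)).1 ℓ) = _
    rw [← comp_invHom L f (L.nsmul f n idPoint), Pic.map_comp_apply]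
    rfl
  have h7 : Λ (L.nsmul f n idPoint) = QuotientGroup.mk (Pic.map (L.schemeNsmul n) ℓ) := rfl
  rw [h4, h5, h6, h7] at h2
  apply (hmk _ _).mp
  rw [map_mul]
  exact h2

end Group

section Main

theorem ffMap_kFun {K : Type u} [Field K] {A : Scheme.{u}} [IsIntegral A]
    (f : A ⟶ Spec (CommRingCat.of K)) (φ : A ⟶ A) (hφ : φ ≫ f = f)
    (h : φ (genericPoint A) = genericPoint A) (c : K) : ffMap φ h (kFun f c) = kFun f c := by
  have h3 := ffMap_fromSpecStalk φ h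
  have h4 : Spec.map (CommRingCat.ofHom ((ffMap φ h).comp (kFun f))) =
      Spec.map (CommRingCat.ofHom (kFun f)) := by
    rw [CommRingCat.ofHom_comp, Spec.map_comp]
    have h5 : Spec.map (CommRingCat.ofHom (kFun f)) = A.fromSpecStalk (genericPoint A) ≫ f :=
      (fromSpecStalk_comp_str f _).symm
    rw [h5, ← Category.assoc, h3, Category.assoc, hφ]
  exact congrArg (fun g => g.hom c) (Spec.map_injective h4)

theorem generic_of_surjective {X Y : Scheme.{u}} [IsIntegral X] [IsIntegral Y] (φ : X ⟶ Y)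
    (hφ : Function.Surjective φ) : φ (genericPoint X) = genericPoint Y := by
  have h1 := (genericPoint_spec X).image φ.continuous
  rw [Set.image_univ, hφ.range_eq, closure_univ] at h1
  exact h1.eq (genericPoint_spec Y)

/-- S26 from the theorem of the cube -/
theorem card_of_cube (K : Type u) [Field K] [IsAlgClosed K] {A : Scheme.{u}}
    (f : A ⟶ Spec (CommRingCat.of K)) (L : RelativeGroupLaw K f) (hc : L.IsCommutative)
    (hA : AbelianSchemePropertyBundle K f) (g : ℕ) [SmoothOfRelativeDimension g f] (n : ℕ)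
    (hn : (n : K) ≠ 0)
    (hcube : ∀ (ℓ : Pic A) (x y z : SchemeHomOver f f), ∃ m : ℕ, 1 ≤ m ∧
      (Pic.map (L.mul f (L.mul f x y) z).1 ℓ * Pic.map x.1 ℓ * Pic.map y.1 ℓ *
        Pic.map z.1 ℓ) ^ m =
      (Pic.map (L.mul f x y).1 ℓ * Pic.map (L.mul f x z).1 ℓ * Pic.map (L.mul f y z).1 ℓ *
        Pic.map (L.one f).1 ℓ) ^ m) :
    Nat.card {x : SchemeHomOver (𝟙 (Spec (CommRingCat.of K))) f //
        L.IsTorsionPoint (𝟙 (Spec (CommRingCat.of K))) n x} = n ^ (2 * g) := by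
  have := hA.proper
  have := hA.smooth
  have hconn : ConnectedSpace A := by
    have h1 := hA.connectedFibres (clp K)
    have h2 : f.base ⁻¹' {clp K} = Set.univ :=
      Set.eq_univ_of_forall fun a => Subsingleton.elim (f a) (clp K)
    rw [h2] at h1
    exact connectedSpace_iff_univ.mpr h1
  have : IsIntegral A := isIntegral_of_smooth f
  have : CompactSpace A := by
    have h1 := QuasiCompact.isCompact_preimage (f := f) (Set.univ) isOpen_univ isCompact_univ
    exact ⟨h1⟩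
  have hfin := finite_nsmul L hc n hn
  have hsurj := surjective_nsmul f L g hc n hn
  have h : (L.schemeNsmul n) (genericPoint A) = genericPoint A := generic_of_surjective _ hsurj
  have hinv : (invHom L) (genericPoint A) = genericPoint A :=
    genericPoint_eq_of_isOpenImmersion (invHom L)
  obtain ⟨hπfin, hπsep, hcard⟩ := card_torsion f L hc n hn h
  rw [hcard, pow_mul]
  have hn1 : 1 ≤ n := Nat.one_le_iff_ne_zero.mpr fun h0 => hn (by rw [h0, Nat.cast_zero])
  let x₀ : A := (L.one (𝟙 (Spec (CommRingCat.of K)))).1 (clp K)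
  obtain ⟨t, -, -, hx, hxfin, hxsep⟩ := exists_coords f g x₀
    (isClosed_rational (L.one (𝟙 (Spec (CommRingCat.of K)))) (clp K))
  let : Algebra K A.functionField := (kFun f).toAlgebra
  set x : Fin g → A.functionField :=
    fun i => algebraMap (A.presheaf.stalk x₀) A.functionField (t i) with hxdef
  obtain ⟨D, hD, hDx⟩ := exists_polar_fin f Finset.univ x
  let D' := DivPic.mulD D (DivPic.pbD (invHom L) hinv D)
  have hD' : ∀ p, D'.t p ∈ stalkIn p := fun p =>
    mul_mem (hD p) (DivPic.ffMap_mem (invHom L) hinv p (hD _))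
  have hDx' : ∀ i p, x i * D'.t p ∈ stalkIn p := fun i p => by
    have := mul_mem (hDx i (Finset.mem_univ i) p) (DivPic.ffMap_mem (invHom L) hinv p (hD _))
    rwa [mul_assoc] at this
  have hcls : DivPic.cls D' = DivPic.cls D * Pic.map (invHom L) (DivPic.cls D) := by
    rw [DivPic.cls_mulD, DivPic.cls_pbD]
  obtain ⟨m, hm, hmp⟩ := pic_nsmul L hc (DivPic.cls D) (hcube _) n
  rw [← hcls] at hmp
  let E := DivPic.powD D' m
  have hE : ∀ p, E.t p = D'.t p ^ m := DivPic.powD_t D' m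
  have hcls2 : DivPic.cls (DivPic.pbD (L.schemeNsmul n) h E) =
      DivPic.cls (DivPic.powD E (n ^ 2)) := by
    rw [DivPic.cls_pbD, DivPic.cls_powD, DivPic.cls_powD, DivPic.cls_powD, map_pow, hmp,
      ← pow_mul, ← pow_mul, mul_comm]
  obtain ⟨φ, hφ, hN⟩ := DivPic.exists_rational hcls2
  obtain ⟨T, hT⟩ := exists_finset E
  refine growth (K := K) (F := A.functionField) (P := A) stalkIn (fun p a => const_mem f p a)
    (fun p y hy => integral_mem f p y hy) (fun V hV => exists_centre f V hV) x hx hxfin hxsep E.t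
    E.ne_zero ?_ T hT ?_ (ffMap (L.schemeNsmul n) h)
    (fun a => ffMap_kFun f _ (L.schemeNsmul_over n) h a) hπfin hπsep (L.schemeNsmul n)
    (fun p y hy => DivPic.ffMap_mem _ h p hy) (fun q y hy => isIntegral_of_fibre _ h q y hy)
    (n ^ 2) (Nat.one_le_pow _ _ hn1) φ hφ ?_
  · intro p
    rw [hE]
    exact pow_mem (hD' p) m
  · intro i p
    rw [hE]
    obtain ⟨m, rfl⟩ := Nat.exists_eq_add_of_le' hm
    rw [pow_succ']
    have := mul_mem (hDx' i p) (pow_mem (hD' p) m)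
    rwa [mul_assoc] at this
  · intro p
    have := hN p
    rw [DivPic.powD_t] at this
    exact this

end Main

end Asm

end Fermat.Agent.AbVar
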