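import Mathlib
import Fermat.Prelude.Def_JacJ1Iface
import Fermat.Prelude.Def_GoodReductionJacobian_RelativeGroupLawKernel
import Fermat.Agent.Jac.Defs

/-!
# S26: basic definitions (constants, stalks inside the function field, Cartier divisors)
-/

set_option autoImplicit false
universe u
open CategoryTheory CategoryTheory.Limits AlgebraicGeometry NeronModelInfra GoodReductionJacobian

namespace Fermat.Agent.AbVar

variable {X Y : Scheme.{u}}

/-- constants in sections -/
noncomputable def kSec {K : Type u} [CommRing K] (s : X ⟶ Spec (.of K)) (U : X.Opens) :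
    K →+* Γ(X, U) :=
  ((Scheme.ΓSpecIso (.of K)).inv ≫ s.appTop ≫ X.presheaf.map (homOfLE le_top).op).hom

/-- constants in stalks -/
noncomputable def kStalk {K : Type u} [CommRing K] (s : X ⟶ Spec (.of K)) (x : X) :
    K →+* X.presheaf.stalk x :=
  ((Scheme.ΓSpecIso (.of K)).inv ≫ s.appTop ≫ X.presheaf.germ ⊤ x trivial).hom

/-- constants in the function field -/
noncomputable def kFun {K : Type u} [CommRing K] [IrreducibleSpace X] (s : X ⟶ Spec (.of K)) :
    K →+* X.functionField := kStalk s (genericPoint X)

/-- the stalk at `x` inside the function field -/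
noncomputable def stalkIn [IsIntegral X] (x : X) : Subring X.functionField :=
  (algebraMap (X.presheaf.stalk x) X.functionField).range

/-- Cartier divisors on an integral scheme -/
structure CDiv (X : Scheme.{u}) [IsIntegral X] where
  /-- local equations -/
  t : X → X.functionField
  ne_zero : ∀ x, t x ≠ 0
  loc : ∀ x, ∃ U : X.Opens, x ∈ U ∧ ∀ y ∈ U, t x / t y ∈ stalkIn y ∧ t y / t x ∈ stalkIn y

/-- pullback of rational functions along a dominant morphism of integral schemes -/
noncomputable def ffMap [IsIntegral X] [IsIntegral Y] (φ : X ⟶ Y)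
    (h : φ (genericPoint X) = genericPoint Y) : Y.functionField →+* X.functionField :=
  (φ.stalkMap (genericPoint X)).hom.comp (Y.presheaf.stalkCongr (.of_eq h.symm)).hom.hom

end Fermat.Agent.AbVar
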