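import Fermat.Agent.AbVar.Polar

/-!
# S26: étale coordinates at a closed point
-/

set_option autoImplicit false
universe u
open CategoryTheory CategoryTheory.Limits AlgebraicGeometry NeronModelInfra GoodReductionJacobian

namespace Fermat.Agent.AbVar

namespace Coords

open Algebra IsLocalRing in
/-- Étale coordinates at a maximal ideal: the maximal ideal of the local ring is generated by the
coordinates -/
theorem span_eq_maximalIdeal {K S : Type u} [Field K] [CommRing S] [IsLocalRing S]
    {n : ℕ} [Algebra (MvPolynomial (Fin n) K) S]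
    [FormallyUnramified (MvPolynomial (Fin n) K) S] [EssFiniteType (MvPolynomial (Fin n) K) S]
    (hm : ∀ i, algebraMap (MvPolynomial (Fin n) K) S (MvPolynomial.X i) ∈ maximalIdeal S) :
    Ideal.span (Set.range fun i => algebraMap (MvPolynomial (Fin n) K) S (MvPolynomial.X i)) =
      maximalIdeal S := by
  set J : Ideal S :=
    Ideal.span (Set.range fun i => algebraMap (MvPolynomial (Fin n) K) S (MvPolynomial.X i)) with hJ
  have hle : J ≤ maximalIdeal S := by
    rw [hJ, Ideal.span_le]
    rintro _ ⟨i, rfl⟩
    exact hm i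
  let : Algebra (MvPolynomial (Fin n) K) K := (MvPolynomial.constantCoeff (σ := Fin n)).toAlgebra
  let : Algebra K (S ⧸ J) :=
    ((Ideal.Quotient.mk J).comp ((algebraMap (MvPolynomial (Fin n) K) S).comp
      MvPolynomial.C)).toAlgebra
  have htower : IsScalarTower (MvPolynomial (Fin n) K) K (S ⧸ J) := by
    apply IsScalarTower.of_algebraMap_eq'
    apply MvPolynomial.ringHom_ext
    · intro c
      change Ideal.Quotient.mk J (algebraMap _ S (MvPolynomial.C c)) =
        Ideal.Quotient.mk J (algebraMap _ S (MvPolynomial.C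
          (MvPolynomial.constantCoeff (MvPolynomial.C c))))
      rw [MvPolynomial.constantCoeff_C]
    · intro i
      change Ideal.Quotient.mk J (algebraMap _ S (MvPolynomial.X i)) =
        Ideal.Quotient.mk J (algebraMap _ S (MvPolynomial.C
          (MvPolynomial.constantCoeff (MvPolynomial.X i))))
      rw [MvPolynomial.constantCoeff_X, map_zero, map_zero, map_zero, Ideal.Quotient.eq_zero_iff_mem]
      exact Ideal.subset_span ⟨i, rfl⟩
  have h1 : FormallyUnramified (MvPolynomial (Fin n) K) (S ⧸ J) := .comp _ S _
  have h2 : EssFiniteType (MvPolynomial (Fin n) K) (S ⧸ J) := .comp _ S _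
  have : FormallyUnramified K (S ⧸ J) := .of_restrictScalars (MvPolynomial (Fin n) K) _ _
  have : EssFiniteType K (S ⧸ J) := .of_comp (MvPolynomial (Fin n) K) _ _
  have : Module.Finite K (S ⧸ J) := FormallyUnramified.finite_of_free _ _
  have : IsReduced (S ⧸ J) := FormallyUnramified.isReduced_of_field K (S ⧸ J)
  have : IsArtinianRing (S ⧸ J) := isArtinian_of_tower K inferInstance
  have : Nontrivial (S ⧸ J) :=
    Ideal.Quotient.nontrivial_iff.mpr <| ne_top_of_le_ne_top (maximalIdeal.isMaximal S).ne_top hle
  have : IsLocalRing (S ⧸ J) := .of_surjective' _ Ideal.Quotient.mk_surjective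
  have : maximalIdeal (S ⧸ J) = ⊥ := by
    rw [← jacobson_eq_maximalIdeal _ bot_ne_top, IsArtinianRing.jacobson_eq_radical,
      ← Ideal.zero_eq_bot, ← nilradical, nilradical_eq_zero]
  rw [← isField_iff_maximalIdeal_eq] at this
  exact eq_maximalIdeal ((Ideal.Quotient.maximal_ideal_iff_isField_quotient J).mpr this)

/-- the function field is finite separable over the coordinates -/
theorem finite_separable {K F : Type u} [Field K] [Field F] [Algebra K F] {n : ℕ}
    (φ : MvPolynomial (Fin n) K →ₐ[K] F)
    (h1 : (φ : MvPolynomial (Fin n) K →+* F).FormallyUnramified)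
    (h2 : (φ : MvPolynomial (Fin n) K →+* F).EssFiniteType) :
    FiniteDimensional (IntermediateField.adjoin K (Set.range fun i => φ (MvPolynomial.X i))) F ∧
    Algebra.IsSeparable (IntermediateField.adjoin K (Set.range fun i => φ (MvPolynomial.X i))) F := by
  set E := IntermediateField.adjoin K (Set.range fun i => φ (MvPolynomial.X i)) with hE
  have hmem : ∀ p, φ p ∈ E := by
    intro p
    induction p using MvPolynomial.induction_on with
    | C a =>
      have : φ (MvPolynomial.C a) = algebraMap K F a := φ.commutes a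
      rw [this]; exact E.algebraMap_mem a
    | add p q hp hq => rw [map_add]; exact add_mem hp hq
    | mul_X p i hp =>
      rw [map_mul]
      exact mul_mem hp (IntermediateField.subset_adjoin K _ ⟨i, rfl⟩)
  let r : MvPolynomial (Fin n) K →+* E := (φ : MvPolynomial (Fin n) K →+* F).codRestrict E hmem
  algebraize [(φ : MvPolynomial (Fin n) K →+* F), r]
  have : IsScalarTower (MvPolynomial (Fin n) K) E F := IsScalarTower.of_algebraMap_eq' rfl
  have h3 : Algebra.FormallyUnramified E F :=
    Algebra.FormallyUnramified.of_restrictScalars (MvPolynomial (Fin n) K) _ _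
  have h4 : Algebra.EssFiniteType E F :=
    Algebra.EssFiniteType.of_comp (MvPolynomial (Fin n) K) _ _
  exact ⟨Algebra.FormallyUnramified.finite_of_free _ _,
    (Algebra.FormallyUnramified.iff_isSeparable _ _).mp h3⟩

/-- étale coordinates on a chart vanishing at a given closed point -/
theorem exists_centered_chart {X : Scheme.{u}} {K : Type u} [Field K] [IsAlgClosed K]
    (s : X ⟶ Spec (.of K)) (n : ℕ) [SmoothOfRelativeDimension n s] (x : X) (hx : IsClosed {x}) :
    ∃ (V : X.Opens) (hV : IsAffineOpen V) (hxV : x ∈ V)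
      (g : MvPolynomial (Fin n) K →+* Γ(X, V)), g.comp MvPolynomial.C = kSec s V ∧ g.Etale ∧
      ∀ i, g (MvPolynomial.X i) ∈ (hV.primeIdealOf ⟨x, hxV⟩).asIdeal := by
  obtain ⟨V, hV, hxV, g, hgC, hg⟩ := exists_chart_dim s n x
  have hmax : (hV.primeIdealOf ⟨x, hxV⟩).asIdeal.IsMaximal :=
    hV.primeIdealOf_isMaximal_of_isClosed ⟨x, hxV⟩ hx
  let : Algebra K Γ(X, V) := (kSec s V).toAlgebra
  have hfin : Algebra.FiniteType K Γ(X, V) := by
    have h1 : g.FiniteType :=
      RingHom.FiniteType.of_finitePresentation (Algebra.Etale.finitePresentation (self := hg))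
    have h2 : (g.comp MvPolynomial.C).FiniteType :=
      h1.comp (RingHom.finiteType_algebraMap.mpr inferInstance)
    rw [hgC] at h2
    exact h2
  choose α hα using fun i => Polar.surjective_algebraMap_quotient (K := K)
    (hV.primeIdealOf ⟨x, hxV⟩).asIdeal (Ideal.Quotient.mk _ (g (MvPolynomial.X i)))
  refine ⟨V, hV, hxV, g.comp (S26ufd.translate α).toRingEquiv.toRingHom, ?_, ?_, ?_⟩
  · ext c
    rw [← hgC]
    have : (S26ufd.translate α) (MvPolynomial.C c) = MvPolynomial.C c :=
      (S26ufd.translate α).commutes c
    change g ((S26ufd.translate α) (MvPolynomial.C c)) = _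
    rw [this]
    rfl
  · exact RingHom.Etale.stableUnderComposition _ _
      (RingHom.Etale.of_bijective (S26ufd.translate α).bijective) hg
  · intro i
    have h1 : (S26ufd.translate α) (MvPolynomial.X i) = MvPolynomial.X i - MvPolynomial.C (α i) := by
      simp [S26ufd.translate]
    change g ((S26ufd.translate α) (MvPolynomial.X i)) ∈ _
    have h2 : g (MvPolynomial.C (α i)) = algebraMap K Γ(X, V) (α i) := by
      change (g.comp MvPolynomial.C) (α i) = _
      rw [hgC]
      rfl
    rw [h1, map_sub, h2, ← Ideal.Quotient.eq, ← hα i]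
    rfl

theorem germ_comp_kSec {X : Scheme.{u}} {K : Type u} [Field K] (s : X ⟶ Spec (.of K))
    (V : X.Opens) (x : X) (hx : x ∈ V) :
    (X.presheaf.germ V x hx).hom.comp (kSec s V) = kStalk s x := by
  simp only [kSec, kStalk]
  rw [← CommRingCat.hom_comp]
  congr 1
  simp only [Category.assoc]
  rw [X.presheaf.germ_res (homOfLE le_top) x hx]

theorem algebraMap_kStalk {X : Scheme.{u}} {K : Type u} [Field K] [IrreducibleSpace X]
    (s : X ⟶ Spec (.of K)) (x : X) :
    (algebraMap (X.presheaf.stalk x) X.functionField).comp (kStalk s x) = kFun s := by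
  have h : x ∈ (⊤ : X.Opens) := trivial
  rw [← germ_comp_kSec s ⊤ x h, kFun, ← germ_comp_kSec s ⊤ (genericPoint X) trivial,
    ← RingHom.comp_assoc]
  congr 1
  have : Nonempty (⊤ : X.Opens) := ⟨⟨x, h⟩⟩
  ext a
  exact Scheme.algebraMap_germ_eq_germToFunctionField X h a

theorem coords_stalk {K B S : Type u} [Field K] [CommRing B] [CommRing S] [IsLocalRing S] {n : ℕ}
    (φ : MvPolynomial (Fin n) K →+* B) (hφ : φ.Etale) [Algebra B S] (m : Ideal B) [m.IsPrime]
    [IsLocalization.AtPrime S m] (hm : ∀ i, φ (MvPolynomial.X i) ∈ m) :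
    Ideal.span (Set.range fun i => algebraMap B S (φ (MvPolynomial.X i))) =
      IsLocalRing.maximalIdeal S ∧ ((algebraMap B S).comp φ).Flat := by
  let : Algebra (MvPolynomial (Fin n) K) B := φ.toAlgebra
  have : Algebra.Etale (MvPolynomial (Fin n) K) B := hφ
  let : Algebra (MvPolynomial (Fin n) K) S := ((algebraMap B S).comp φ).toAlgebra
  have : IsScalarTower (MvPolynomial (Fin n) K) B S := IsScalarTower.of_algebraMap_eq' rfl
  have hfu1 : Algebra.FormallyUnramified B S :=
    Algebra.FormallyUnramified.of_isLocalization m.primeCompl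
  have hft1 : Algebra.EssFiniteType B S := Algebra.EssFiniteType.of_isLocalization _ m.primeCompl
  have hfl1 : Module.Flat B S := IsLocalization.flat _ m.primeCompl
  have hfu : Algebra.FormallyUnramified (MvPolynomial (Fin n) K) S := .comp _ B _
  have hft : Algebra.EssFiniteType (MvPolynomial (Fin n) K) S := .comp _ B _
  have hfl : Module.Flat (MvPolynomial (Fin n) K) S := .trans _ B _
  have h1 : ∀ i, algebraMap (MvPolynomial (Fin n) K) S (MvPolynomial.X i) ∈
      IsLocalRing.maximalIdeal S := by
    intro i
    rw [IsLocalRing.mem_maximalIdeal, mem_nonunits_iff]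
    change ¬ IsUnit (algebraMap B S (φ (MvPolynomial.X i)))
    exact (IsLocalization.AtPrime.isUnit_to_map_iff S m _).not.mpr (fun h => h (hm i))
  have h2 := span_eq_maximalIdeal h1
  exact ⟨h2, hfl⟩

theorem coords_functionField {K B F : Type u} [Field K] [CommRing B] [IsDomain B] [Field F]
    [Algebra K F] {n : ℕ} (φ : MvPolynomial (Fin n) K →+* B) (hφ : φ.Etale) [Algebra B F]
    [IsFractionRing B F] (hK : ∀ c, algebraMap B F (φ (MvPolynomial.C c)) = algebraMap K F c) :
    AlgebraicIndependent K (fun i => algebraMap B F (φ (MvPolynomial.X i))) ∧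
    FiniteDimensional (IntermediateField.adjoin K
      (Set.range fun i => algebraMap B F (φ (MvPolynomial.X i)))) F ∧
    Algebra.IsSeparable (IntermediateField.adjoin K
      (Set.range fun i => algebraMap B F (φ (MvPolynomial.X i)))) F := by
  let : Algebra (MvPolynomial (Fin n) K) B := φ.toAlgebra
  have : Algebra.Etale (MvPolynomial (Fin n) K) B := hφ
  let : Algebra (MvPolynomial (Fin n) K) F := ((algebraMap B F).comp φ).toAlgebra
  have : IsScalarTower (MvPolynomial (Fin n) K) B F := IsScalarTower.of_algebraMap_eq' rfl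
  have hfu1 : Algebra.FormallyUnramified B F :=
    Algebra.FormallyUnramified.of_isLocalization (nonZeroDivisors B)
  have hft1 : Algebra.EssFiniteType B F :=
    Algebra.EssFiniteType.of_isLocalization _ (nonZeroDivisors B)
  have hfu : Algebra.FormallyUnramified (MvPolynomial (Fin n) K) F := .comp _ B _
  have hft : Algebra.EssFiniteType (MvPolynomial (Fin n) K) F := .comp _ B _
  let Φ : MvPolynomial (Fin n) K →ₐ[K] F := { (algebraMap B F).comp φ with commutes' := hK }
  refine ⟨?_, finite_separable Φ hfu hft⟩
  have h1 : MvPolynomial.aeval (R := K) (fun i => algebraMap B F (φ (MvPolynomial.X i))) = Φ := by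
    ext i
    rw [MvPolynomial.aeval_X]
    rfl
  rw [AlgebraicIndependent, h1]
  have h2 : Function.Injective φ := by
    rw [injective_iff_map_eq_zero]
    intro p hp
    by_contra hp0
    have h3 : IsSMulRegular B p := Module.Flat.isSMulRegular_of_nonZeroDivisors
      (mem_nonZeroDivisors_of_ne_zero hp0)
    have h4 : p • (1 : B) = p • (0 : B) := by
      rw [smul_zero, Algebra.smul_def, mul_one]
      exact hp
    exact one_ne_zero (h3 h4)
  exact (IsFractionRing.injective B F).comp h2

end Coords

/-- A2: étale coordinates. -/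
theorem exists_coords {X : Scheme.{u}} {K : Type u} [Field K] [IsAlgClosed K] [IsIntegral X]
    (s : X ⟶ Spec (.of K)) (g : ℕ)
    [SmoothOfRelativeDimension g s] (x : X) (hx : IsClosed {x}) :
    ∃ t : Fin g → X.presheaf.stalk x,
      Ideal.span (Set.range t) = IsLocalRing.maximalIdeal (X.presheaf.stalk x) ∧
      (MvPolynomial.eval₂Hom (kStalk s x) t).Flat ∧
      (letI := (kFun s).toAlgebra
       AlgebraicIndependent K (fun i => algebraMap (X.presheaf.stalk x) X.functionField (t i)) ∧
       FiniteDimensional (IntermediateField.adjoin K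
        (Set.range fun i => algebraMap (X.presheaf.stalk x) X.functionField (t i))) X.functionField ∧
       Algebra.IsSeparable (IntermediateField.adjoin K
        (Set.range fun i => algebraMap (X.presheaf.stalk x) X.functionField (t i))) X.functionField) := by
  obtain ⟨V, hV, hxV, φ, hφC, hφ, hφm⟩ := Coords.exists_centered_chart s g x hx
  have hne : Nonempty V := ⟨⟨x, hxV⟩⟩
  let t : Fin g → X.presheaf.stalk x := fun i => X.presheaf.germ V x hxV (φ (MvPolynomial.X i))
  have hloc := hV.isLocalization_stalk ⟨x, hxV⟩
  -- the composite to the stalk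
  have hψ : (X.presheaf.germ V x hxV).hom.comp φ = MvPolynomial.eval₂Hom (kStalk s x) t := by
    apply MvPolynomial.ringHom_ext
    · intro c
      rw [MvPolynomial.eval₂Hom_C]
      change (X.presheaf.germ V x hxV).hom ((φ.comp MvPolynomial.C) c) = _
      rw [hφC, ← Coords.germ_comp_kSec s V x hxV]
      rfl
    · intro i
      rw [MvPolynomial.eval₂Hom_X']
      rfl
  have h1 : Ideal.span (Set.range t) = IsLocalRing.maximalIdeal (X.presheaf.stalk x) ∧
      ((X.presheaf.germ V x hxV).hom.comp φ).Flat := by
    let := X.presheaf.algebra_section_stalk ⟨x, hxV⟩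
    exact Coords.coords_stalk (S := X.presheaf.stalk x) φ hφ
      (hV.primeIdealOf ⟨x, hxV⟩).asIdeal hφm
  refine ⟨t, h1.1, hψ ▸ h1.2, ?_⟩
  let : Algebra K X.functionField := (kFun s).toAlgebra
  have hfr := functionField_isFractionRing_of_isAffineOpen X V hV
  have h2 := Coords.coords_functionField (F := X.functionField) φ hφ (fun c => by
    have h3 := RingHom.congr_fun (Coords.germ_comp_kSec s V (genericPoint X)
      (((genericPoint_spec X).mem_open_set_iff V.isOpen).mpr (by simpa using hne))) c
    rw [← hφC] at h3
    exact h3)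
  have h4 : (fun i => algebraMap (X.presheaf.stalk x) X.functionField (t i)) =
      fun i => algebraMap Γ(X, V) X.functionField (φ (MvPolynomial.X i)) :=
    funext fun i => Scheme.algebraMap_germ_eq_germToFunctionField X hxV _
  rw [h4]
  exact h2

end Fermat.Agent.AbVar
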