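import Fermat.Agent.AbVar.Base

/-!
# S26: local values of a cocycle at points with values in local rings
-/

set_option autoImplicit false
universe u
open CategoryTheory CategoryTheory.Limits AlgebraicGeometry TopologicalSpace IsLocalRing
open Fermat.Agent.Jac

namespace Fermat.Agent.AbVar

section Eval

/-- the closed point of the spectrum of a local ring, as a point of the scheme. -/
def clp (O : Type u) [CommRing O] [IsLocalRing O] : Spec (.of O) := closedPoint O

variable {A : Scheme.{u}} {O : Type u} [CommRing O] [IsLocalRing O]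

lemma preimage_eq_top (h : Spec (.of O) ⟶ A) {W : A.Opens} (hW : h (clp O) ∈ W) :
    (⊤ : (Spec (.of O)).Opens) ≤ h ⁻¹ᵁ W := by
  intro x _
  have hx : x ⤳ clp O := IsLocalRing.specializes_closedPoint x
  exact (hx.map h.continuous).mem_open W.isOpen hW

lemma mem_of_closedPoint_mem (h : Spec (.of O) ⟶ A) {W : A.Opens} (hW : h (clp O) ∈ W)
    (x : Spec (.of O)) : h x ∈ W := preimage_eq_top h hW trivial

/-- evaluation of functions near the image of the closed point -/
noncomputable def evalAt (h : Spec (.of O) ⟶ A) (W : A.Opens) (hW : h (clp O) ∈ W) :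
    Γ(A, W) →+* O :=
  (h.appLE W ⊤ (preimage_eq_top h hW) ≫ (Scheme.ΓSpecIso (.of O)).hom).hom

lemma evalAt_resO (h : Spec (.of O) ⟶ A) {W W' : A.Opens} (hle : W' ≤ W)
    (hW : h (clp O) ∈ W) (hW' : h (clp O) ∈ W') (a : Γ(A, W)) :
    evalAt h W' hW' (resO hle a) = evalAt h W hW a := by
  simp only [evalAt, resO]
  rw [← RingHom.comp_apply, ← CommRingCat.hom_comp, Scheme.Hom.map_appLE_assoc]

lemma evalAt_comp {O' : Type u} [CommRing O'] [IsLocalRing O'] (φ : O →+* O')
    (h : Spec (.of O) ⟶ A) (h' : Spec (.of O') ⟶ A) (hh : h' = Spec.map (CommRingCat.ofHom φ) ≫ h)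
    (W : A.Opens) (hW : h (clp O) ∈ W) (hW' : h' (clp O') ∈ W) (a : Γ(A, W)) :
    evalAt h' W hW' a = φ (evalAt h W hW a) := by
  subst hh
  simp only [evalAt]
  rw [← RingHom.comp_apply]
  change _ = (CommRingCat.Hom.hom (h.appLE W ⊤ _ ≫ (Scheme.ΓSpecIso (.of O)).hom ≫
    CommRingCat.ofHom φ)) a
  rw [← Scheme.ΓSpecIso_naturality, ← Scheme.Hom.appLE_comp_appLE (Spec.map (CommRingCat.ofHom φ))
    h W ⊤ ⊤ (preimage_eq_top h hW) le_top]
  simp only [Category.assoc]
  rfl

end Eval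

section LVal

variable {A : Scheme.{u}} {O : Type u} [CommRing O] [IsLocalRing O]

open Classical in
/-- the value `h^*(g_{p, h(m)})` of the cocycle at a point with values in a local ring. -/
noncomputable def lval (c : UnitCocycle A) (h : Spec (.of O) ⟶ A) (p : A) : Oˣ :=
  if hp : h (clp O) ∈ c.U p then
    Units.map (evalAt h (c.U p ⊓ c.U (h (clp O))) ⟨hp, c.mem _⟩).toMonoidHom
      (c.g p (h (clp O)) (c.U p ⊓ c.U (h (clp O))) inf_le_left inf_le_right)
  else 1

lemma lval_eq (c : UnitCocycle A) (h : Spec (.of O) ⟶ A) (p : A)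
    (W : A.Opens) (hW : h (clp O) ∈ W) (h1 : W ≤ c.U p) (h2 : W ≤ c.U (h (clp O))) :
    lval c h p = Units.map (evalAt h W hW).toMonoidHom (c.g p (h (clp O)) W h1 h2) := by
  have hp : h (clp O) ∈ c.U p := h1 hW
  rw [lval, dif_pos hp]
  rw [← c.g_res p (h (clp O)) (c.U p ⊓ c.U (h (clp O))) inf_le_left inf_le_right W
    (le_inf h1 h2)]
  ext
  simp only [Units.coe_map, RingHom.toMonoidHom_eq_coe, MonoidHom.coe_coe]
  rw [evalAt_resO h (le_inf h1 h2) ⟨hp, c.mem _⟩ hW]

lemma lval_self (c : UnitCocycle A) (h : Spec (.of O) ⟶ A) :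
    lval c h (h (clp O)) = 1 := by
  rw [lval_eq c h _ (c.U (h (clp O))) (c.mem _) le_rfl le_rfl, c.g_self, map_one]

/-- the fundamental functoriality relation -/
lemma lval_comp {O' : Type u} [CommRing O'] [IsLocalRing O'] (φ : O →+* O') (c : UnitCocycle A)
    (h : Spec (.of O) ⟶ A) (h' : Spec (.of O') ⟶ A) (hh : h' = Spec.map (CommRingCat.ofHom φ) ≫ h)
    (p : A) (hp : h (clp O) ∈ c.U p) :
    lval c h' p = Units.map φ.toMonoidHom (lval c h p) * lval c h' (h (clp O)) := by
  set q := h (clp O) with hq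
  set q' := h' (clp O') with hq'
  have hq'q : ∀ W : A.Opens, q ∈ W → q' ∈ W := by
    intro W hW
    rw [hq', hh, Scheme.Hom.comp_apply]
    exact mem_of_closedPoint_mem h hW _
  set W : A.Opens := c.U p ⊓ c.U q ⊓ c.U q' with hWdef
  have hW' : q' ∈ W := ⟨⟨hq'q _ hp, hq'q _ (c.mem q)⟩, c.mem q'⟩
  rw [lval_eq c h' p W hW' (inf_le_left.trans inf_le_left) inf_le_right,
    lval_eq c h' q W hW' (inf_le_left.trans inf_le_right) inf_le_right,
    ← c.g_mul p q q' W (inf_le_left.trans inf_le_left) (inf_le_left.trans inf_le_right)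
      inf_le_right, map_mul]
  congr 1
  rw [lval_eq c h p (c.U p ⊓ c.U q) ⟨hp, c.mem q⟩ inf_le_left inf_le_right]
  rw [← c.g_res p q (c.U p ⊓ c.U q) inf_le_left inf_le_right W inf_le_left]
  ext
  simp only [Units.coe_map, RingHom.toMonoidHom_eq_coe, MonoidHom.coe_coe]
  rw [evalAt_resO h' inf_le_left hW'.1 hW']
  exact evalAt_comp φ h h' hh (c.U p ⊓ c.U q) ⟨hp, c.mem q⟩ hW'.1 _

section Multi

variable {A : Scheme.{u}} {O : Type u} [CommRing O] [IsLocalRing O] {ι : Type*} [Fintype ι]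

/-- the value of a product of pulled back cocycles -/
noncomputable def lvalM (c : UnitCocycle A) (e : ι → ℤ) (h : ι → (Spec (.of O) ⟶ A)) (p : ι → A) :
    Oˣ := ∏ i, lval c (h i) (p i) ^ e i

lemma lvalM_self (c : UnitCocycle A) (e : ι → ℤ) (h : ι → (Spec (.of O) ⟶ A)) (p : ι → A)
    (hp : ∀ i, p i = h i (clp O)) : lvalM c e h p = 1 := by
  simp only [lvalM]
  refine Finset.prod_eq_one fun i _ => ?_
  rw [hp i, lval_self, one_zpow]

lemma lvalM_comp {O' : Type u} [CommRing O'] [IsLocalRing O'] (φ : O →+* O') (c : UnitCocycle A)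
    (e : ι → ℤ) (h : ι → (Spec (.of O) ⟶ A)) (h' : ι → (Spec (.of O') ⟶ A))
    (hh : ∀ i, h' i = Spec.map (CommRingCat.ofHom φ) ≫ h i)
    (p : ι → A) (hp : ∀ i, h i (clp O) ∈ c.U (p i)) :
    lvalM c e h' p = Units.map φ.toMonoidHom (lvalM c e h p) *
      lvalM c e h' (fun i => h i (clp O)) := by
  simp only [lvalM, map_prod, map_zpow]
  rw [← Finset.prod_mul_distrib]
  refine Finset.prod_congr rfl fun i _ => ?_
  rw [lval_comp φ c (h i) (h' i) (hh i) (p i) (hp i), mul_zpow]

end Multi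

end LVal

end Fermat.Agent.AbVar
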