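import Fermat.Agent.AbVar.Unramified
import Fermat.Agent.AbVar.LVal

/-!
# S26: number of torsion points = degree of the function field extension
-/

set_option autoImplicit false
universe u
open CategoryTheory CategoryTheory.Limits AlgebraicGeometry NeronModelInfra GoodReductionJacobian

namespace Fermat.Agent.AbVar

section Base

theorem aStr_self (K : Type u) [CommRing K] : aStr K K = 𝟙 (Spec (CommRingCat.of K)) := by
  have : CommRingCat.ofHom (algebraMap K K) = 𝟙 _ := rfl
  rw [aStr, this, Spec.map_id]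

variable {K : Type u} [Field K] {A : Scheme.{u}} {f : A ⟶ Spec (CommRingCat.of K)}

/-- constant points -/
noncomputable def constPt (R : Type u) [CommRing R] [Algebra K R]
    (x : SchemeHomOver (𝟙 (Spec (CommRingCat.of K))) f) : APt f R :=
  schemeHomOverComp (aStr K R) (Category.comp_id _) x

@[simp] theorem constPt_coe (R : Type u) [CommRing R] [Algebra K R]
    (x : SchemeHomOver (𝟙 (Spec (CommRingCat.of K))) f) :
    (constPt R x).1 = aStr K R ≫ x.1 := rfl

theorem ptMap_constPt {R S : Type u} [CommRing R] [Algebra K R] [CommRing S] [Algebra K S]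
    (φ : R →ₐ[K] S) (x : SchemeHomOver (𝟙 (Spec (CommRingCat.of K))) f) :
    ptMap φ (constPt R x) = constPt S x := by
  apply Subtype.ext
  simp only [ptMap_coe, constPt_coe]
  rw [← Category.assoc, specMap_algHom_comp]

theorem constPt_nsmul (L : RelativeGroupLaw K f) (R : Type u) [CommRing R] [Algebra K R] (n : ℕ)
    (x : SchemeHomOver (𝟙 (Spec (CommRingCat.of K))) f) :
    constPt R (L.nsmul _ n x) = L.nsmul _ n (constPt R x) := L.nsmul_natural _ _ _ _ _ _

theorem constPt_one (L : RelativeGroupLaw K f) (R : Type u) [CommRing R] [Algebra K R] :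
    constPt R (L.one (𝟙 (Spec (CommRingCat.of K)))) = L.one _ := L.one_natural _ _ _ _

/-- translation by a rational point -/
noncomputable def transl (L : RelativeGroupLaw K f)
    (x : SchemeHomOver (𝟙 (Spec (CommRingCat.of K))) f) : A ⟶ A :=
  (L.mul f RelativeGroupLaw.idPoint (schemeHomOverComp f (Category.comp_id _) x)).1

theorem comp_transl (L : RelativeGroupLaw K f)
    (x : SchemeHomOver (𝟙 (Spec (CommRingCat.of K))) f) {T : Scheme.{u}}
    (t : T ⟶ Spec (CommRingCat.of K)) (y : SchemeHomOver t f) :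
    y.1 ≫ transl L x = (L.mul t y (schemeHomOverComp t (Category.comp_id _) x)).1 := by
  have h := L.mul_natural f t y.1 y.2 RelativeGroupLaw.idPoint
    (schemeHomOverComp f (Category.comp_id _) x)
  have h1 : schemeHomOverComp y.1 y.2 RelativeGroupLaw.idPoint = y :=
    Subtype.ext (Category.comp_id _)
  have h2 : schemeHomOverComp y.1 y.2 (schemeHomOverComp f (Category.comp_id _) x) =
      schemeHomOverComp t (Category.comp_id _) x := by
    apply Subtype.ext
    simp only [schemeHomOverComp_coe]
    rw [← Category.assoc, y.2]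
  rw [h1, h2] at h
  rw [← h]
  rfl

theorem transl_over (L : RelativeGroupLaw K f)
    (x : SchemeHomOver (𝟙 (Spec (CommRingCat.of K))) f) : transl L x ≫ f = f :=
  (L.mul f RelativeGroupLaw.idPoint (schemeHomOverComp f (Category.comp_id _) x)).2

theorem transl_comp_transl (L : RelativeGroupLaw K f)
    (x y : SchemeHomOver (𝟙 (Spec (CommRingCat.of K))) f) :
    transl L x ≫ transl L y = transl L (L.mul _ x y) := by
  have h := comp_transl L y f ⟨transl L x, transl_over L x⟩
  change transl L x ≫ transl L y = _ at h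
  rw [h]
  unfold transl
  congr 1
  have h1 : schemeHomOverComp f (Category.comp_id _) (L.mul (𝟙 _) x y) =
      L.mul f (schemeHomOverComp f (Category.comp_id _) x)
        (schemeHomOverComp f (Category.comp_id _) y) := L.mul_natural _ _ _ _ _ _
  rw [h1, ← L.mul_assoc]

theorem transl_one (L : RelativeGroupLaw K f) :
    transl L (L.one (𝟙 (Spec (CommRingCat.of K)))) = 𝟙 A := by
  unfold transl
  have h1 : schemeHomOverComp f (Category.comp_id _) (L.one (𝟙 _)) = L.one f :=
    L.one_natural _ _ _ _
  rw [h1, L.mul_one]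

instance isIso_transl (L : RelativeGroupLaw K f)
    (x : SchemeHomOver (𝟙 (Spec (CommRingCat.of K))) f) : IsIso (transl L x) :=
  ⟨transl L (L.inv _ x), by
    rw [transl_comp_transl, L.mul_inv_cancel, transl_one], by
    rw [transl_comp_transl, L.inv_mul_cancel, transl_one]⟩

end Base

section Torsion

variable {K : Type u} [Field K] [IsAlgClosed K] {A : Scheme.{u}} {f : A ⟶ Spec (CommRingCat.of K)}
  (L : RelativeGroupLaw K f)

/-- a point with values in an extension field whose image is closed is constant -/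
theorem exists_constPt [LocallyOfFiniteType f] {E : Type u} [Field E] [Algebra K E] (x : APt f E)
    (hx : IsClosed {x.1 (clp E)}) :
    ∃ y : SchemeHomOver (𝟙 (Spec (CommRingCat.of K))) f, constPt E y = x := by
  set p := x.1 (clp E) with hp
  let y : SchemeHomOver (𝟙 (Spec (CommRingCat.of K))) f :=
    ⟨pointOfClosedPoint f p hx, pointOfClosedPoint_comp f p hx⟩
  refine ⟨y, ?_⟩
  obtain ⟨c', hc'⟩ : ∃ c' : A.residueField p ⟶ CommRingCat.of E,
      Spec.map c' ≫ A.fromSpecResidueField p = x.1 :=
    ⟨(Scheme.SpecToEquivOfField E A x.1).2, (Scheme.SpecToEquivOfField E A).symm_apply_apply x.1⟩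
  have h2 : A.fromSpecResidueField p = Spec.map (residueFieldIsoBase f p hx).inv ≫
      pointOfClosedPoint f p hx := by
    rw [pointOfClosedPoint, ← Category.assoc, ← Spec.map_comp, Iso.hom_inv_id, Spec.map_id,
      Category.id_comp]
  obtain ⟨c, hc⟩ : ∃ c : CommRingCat.of K ⟶ CommRingCat.of E,
      x.1 = Spec.map c ≫ pointOfClosedPoint f p hx :=
    ⟨(residueFieldIsoBase f p hx).inv ≫ c', by
      rw [Spec.map_comp, Category.assoc, ← h2, hc']⟩
  apply Subtype.ext
  rw [constPt_coe, hc]
  congr 1
  have h3 := x.2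
  rw [hc, Category.assoc, pointOfClosedPoint_comp, Category.comp_id] at h3
  exact h3.symm

theorem constPt_injective [LocallyOfFiniteType f] (E : Type u) [Field E] [Algebra K E] :
    Function.Injective (constPt (f := f) E) := by
  intro x y h
  apply Subtype.ext
  apply ext_of_apply_closedPoint_eq f x.2 y.2
  have h1 : aStr K E ≫ x.1 = aStr K E ≫ y.1 := congrArg Subtype.val h
  have h2 : (aStr K E ≫ x.1) (clp E) = (aStr K E ≫ y.1) (clp E) := by rw [h1]
  rw [Scheme.Hom.comp_apply, Scheme.Hom.comp_apply,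
    Subsingleton.elim (aStr K E (clp E)) (clp K)] at h2
  exact h2

theorem isClosed_rational [LocallyOfFiniteType f]
    (x : SchemeHomOver (𝟙 (Spec (CommRingCat.of K))) f) (p : Spec (CommRingCat.of K)) :
    IsClosed {x.1 p} := by
  rw [Subsingleton.elim p (clp K)]
  exact ((pointEquivClosedPoint f) x).2

/-- torsion points over extension fields are constant -/
theorem exists_constPt_of_torsion [LocallyOfFiniteType f] (hc : L.IsCommutative) (n : ℕ)
    (hn : (n : K) ≠ 0) {E : Type u} [Field E] [Algebra K E] (x : APt f E)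
    (hx : L.nsmul _ n x = L.one _) :
    ∃ y : SchemeHomOver (𝟙 (Spec (CommRingCat.of K))) f, constPt E y = x ∧
      L.IsTorsionPoint (𝟙 (Spec (CommRingCat.of K))) n y := by
  have := formallyUnramified_nsmul L hc n hn
  have : LocallyOfFiniteType (L.schemeNsmul n ≫ f) := by rw [L.schemeNsmul_over n]; infer_instance
  have : LocallyOfFiniteType (L.schemeNsmul n) := locallyOfFiniteType_of_comp (L.schemeNsmul n) f
  have := locallyQuasiFinite_of_formallyUnramified (L.schemeNsmul n)
  set o := (L.one (𝟙 (Spec (CommRingCat.of K)))).1 (clp K) with ho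
  have ho1 : IsClosed {o} := isClosed_rational (L.one (𝟙 (Spec (CommRingCat.of K)))) _
  have h1 : (L.schemeNsmul n) (x.1 (clp E)) = o := by
    rw [← Scheme.Hom.comp_apply, comp_schemeNsmul, hx, ← constPt_one, constPt_coe,
      Scheme.Hom.comp_apply]
    rw [Subsingleton.elim (aStr K E (clp E)) (clp K)]
  have h2 : IsClosed ((L.schemeNsmul n) ⁻¹' {o}) := ho1.preimage (L.schemeNsmul n).continuous
  have h3 := (L.schemeNsmul n).isDiscrete_preimage_singleton o
  have h4 : IsClosed {x.1 (clp E)} := by
    have h5 : x.1 (clp E) ∈ (L.schemeNsmul n) ⁻¹' {o} := h1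
    have := h3.to_subtype
    have h6 : IsClosed ({⟨x.1 (clp E), h5⟩} :
      Set ((L.schemeNsmul n) ⁻¹' {o})) := isClosed_discrete _
    have h7 := (h2.isClosedEmbedding_subtypeVal.isClosed_iff_image_isClosed).mp h6
    simpa using h7
  obtain ⟨y, hy⟩ := exists_constPt x h4
  refine ⟨y, hy, ?_⟩
  apply constPt_injective E
  rw [constPt_nsmul, hy, hx, constPt_one]

end Torsion

section Count

variable {K : Type u} [Field K] [IsAlgClosed K] {A : Scheme.{u}} {f : A ⟶ Spec (CommRingCat.of K)}
  (L : RelativeGroupLaw K f)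

theorem card_torsion_aux [LocallyOfFiniteType f] (hc : L.IsCommutative) (n : ℕ)
    (hn : (n : K) ≠ 0) {F Ω : Type u} [Field F] [Algebra K F] [Field Ω] [Algebra K Ω]
    (ι : F →ₐ[K] Ω) (η : APt f F)
    (hmono : ∀ (E : Type u) [Field E] (σ τ : F →+* E),
      Spec.map (CommRingCat.ofHom σ) ≫ η.1 = Spec.map (CommRingCat.ofHom τ) ≫ η.1 → σ = τ)
    (hgen : ∀ (E : Type u) [Field E] (x : Spec (CommRingCat.of E) ⟶ A),
      x (clp E) = η.1 (clp F) → ∃ σ : F →+* E, Spec.map (CommRingCat.ofHom σ) ≫ η.1 = x)
    (htr : ∀ t, transl L t (η.1 (clp F)) = η.1 (clp F))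
    (π : F →ₐ[K] F) (hπ : ptMap π η = L.nsmul _ n η) :
    Nat.card {x : SchemeHomOver (𝟙 (Spec (CommRingCat.of K))) f //
        L.IsTorsionPoint (𝟙 (Spec (CommRingCat.of K))) n x} =
      Nat.card {σ : F →+* Ω // ∀ z, σ (π z) = ι (π z)} := by
  let := commPointGroup L hc (aStr K Ω)
  have hmul : ∀ a b : APt f Ω, L.mul _ a b = a * b := fun _ _ => rfl
  have hinv : ∀ a : APt f Ω, L.inv _ a = a⁻¹ := fun _ => rfl
  have hone : L.one (aStr K Ω) = 1 := rfl
  have hnpow : ∀ a : APt f Ω, L.nsmul _ n a = a ^ n := fun a => nsmul_eq_pow L hc _ n a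
  have hmono' : ∀ σ τ : F →ₐ[K] Ω, ptMap σ η = ptMap τ η → (σ : F →+* Ω) = τ := by
    intro σ τ h
    exact hmono Ω _ _ (congrArg Subtype.val h)
  have hlin : ∀ σ : F →+* Ω, (Spec.map (CommRingCat.ofHom σ) ≫ η.1) ≫ f = aStr K Ω →
      ∀ c, σ (algebraMap K F c) = algebraMap K Ω c := by
    intro σ h c
    rw [Category.assoc, η.2, ← Spec.map_comp] at h
    have h1 := Spec.map_injective h
    exact congrArg (fun g => g.hom c) h1
  have key : ∀ t : {x : SchemeHomOver (𝟙 (Spec (CommRingCat.of K))) f //
        L.IsTorsionPoint (𝟙 (Spec (CommRingCat.of K))) n x}, ∃ σ : F →ₐ[K] Ω,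
        ptMap σ η = ptMap ι η * constPt Ω t.1 ∧ ∀ z, σ (π z) = ι (π z) := by
    rintro ⟨t, ht⟩
    set x : APt f Ω := ptMap ι η * constPt Ω t with hxdef
    have h1 : x.1 = (ptMap ι η).1 ≫ transl L t := (comp_transl L t (aStr K Ω) (ptMap ι η)).symm
    obtain ⟨σ, hσ⟩ := hgen Ω x.1 (by
      rw [h1, Scheme.Hom.comp_apply, ptMap_coe, Scheme.Hom.comp_apply,
        Subsingleton.elim (Spec.map (CommRingCat.ofHom (ι : F →+* Ω)) (clp Ω)) (clp F), htr])
    let σ' : F →ₐ[K] Ω := { σ with commutes' := hlin σ (by rw [hσ, x.2]) }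
    have hσ' : ptMap σ' η = x := Subtype.ext hσ
    refine ⟨σ', hσ', ?_⟩
    have h2 : ptMap (σ'.comp π) η = ptMap (ι.comp π) η := by
      rw [← ptMap_ptMap, ← ptMap_ptMap, hπ, ptMap_nsmul, ptMap_nsmul, hσ', hnpow, hnpow, hxdef,
        mul_pow]
      have h3 : (constPt Ω t) ^ n = 1 := by
        rw [← hnpow, ← constPt_nsmul, (show L.nsmul (𝟙 _) n t = L.one _ from ht), constPt_one]
        rfl
      rw [h3, mul_one]
    intro z
    exact RingHom.congr_fun (hmono' _ _ h2) z
  choose g hg1 hg2 using key
  refine Nat.card_congr (Equiv.ofBijective (fun t => ⟨g t, hg2 t⟩) ⟨?_, ?_⟩)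
  · intro t t' h
    have h1 : (g t : F →+* Ω) = g t' := congrArg Subtype.val h
    have h2 : g t = g t' := AlgHom.ext fun z => RingHom.congr_fun h1 z
    have h3 : ptMap ι η * constPt Ω t.1 = ptMap ι η * constPt Ω t'.1 := by
      rw [← hg1, ← hg1, h2]
    exact Subtype.ext (constPt_injective Ω (mul_left_cancel h3))
  · rintro ⟨σ, hσ⟩
    let σ' : F →ₐ[K] Ω := { σ with
      commutes' := fun c => by
        change σ (algebraMap K F c) = _
        rw [← π.commutes c, hσ, AlgHom.commutes, AlgHom.commutes] }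
    have hx : L.nsmul _ n (ptMap σ' η * (ptMap ι η)⁻¹) = L.one _ := by
      rw [hnpow, hone, mul_pow, inv_pow, mul_inv_eq_one, ← hnpow, ← hnpow, ← ptMap_nsmul,
        ← ptMap_nsmul, ← hπ, ptMap_ptMap, ptMap_ptMap]
      congr 1
      exact AlgHom.ext hσ
    obtain ⟨t, ht1, ht2⟩ := exists_constPt_of_torsion L hc n hn _ hx
    refine ⟨⟨t, ht2⟩, ?_⟩
    apply Subtype.ext
    have h1 : ptMap (g ⟨t, ht2⟩) η = ptMap σ' η := by
      rw [hg1, ht1, mul_comm, inv_mul_cancel_right]
    exact hmono' _ _ h1

end Count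

section Generic

theorem fromSpecStalk_comp_str {K : Type u} [Field K] {A : Scheme.{u}}
    (f : A ⟶ Spec (CommRingCat.of K)) (x : A) :
    A.fromSpecStalk x ≫ f = Spec.map (CommRingCat.ofHom (kStalk f x)) := by
  obtain ⟨_, ⟨U, hU, rfl⟩, hxU, -⟩ := A.isBasis_affineOpens.exists_subset_of_mem_open
    (Set.mem_univ x) isOpen_univ
  replace hU : IsAffineOpen U := hU
  replace hxU : x ∈ U := hxU
  rw [← hU.fromSpecStalk_eq_fromSpecStalk hxU, IsAffineOpen.fromSpecStalk, Category.assoc,
    Tangent.fromSpec_comp_str hU, ← Spec.map_comp]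
  congr 1
  apply CommRingCat.hom_ext
  simp only [kSec, kStalk, CommRingCat.ofHom_hom, Category.assoc]
  rw [A.presheaf.germ_res (homOfLE le_top) x hxU]

/-- a morphism from the spectrum of a local ring factors through the stalk -/
theorem exists_fromSpecStalk {X : Scheme.{u}} (E : Type u) [CommRing E] [IsLocalRing E]
    (x : Spec (CommRingCat.of E) ⟶ X) (p : X) (hp : x (clp E) = p) :
    ∃ σ : X.presheaf.stalk p →+* E, Spec.map (CommRingCat.ofHom σ) ≫ X.fromSpecStalk p = x := by
  subst hp
  exact ⟨(Scheme.stalkClosedPointTo x).hom, Scheme.Spec_stalkClosedPointTo_fromSpecStalk x⟩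

theorem stalkCongr_fromSpecStalk {Y : Scheme.{u}} {p q : Y} (h : p = q) :
    Spec.map (Y.presheaf.stalkCongr (.of_eq h)).hom ≫ Y.fromSpecStalk p = Y.fromSpecStalk q := by
  subst h
  have : (Y.presheaf.stalkCongr (.of_eq (rfl : p = p))).hom = 𝟙 _ := by
    rw [TopCat.Presheaf.stalkCongr_hom]
    exact TopCat.Presheaf.stalkSpecializes_refl _ _
  rw [this, Spec.map_id, Category.id_comp]

theorem ffMap_fromSpecStalk {X Y : Scheme.{u}} [IsIntegral X] [IsIntegral Y] (φ : X ⟶ Y)
    (h : φ (genericPoint X) = genericPoint Y) :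
    Spec.map (CommRingCat.ofHom (ffMap φ h)) ≫ Y.fromSpecStalk (genericPoint Y) =
      X.fromSpecStalk (genericPoint X) ≫ φ := by
  rw [← Scheme.SpecMap_stalkMap_fromSpecStalk]
  have h1 : CommRingCat.ofHom (ffMap φ h) =
      (Y.presheaf.stalkCongr (.of_eq h.symm)).hom ≫ φ.stalkMap (genericPoint X) := rfl
  rw [h1, Spec.map_comp, Category.assoc, stalkCongr_fromSpecStalk h.symm]

/-- the function field extension of an unramified dominant morphism is finite separable -/
theorem finite_separable_ffMap {X Y : Scheme.{u}} [IsIntegral X] [IsIntegral Y] (φ : X ⟶ Y)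
    [FormallyUnramified φ] [LocallyOfFiniteType φ] (h : φ (genericPoint X) = genericPoint Y) :
    FiniteDimensional (ffMap φ h).fieldRange X.functionField ∧
    Algebra.IsSeparable (ffMap φ h).fieldRange X.functionField := by
  have h1 : (φ.stalkMap (genericPoint X)).hom.FormallyUnramified :=
    FormallyUnramified.stalkMap φ (genericPoint X)
  have h2 : (φ.stalkMap (genericPoint X)).hom.EssFiniteType :=
    LocallyOfFiniteType.stalkMap φ (genericPoint X)
  have hmem : ∀ a, (φ.stalkMap (genericPoint X)).hom a ∈ (ffMap φ h).fieldRange := by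
    intro a
    refine ⟨(Y.presheaf.stalkCongr (.of_eq h.symm)).inv.hom a, ?_⟩
    change (φ.stalkMap (genericPoint X)).hom ((Y.presheaf.stalkCongr (.of_eq h.symm)).hom.hom
      ((Y.presheaf.stalkCongr (.of_eq h.symm)).inv.hom a)) = _
    congr 1
    exact congrArg (fun g => g.hom a) (Y.presheaf.stalkCongr (.of_eq h.symm)).inv_hom_id
  let r : Y.presheaf.stalk (φ (genericPoint X)) →+* (ffMap φ h).fieldRange :=
    (φ.stalkMap (genericPoint X)).hom.codRestrict _ hmem
  algebraize [(φ.stalkMap (genericPoint X)).hom, r]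
  have : IsScalarTower (Y.presheaf.stalk (φ (genericPoint X))) (ffMap φ h).fieldRange
    (X.presheaf.stalk (genericPoint X)) := IsScalarTower.of_algebraMap_eq' rfl
  have h3 : Algebra.FormallyUnramified (ffMap φ h).fieldRange X.functionField :=
    Algebra.FormallyUnramified.of_restrictScalars (Y.presheaf.stalk (φ (genericPoint X))) _ _
  have h4 : Algebra.EssFiniteType (ffMap φ h).fieldRange X.functionField :=
    Algebra.EssFiniteType.of_comp (Y.presheaf.stalk (φ (genericPoint X))) _ _
  exact ⟨Algebra.FormallyUnramified.finite_of_free _ _,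
    (Algebra.FormallyUnramified.iff_isSeparable _ _).mp h3⟩

end Generic

section Final

theorem card_emb {F : Type u} [Field F] (π : F →+* F)
    (hfin : FiniteDimensional π.fieldRange F) (hsep : Algebra.IsSeparable π.fieldRange F) :
    Nat.card {σ : F →+* AlgebraicClosure F // ∀ z, σ (π z) = algebraMap F (AlgebraicClosure F) (π z)}
      = Module.finrank π.fieldRange F := by
  rw [← (Field.finSepDegree_eq_finrank_iff π.fieldRange F).mpr hsep, Field.finSepDegree]
  refine Nat.card_congr
    { toFun := fun σ => { σ.1 with commutes' := ?_ }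
      invFun := fun σ => ⟨(σ : F →+* AlgebraicClosure F), ?_⟩
      left_inv := fun σ => rfl
      right_inv := fun σ => rfl }
  · rintro ⟨_, z, rfl⟩
    exact σ.2 z
  · intro z
    exact σ.commutes ⟨π z, z, rfl⟩

variable {K : Type u} [Field K] [IsAlgClosed K] {A : Scheme.{u}} (f : A ⟶ Spec (CommRingCat.of K))
    (L : RelativeGroupLaw K f)

theorem card_torsion [LocallyOfFiniteType f] [IsIntegral A] (hc : L.IsCommutative) (n : ℕ)
    (hn : (n : K) ≠ 0) (h : (L.schemeNsmul n) (genericPoint A) = genericPoint A) :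
    FiniteDimensional (ffMap (L.schemeNsmul n) h).fieldRange A.functionField ∧
    Algebra.IsSeparable (ffMap (L.schemeNsmul n) h).fieldRange A.functionField ∧
    Nat.card {x : SchemeHomOver (𝟙 (Spec (CommRingCat.of K))) f //
        L.IsTorsionPoint (𝟙 (Spec (CommRingCat.of K))) n x} =
      Module.finrank (ffMap (L.schemeNsmul n) h).fieldRange A.functionField := by
  have := formallyUnramified_nsmul L hc n hn
  have : LocallyOfFiniteType (L.schemeNsmul n ≫ f) := by rw [L.schemeNsmul_over n]; infer_instance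
  have : LocallyOfFiniteType (L.schemeNsmul n) := locallyOfFiniteType_of_comp (L.schemeNsmul n) f
  obtain ⟨h1, h2⟩ := finite_separable_ffMap (L.schemeNsmul n) h
  refine ⟨h1, h2, ?_⟩
  rw [← card_emb _ h1 h2]
  let : Algebra K A.functionField := (kFun f).toAlgebra
  let η : APt f A.functionField := ⟨A.fromSpecStalk (genericPoint A), fromSpecStalk_comp_str f _⟩
  have hη : η.1 (clp A.functionField) = genericPoint A := Scheme.fromSpecStalk_closedPoint
  have h3 := ffMap_fromSpecStalk (L.schemeNsmul n) h
  let π : A.functionField →ₐ[K] A.functionField :=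
    { ffMap (L.schemeNsmul n) h with
      commutes' := fun c => by
        have h4 : Spec.map (CommRingCat.ofHom ((ffMap (L.schemeNsmul n) h).comp (kFun f))) =
            Spec.map (CommRingCat.ofHom (kFun f)) := by
          rw [CommRingCat.ofHom_comp, Spec.map_comp]
          have h5 : Spec.map (CommRingCat.ofHom (kFun f)) = A.fromSpecStalk (genericPoint A) ≫ f :=
            (fromSpecStalk_comp_str f _).symm
          rw [h5, ← Category.assoc, h3, Category.assoc, L.schemeNsmul_over]
        exact congrArg (fun g => g.hom c) (Spec.map_injective h4) }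
  have hπ : ptMap π η = L.nsmul _ n η := by
    apply Subtype.ext
    rw [ptMap_coe, ← comp_schemeNsmul]
    exact h3
  refine card_torsion_aux L hc n hn (Algebra.ofId A.functionField (AlgebraicClosure A.functionField)
    |>.restrictScalars K) η ?_ ?_ ?_ π hπ
  · intro E _ σ τ hστ
    rw [cancel_mono] at hστ
    exact congrArg CommRingCat.Hom.hom (Spec.map_injective hστ)
  · intro E _ x hx
    exact exists_fromSpecStalk E x _ (hx.trans hη)
  · intro t
    rw [hη]
    exact genericPoint_eq_of_isOpenImmersion (transl L t)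

omit [IsAlgClosed K] in
theorem etale_nsmul (g : ℕ) [SmoothOfRelativeDimension g f] (hc : L.IsCommutative) (n : ℕ)
    (hn : (n : K) ≠ 0) : Etale (L.schemeNsmul n) := by
  have := formallyUnramified_nsmul L hc n hn
  exact etale_of_unramified_of_dim (L.schemeNsmul n) f f (L.schemeNsmul_over n) g

omit [IsAlgClosed K] in
theorem surjective_nsmul (g : ℕ) [SmoothOfRelativeDimension g f] [IsProper f] [ConnectedSpace A]
    (hc : L.IsCommutative) (n : ℕ) (hn : (n : K) ≠ 0) :
    Function.Surjective (L.schemeNsmul n) := by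
  have := etale_nsmul f L g hc n hn
  have := finite_nsmul L hc n hn
  have h1 : IsOpen (Set.range (L.schemeNsmul n)) := (L.schemeNsmul n).isOpenMap.isOpen_range
  have h2 : IsClosed (Set.range (L.schemeNsmul n)) := (L.schemeNsmul n).isClosedMap.isClosed_range
  rw [← Set.range_eq_univ]
  exact IsClopen.eq_univ ⟨h2, h1⟩ (Set.range_nonempty _)

end Final

end Fermat.Agent.AbVar
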