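import Fermat.Agent.AbVar.Base

/-!
# S26: étale charts of smooth schemes over a field
-/

set_option autoImplicit false
universe u
open CategoryTheory CategoryTheory.Limits AlgebraicGeometry NeronModelInfra GoodReductionJacobian

namespace Fermat.Agent.AbVar

variable {X : Scheme.{u}} {K : Type u} [Field K]

theorem opens_spec_field_eq_top (U : (Spec (.of K)).Opens) {y : Spec (.of K)} (hy : y ∈ U) :
    U = ⊤ := by
  ext z
  have : z = y := Subsingleton.elim (α := PrimeSpectrum K) z y
  simp [this, hy]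

theorem kSec_eq (s : X ⟶ Spec (.of K)) (V : X.Opens) (e : V ≤ s ⁻¹ᵁ ⊤) :
    kSec s V = (s.appLE ⊤ V e).hom.comp (Scheme.ΓSpecIso (.of K)).inv.hom := by
  rw [← CommRingCat.hom_comp]
  rfl

theorem exists_chart (s : X ⟶ Spec (.of K)) [Smooth s] (x : X) :
    ∃ V : X.Opens, IsAffineOpen V ∧ x ∈ V ∧ ∃ (n : ℕ) (g : MvPolynomial (Fin n) K →+* Γ(X, V)),
      g.comp MvPolynomial.C = kSec s V ∧ g.Etale := by
  obtain ⟨U, hU, V, hV, hx, e, he⟩ := Smooth.exists_isStandardSmooth s x
  obtain rfl := opens_spec_field_eq_top U (e hx)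
  refine ⟨V, hV, hx, ?_⟩
  have h1 : (kSec s V).IsStandardSmooth := by
    rw [kSec_eq s V e]
    exact RingHom.IsStandardSmooth.comp he (RingHom.IsStandardSmoothOfRelativeDimension.equiv
      (Scheme.ΓSpecIso (.of K)).symm.commRingCatIsoToRingEquiv).isStandardSmooth
  exact h1.exists_etale_mvPolynomial

theorem exists_chart_dim (s : X ⟶ Spec (.of K)) (n : ℕ) [SmoothOfRelativeDimension n s] (x : X) :
    ∃ V : X.Opens, IsAffineOpen V ∧ x ∈ V ∧ ∃ (g : MvPolynomial (Fin n) K →+* Γ(X, V)),
      g.comp MvPolynomial.C = kSec s V ∧ g.Etale := by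
  obtain ⟨U, hU, V, hV, hx, e, he⟩ :=
    SmoothOfRelativeDimension.exists_isStandardSmoothOfRelativeDimension (n := n) (f := s) x
  obtain rfl := opens_spec_field_eq_top U (e hx)
  refine ⟨V, hV, hx, ?_⟩
  have h1 : (kSec s V).IsStandardSmoothOfRelativeDimension n := by
    rw [kSec_eq s V e, ← add_zero n]
    exact RingHom.IsStandardSmoothOfRelativeDimension.comp he
      (RingHom.IsStandardSmoothOfRelativeDimension.equiv
      (Scheme.ΓSpecIso (.of K)).symm.commRingCatIsoToRingEquiv)
  exact h1.exists_etale_mvPolynomial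

theorem exists_stdSmooth_dim (s : X ⟶ Spec (.of K)) (n : ℕ) [SmoothOfRelativeDimension n s] (x : X) :
    ∃ V : X.Opens, IsAffineOpen V ∧ x ∈ V ∧
      (kSec s V).IsStandardSmoothOfRelativeDimension n := by
  obtain ⟨U, hU, V, hV, hx, e, he⟩ :=
    SmoothOfRelativeDimension.exists_isStandardSmoothOfRelativeDimension (n := n) (f := s) x
  obtain rfl := opens_spec_field_eq_top U (e hx)
  refine ⟨V, hV, hx, ?_⟩
  rw [kSec_eq s V e, ← add_zero n]
  exact RingHom.IsStandardSmoothOfRelativeDimension.comp he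
    (RingHom.IsStandardSmoothOfRelativeDimension.equiv
    (Scheme.ΓSpecIso (.of K)).symm.commRingCatIsoToRingEquiv)

/-- standard smooth charts can be chosen arbitrarily small -/
theorem exists_stdSmooth_dim_le (s : X ⟶ Spec (.of K)) (n : ℕ) [SmoothOfRelativeDimension n s]
    (x : X) (W : X.Opens) (hW : x ∈ W) :
    ∃ V : X.Opens, IsAffineOpen V ∧ x ∈ V ∧ V ≤ W ∧
      (kSec s V).IsStandardSmoothOfRelativeDimension n := by
  obtain ⟨V, hV, hx, h⟩ := exists_stdSmooth_dim s n x
  obtain ⟨c, hc1, hc2⟩ := hV.exists_basicOpen_le (V := W) ⟨x, hW⟩ hx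
  refine ⟨X.basicOpen c, hV.basicOpen c, hc2, hc1, ?_⟩
  have h1 : kSec s (X.basicOpen c) =
      (X.presheaf.map (homOfLE (X.basicOpen_le c)).op).hom.comp (kSec s V) := by
    simp only [kSec]
    rw [← CommRingCat.hom_comp]
    congr 1
    simp only [Category.assoc, ← Functor.map_comp]
    rfl
  rw [h1, ← zero_add n]
  have := hV.isLocalization_basicOpen c
  let := (X.presheaf.map (homOfLE (X.basicOpen_le c)).op).hom.toAlgebra
  have h2 : (X.presheaf.map (homOfLE (X.basicOpen_le c)).op).hom.IsStandardSmoothOfRelativeDimension 0 := by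
    have : IsLocalization.Away c Γ(X, X.basicOpen c) := ‹_›
    exact RingHom.IsStandardSmoothOfRelativeDimension.algebraMap_isLocalizationAway c
  exact RingHom.IsStandardSmoothOfRelativeDimension.comp h2 h

end Fermat.Agent.AbVar
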