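import Fermat.Agent.AbVar.Base
import Fermat.Agent.AbVar.Chart

/-!
# S26-A1: smooth schemes over a field are normal; connected smooth schemes are integral
-/

set_option autoImplicit false
universe u
open CategoryTheory CategoryTheory.Limits AlgebraicGeometry NeronModelInfra GoodReductionJacobian TensorProduct

namespace Fermat.Agent.AbVar

namespace NormalAux

/-- rings in which every element has a weak inverse -/
theorem exists_winv {Q A : Type*} [Field Q] [CommRing A] [Algebra Q A] [Algebra.Etale Q A] (x : A) :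
    ∃ y, x * (x * y) = x := by
  obtain ⟨I, _, Ai, _, _, e, _⟩ := (Algebra.Etale.iff_exists_algEquiv_prod Q A).mp inferInstance
  refine ⟨e.symm (fun i => (e x i)⁻¹), e.injective ?_⟩
  ext i
  simp only [map_mul, AlgEquiv.apply_symm_apply, Pi.mul_apply]
  by_cases h : e x i = 0
  · simp [h]
  · field_simp

section

variable {B E : Type*} [CommRing B] [CommRing E] [Algebra B E]
  (hinj : Function.Injective (algebraMap B E))
  (hw : ∀ x : E, ∃ y, x * (x * y) = x)
  (hint : ∀ z : E, IsIntegral B z → ∃ b : B, algebraMap B E b = z)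

include hinj hw hint

theorem exists_idem (b : B) : ∃ (y : E) (e : B), algebraMap B E b * y = algebraMap B E e ∧
    e * e = e ∧ b * e = b ∧ y * algebraMap B E e = y := by
  obtain ⟨y, hy⟩ := hw (algebraMap B E b)
  set β := algebraMap B E b
  have hi : (β * y) * (β * y) = β * y := by
    calc (β * y) * (β * y) = (β * (β * y)) * y := by ring
      _ = β * y := by rw [hy]
  obtain ⟨e, he⟩ := hint (β * y) ⟨Polynomial.X ^ 2 - Polynomial.X,
    Polynomial.monic_X_pow_sub (Polynomial.degree_X_le.trans_lt (by norm_num)), by simp [pow_two, hi]⟩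
  refine ⟨y * (β * y), e, ?_, ?_, ?_, ?_⟩
  · rw [he, ← mul_assoc, hi]
  · apply hinj
    rw [map_mul, he, hi]
  · apply hinj
    rw [map_mul, he, hy]
  · rw [he, mul_assoc, hi]

variable (p : Ideal B) [p.IsPrime] (R : Type*) [CommRing R] [Algebra B R] [IsLocalization.AtPrime R p]

include p in
theorem isDomain_loc : IsDomain R := by
  have : Nontrivial R := IsLocalization.AtPrime.nontrivial R p
  have : IsLocalRing R := IsLocalization.AtPrime.isLocalRing R p
  have key : ∀ a b : B, algebraMap B R (a * b) = 0 → algebraMap B R a = 0 ∨ algebraMap B R b = 0 := by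
    intro a b hab
    obtain ⟨⟨s, hs⟩, h⟩ := (IsLocalization.map_eq_zero_iff p.primeCompl R _).1 hab
    simp only at h
    obtain ⟨y, e, h1, h2, h3, -⟩ := exists_idem hinj hw hint (s * a)
    have hbe : b * e = 0 := by
      apply hinj
      rw [map_mul, ← h1, map_zero, ← mul_assoc, ← map_mul, show b * (s * a) = s * (a * b) by ring, h]
      simp
    have h4 : e * (1 - e) = 0 := by rw [mul_sub, h2]; simp
    by_cases he : e ∈ p
    · left
      have h5 : 1 - e ∉ p := fun h => Ideal.IsPrime.ne_top ‹_› ((Ideal.eq_top_iff_one _).2 (by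
        simpa using p.add_mem h he))
      rw [IsLocalization.map_eq_zero_iff p.primeCompl R]
      refine ⟨⟨(1 - e) * s, ?_⟩, ?_⟩
      · exact p.primeCompl.mul_mem h5 hs
      · calc (1 - e) * s * a = s * a - (s * a) * e := by ring
          _ = 0 := by rw [h3]; simp
    · right
      rw [IsLocalization.map_eq_zero_iff p.primeCompl R]
      exact ⟨⟨e, he⟩, by simpa [mul_comm] using hbe⟩
  have : NoZeroDivisors R := ⟨fun {x y} hxy => by
    obtain ⟨⟨a, s⟩, ha⟩ := IsLocalization.surj p.primeCompl x
    obtain ⟨⟨b, t⟩, hb⟩ := IsLocalization.surj p.primeCompl y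
    simp only at ha hb
    have hs := IsLocalization.map_units R s
    have ht := IsLocalization.map_units R t
    have : algebraMap B R (a * b) = 0 := by
      rw [map_mul, ← ha, ← hb]
      calc x * algebraMap B R s * (y * algebraMap B R t)
          = x * y * (algebraMap B R s * algebraMap B R t) := by ring
        _ = 0 := by rw [hxy, zero_mul]
    rcases key a b this with h | h
    · left; rw [h] at ha; exact (hs.mul_left_eq_zero).1 ha
    · right; rw [h] at hb; exact (ht.mul_left_eq_zero).1 hb⟩
  exact NoZeroDivisors.to_isDomain R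

include p in
theorem exists_of_isIntegral_loc [IsDomain R] (L : Type*) [Field L] [Algebra R L]
    [IsFractionRing R L] [Algebra B L] [IsScalarTower B R L] (x : L) (hx : _root_.IsIntegral R x) :
    ∃ y : R, algebraMap R L y = x := by
  have hinjL : Function.Injective (algebraMap R L) := IsFractionRing.injective R L
  obtain ⟨⟨m, hm⟩, hmx⟩ := IsIntegral.exists_multiple_integral_of_isLocalization p.primeCompl x hx
  set x' : L := m • x with hx'
  have hmx' : _root_.IsIntegral B x' := hmx
  -- numerator and denominator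
  obtain ⟨a, b, hb0, hab⟩ : ∃ a b : B, algebraMap B R b ≠ 0 ∧
      algebraMap B L b * x' = algebraMap B L a := by
    obtain ⟨r, s, hs, hrs⟩ := IsFractionRing.div_surjective (A := R) x'
    obtain ⟨⟨a, u⟩, ha⟩ := IsLocalization.surj p.primeCompl r
    obtain ⟨⟨b, v⟩, hb⟩ := IsLocalization.surj p.primeCompl s
    simp only at ha hb
    have hu := IsLocalization.map_units R u
    have hv := IsLocalization.map_units R v
    have hs0 : s ≠ 0 := nonZeroDivisors.ne_zero hs
    refine ⟨v * a, u * b, ?_, ?_⟩
    · rw [map_mul, ← hb]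
      exact mul_ne_zero hu.ne_zero (mul_ne_zero hs0 hv.ne_zero)
    · have hs0' : algebraMap R L s ≠ 0 := by simpa using hs0
      rw [← hrs, IsScalarTower.algebraMap_apply B R L, IsScalarTower.algebraMap_apply B R L,
        map_mul (algebraMap B R), map_mul (algebraMap B R), ← ha, ← hb]
      simp only [map_mul]
      field_simp
  obtain ⟨f, hf, hfx⟩ := hmx'
  obtain ⟨y, e, h1, h2, h3, h4⟩ := exists_idem hinj hw hint b
  have hn : f.natDegree ≠ 0 := by
    intro h0
    rw [(Polynomial.Monic.natDegree_eq_zero hf).1 h0] at hfx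
    simp at hfx
  -- `g(a) = 0` in `R`
  have hg : algebraMap B R ((f.scaleRoots b).eval a) = 0 := by
    apply hinjL
    rw [map_zero, ← IsScalarTower.algebraMap_apply B R L, ← Polynomial.eval₂_at_apply, ← hab,
      Polynomial.scaleRoots_eval₂_mul, hfx, mul_zero]
  obtain ⟨⟨t, ht⟩, htg⟩ := (IsLocalization.map_eq_zero_iff p.primeCompl R _).1 hg
  simp only at htg
  set β := algebraMap B E b
  set α := algebraMap B E a
  set ε := algebraMap B E e
  set τ := algebraMap B E t
  have hε : ε * ε = ε := by rw [← map_mul, h2]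
  have hβε : β * ε = β := by rw [← map_mul, h3]
  have hεn : ∀ n : ℕ, ε * ε ^ n = ε := by
    intro n
    induction n with
    | zero => simp
    | succ n ih => rw [pow_succ, ← mul_assoc, ih, hε]
  set z := α * y with hz
  -- key identity
  have key : ε * (β ^ f.natDegree * f.eval₂ (algebraMap B E) z) =
      ε * algebraMap B E ((f.scaleRoots b).eval a) := by
    rw [← Polynomial.scaleRoots_eval₂_mul, ← Polynomial.eval₂_at_apply, Polynomial.eval₂_eq_sum_range,
      Polynomial.eval₂_eq_sum_range, Finset.mul_sum, Finset.mul_sum]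
    refine Finset.sum_congr rfl fun i _ => ?_
    have : β * z = α * ε := by rw [hz, ← h1]; ring
    rw [this, mul_pow]
    linear_combination (algebraMap B E ((f.scaleRoots b).coeff i)) * α ^ i * hεn i
  have key2 : τ * ε * f.eval₂ (algebraMap B E) z = 0 := by
    have h5 : τ * (ε * (β ^ f.natDegree * f.eval₂ (algebraMap B E) z)) = 0 := by
      rw [key, mul_left_comm, ← map_mul, htg, map_zero, mul_zero]
    have h6 : y ^ f.natDegree * (τ * (ε * (β ^ f.natDegree * f.eval₂ (algebraMap B E) z))) = 0 := by
      rw [h5, mul_zero]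
    have h7 : (β * y) ^ f.natDegree * ε = ε := by rw [h1, mul_comm, hεn]
    calc τ * ε * f.eval₂ (algebraMap B E) z
        = τ * ((β * y) ^ f.natDegree * ε) * f.eval₂ (algebraMap B E) z := by rw [h7]
      _ = y ^ f.natDegree * (τ * (ε * (β ^ f.natDegree * f.eval₂ (algebraMap B E) z))) := by
          rw [mul_pow]; ring
      _ = 0 := h6
  have hzε : z * ε = z := by rw [hz, mul_assoc, h4]
  have hw' : _root_.IsIntegral B (τ * z) := by
    refine ⟨Polynomial.X * f.scaleRoots t, Polynomial.monic_X.mul
      ((Polynomial.monic_scaleRoots_iff t).2 hf), ?_⟩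
    rw [Polynomial.eval₂_mul, Polynomial.eval₂_X, Polynomial.scaleRoots_eval₂_mul]
    obtain ⟨n, hn'⟩ := Nat.exists_eq_succ_of_ne_zero hn
    rw [hn', pow_succ]
    calc τ * z * (τ ^ n * τ * f.eval₂ (algebraMap B E) z)
        = τ ^ n * τ * z * (τ * f.eval₂ (algebraMap B E) z) := by ring
      _ = τ ^ n * τ * (z * ε) * (τ * f.eval₂ (algebraMap B E) z) := by rw [hzε]
      _ = τ ^ n * τ * z * (τ * ε * f.eval₂ (algebraMap B E) z) := by ring
      _ = 0 := by rw [key2, mul_zero]
  obtain ⟨b', hb'⟩ := hint _ hw'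
  have hbb : b * b' = t * (a * e) := by
    apply hinj
    rw [map_mul, hb', map_mul, map_mul, hz]
    calc β * (τ * (α * y)) = τ * (α * (β * y)) := by ring
      _ = τ * (α * ε) := by rw [h1]
  have he1 : algebraMap B R e = 1 := by
    have : algebraMap B R b * (algebraMap B R e - 1) = 0 := by
      rw [mul_sub, ← map_mul, h3, mul_one, sub_self]
    rcases mul_eq_zero.1 this with h | h
    · exact absurd h hb0
    · exact sub_eq_zero.1 h
  have ht' : IsUnit (algebraMap B R t) := IsLocalization.map_units R (⟨t, ht⟩ : p.primeCompl)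
  have hm' : IsUnit (algebraMap B R m) := IsLocalization.map_units R (⟨m, hm⟩ : p.primeCompl)
  obtain ⟨t', ht''⟩ := ht'.exists_left_inv
  obtain ⟨m', hm''⟩ := hm'.exists_left_inv
  refine ⟨m' * (t' * algebraMap B R b'), ?_⟩
  have hb0' : algebraMap B L b ≠ 0 := by
    rw [IsScalarTower.algebraMap_apply B R L]
    simpa using hb0
  have e1 : algebraMap B L b' = algebraMap B L t * x' := by
    apply mul_left_cancel₀ hb0'
    have e0 : algebraMap B L e = 1 := by
      rw [IsScalarTower.algebraMap_apply B R L, he1, map_one]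
    rw [← map_mul, hbb, map_mul, map_mul, e0, ← hab]
    ring
  have e2 : algebraMap R L t' * algebraMap B L t = 1 := by
    rw [IsScalarTower.algebraMap_apply B R L, ← map_mul, ht'', map_one]
  have e3 : algebraMap R L m' * algebraMap B L m = 1 := by
    rw [IsScalarTower.algebraMap_apply B R L, ← map_mul, hm'', map_one]
  rw [map_mul, map_mul, ← IsScalarTower.algebraMap_apply B R L, e1, hx', Algebra.smul_def]
  calc algebraMap R L m' * (algebraMap R L t' * (algebraMap B L t * (algebraMap B L m * x)))
      = (algebraMap R L m' * algebraMap B L m) * (algebraMap R L t' * algebraMap B L t) * x := by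
        ring
    _ = x := by rw [e2, e3]; simp

include p in
theorem isIntegrallyClosed_loc : IsIntegrallyClosed R := by
  have hdom := isDomain_loc hinj hw hint p R
  rw [isIntegrallyClosed_iff (FractionRing R)]
  intro x hx
  exact exists_of_isIntegral_loc hinj hw hint p R (FractionRing R) x hx

end

theorem normal_loc_of_etale {P B : Type*} [CommRing P] [IsDomain P] [IsIntegrallyClosed P]
    [CommRing B] [Algebra P B] [Algebra.Etale P B] (p : Ideal B) [p.IsPrime]
    (R : Type*) [CommRing R] [Algebra B R] [IsLocalization.AtPrime R p] :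
    IsDomain R ∧ IsIntegrallyClosed R := by
  have : Module.Flat P B := inferInstance
  have hinj : Function.Injective (algebraMap B (B ⊗[P] FractionRing P)) :=
    Algebra.TensorProduct.includeLeft_injective (S := B) (IsFractionRing.injective P (FractionRing P))
  have hw : ∀ x : B ⊗[P] FractionRing P, ∃ y, x * (x * y) = x := by
    intro x
    obtain ⟨y, hy⟩ := exists_winv (Q := FractionRing P) (Algebra.TensorProduct.comm P B (FractionRing P) x)
    refine ⟨(Algebra.TensorProduct.comm P B (FractionRing P)).symm y,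
      (Algebra.TensorProduct.comm P B (FractionRing P)).injective ?_⟩
    simpa using hy
  have hint : ∀ z : B ⊗[P] FractionRing P, _root_.IsIntegral B z → ∃ b : B, algebraMap B _ b = z := by
    intro z hz
    obtain ⟨w, hw⟩ := (TensorProduct.toIntegralClosure_bijective_of_smooth (R := P) (S := B)
      (B := FractionRing P)).2 ⟨z, hz⟩
    have hw' : Algebra.TensorProduct.map (AlgHom.id B B) (integralClosure P (FractionRing P)).val w = z :=
      congr_arg Subtype.val hw
    clear hw hz
    induction w generalizing z with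
    | zero => exact ⟨0, by rw [← hw', map_zero, map_zero]⟩
    | add x y hx hy =>
      obtain ⟨a, ha⟩ := hx _ rfl
      obtain ⟨b, hb⟩ := hy _ rfl
      exact ⟨a + b, by rw [map_add, ha, hb, ← hw', map_add]⟩
    | tmul b q =>
      obtain ⟨r, hr⟩ := IsIntegrallyClosed.isIntegral_iff.1 q.2
      refine ⟨r • b, ?_⟩
      rw [← hw', Algebra.TensorProduct.map_tmul, Algebra.TensorProduct.algebraMap_apply]
      simp only [Algebra.algebraMap_self, RingHom.id_apply, AlgHom.coe_id, id_eq, Subalgebra.coe_val]
      rw [← hr, TensorProduct.smul_tmul, Algebra.smul_def, mul_one]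
  have h1 := isDomain_loc hinj hw hint p R
  exact ⟨h1, isIntegrallyClosed_loc hinj hw hint p R⟩

theorem stalk_aux {X : Scheme.{u}} {K : Type u} [Field K] {V : X.Opens} (hV : IsAffineOpen V)
    {n : ℕ} (g : MvPolynomial (Fin n) K →+* Γ(X, V)) (hg : g.Etale) {x : X} (hx : x ∈ V) :
    IsDomain (X.presheaf.stalk x) ∧ IsIntegrallyClosed (X.presheaf.stalk x) := by
  let := g.toAlgebra
  have : Algebra.Etale (MvPolynomial (Fin n) K) Γ(X, V) := hg
  have := hV.isLocalization_stalk ⟨x, hx⟩
  let := (X.presheaf.algebra_section_stalk ⟨x, hx⟩)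
  exact normal_loc_of_etale (P := MvPolynomial (Fin n) K) (hV.primeIdealOf ⟨x, hx⟩).asIdeal
    (X.presheaf.stalk x)

/-- a noetherian ring whose localization at `p` is a domain has irreducible spectrum near `p` -/
theorem exists_irreducible_basicOpen {B : Type*} [CommRing B] [IsNoetherianRing B] (p : Ideal B)
    [p.IsPrime] (R : Type*) [CommRing R] [Algebra B R] [IsLocalization.AtPrime R p] [IsDomain R] :
    ∃ s : B, s ∉ p ∧ IsIrreducible (PrimeSpectrum.basicOpen s : Set (PrimeSpectrum B)) := by
  -- `s` kills the kernel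
  obtain ⟨s, hs, hker⟩ : ∃ s : B, s ∉ p ∧ ∀ x : B, algebraMap B R x = 0 → s * x = 0 := by
    obtain ⟨S, hS⟩ := (isNoetherianRing_iff_ideal_fg B).1 inferInstance (RingHom.ker (algebraMap B R))
    have h1 : ∀ x ∈ S, ∃ c : p.primeCompl, (c : B) * x = 0 := fun x hx =>
      (IsLocalization.map_eq_zero_iff p.primeCompl R x).1 (by
        have : x ∈ RingHom.ker (algebraMap B R) := by
          rw [← hS]; exact Ideal.subset_span hx
        exact this)
    choose! c hc using h1
    refine ⟨∏ x ∈ S, (c x : B), ?_, ?_⟩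
    · exact (∏ x ∈ S, c x : p.primeCompl).2 |> fun h => by simpa using h
    · intro x hx
      have hx' : x ∈ Ideal.span (S : Set B) := by rw [hS]; exact hx
      have hle : Ideal.span (S : Set B) ≤
          LinearMap.ker (LinearMap.mulLeft B (∏ x ∈ S, (c x : B))) := by
        refine Submodule.span_le.2 fun y hy => ?_
        obtain ⟨d, hd⟩ := Finset.dvd_prod_of_mem (fun x => (c x : B)) hy
        change (∏ x ∈ S, (c x : B)) * y = 0
        rw [hd]
        linear_combination d * hc y hy
      exact hle hx'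
  have hdisj : ∀ f : B, ((PrimeSpectrum.basicOpen s : Set (PrimeSpectrum B)) ∩
      PrimeSpectrum.basicOpen f).Nonempty → algebraMap B R f ≠ 0 := by
    rintro f ⟨q, hq1, hq2⟩ h0
    have h := hker f h0
    have : s * f ∈ q.asIdeal := by rw [h]; exact q.asIdeal.zero_mem
    rcases q.isPrime.mem_or_mem this with h | h
    · exact hq1 h
    · exact hq2 h
  refine ⟨s, hs, ⟨⟨p, ‹_›⟩, hs⟩, ?_⟩
  rintro U W hU hW ⟨q, hqs, hqU⟩ ⟨r, hrs, hrW⟩
  obtain ⟨_, ⟨f, rfl⟩, hqf, hfU⟩ :=
    PrimeSpectrum.isTopologicalBasis_basic_opens.exists_subset_of_mem_open hqU hU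
  obtain ⟨_, ⟨g, rfl⟩, hrg, hgW⟩ :=
    PrimeSpectrum.isTopologicalBasis_basic_opens.exists_subset_of_mem_open hrW hW
  have h1 := hdisj f ⟨q, hqs, hqf⟩
  have h2 := hdisj g ⟨r, hrs, hrg⟩
  have h3 : ¬ IsNilpotent (s * (f * g)) := by
    intro hn
    have h4 := hn.map (algebraMap B R)
    rw [map_mul, map_mul] at h4
    have h5 : algebraMap B R s ≠ 0 :=
      (IsLocalization.map_units R (⟨s, hs⟩ : p.primeCompl)).ne_zero
    exact mul_ne_zero h5 (mul_ne_zero h1 h2) h4.eq_zero
  rw [nilpotent_iff_mem_prime] at h3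
  push Not at h3
  obtain ⟨J, hJ, hsJ⟩ := h3
  refine ⟨⟨J, hJ⟩, fun h => hsJ (J.mul_mem_right _ h), hfU fun h => hsJ ?_, hgW fun h => hsJ ?_⟩
  · exact J.mul_mem_left _ (J.mul_mem_right _ h)
  · exact J.mul_mem_left _ (J.mul_mem_left _ h)

theorem irreducibleSpace_of_connected {X : Type*} [TopologicalSpace X] [ConnectedSpace X]
    (h : ∀ x : X, ∃ U : Set X, IsOpen U ∧ x ∈ U ∧ IsIrreducible U) : IrreducibleSpace X := by
  obtain ⟨x₀⟩ := (inferInstance : Nonempty X)
  obtain ⟨U, hU, hxU, hirr⟩ := h x₀
  have hopen : IsOpen (closure U) := by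
    rw [isOpen_iff_mem_nhds]
    intro z hz
    obtain ⟨W, hW, hzW, hWirr⟩ := h z
    have hne : (W ∩ U).Nonempty := mem_closure_iff.1 hz W hW hzW
    refine Filter.mem_of_superset (hW.mem_nhds hzW) fun w hw => ?_
    rw [mem_closure_iff]
    intro O hO hwO
    obtain ⟨v, hv, hv1, hv2⟩ := hWirr.2 O U hO hU ⟨w, hw, hwO⟩ hne
    exact ⟨v, hv1, hv2⟩
  have hclopen : IsClopen (closure U) := ⟨isClosed_closure, hopen⟩
  have huniv := hclopen.eq_univ ⟨x₀, subset_closure hxU⟩
  have h1 : IsIrreducible (Set.univ : Set X) := by rw [← huniv]; exact hirr.closure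
  exact { isPreirreducible_univ := h1.2, toNonempty := ⟨x₀⟩ }

theorem exists_irreducible_nhd {X : Scheme.{u}} {K : Type u} [Field K] {V : X.Opens}
    (hV : IsAffineOpen V)
    {n : ℕ} (g : MvPolynomial (Fin n) K →+* Γ(X, V)) (hg : g.Etale) {x : X} (hx : x ∈ V) :
    ∃ U : Set X, IsOpen U ∧ x ∈ U ∧ IsIrreducible U := by
  have hdom := (stalk_aux hV g hg hx).1
  let := g.toAlgebra
  have : Algebra.Etale (MvPolynomial (Fin n) K) Γ(X, V) := hg
  have := hV.isLocalization_stalk ⟨x, hx⟩
  let := (X.presheaf.algebra_section_stalk ⟨x, hx⟩)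
  have : Algebra.FiniteType (MvPolynomial (Fin n) K) Γ(X, V) := inferInstance
  have : IsNoetherianRing Γ(X, V) :=
    Algebra.FiniteType.isNoetherianRing (MvPolynomial (Fin n) K) Γ(X, V)
  obtain ⟨s, hs, hirr⟩ := exists_irreducible_basicOpen (hV.primeIdealOf ⟨x, hx⟩).asIdeal
    (X.presheaf.stalk x)
  refine ⟨hV.fromSpec '' (PrimeSpectrum.basicOpen s : Set (PrimeSpectrum Γ(X, V))), ?_, ?_, ?_⟩
  · exact hV.fromSpec.isOpenEmbedding.isOpenMap _ (PrimeSpectrum.basicOpen s).isOpen
  · exact ⟨hV.primeIdealOf ⟨x, hx⟩, hs, hV.fromSpec_primeIdealOf ⟨x, hx⟩⟩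
  · exact hirr.image _ hV.fromSpec.continuous.continuousOn

end NormalAux

/-- A1 -/
theorem stalk_normal {X : Scheme.{u}} {K : Type u} [Field K] (s : X ⟶ Spec (.of K)) [Smooth s] (x : X) :
    IsDomain (X.presheaf.stalk x) ∧ IsIntegrallyClosed (X.presheaf.stalk x) := by
  obtain ⟨V, hV, hx, n, g, -, hg⟩ := exists_chart s x
  exact NormalAux.stalk_aux hV g hg hx

/-- A1, global -/
theorem isIntegral_of_smooth {X : Scheme.{u}} {K : Type u} [Field K] (s : X ⟶ Spec (.of K)) [Smooth s]
    [ConnectedSpace X] : IsIntegral X := by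
  have : IrreducibleSpace X := NormalAux.irreducibleSpace_of_connected fun x => by
    obtain ⟨V, hV, hx, n, g, -, hg⟩ := exists_chart s x
    exact NormalAux.exists_irreducible_nhd hV g hg hx
  have : ∀ x : X, _root_.IsReduced (X.presheaf.stalk x) := fun x => by
    have := (stalk_normal s x).1
    infer_instance
  have : IsReduced X := isReduced_of_isReduced_stalk X
  exact isIntegral_of_irreducibleSpace_of_isReduced X

end Fermat.Agent.AbVar
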