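import Fermat.Agent.AbVar.DivPic
import Fermat.Agent.AbVar.Normal
import Fermat.Agent.AbVar.Isogeny
import Fermat.Agent.AbVar.Coords

/-!
# S26: centres of valuations, integral closedness, finiteness (inputs of the growth lemma)
-/

set_option autoImplicit false
universe u
open CategoryTheory CategoryTheory.Limits AlgebraicGeometry TopologicalSpace NeronModelInfra
  GoodReductionJacobian
open Fermat.Agent.Jac

namespace Fermat.Agent.AbVar

namespace Asm

variable {X : Scheme.{u}} [IsIntegral X] {K : Type u} [Field K] (f : X ⟶ Spec (CommRingCat.of K))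

theorem const_mem (p : X) (c : K) : kFun f c ∈ stalkIn p :=
  ⟨kStalk f p c, RingHom.congr_fun (Coords.algebraMap_kStalk f p) c⟩

theorem integral_mem [Smooth f] (p : X) (y : X.functionField) (hy : IsIntegral (stalkIn p) y) :
    y ∈ stalkIn p := by
  have hn := (stalk_normal f p).2
  let r : X.presheaf.stalk p →+* stalkIn p :=
    (algebraMap (X.presheaf.stalk p) X.functionField).rangeRestrict
  let : Algebra (X.presheaf.stalk p) (stalkIn p) := r.toAlgebra
  have : IsScalarTower (X.presheaf.stalk p) (stalkIn p) X.functionField :=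
    IsScalarTower.of_algebraMap_eq' rfl
  have hsurj : Function.Surjective r := RingHom.rangeRestrict_surjective _
  have : Algebra.IsIntegral (X.presheaf.stalk p) (stalkIn p) :=
    Algebra.isIntegral_of_surjective hsurj
  have h1 : IsIntegral (X.presheaf.stalk p) y := isIntegral_trans y hy
  obtain ⟨a, ha⟩ := (IsIntegrallyClosed.isIntegral_iff (R := X.presheaf.stalk p)).mp h1
  exact ⟨a, ha⟩

/-- every valuation ring of the function field has a centre -/
theorem exists_centre [IsProper f] (V : ValuationSubring X.functionField)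
    (hV : ∀ c : K, kFun f c ∈ V) : ∃ p : X, ∀ y ∈ stalkIn p, y ∈ V := by
  let κ : K →+* V := (kFun f).codRestrict V.toSubring hV
  let v : V →+* X.functionField := V.subtype
  have w : X.fromSpecStalk (genericPoint X) ≫ f =
      Spec.map (CommRingCat.ofHom (algebraMap V X.functionField)) ≫
        Spec.map (CommRingCat.ofHom κ) := by
    rw [fromSpecStalk_comp_str, ← Spec.map_comp, ← CommRingCat.ofHom_comp]
    rfl
  have hE : ValuativeCriterion.Existence f := by
    have h1 : UniversallyClosed f := inferInstance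
    rw [UniversallyClosed.eq_valuativeCriterion] at h1
    exact h1.1
  obtain ⟨l, hl₁⟩ : ∃ l : Spec (CommRingCat.of V) ⟶ X,
      Spec.map (CommRingCat.ofHom (algebraMap V X.functionField)) ≫ l =
        X.fromSpecStalk (genericPoint X) := by
    obtain ⟨l, hl₁, hl₂⟩ :=
      (hE { R := V, K := X.functionField, i₁ := _, i₂ := _, commSq := ⟨w⟩ }).exists_lift
    exact ⟨l, hl₁⟩
  obtain ⟨σ, hσ⟩ := exists_fromSpecStalk (V : Type u) l (l (clp V)) rfl
  refine ⟨l (clp V), ?_⟩
  rintro _ ⟨a, rfl⟩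
  have h1 : Spec.map (CommRingCat.ofHom ((algebraMap V X.functionField).comp σ)) ≫
      X.fromSpecStalk (l (clp V)) = Spec.map (X.presheaf.stalkSpecializes
        ((genericPoint_spec X).specializes trivial)) ≫ X.fromSpecStalk (l (clp V)) := by
    rw [Scheme.SpecMap_stalkSpecializes_fromSpecStalk, CommRingCat.ofHom_comp, Spec.map_comp,
      Category.assoc, hσ]
    exact hl₁
  rw [cancel_mono] at h1
  have h2 := Spec.map_injective h1
  have h3 : algebraMap (X.presheaf.stalk (l (clp V))) X.functionField a =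
      algebraMap V X.functionField (σ a) := (congrArg (fun g => g.hom a) h2).symm
  rw [h3]
  exact (σ a).2

theorem exists_finset (D : CDiv X) [CompactSpace X] :
    ∃ T : Finset X.functionField, ∀ p, ∃ τ ∈ T, τ ≠ 0 ∧ τ / D.t p ∈ stalkIn p := by
  classical
  choose U hU H using D.loc
  obtain ⟨S, hS⟩ := isCompact_univ.elim_finite_subcover (fun x => (U x : Set X))
    (fun x => (U x).isOpen) (fun x _ => Set.mem_iUnion.2 ⟨x, hU x⟩)
  refine ⟨S.image D.t, fun p => ?_⟩
  obtain ⟨x, hxS, hx⟩ : ∃ x ∈ S, p ∈ U x := by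
    have := hS (Set.mem_univ p)
    simpa using this
  exact ⟨D.t x, Finset.mem_image_of_mem _ hxS, D.ne_zero x, (H x p hx).1⟩

/-- finiteness: functions regular along a fibre are integral over the local ring downstairs -/
theorem isIntegral_of_fibre {Y : Scheme.{u}} [IsIntegral Y] (φ : X ⟶ Y) [IsFinite φ]
    (h : φ (genericPoint X) = genericPoint Y) (q : Y) (y : X.functionField)
    (hy : ∀ p, φ p = q → y ∈ stalkIn p) : IsIntegral ((stalkIn q).map (ffMap φ h)) y := by
  obtain ⟨_, ⟨V, hV, rfl⟩, hqV, -⟩ := Y.isBasis_affineOpens.exists_subset_of_mem_open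
    (Set.mem_univ q) isOpen_univ
  replace hqV : q ∈ V := hqV
  replace hV : IsAffineOpen V := hV
  have hU : IsAffineOpen (φ ⁻¹ᵁ V) := hV.preimage φ
  have hgenY : genericPoint Y ∈ V :=
    ((genericPoint_spec Y).mem_open_set_iff V.isOpen).mpr ⟨q, trivial, hqV⟩
  have hgenX : genericPoint X ∈ φ ⁻¹ᵁ V := by
    change φ (genericPoint X) ∈ V
    rw [h]; exact hgenY
  have hne1 : Nonempty V := ⟨⟨_, hgenY⟩⟩
  have hne2 : Nonempty (φ ⁻¹ᵁ V : X.Opens) := ⟨⟨_, hgenX⟩⟩
  have hint : (φ.app V).hom.IsIntegral := by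
    have := IsFinite.finite_app (f := φ) V hV
    exact this.to_isIntegral
  -- the ideal of denominators
  let I : Ideal Γ(X, φ ⁻¹ᵁ V) := Polar.denIdeal (φ ⁻¹ᵁ V) y
  have hI : ¬ I.comap (φ.app V).hom ≤ (hV.primeIdealOf ⟨q, hqV⟩).asIdeal := by
    intro hle
    algebraize [(φ.app V).hom]
    obtain ⟨Q, hQI, hQp, hQ⟩ := Ideal.exists_ideal_over_prime_of_isIntegral
      (hV.primeIdealOf ⟨q, hqV⟩).asIdeal I hle
    let Q' : Spec Γ(X, φ ⁻¹ᵁ V) := ⟨Q, hQp⟩
    have hpU : hU.fromSpec Q' ∈ φ ⁻¹ᵁ V := by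
      have : hU.fromSpec Q' ∈ hU.fromSpec.opensRange := ⟨Q', rfl⟩
      rwa [hU.opensRange_fromSpec] at this
    have hQ' : hU.primeIdealOf ⟨hU.fromSpec Q', hpU⟩ = Q' := by
      apply hU.fromSpec.isOpenEmbedding.injective
      exact hU.fromSpec_primeIdealOf _
    have hφp : φ (hU.fromSpec Q') = q := by
      have h1 := IsAffineOpen.SpecMap_appLE_fromSpec φ hV hU (le_refl (φ ⁻¹ᵁ V))
      have h2 : Spec.map (φ.appLE V (φ ⁻¹ᵁ V) le_rfl) Q' = hV.primeIdealOf ⟨q, hqV⟩ := by
        apply PrimeSpectrum.ext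
        rw [← hQ, Scheme.Hom.appLE_eq_app]
        rfl
      have h3 : (hU.fromSpec ≫ φ) Q' = (Spec.map (φ.appLE V (φ ⁻¹ᵁ V) le_rfl) ≫ hV.fromSpec) Q' := by
        rw [h1]
      calc φ (hU.fromSpec Q') = (hU.fromSpec ≫ φ) Q' := rfl
        _ = _ := h3
        _ = hV.fromSpec (Spec.map (φ.appLE V (φ ⁻¹ᵁ V) le_rfl) Q') := rfl
        _ = q := by rw [h2, hV.fromSpec_primeIdealOf]
    obtain ⟨b, s, hs, e⟩ := Polar.exists_num_den hU hpU (hy _ hφp)
    have hsI : s ∈ I := ⟨b, by rw [mul_comm, e]⟩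
    have hsQ := hQI hsI
    have hloc := hU.isLocalization_stalk ⟨hU.fromSpec Q', hpU⟩
    let := X.presheaf.algebra_section_stalk ⟨hU.fromSpec Q', hpU⟩
    have h3 := (IsLocalization.AtPrime.isUnit_to_map_iff
      (X.presheaf.stalk (hU.fromSpec Q')) (hU.primeIdealOf ⟨hU.fromSpec Q', hpU⟩).asIdeal s).mp hs
    rw [hQ'] at h3
    exact h3 hsQ
  obtain ⟨s, hsI, hsq⟩ : ∃ s, s ∈ I.comap (φ.app V).hom ∧
      s ∉ (hV.primeIdealOf ⟨q, hqV⟩).asIdeal := by
    by_contra! hcon
    exact hI fun s hs => hcon s hs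
  obtain ⟨c, hc⟩ : ∃ c, y * X.germToFunctionField (φ ⁻¹ᵁ V) (φ.app V s) =
      X.germToFunctionField (φ ⁻¹ᵁ V) c := hsI
  have hsu : IsUnit (Y.presheaf.germ V q hqV s) := by
    have hloc := hV.isLocalization_stalk ⟨q, hqV⟩
    let := Y.presheaf.algebra_section_stalk ⟨q, hqV⟩
    exact (IsLocalization.AtPrime.isUnit_to_map_iff
      (Y.presheaf.stalk q) (hV.primeIdealOf ⟨q, hqV⟩).asIdeal s).mpr hsq
  rw [← DivPic.ffMap_germ φ h V] at hc
  have hs0 : Y.germToFunctionField V s ≠ 0 := Polar.ne_zero_of_isUnit_germ hqV hsu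
  have hy' : y = X.germToFunctionField (φ ⁻¹ᵁ V) c * ffMap φ h (Y.germToFunctionField V s)⁻¹ := by
    rw [← hc, map_inv₀, mul_inv_cancel_right₀ ((map_ne_zero _).mpr hs0)]
  rw [hy']
  refine IsIntegral.mul ?_ ?_
  · -- `c` is integral over `Γ(Y, V)`
    let ι : Γ(Y, V) →+* (stalkIn q).map (ffMap φ h) :=
      { toFun := fun a => ⟨ffMap φ h (Y.germToFunctionField V a), _,
          Polar.germ_mem_stalkIn a hqV, rfl⟩
        map_one' := by apply Subtype.ext; simp
        map_mul' := fun a b => by apply Subtype.ext; simp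
        map_zero' := by apply Subtype.ext; simp
        map_add' := fun a b => by apply Subtype.ext; simp }
    have h2 : (X.germToFunctionField (φ ⁻¹ᵁ V)).hom.comp (φ.app V).hom =
        (algebraMap ((stalkIn q).map (ffMap φ h)) X.functionField).comp ι := by
      ext a
      exact (DivPic.ffMap_germ φ h V a).symm
    obtain ⟨P, hP, hPc⟩ := hint c
    refine ⟨P.map ι, hP.map ι, ?_⟩
    rw [Polynomial.eval₂_map, ← h2, ← Polynomial.hom_eval₂, hPc, map_zero]
  · exact isIntegral_algebraMap (R := (stalkIn q).map (ffMap φ h))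
      (x := ⟨_, ⟨_, Polar.inv_mem_stalkIn hqV hsu, rfl⟩⟩)

end Asm

end Fermat.Agent.AbVar
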