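import Fermat.Agent.AbVar.CurveCharts
import Fermat.Agent.Jac.GeomInt

/-!
# S26-B1: the point of the affine chart below a valuation ring
-/

set_option autoImplicit false
set_option linter.style.haveILetI false
set_option linter.unusedSectionVars false
universe u

namespace Fermat.Agent.AbVar.CurveAux

variable {k E F : Type*} [Field k] [Field E] [Field F] [Algebra k E] [Algebra E F] [Algebra k F]
  [IsScalarTower k E F]

theorem chart_le_valuation {x : E} (V : ValuationSubring F) (hk : ∀ a : k, algebraMap k F a ∈ V)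
    (hx : algebraMap E F x ∈ V) (b : F) (hb : b ∈ chart (k := k) F x) : b ∈ V := by
  have h1 : ∀ a : kz k x, algebraMap E F (a : E) ∈ V := by
    rintro ⟨a, ha⟩
    change algebraMap E F a ∈ V
    induction ha using Algebra.adjoin_induction with
    | mem y hy =>
      rw [Set.mem_singleton_iff] at hy
      rwa [hy]
    | algebraMap r =>
      rw [← IsScalarTower.algebraMap_apply]
      exact hk r
    | add a b _ _ ha hb =>
      rw [map_add]
      exact add_mem ha hb
    | mul a b _ _ ha hb =>
      rw [map_mul]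
      exact mul_mem ha hb
  let j : kz k x →+* V := (algebraMap (kz k x) F).codRestrict V.toSubring h1
  obtain ⟨p, hp, hpz⟩ := hb
  have h2 : IsIntegral V b := by
    refine ⟨p.map j, hp.map j, ?_⟩
    rw [Polynomial.eval₂_map]
    exact hpz
  obtain ⟨y, hy⟩ := IsIntegrallyClosed.isIntegral_iff.mp h2
  rw [← hy]
  exact y.2

variable [FiniteDimensional E F] [Algebra.IsSeparable E F]

theorem chart_finiteType {x : E} (hx : IntermediateField.adjoin k {x} = ⊤) :
    Algebra.FiniteType k (chart (k := k) F x) := by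
  haveI : Module.Finite (kz k x) (integralClosure (kz k x) F) := chart_finite hx
  haveI : Algebra.FiniteType k (kz k x) :=
    (Subalgebra.fg_iff_finiteType _).mp ⟨{x}, by simp⟩
  haveI : Algebra.FiniteType (kz k x) (integralClosure (kz k x) F) := inferInstance
  letI : Algebra (kz k x) (chart (k := k) F x) :=
    (inferInstance : Algebra (kz k x) (integralClosure (kz k x) F))
  haveI : IsScalarTower k (kz k x) (chart (k := k) F x) := by
    apply IsScalarTower.of_algebraMap_eq
    intro a
    apply Subtype.ext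
    change algebraMap k F a = algebraMap E F (algebraMap k E a)
    rw [← IsScalarTower.algebraMap_apply]
  haveI : Algebra.FiniteType (kz k x) (chart (k := k) F x) :=
    (inferInstance : Algebra.FiniteType (kz k x) (integralClosure (kz k x) F))
  exact Algebra.FiniteType.trans (S := kz k x) ‹_› ‹_›

theorem exists_eps [IsAlgClosed k] {x : E} (hx0 : x ≠ 0)
    (hx : IntermediateField.adjoin k {x} = ⊤)
    (V : ValuationSubring F) (hk : ∀ a : k, algebraMap k F a ∈ V)
    (hxV : ∃ h : algebraMap E F x ∈ V, (⟨_, h⟩ : V) ∈ IsLocalRing.maximalIdeal V) :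
    ∃ ε : chart (k := k) F x →ₐ[k] k, ∀ b : chart (k := k) F x,
      ∃ h : (b : F) - algebraMap k F (ε b) ∈ V, (⟨_, h⟩ : V) ∈ IsLocalRing.maximalIdeal V := by
  obtain ⟨hxV, hxm⟩ := hxV
  have hle : ∀ b : chart (k := k) F x, (b : F) ∈ V := fun b =>
    chart_le_valuation V hk hxV b b.2
  let i : chart (k := k) F x →+* V := (chart (k := k) F x).val.toRingHom.codRestrict V.toSubring hle
  let 𝔫 : Ideal (chart (k := k) F x) := (IsLocalRing.maximalIdeal V).comap i
  haveI h𝔫p : 𝔫.IsPrime := Ideal.IsPrime.comap i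
  haveI : IsDedekindDomain (chart (k := k) F x) := chart_isDedekind hx
  have h𝔫0 : 𝔫 ≠ ⊥ := by
    intro h
    have h1 : (⟨algebraMap E F x, self_mem_chart x⟩ : chart (k := k) F x) ∈ 𝔫 := hxm
    rw [h, Ideal.mem_bot] at h1
    have h2 : algebraMap E F x = 0 := congrArg Subtype.val h1
    exact hx0 ((map_eq_zero _).mp h2)
  haveI h𝔫m : 𝔫.IsMaximal := h𝔫p.isMaximal h𝔫0
  haveI := chart_finiteType (F := F) hx
  obtain ⟨ε, hε⟩ := Fermat.Agent.Jac.exists_algHom_of_isMaximal (k := k) 𝔫
  refine ⟨ε, fun b => ?_⟩
  have h1 : b - algebraMap k (chart (k := k) F x) (ε b) ∈ 𝔫 := by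
    rw [← hε, RingHom.mem_ker, map_sub, AlgHom.commutes]
    simp
  exact ⟨hle (b - algebraMap k (chart (k := k) F x) (ε b)), h1⟩

end Fermat.Agent.AbVar.CurveAux
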