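import Mathlib

/-!
# S26-B1: extension of rational maps from normal curves to proper schemes
-/

set_option autoImplicit false
set_option linter.style.haveILetI false
universe u
open CategoryTheory CategoryTheory.Limits AlgebraicGeometry

namespace Fermat.Agent.AbVar.CurveAux

variable {X Y S : Scheme.{u}}

theorem stalkSpecializes_fromSpecStalkOfMem [IrreducibleSpace X] (U : X.Opens) (x : X)
    (hx : x ∈ U) :
    Spec.map (X.presheaf.stalkSpecializes (genericPoint_specializes x)) ≫
      U.fromSpecStalkOfMem x hx = U.fromSpecStalkOfMem (genericPoint X)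
        ((genericPoint_specializes x).mem_open U.isOpen hx) := by
  rw [← cancel_mono U.ι]
  simp

/-- the existence part of the valuative criterion -/
theorem exists_val_lift (sY : Y ⟶ S) [IsProper sY] {R K : Type u} [CommRing R] [IsDomain R]
    [ValuationRing R] [Field K] [Algebra R K] [IsFractionRing R K] (i₁ : Spec (.of K) ⟶ Y)
    (i₂ : Spec (.of R) ⟶ S)
    (h : i₁ ≫ sY = Spec.map (CommRingCat.ofHom (algebraMap R K)) ≫ i₂) :
    ∃ l : Spec (.of R) ⟶ Y, Spec.map (CommRingCat.ofHom (algebraMap R K)) ≫ l = i₁ ∧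
      l ≫ sY = i₂ := by
  have hval : ValuativeCriterion sY := by
    have h := IsProper.eq_valuativeCriterion.{u}
    have h' : (@IsProper.{u}) sY := inferInstance
    rw [h] at h'
    exact h'.1.1.1
  let sq : ValuativeCommSq sY :=
    { R := R
      K := K
      i₁ := i₁
      i₂ := i₂
      commSq := ⟨h⟩ }
  obtain ⟨⟨l, hl1, hl2⟩⟩ := (CommSq.HasLift.iff sq.commSq).mp (hval.existence sq)
  exact ⟨l, hl1, hl2⟩

theorem exists_val_lift' (sY : Y ⟶ S) [IsProper sY] {R K : CommRingCat.{u}} (φ : R ⟶ K)
    (hR : IsDomain R) (hV : ValuationRing R) (hK : IsField K)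
    (hφ : @IsFractionRing R _ K _ φ.hom.toAlgebra) (i₁ : Spec K ⟶ Y) (i₂ : Spec R ⟶ S)
    (h : i₁ ≫ sY = Spec.map φ ≫ i₂) :
    ∃ l : Spec R ⟶ Y, Spec.map φ ≫ l = i₁ ∧ l ≫ sY = i₂ := by
  letI : Field K := hK.toField
  letI : Algebra R K := φ.hom.toAlgebra
  haveI : IsFractionRing R K := hφ
  exact exists_val_lift (R := R) (K := K) sY i₁ i₂ h

theorem exists_partialMap [IsIntegral X] (sX : X ⟶ S) (sY : Y ⟶ S) [IsProper sY]
    (x : X) (hx : ValuationRing (X.presheaf.stalk x))
    (ξ : Spec X.functionField ⟶ Y) (hξ : ξ ≫ sY = X.fromSpecStalk (genericPoint X) ≫ sX) :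
    ∃ f : X.PartialMap Y, x ∈ f.domain ∧ f.fromFunctionField = ξ := by
  obtain ⟨l, hl1, hl2⟩ : ∃ l : Spec (X.presheaf.stalk x) ⟶ Y,
      Spec.map (X.presheaf.stalkSpecializes (genericPoint_specializes x)) ≫ l = ξ ∧
      l ≫ sY = X.fromSpecStalk x ≫ sX := by
    have h0 : ξ ≫ sY = Spec.map (X.presheaf.stalkSpecializes (genericPoint_specializes x)) ≫
        X.fromSpecStalk x ≫ sX := by
      rw [hξ, Scheme.SpecMap_stalkSpecializes_fromSpecStalk_assoc]
    have hfr : @IsFractionRing (X.presheaf.stalk x) _ X.functionField _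
        (X.presheaf.stalkSpecializes (genericPoint_specializes x)).hom.toAlgebra :=
      (inferInstance : IsFractionRing (X.presheaf.stalk x) X.functionField)
    exact exists_val_lift' sY _ inferInstance hx (Field.toIsField X.functionField) hfr ξ
      (X.fromSpecStalk x ≫ sX) h0
  refine ⟨Scheme.PartialMap.ofFromSpecStalk sX sY l hl2,
    Scheme.PartialMap.mem_domain_ofFromSpecStalk sX sY l hl2, ?_⟩
  have h1 := Scheme.PartialMap.fromSpecStalkOfMem_ofFromSpecStalk sX sY l hl2
  rw [← hl1]
  conv_rhs => rw [← h1]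
  simp only [Scheme.PartialMap.fromSpecStalkOfMem, Scheme.PartialMap.fromFunctionField]
  rw [← Category.assoc, stalkSpecializes_fromSpecStalkOfMem]

theorem exists_extension [IsIntegral X] [Y.IsSeparated] (sX : X ⟶ S) (sY : Y ⟶ S) [IsProper sY]
    (hX : ∀ x : X, ValuationRing (X.presheaf.stalk x))
    (ξ : Spec X.functionField ⟶ Y) (hξ : ξ ≫ sY = X.fromSpecStalk (genericPoint X) ≫ sX) :
    ∃ j : X ⟶ Y, X.fromSpecStalk (genericPoint X) ≫ j = ξ := by
  choose f hf hf' using fun x => exists_partialMap sX sY x (hX x) ξ hξ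
  let r : X ⤏ Y := (f (genericPoint X)).toRationalMap
  have hr : ∀ x, (f x).toRationalMap = r := fun x =>
    Scheme.RationalMap.eq_of_fromFunctionField_eq _ _ (by
      change (f x).fromFunctionField = (f (genericPoint X)).fromFunctionField
      rw [hf', hf'])
  have hdom : r.domain = ⊤ := by
    rw [eq_top_iff]
    intro x _
    rw [Scheme.RationalMap.mem_domain]
    exact ⟨f x, hf x, hr x⟩
  let g : X.PartialMap Y := r.toPartialMap
  have hg : g.domain = ⊤ := hdom
  have hg' : g.toRationalMap = r := Scheme.RationalMap.toRationalMap_toPartialMap r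
  refine ⟨(Scheme.topIso X).inv ≫ (X.isoOfEq hg).inv ≫ g.hom, ?_⟩
  have h1 : g.fromFunctionField = ξ := by
    have : g.toRationalMap.fromFunctionField = r.fromFunctionField := by rw [hg']
    rw [← hf' (genericPoint X)]
    exact this
  rw [← h1]
  simp only [Scheme.PartialMap.fromFunctionField, Scheme.PartialMap.fromSpecStalkOfMem,
    ← Category.assoc]
  congr 1
  rw [← cancel_mono g.domain.ι]
  simp

theorem valuationRing_of_dedekind (B : Type u) [CommRing B] [IsDedekindDomain B]
    (P : Ideal B) [P.IsPrime] (R : Type u) [CommRing R] [IsDomain R] [Algebra B R]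
    [IsLocalization.AtPrime R P] : ValuationRing R := by
  by_cases hP : P = ⊥
  · subst hP
    have h1 : IsFractionRing B R := by
      have h2 : (⊥ : Ideal B).primeCompl = nonZeroDivisors B := by
        ext x
        simp [Ideal.primeCompl, mem_nonZeroDivisors_iff_ne_zero]
      have h3 : IsLocalization (⊥ : Ideal B).primeCompl R := inferInstance
      rw [h2] at h3
      exact h3
    letI : Field R := IsFractionRing.toField B
    exact (inferInstance : ValuationRing R)
  · haveI := IsLocalization.AtPrime.isDiscreteValuationRing_of_dedekind_domain B hP R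
    infer_instance

/-- the canonical map to the stalk -/
noncomputable def toSt (R : CommRingCat.{u}) (x : Spec R) : R ⟶ (Spec R).presheaf.stalk x :=
  (Scheme.ΓSpecIso R).inv ≫ (Spec R).presheaf.germ ⊤ x trivial

theorem exists_iso_functionField (R : CommRingCat.{u}) [IsDomain R] (F : Type u)
    [Field F] [Algebra R F] [IsFractionRing R F] :
    ∃ a : (Spec R).functionField ≅ CommRingCat.of F,
      toSt R (genericPoint (Spec R)) ≫ a.hom = CommRingCat.ofHom (algebraMap R F) := by
  let e := IsLocalization.algEquiv (nonZeroDivisors R) (Spec R).functionField F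
  refine ⟨e.toRingEquiv.toCommRingCatIso, ?_⟩
  ext r
  exact e.commutes r

theorem valuationRing_stalk (R : CommRingCat.{u}) [IsDedekindDomain R] (x : Spec R) :
    ValuationRing ((Spec R).presheaf.stalk x) := by
  let y : PrimeSpectrum R := x
  haveI : y.asIdeal.IsPrime := y.isPrime
  haveI : IsDomain ((Spec.structureSheaf R).presheaf.stalk y) :=
    (inferInstance : IsDomain ((Spec R).presheaf.stalk x))
  exact (valuationRing_of_dedekind R y.asIdeal ((Spec.structureSheaf R).presheaf.stalk y))

theorem exists_extension_cr (R : CommRingCat.{u}) [IsDedekindDomain R] (F : Type u)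
    [Field F] [Algebra R F] [IsFractionRing R F] (sY : Y ⟶ S) [IsProper sY] [Y.IsSeparated]
    (s : Spec R ⟶ S) (ξ : Spec (.of F) ⟶ Y)
    (hξ : ξ ≫ sY = Spec.map (CommRingCat.ofHom (algebraMap R F)) ≫ s) :
    ∃ j : Spec R ⟶ Y, Spec.map (CommRingCat.ofHom (algebraMap R F)) ≫ j = ξ := by
  obtain ⟨a, ha⟩ := exists_iso_functionField R F
  have h1 : (Spec R).fromSpecStalk (genericPoint (Spec R)) =
      Spec.map (toSt R (genericPoint (Spec R))) :=
    Spec.fromSpecStalk_eq _ _
  rw [← ha] at hξ ⊢
  have hinv : Spec.map a.inv ≫ Spec.map a.hom = 𝟙 _ := by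
    rw [← Spec.map_comp, a.hom_inv_id, Spec.map_id]
  have hinv' : Spec.map a.hom ≫ Spec.map a.inv = 𝟙 _ := by
    rw [← Spec.map_comp, a.inv_hom_id, Spec.map_id]
  obtain ⟨j, hj⟩ := exists_extension (X := Spec R) s sY (valuationRing_stalk R)
    (Spec.map a.inv ≫ ξ) (by
      rw [Category.assoc, hξ, h1, Spec.map_comp, Category.assoc, reassoc_of% hinv])
  refine ⟨j, ?_⟩
  rw [Spec.map_comp, Category.assoc, ← h1, hj, reassoc_of% hinv']

/-- Extension over the spectrum of a Dedekind domain. -/
theorem exists_extension_spec (B F : Type u) [CommRing B] [IsDedekindDomain B]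
    [Field F] [Algebra B F] [IsFractionRing B F] (sY : Y ⟶ S) [IsProper sY] [Y.IsSeparated]
    (s : Spec (.of B) ⟶ S) (ξ : Spec (.of F) ⟶ Y)
    (hξ : ξ ≫ sY = Spec.map (CommRingCat.ofHom (algebraMap B F)) ≫ s) :
    ∃ j : Spec (.of B) ⟶ Y, Spec.map (CommRingCat.ofHom (algebraMap B F)) ≫ j = ξ := by
  haveI : IsDedekindDomain (CommRingCat.of B) := inferInstanceAs (IsDedekindDomain B)
  letI : Algebra (CommRingCat.of B) F := inferInstanceAs (Algebra B F)
  haveI : IsFractionRing (CommRingCat.of B) F := inferInstanceAs (IsFractionRing B F)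
  exact exists_extension_cr (CommRingCat.of B) F sY s ξ hξ

end Fermat.Agent.AbVar.CurveAux
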