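import Mathlib

/-!
# S26-B1: two field valued points which agree on a valuation ring
-/

set_option autoImplicit false
set_option linter.style.haveILetI false
universe u
open CategoryTheory CategoryTheory.Limits AlgebraicGeometry

namespace Fermat.Agent.AbVar.CurveAux

theorem isDominant_SpecMap_of_injective {R S : Type u} [CommRing R] [CommRing S] (φ : R →+* S)
    (hφ : Function.Injective φ) : IsDominant (Spec.map (CommRingCat.ofHom φ)) := by
  constructor
  change DenseRange (PrimeSpectrum.comap φ)
  rw [PrimeSpectrum.denseRange_comap_iff_ker_le_nilRadical, (RingHom.injective_iff_ker_eq_bot φ).mp hφ]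
  exact bot_le

theorem epi_SpecMap_field {k κ : Type u} [Field k] [Field κ] (φ : k →+* κ) :
    Epi (Spec.map (CommRingCat.ofHom φ)) := by
  haveI : Flat (Spec.map (CommRingCat.ofHom φ)) := by
    rw [Flat.SpecMap_iff]
    change φ.Flat
    letI := φ.toAlgebra
    exact (inferInstance : Module.Flat k κ)
  haveI : Surjective (Spec.map (CommRingCat.ofHom φ)) := by
    constructor
    intro y
    exact ⟨IsLocalRing.closedPoint κ, Subsingleton.elim (α := PrimeSpectrum k) _ _⟩
  exact Flat.epi_of_flat_of_surjective _

theorem point_eq {K k F : Type u} [Field K] [Field k] [Field F] [Algebra K k] [Algebra k F]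
    {A : Scheme.{u}} [A.IsSeparated] (o : Spec (.of K) ⟶ A) (V : ValuationSubring F)
    (hk : ∀ a : k, algebraMap k F a ∈ V) (B₀ : Type u) [CommRing B₀] (i : B₀ →+* V)
    (ε : B₀ →+* k)
    (hε : ∀ b, i b - ⟨algebraMap k F (ε b), hk _⟩ ∈ IsLocalRing.maximalIdeal V)
    (j₀ : Spec (.of B₀) ⟶ A) (B : Type u) [CommRing B] (s : Spec (.of B) ⟶ A) (c : B →+* V)
    (e : B →+* K)
    (he : ∀ b, c b - ⟨algebraMap k F (algebraMap K k (e b)), hk _⟩ ∈ IsLocalRing.maximalIdeal V)
    (ho : Spec.map (CommRingCat.ofHom e) ≫ s = o)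
    (hgen : Spec.map (CommRingCat.ofHom ((algebraMap V F).comp i)) ≫ j₀ =
      Spec.map (CommRingCat.ofHom ((algebraMap V F).comp c)) ≫ s) :
    Spec.map (CommRingCat.ofHom ε) ≫ j₀ = Spec.map (CommRingCat.ofHom (algebraMap K k)) ≫ o := by
  -- the two morphisms from the spectrum of the valuation ring agree
  have h1 : Spec.map (CommRingCat.ofHom i) ≫ j₀ = Spec.map (CommRingCat.ofHom c) ≫ s := by
    haveI : IsDominant (Spec.map (CommRingCat.ofHom (algebraMap V F))) :=
      isDominant_SpecMap_of_injective _ (IsFractionRing.injective V F)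
    apply ext_of_isDominant (Spec.map (CommRingCat.ofHom (algebraMap V F)))
    rw [← Category.assoc, ← Category.assoc, ← Spec.map_comp, ← Spec.map_comp,
      ← CommRingCat.ofHom_comp, ← CommRingCat.ofHom_comp]
    exact hgen
  let kV : k →+* V := (algebraMap k F).codRestrict V.toSubring hk
  let r : V →+* IsLocalRing.ResidueField V := IsLocalRing.residue V
  let φ : k →+* IsLocalRing.ResidueField V := r.comp kV
  have h2 : r.comp i = φ.comp ε := by
    ext b
    have := hε b
    rw [← IsLocalRing.residue_eq_zero_iff, map_sub, sub_eq_zero] at this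
    exact this
  have h3 : r.comp c = φ.comp ((algebraMap K k).comp e) := by
    ext b
    have := he b
    rw [← IsLocalRing.residue_eq_zero_iff, map_sub, sub_eq_zero] at this
    exact this
  haveI := epi_SpecMap_field φ
  rw [← cancel_epi (Spec.map (CommRingCat.ofHom φ)), ← ho, ← Category.assoc, ← Category.assoc,
    ← Category.assoc, ← Spec.map_comp, ← Spec.map_comp, ← Spec.map_comp, ← CommRingCat.ofHom_comp,
    ← CommRingCat.ofHom_comp, ← CommRingCat.ofHom_comp, ← h2]
  have h4 : (φ.comp (algebraMap K k)).comp e = r.comp c := by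
    rw [RingHom.comp_assoc, h3]
  rw [h4, CommRingCat.ofHom_comp, CommRingCat.ofHom_comp, Spec.map_comp, Spec.map_comp,
    Category.assoc, Category.assoc, h1]

end Fermat.Agent.AbVar.CurveAux
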