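import Fermat.Agent.AbVar.Base
import Fermat.Agent.AbVar.Chart

/-!
# S26-B1: scheme lemmas for the curve through the origin
-/

set_option autoImplicit false
set_option linter.style.haveILetI false
universe u
open CategoryTheory CategoryTheory.Limits AlgebraicGeometry

namespace Fermat.Agent.AbVar.CurveAux

variable {X : Scheme.{u}} {K : Type u} [Field K]

/-- the restriction of the structure morphism to the spectrum of a stalk -/
theorem fromSpecStalk_comp_eq {R : Type u} [CommRing R] (f : X ⟶ Spec (.of R)) (x : X) :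
    X.fromSpecStalk x ≫ f = Spec.map (CommRingCat.ofHom (kStalk f x)) := by
  have h1 : f = X.toSpecΓ ≫ Spec.map ((Scheme.ΓSpecIso (.of R)).inv ≫ f.appTop) := by
    rw [Spec.map_comp, ← Category.assoc, ← Scheme.toSpecΓ_naturality, Category.assoc]
    have h2 : (Spec (.of R)).toSpecΓ ≫ Spec.map (Scheme.ΓSpecIso (.of R)).inv = 𝟙 _ := by
      rw [← SpecMap_ΓSpecIso_hom, ← Spec.map_comp, Iso.inv_hom_id, Spec.map_id]
    rw [h2, Category.comp_id]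
  conv_lhs => rw [h1]
  rw [← Category.assoc, Scheme.fromSpecStalk_toSpecΓ, ← Spec.map_comp]
  simp only [kStalk, Category.assoc, CommRingCat.ofHom_hom]

/-- evaluation of functions on an affine open at a point of it with values in a field -/
noncomputable def evPt (o : Spec (.of K) ⟶ X) (V : X.Opens) (h : ⊤ ≤ o ⁻¹ᵁ V) : Γ(X, V) →+* K :=
  (o.appLE V ⊤ h ≫ (Scheme.ΓSpecIso (.of K)).hom).hom

theorem SpecMap_evPt (o : Spec (.of K) ⟶ X) (V : X.Opens) (hV : IsAffineOpen V)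
    (h : ⊤ ≤ o ⁻¹ᵁ V) : Spec.map (CommRingCat.ofHom (evPt o V h)) ≫ hV.fromSpec = o := by
  rw [evPt, CommRingCat.ofHom_hom, Spec.map_comp, Category.assoc,
    IsAffineOpen.SpecMap_appLE_fromSpec o hV (isAffineOpen_top _) h, IsAffineOpen.fromSpec_top,
    ← Category.assoc]
  convert Category.id_comp o using 2
  rw [Scheme.isoSpec_Spec_inv, ← Spec.map_comp, Iso.inv_hom_id, Spec.map_id]

theorem appLE_top_of_eq_id {Y : Scheme.{u}} (g : Y ⟶ Y) (hg : g = 𝟙 _)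
    (e : (⊤ : Y.Opens) ≤ g ⁻¹ᵁ ⊤) : g.appLE ⊤ ⊤ e = 𝟙 _ := by
  subst hg
  simp only [Scheme.Hom.appLE, Scheme.Hom.id_app, Category.id_comp]
  exact Y.presheaf.map_id _

theorem appTop_appLE {Y Z : Scheme.{u}} (o : Y ⟶ X) (f : X ⟶ Z) (e : (⊤ : Y.Opens) ≤ o ⁻¹ᵁ ⊤)
    (e' : (⊤ : Y.Opens) ≤ (o ≫ f) ⁻¹ᵁ ⊤) :
    f.appTop ≫ o.appLE ⊤ ⊤ e = (o ≫ f).appLE ⊤ ⊤ e' := by
  rw [Scheme.Hom.comp_appLE]
  rfl

theorem evPt_kSec (o : Spec (.of K) ⟶ X) (f : X ⟶ Spec (.of K)) (ho : o ≫ f = 𝟙 _) (V : X.Opens)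
    (h : ⊤ ≤ o ⁻¹ᵁ V) (a : K) : evPt o V h (kSec f V a) = a := by
  have h2 : f.appTop ≫ o.appLE ⊤ ⊤ (show ⊤ ≤ o ⁻¹ᵁ ⊤ from le_rfl) = 𝟙 _ := by
    rw [appTop_appLE o f _ (show ⊤ ≤ (o ≫ f) ⁻¹ᵁ ⊤ from le_rfl), appLE_top_of_eq_id (o ≫ f) ho]
  have h1 : CommRingCat.ofHom (kSec f V) ≫ CommRingCat.ofHom (evPt o V h) = 𝟙 _ := by
    rw [evPt, kSec, CommRingCat.ofHom_hom, CommRingCat.ofHom_hom]
    simp only [Category.assoc, Scheme.Hom.map_appLE_assoc]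
    rw [reassoc_of% h2]
    simp
  have h3 := congrArg (fun φ => φ.hom a) h1
  exact h3

end Fermat.Agent.AbVar.CurveAux
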