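import Fermat.Agent.AbVar.CurveField
import Fermat.Agent.AbVar.CurveEps
import Fermat.Agent.AbVar.CurveExt
import Fermat.Agent.AbVar.CurvePt
import Fermat.Agent.AbVar.CurveGlue

/-!
# S26-B1: a curve through the origin and the generic point
-/

set_option autoImplicit false
set_option linter.style.haveILetI false
universe u
open CategoryTheory CategoryTheory.Limits AlgebraicGeometry NeronModelInfra GoodReductionJacobian

namespace Fermat.Agent.AbVar

namespace CurveAux

/-- translation of the coordinates -/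
noncomputable def shift {K : Type u} [Field K] {n : ℕ} (c : Fin n → K) :
    MvPolynomial (Fin n) K ≃ₐ[K] MvPolynomial (Fin n) K :=
  AlgEquiv.ofAlgHom
    (MvPolynomial.aeval fun i => MvPolynomial.X i - MvPolynomial.C (c i))
    (MvPolynomial.aeval fun i => MvPolynomial.X i + MvPolynomial.C (c i))
    (by
      apply MvPolynomial.algHom_ext
      intro i
      simp [MvPolynomial.algHom_C])
    (by
      apply MvPolynomial.algHom_ext
      intro i
      simp [MvPolynomial.algHom_C])

theorem shift_X {K : Type u} [Field K] {n : ℕ} (c : Fin n → K) (i : Fin n) :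
    shift c (MvPolynomial.X i) = MvPolynomial.X i - MvPolynomial.C (c i) := by
  simp [shift]

/-- étale coordinates at a rational point -/
theorem exists_coords {X : Scheme.{u}} {K : Type u} [Field K] (f : X ⟶ Spec (.of K)) (n : ℕ)
    [SmoothOfRelativeDimension n f] (o : Spec (.of K) ⟶ X) (ho : o ≫ f = 𝟙 _) :
    ∃ (V : X.Opens) (_ : IsAffineOpen V) (h : ⊤ ≤ o ⁻¹ᵁ V)
      (g : MvPolynomial (Fin n) K →+* Γ(X, V)),
      g.comp MvPolynomial.C = kSec f V ∧ g.Etale ∧
        ∀ i, evPt o V h (g (MvPolynomial.X i)) = 0 := by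
  obtain ⟨V, hV, hx, g, hg, hge⟩ := exists_chart_dim f n (o (IsLocalRing.closedPoint K))
  have h : ⊤ ≤ o ⁻¹ᵁ V := by
    intro y _
    have hy : y = IsLocalRing.closedPoint K := Subsingleton.elim (α := PrimeSpectrum K) _ _
    rw [hy]
    exact hx
  let c : Fin n → K := fun i => evPt o V h (g (MvPolynomial.X i))
  have hgC : ∀ a, g (MvPolynomial.C a) = kSec f V a := fun a => DFunLike.congr_fun hg a
  refine ⟨V, hV, h, g.comp (shift c : MvPolynomial (Fin n) K →+* MvPolynomial (Fin n) K), ?_, ?_,
    ?_⟩
  · ext a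
    rw [RingHom.comp_apply, RingHom.comp_apply, ← hgC]
    congr 1
    exact (shift c).commutes a
  · exact RingHom.Etale.respectsIso.2 g (shift c).toRingEquiv hge
  · intro i
    change evPt o V h (g (shift c (MvPolynomial.X i))) = 0
    rw [shift_X, map_sub, map_sub, hgC, evPt_kSec o f ho]
    exact sub_self _

/-- the germ map to the function field as an algebra structure and the constants -/
theorem germ_kSec {A : Scheme.{u}} [IsIntegral A] {K : Type u} [Field K] (f : A ⟶ Spec (.of K))
    (V : A.Opens) (hV : genericPoint A ∈ V) (a : K) :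
    (A.presheaf.germ V (genericPoint A) hV).hom (kSec f V a) = kStalk f (genericPoint A) a := by
  have h : CommRingCat.ofHom (kSec f V) ≫ A.presheaf.germ V (genericPoint A) hV =
      CommRingCat.ofHom (kStalk f (genericPoint A)) := by
    rw [kSec, kStalk, CommRingCat.ofHom_hom, CommRingCat.ofHom_hom]
    simp only [Category.assoc]
    congr 2
    exact A.presheaf.germ_res (homOfLE le_top) _ _
  exact congrArg (fun φ => φ.hom a) h

end CurveAux

open CurveAux

/-- B1: a curve through the origin and the generic point -/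
theorem exists_curve {K : Type u} [Field K] [IsAlgClosed K] {A : Scheme.{u}} [IsIntegral A]
    (f : A ⟶ Spec (.of K)) (g : ℕ) (hg : 1 ≤ g) [SmoothOfRelativeDimension g f] [IsProper f]
    (o : Spec (.of K) ⟶ A) (ho : o ≫ f = 𝟙 _) :
    ∃ (k F : Type u) (_ : Field k) (_ : IsAlgClosed k) (_ : Algebra K k) (_ : Field F)
      (_ : Algebra k F) (_ : Algebra K F) (_ : IsScalarTower K k F)
      (B₀ B₁ : Subalgebra k F) (x : F) (_ : IsCurvePair B₀ B₁ x)
      (ξ : Spec (.of F) ⟶ A) (_ : ξ ≫ f = Spec.map (CommRingCat.ofHom (algebraMap K F)))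
      (_ : ξ (IsLocalRing.closedPoint F) = genericPoint A)
      (j₀ : Spec (.of B₀) ⟶ A) (_ : Spec.map (CommRingCat.ofHom (algebraMap B₀ F)) ≫ j₀ = ξ)
      (j₁ : Spec (.of B₁) ⟶ A) (_ : Spec.map (CommRingCat.ofHom (algebraMap B₁ F)) ≫ j₁ = ξ)
      (ε : B₀ →ₐ[k] k), Spec.map (CommRingCat.ofHom (ε : B₀ →+* k)) ≫ j₀ =
        Spec.map (CommRingCat.ofHom (algebraMap K k)) ≫ o := by
  obtain ⟨n, rfl⟩ : ∃ n, g = n + 1 := ⟨g - 1, by omega⟩
  obtain ⟨V, hV, hoV, γ, hγC, hγ, hγ0⟩ := exists_coords f (n + 1) o ho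
  haveI hne : Nonempty V := ⟨⟨o (IsLocalRing.closedPoint K), hoV trivial⟩⟩
  haveI : A.IsSeparated := by
    rw [Scheme.isSeparated_iff, ← Limits.terminal.comp_from f]
    infer_instance
  have hgV : genericPoint A ∈ V :=
    ((genericPoint_spec A).mem_open_set_iff V.isOpen).mpr (by
      obtain ⟨⟨y, hy⟩⟩ := hne
      exact ⟨y, trivial, hy⟩)
  -- algebra structures
  letI aPB : Algebra (MvPolynomial (Fin (n + 1)) K) Γ(A, V) := γ.toAlgebra
  letI aKB : Algebra K Γ(A, V) := (kSec f V).toAlgebra
  haveI tKPB : IsScalarTower K (MvPolynomial (Fin (n + 1)) K) Γ(A, V) :=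
    IsScalarTower.of_algebraMap_eq' hγC.symm
  haveI : IsFractionRing Γ(A, V) A.functionField := functionField_isFractionRing_of_isAffineOpen A V hV
  letI aPF : Algebra (MvPolynomial (Fin (n + 1)) K) A.functionField :=
    ((algebraMap Γ(A, V) A.functionField).comp γ).toAlgebra
  haveI tPBF : IsScalarTower (MvPolynomial (Fin (n + 1)) K) Γ(A, V) A.functionField :=
    IsScalarTower.of_algebraMap_eq' rfl
  letI aKF : Algebra K A.functionField :=
    ((algebraMap Γ(A, V) A.functionField).comp (kSec f V)).toAlgebra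
  haveI tKBF : IsScalarTower K Γ(A, V) A.functionField :=
    IsScalarTower.of_algebraMap_eq' rfl
  haveI : Algebra.Etale (MvPolynomial (Fin (n + 1)) K) Γ(A, V) := hγ
  let e : Γ(A, V) →ₐ[K] K :=
    { evPt o V hoV with
      commutes' := fun a => evPt_kSec o f ho V hoV a }
  obtain ⟨k, E, F', _, _, _, _, _, _, _, _, _, _, _, _, _, ι, hι, x, hx, hx', V', hV'k, hV'B, hV'x⟩ :=
    exists_field_data (n := n) K Γ(A, V) A.functionField e (fun i => hγ0 i)
  have hx0 : x ≠ 0 := by
    rintro rfl
    exact hx isAlgebraic_zero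
  have hxi : IntermediateField.adjoin k {x⁻¹} = ⊤ := by
    rw [eq_top_iff, ← hx', IntermediateField.adjoin_simple_le_iff]
    have : x⁻¹ ∈ IntermediateField.adjoin k {x⁻¹} := IntermediateField.mem_adjoin_simple_self k _
    simpa using inv_mem this
  -- the generic point
  let ι' : A.functionField ⟶ CommRingCat.of F' := CommRingCat.ofHom ι
  let ξ : Spec (.of F') ⟶ A := Spec.map ι' ≫ A.fromSpecStalk (genericPoint A)
  have hξf : ξ ≫ f = Spec.map (CommRingCat.ofHom (algebraMap K F')) := by
    have h1 : CommRingCat.ofHom (kStalk f (genericPoint A)) ≫ ι' =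
        CommRingCat.ofHom (algebraMap K F') := by
      ext a
      change ι (kStalk f (genericPoint A) a) = algebraMap K F' a
      rw [← hι a, ← germ_kSec f V hgV a]
      rfl
    change (Spec.map ι' ≫ A.fromSpecStalk (genericPoint A)) ≫ f = _
    rw [Category.assoc, fromSpecStalk_comp_eq, ← Spec.map_comp, h1]
  have hξpt : ξ (IsLocalRing.closedPoint F') = genericPoint A := by
    change A.fromSpecStalk (genericPoint A) (Spec.map ι' (IsLocalRing.closedPoint F')) = _
    have h1 : Spec.map ι' (IsLocalRing.closedPoint F') =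
        IsLocalRing.closedPoint (A.presheaf.stalk (genericPoint A)) :=
      Subsingleton.elim (α := PrimeSpectrum A.functionField) _ _
    rw [h1]
    exact Scheme.fromSpecStalk_closedPoint
  -- the charts
  have hext : ∀ y : E, IntermediateField.adjoin k {y} = ⊤ →
      ∃ j : Spec (.of (chart (k := k) F' y)) ⟶ A,
        Spec.map (CommRingCat.ofHom (algebraMap (chart (k := k) F' y) F')) ≫ j = ξ := by
    intro y hy
    haveI := chart_isDedekind (F := F') hy
    haveI := chart_isFractionRing (F := F') hy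
    refine exists_extension_spec (chart (k := k) F' y) F' f
      (Spec.map (CommRingCat.ofHom ((algebraMap k (chart (k := k) F' y)).comp (algebraMap K k))))
      ξ ?_
    rw [hξf, ← Spec.map_comp, ← CommRingCat.ofHom_comp]
    congr 2
    exact IsScalarTower.algebraMap_eq K k F'
  obtain ⟨j₀, hj₀⟩ := hext x hx'
  obtain ⟨j₁, hj₁⟩ := hext x⁻¹ hxi
  obtain ⟨ε, hε⟩ := exists_eps (F := F') hx0 hx' V' hV'k hV'x
  refine ⟨k, F', inferInstance, inferInstance, inferInstance, inferInstance, inferInstance,
    inferInstance, inferInstance, chart (k := k) F' x, chart (k := k) F' x⁻¹, algebraMap E F' x,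
    isCurvePair_chart hx hx', ξ, hξf, hξpt, j₀, hj₀, j₁, hj₁, ε, ?_⟩
  -- the point below the valuation ring
  have hle : ∀ b : chart (k := k) F' x, (b : F') ∈ V' := fun b =>
    chart_le_valuation V' hV'k hV'x.1 b b.2
  let i : chart (k := k) F' x →+* V' :=
    (algebraMap (chart (k := k) F' x) F').codRestrict V'.toSubring hle
  have hcV : ∀ b : Γ(A, V), ι (algebraMap Γ(A, V) A.functionField b) ∈ V' := fun b =>
    (hV'B b).1
  let c : Γ(A, V) →+* V' :=
    (ι.comp (algebraMap Γ(A, V) A.functionField)).codRestrict V'.toSubring hcV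
  refine point_eq o V' hV'k (chart (k := k) F' x) i (ε : chart (k := k) F' x →+* k)
    (fun b => (hε b).2) j₀ Γ(A, V) hV.fromSpec c (evPt o V hoV) (fun b => ?_)
    (SpecMap_evPt o V hV hoV) ?_
  · have h1 : e (b - algebraMap K Γ(A, V) (e b)) = 0 := by
      rw [map_sub, AlgHom.commutes]
      exact sub_self _
    obtain ⟨h2, h3⟩ := hV'B (b - algebraMap K Γ(A, V) (e b))
    have h4 := h3 h1
    convert h4 using 1
    apply Subtype.ext
    change ι (algebraMap Γ(A, V) A.functionField b) -
      algebraMap k F' (algebraMap K k (e b)) =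
        ι (algebraMap Γ(A, V) A.functionField (b - algebraMap K Γ(A, V) (e b)))
    rw [map_sub, map_sub]
    congr 1
    rw [← IsScalarTower.algebraMap_apply K k F', ← hι]
    rfl
  · have h1 : (algebraMap V' F').comp i = algebraMap (chart (k := k) F' x) F' := rfl
    have h2 : CommRingCat.ofHom ((algebraMap V' F').comp c) =
        A.presheaf.germ V (genericPoint A) hgV ≫ ι' := rfl
    rw [h1, hj₀, h2, Spec.map_comp, Category.assoc]
    change Spec.map ι' ≫ A.fromSpecStalk (genericPoint A) = _
    congr 1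
    exact (hV.fromSpecStalk_eq_fromSpecStalk hgV).symm

end Fermat.Agent.AbVar
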