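import Mathlib

/-!
# S26-B1: the valuation ring attached to the blow-up of a point with étale coordinates
-/

set_option autoImplicit false

namespace Fermat.Agent.AbVar.CurveAux

open MvPolynomial

section Trunc

variable {K : Type*} [Field K] {n : ℕ} {B : Type*} [CommRing B] [Algebra K B]
  [Algebra (MvPolynomial (Fin n) K) B] [IsScalarTower K (MvPolynomial (Fin n) K) B]

/-- the ideal of the origin -/
theorem sub_C_mem (p : MvPolynomial (Fin n) K) :
    p - C (constantCoeff p) ∈ idealOfVars (Fin n) K := by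
  rw [← pow_one (idealOfVars (Fin n) K), mem_pow_idealOfVars_iff']
  intro x hx
  have hx0 : x = 0 := by
    rw [Nat.lt_one_iff] at hx
    exact (Finsupp.degree_eq_zero_iff x).mp hx
  subst hx0
  simp [constantCoeff]

theorem eval_eq (e : B →ₐ[K] K)
    (he : ∀ i, e (algebraMap (MvPolynomial (Fin n) K) B (X i)) = 0) (p : MvPolynomial (Fin n) K) :
    e (algebraMap (MvPolynomial (Fin n) K) B p) = constantCoeff p := by
  have h : (e.comp (IsScalarTower.toAlgHom K (MvPolynomial (Fin n) K) B)) =
      (⟨constantCoeff, fun r => by simp [algebraMap_eq]⟩ : MvPolynomial (Fin n) K →ₐ[K] K) := by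
    apply MvPolynomial.algHom_ext
    intro i
    simp [he, IsScalarTower.toAlgHom]
  exact DFunLike.congr_fun h p

theorem map_mem_pow {R S : Type*} [CommRing R] [CommRing S] (f : R →+* S) {I : Ideal R}
    {J : Ideal S} (h : ∀ b ∈ I, f b ∈ J) (m : ℕ) {b : R} (hb : b ∈ I ^ m) : f b ∈ J ^ m := by
  have h1 : I ≤ J.comap f := h
  have h2 := Ideal.pow_right_mono h1 m hb
  exact Ideal.le_comap_pow (K := J) f m h2

/-- If the value at `t` of a homogeneous polynomial of degree `N` lies in `m ^ (N+1)`, the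
polynomial is zero. -/
theorem eq_zero_of_mem_pow [Algebra.FormallySmooth (MvPolynomial (Fin n) K) B] (e : B →ₐ[K] K)
    (he : ∀ i, e (algebraMap (MvPolynomial (Fin n) K) B (X i)) = 0)
    {N : ℕ} {G : MvPolynomial (Fin n) K} (hG : G.IsHomogeneous N)
    (h : algebraMap (MvPolynomial (Fin n) K) B G ∈ (RingHom.ker e) ^ (N + 1)) : G = 0 := by
  let P := MvPolynomial (Fin n) K
  let mP : Ideal P := idealOfVars (Fin n) K
  -- the point with values in `P / mP`
  let e' : B →ₐ[P] P ⧸ mP :=
    { toRingHom := (algebraMap K (P ⧸ mP)).comp (e : B →+* K)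
      commutes' := fun p => by
        change algebraMap K (P ⧸ mP) (e (algebraMap P B p)) = Ideal.Quotient.mk mP p
        rw [eval_eq e he p]
        change Ideal.Quotient.mk mP (C (constantCoeff p)) = Ideal.Quotient.mk mP p
        rw [eq_comm, Ideal.Quotient.eq]
        exact sub_C_mem p }
  have hle : mP ^ (N + 1) ≤ mP := Ideal.pow_le_self (Nat.succ_ne_zero N)
  let π : P ⧸ mP ^ (N + 1) →ₐ[P] P ⧸ mP := Ideal.Quotient.factorₐ P hle
  have hπ : Function.Surjective π := Ideal.Quotient.factor_surjective hle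
  have hker : RingHom.ker (π : P ⧸ mP ^ (N + 1) →+* P ⧸ mP) =
      mP.map (Ideal.Quotient.mk (mP ^ (N + 1))) := by
    ext z
    obtain ⟨p, rfl⟩ := Ideal.Quotient.mk_surjective z
    rw [RingHom.mem_ker]
    change Ideal.Quotient.mk mP p = 0 ↔ _
    rw [Ideal.Quotient.eq_zero_iff_mem, Ideal.mem_map_iff_of_surjective _
      Ideal.Quotient.mk_surjective]
    constructor
    · intro hp
      exact ⟨p, hp, rfl⟩
    · rintro ⟨p', hp', hpp⟩
      rw [Ideal.Quotient.eq] at hpp
      have := Ideal.sub_mem _ hp' (hle hpp)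
      simpa using this
  have hnil : mP.map (Ideal.Quotient.mk (mP ^ (N + 1))) ^ (N + 1) = ⊥ := by
    rw [← Ideal.map_pow, Ideal.map_quotient_self]
  have hnil' : IsNilpotent (RingHom.ker (π : P ⧸ mP ^ (N + 1) →+* P ⧸ mP)) := by
    rw [hker]
    exact ⟨N + 1, hnil⟩
  let φ : B →ₐ[P] P ⧸ mP ^ (N + 1) := Algebra.FormallySmooth.liftOfSurjective e' π hπ hnil'
  have hφ : ∀ b, π (φ b) = e' b := fun b =>
    Algebra.FormallySmooth.liftOfSurjective_apply e' π hπ hnil' b
  have h1 : ∀ b ∈ RingHom.ker e, (φ : B →+* P ⧸ mP ^ (N + 1)) b ∈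
      mP.map (Ideal.Quotient.mk (mP ^ (N + 1))) := by
    intro b hb
    rw [← hker, RingHom.mem_ker]
    have h0 : π (φ b) = e' b := hφ b
    have h00 : e' b = 0 := by
      change algebraMap K (P ⧸ mP) (e b) = 0
      rw [show e b = 0 from hb, map_zero]
    rw [h00] at h0
    exact h0
  have h2 : φ (algebraMap P B G) = 0 := by
    have h4 := map_mem_pow (φ : B →+* P ⧸ mP ^ (N + 1)) h1 (N + 1) h
    rw [hnil] at h4
    exact (Ideal.mem_bot.mp h4 :)
  rw [φ.commutes] at h2
  have h5 : G ∈ mP ^ (N + 1) := Ideal.Quotient.eq_zero_iff_mem.mp h2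
  change G ∈ idealOfVars (Fin n) K ^ (N + 1) at h5
  rw [mem_pow_idealOfVars_iff'] at h5
  ext x
  rw [coeff_zero]
  by_contra hx
  have h6 : x.degree = N := by
    by_contra h6
    exact hx (hG.coeff_eq_zero h6)
  exact hx (h5 x (by omega))

end Trunc

section Blowup

variable {K : Type*} [Field K] {n : ℕ} {B : Type*} [CommRing B] [Algebra K B]
  [Algebra (MvPolynomial (Fin (n + 1)) K) B] [IsScalarTower K (MvPolynomial (Fin (n + 1)) K) B]
  {F : Type*} [Field F] [Algebra B F]

/-- étale coordinates -/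
noncomputable def tc (K B : Type*) [Field K] [CommRing B] {n : ℕ}
    [Algebra (MvPolynomial (Fin (n + 1)) K) B] (i : Fin (n + 1)) : B :=
  algebraMap (MvPolynomial (Fin (n + 1)) K) B (X i)

/-- slopes in the fraction field -/
noncomputable def uc (K B F : Type*) [Field K] [CommRing B] {n : ℕ}
    [Algebra (MvPolynomial (Fin (n + 1)) K) B] [Field F] [Algebra B F] (i : Fin n) : F :=
  algebraMap B F (tc K B i.succ) / algebraMap B F (tc K B (0 : Fin (n + 1)))

variable (K B F) in
/-- evaluation at the slopes -/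
noncomputable def evc : MvPolynomial (Fin n) B →+* F :=
  eval₂Hom (algebraMap B F) (uc K B F)

theorem tc_zero_ne [Algebra.FormallySmooth (MvPolynomial (Fin (n + 1)) K) B] (e : B →ₐ[K] K)
    (he : ∀ i : Fin (n + 1), e (tc K B i) = 0) (i : Fin (n + 1)) : tc K B i ≠ 0 := by
  intro h
  have h1 : (X i : MvPolynomial (Fin (n + 1)) K) = 0 := by
    refine eq_zero_of_mem_pow (N := 1) e he (isHomogeneous_X K i) ?_
    change tc K B i ∈ _
    rw [h]
    exact Ideal.zero_mem _
  exact X_ne_zero i h1

/-- exponents of the homogenisation -/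
noncomputable def hexp (N : ℕ) (α : Fin n →₀ ℕ) : Fin (n + 1) →₀ ℕ :=
  Finsupp.cons (N - α.degree) α

theorem hexp_injective (N : ℕ) : Function.Injective (hexp (n := n) N) := by
  intro α β h
  have h1 : (hexp N α).tail = (hexp N β).tail := by rw [h]
  simpa [hexp] using h1

theorem degree_hexp {N : ℕ} {α : Fin n →₀ ℕ} (h : α.degree ≤ N) : (hexp N α).degree = N := by
  rw [Finsupp.degree_eq_sum, Fin.sum_univ_succ]
  simp only [hexp, Finsupp.cons_zero, Finsupp.cons_succ]
  rw [Finsupp.degree_eq_sum] at *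
  omega

omit [Algebra K B] [IsScalarTower K (MvPolynomial (Fin (n + 1)) K) B] in
theorem aux_monomial (N : ℕ) {α : Fin n →₀ ℕ} (h : α.degree ≤ N)
    (h0 : algebraMap B F (tc K B (0 : Fin (n + 1))) ≠ 0) :
    algebraMap B F (algebraMap (MvPolynomial (Fin (n + 1)) K) B (monomial (hexp N α) 1)) =
      algebraMap B F (tc K B (0 : Fin (n + 1))) ^ N * ∏ i, uc K B F i ^ (α i) := by
  rw [monomial_eq, Finsupp.prod_fintype _ _ (fun i => pow_zero _), Fin.prod_univ_succ]
  simp only [hexp, Finsupp.cons_zero, Finsupp.cons_succ, C_1, one_mul, map_mul, map_pow, map_prod]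
  change algebraMap B F (tc K B 0) ^ _ * ∏ i : Fin n, algebraMap B F (tc K B i.succ) ^ (α i) = _
  have h1 : ∀ i : Fin n, algebraMap B F (tc K B i.succ) ^ (α i) =
      algebraMap B F (tc K B (0 : Fin (n + 1))) ^ (α i) * uc K B F i ^ (α i) := by
    intro i
    rw [← mul_pow]
    congr 1
    rw [uc]
    field_simp
  rw [Finset.prod_congr rfl (fun i _ => h1 i), Finset.prod_mul_distrib, ← mul_assoc,
    Finset.prod_pow_eq_pow_sum, ← pow_add]
  congr 2
  rw [Finsupp.degree_eq_sum] at *
  omega

omit [IsScalarTower K (MvPolynomial (Fin (n + 1)) K) B] in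
theorem monomial_mem (e : B →ₐ[K] K) (he : ∀ i : Fin (n + 1), e (tc K B i) = 0)
    (N : ℕ) {α : Fin n →₀ ℕ} (h : α.degree ≤ N) :
    algebraMap (MvPolynomial (Fin (n + 1)) K) B (monomial (hexp N α) 1) ∈
      (RingHom.ker e) ^ N := by
  rw [monomial_eq, Finsupp.prod_fintype _ _ (fun i => pow_zero _)]
  simp only [C_1, one_mul, map_prod, map_pow]
  have h2 : ∏ i, algebraMap (MvPolynomial (Fin (n + 1)) K) B (X i) ^ (hexp N α i) ∈
      ∏ i : Fin (n + 1), (RingHom.ker e) ^ (hexp N α i) :=
    Ideal.prod_mem_prod fun i _ => Ideal.pow_mem_pow (he i) _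
  rw [Finset.prod_pow_eq_pow_sum, ← Finsupp.degree_eq_sum, degree_hexp h] at h2
  exact h2

/-- A relation between the slopes is trivial modulo the maximal ideal. -/
theorem red_eq_zero [Algebra.FormallySmooth (MvPolynomial (Fin (n + 1)) K) B] (e : B →ₐ[K] K)
    (he : ∀ i : Fin (n + 1), e (tc K B i) = 0) (hinj : Function.Injective (algebraMap B F))
    {p : MvPolynomial (Fin n) B} (hp : evc K B F p = 0) : MvPolynomial.map (e : B →+* K) p = 0 := by
  classical
  set N := p.totalDegree with hN
  have h0 : algebraMap B F (tc K B (0 : Fin (n + 1))) ≠ 0 := by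
    rw [Ne, map_eq_zero_iff _ hinj]
    exact tc_zero_ne e he 0
  have hdeg : ∀ α ∈ p.support, α.degree ≤ N := fun α hα => by
    have := le_totalDegree hα
    rwa [Finsupp.sum_fintype _ _ (fun _ => rfl), ← Finsupp.degree_eq_sum] at this
  set G : MvPolynomial (Fin (n + 1)) K := ∑ α ∈ p.support, C (e (p.coeff α)) *
    monomial (hexp N α) 1 with hGdef
  have hGhom : G.IsHomogeneous N := by
    refine IsHomogeneous.sum _ _ _ fun α hα => ?_
    rw [C_mul_monomial]
    exact isHomogeneous_monomial _ (degree_hexp (hdeg α hα))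
  -- the corresponding combination with coefficients in `B` is zero
  have hH : ∑ α ∈ p.support, p.coeff α *
      algebraMap (MvPolynomial (Fin (n + 1)) K) B (monomial (hexp N α) 1) = 0 := by
    apply hinj
    rw [map_sum, map_zero]
    have h3 : ∀ α ∈ p.support, algebraMap B F (p.coeff α *
        algebraMap (MvPolynomial (Fin (n + 1)) K) B (monomial (hexp N α) 1)) =
        algebraMap B F (tc K B (0 : Fin (n + 1))) ^ N *
          (algebraMap B F (p.coeff α) * ∏ i, uc K B F i ^ (α i)) := by
      intro α hα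
      rw [map_mul, aux_monomial N (hdeg α hα) h0]
      ring
    rw [Finset.sum_congr rfl h3, ← Finset.mul_sum]
    have h4 : evc K B F p = ∑ α ∈ p.support, algebraMap B F (p.coeff α) *
        ∏ i, uc K B F i ^ (α i) := by
      rw [evc, coe_eval₂Hom, eval₂_eq']
    rw [← h4, hp, mul_zero]
  have hmem : algebraMap (MvPolynomial (Fin (n + 1)) K) B G ∈ (RingHom.ker e) ^ (N + 1) := by
    have h5 : algebraMap (MvPolynomial (Fin (n + 1)) K) B G = ∑ α ∈ p.support,
        (algebraMap K B (e (p.coeff α)) - p.coeff α) *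
          algebraMap (MvPolynomial (Fin (n + 1)) K) B (monomial (hexp N α) 1) := by
      rw [← sub_zero (algebraMap (MvPolynomial (Fin (n + 1)) K) B G), ← hH, hGdef, map_sum,
        ← Finset.sum_sub_distrib]
      refine Finset.sum_congr rfl fun α _ => ?_
      rw [map_mul, sub_mul]
      congr 2
      rw [← MvPolynomial.algebraMap_eq, ← IsScalarTower.algebraMap_apply]
    rw [h5, pow_succ']
    refine Ideal.sum_mem _ fun α hα => Ideal.mul_mem_mul ?_ (monomial_mem e he N (hdeg α hα))
    rw [RingHom.mem_ker, map_sub, AlgHom.commutes]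
    simp
  have hG0 : G = 0 := eq_zero_of_mem_pow e he hGhom hmem
  ext α
  rw [coeff_map, coeff_zero]
  by_cases hα : α ∈ p.support
  · have h6 : coeff (hexp N α) G = e (p.coeff α) := by
      rw [hGdef, coeff_sum]
      rw [Finset.sum_eq_single α]
      · rw [C_mul_monomial, coeff_monomial, if_pos rfl, mul_one]
      · intro β _ hβ
        rw [C_mul_monomial, coeff_monomial, if_neg]
        intro h
        exact hβ (hexp_injective N h)
      · intro h
        exact absurd hα h
    change e (p.coeff α) = 0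
    rw [← h6, hG0, coeff_zero]
  · rw [notMem_support_iff] at hα
    rw [hα, map_zero]

end Blowup

end Fermat.Agent.AbVar.CurveAux
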