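import Mathlib

/-! Projective curves presented by two affine charts (definition of helper26, file by helper80). -/

set_option autoImplicit false

namespace Fermat.Agent.AbVar

/-- a projective curve over `k` presented by two affine charts over `k[x]` and `k[1/x]`. -/
structure IsCurvePair {k F : Type*} [Field k] [Field F] [Algebra k F] (B₀ B₁ : Subalgebra k F)
    (x : F) : Prop where
  transcendental : Transcendental k x
  mem₀ : x ∈ B₀
  mem₁ : x⁻¹ ∈ B₁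
  fin₀ : ∃ S : Finset F, (Subalgebra.toSubmodule B₀ : Submodule k F) =
    Submodule.span k {y | ∃ n : ℕ, ∃ b ∈ S, y = x ^ n * b}
  fin₁ : ∃ S : Finset F, (Subalgebra.toSubmodule B₁ : Submodule k F) =
    Submodule.span k {y | ∃ n : ℕ, ∃ b ∈ S, y = x⁻¹ ^ n * b}
  loc₀ : ∀ b ∈ B₀, ∃ n : ℕ, x⁻¹ ^ n * b ∈ B₁
  loc₁ : ∀ b ∈ B₁, ∃ n : ℕ, x ^ n * b ∈ B₀
  frac : ∀ y : F, ∃ a ∈ B₀, ∃ b ∈ B₀, b ≠ 0 ∧ y = a / b

end Fermat.Agent.AbVar
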