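import Mathlib
import Fermat.Agent.AbVar.CurvePair

/-!
# S26-B1: the two affine charts of the curve attached to a function field
-/

set_option autoImplicit false
set_option linter.style.haveILetI false
set_option linter.unusedSectionVars false
universe u

namespace Fermat.Agent.AbVar.CurveAux

section Base

variable {k E : Type*} [Field k] [Field E] [Algebra k E]

/-- `k[z]` -/
abbrev kz (k : Type*) {E : Type*} [Field k] [Field E] [Algebra k E] (z : E) : Subalgebra k E :=
  Algebra.adjoin k {z}

theorem kz_isPrincipalIdealRing (z : E) : IsPrincipalIdealRing (kz k z) := by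
  have hz : z ∈ kz k z := Algebra.subset_adjoin rfl
  have hsurj : Function.Surjective (Polynomial.aeval (⟨z, hz⟩ : kz k z) : Polynomial k →ₐ[k] kz k z) := by
    rintro ⟨a, ha⟩
    have h1 : a ∈ Algebra.adjoin k {z} := ha
    rw [Algebra.adjoin_singleton_eq_range_aeval] at h1
    obtain ⟨p, hp⟩ := h1
    refine ⟨p, Subtype.ext ?_⟩
    change (kz k z).val (Polynomial.aeval (⟨z, hz⟩ : kz k z) p) = a
    rw [← Polynomial.aeval_algHom_apply, ← hp]
    rfl
  exact IsPrincipalIdealRing.of_surjective
    (Polynomial.aeval (⟨z, hz⟩ : kz k z) : Polynomial k →ₐ[k] kz k z) hsurj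

theorem kz_isFractionRing {z : E} (hz : IntermediateField.adjoin k {z} = ⊤) :
    IsFractionRing (kz k z) E := by
  apply IsFractionRing.of_field
  intro y
  have hy : y ∈ IntermediateField.adjoin k {z} := by
    rw [hz]
    trivial
  rw [IntermediateField.mem_adjoin_iff_div] at hy
  obtain ⟨r, hr, s, hs, rfl⟩ := hy
  exact ⟨⟨r, hr⟩, ⟨s, hs⟩, rfl⟩

theorem exists_pow_mul_mem {z : E} (hz : z ≠ 0) {a : E} (ha : a ∈ kz k z) :
    ∃ N : ℕ, ∀ n, N ≤ n → z⁻¹ ^ n * a ∈ kz k z⁻¹ := by
  have hmem : z⁻¹ ∈ kz k z⁻¹ := Algebra.subset_adjoin rfl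
  induction ha using Algebra.adjoin_induction with
  | mem y hy =>
    rw [Set.mem_singleton_iff] at hy
    subst hy
    refine ⟨1, fun n hn => ?_⟩
    obtain ⟨m, rfl⟩ := Nat.exists_eq_add_of_le' hn
    rw [pow_succ, mul_assoc, inv_mul_cancel₀ hz, mul_one]
    exact pow_mem hmem m
  | algebraMap r =>
    exact ⟨0, fun n _ => mul_mem (pow_mem hmem n) (Subalgebra.algebraMap_mem _ r)⟩
  | add a b _ _ ha hb =>
    obtain ⟨N, hN⟩ := ha
    obtain ⟨M, hM⟩ := hb
    refine ⟨max N M, fun n hn => ?_⟩
    rw [mul_add]
    exact add_mem (hN n (le_trans (le_max_left _ _) hn)) (hM n (le_trans (le_max_right _ _) hn))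
  | mul a b _ _ ha hb =>
    obtain ⟨N, hN⟩ := ha
    obtain ⟨M, hM⟩ := hb
    refine ⟨N + M, fun n hn => ?_⟩
    obtain ⟨m, rfl⟩ := Nat.exists_eq_add_of_le hn
    have h1 : z⁻¹ ^ (N + M + m) * (a * b) = (z⁻¹ ^ N * a) * (z⁻¹ ^ (M + m) * b) := by
      rw [add_assoc, pow_add]
      ring
    rw [h1]
    exact mul_mem (hN N le_rfl) (hM _ (Nat.le_add_right _ _))

end Base

section Chart

variable {k E F : Type*} [Field k] [Field E] [Field F] [Algebra k E] [Algebra E F] [Algebra k F]
  [IsScalarTower k E F]

/-- the integral closure of `k[z]` in `F`. -/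
def chart (F : Type*) {k E : Type*} [Field k] [Field E] [Field F] [Algebra k E] [Algebra E F]
    [Algebra k F] [IsScalarTower k E F] (z : E) : Subalgebra k F :=
  (integralClosure (kz k z) F).restrictScalars k

theorem mem_chart {z : E} {b : F} : b ∈ chart (k := k) F z ↔ IsIntegral (kz k z) b := Iff.rfl

theorem self_mem_chart (z : E) : algebraMap E F z ∈ chart (k := k) F z := by
  rw [mem_chart]
  exact isIntegral_algebraMap (R := kz k z) (A := F)
    (x := (⟨z, Algebra.subset_adjoin rfl⟩ : kz k z))

theorem exists_pow_mul_mem_chart {z : E} (hz : z ≠ 0) {b : F} (hb : b ∈ chart (k := k) F z) :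
    ∃ n : ℕ, algebraMap E F z⁻¹ ^ n * b ∈ chart (k := k) F z⁻¹ := by
  classical
  obtain ⟨p, hp, hpb⟩ := hb
  set P : Polynomial E := p.map (algebraMap (kz k z) E) with hP
  have hPm : P.Monic := hp.map _
  have hcoef : ∀ i, ∃ N : ℕ, ∀ n, N ≤ n → z⁻¹ ^ n * P.coeff i ∈ kz k z⁻¹ := by
    intro i
    rw [hP, Polynomial.coeff_map]
    exact exists_pow_mul_mem hz (p.coeff i).2
  choose N hN using hcoef
  set n := (Finset.range (P.natDegree + 1)).sup N with hn
  have hle : ∀ i ≤ P.natDegree, N i ≤ n := fun i hi =>
    Finset.le_sup (f := N) (Finset.mem_range.mpr (Nat.lt_succ_of_le hi))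
  have hmem : z⁻¹ ∈ kz k z⁻¹ := Algebra.subset_adjoin rfl
  have hlift : P.scaleRoots (z⁻¹ ^ n) ∈ Polynomial.lifts (algebraMap (kz k z⁻¹) E) := by
    rw [Polynomial.lifts_iff_coeff_lifts]
    intro i
    rw [Polynomial.coeff_scaleRoots]
    rcases lt_trichotomy i P.natDegree with hi | hi | hi
    · obtain ⟨m, hm⟩ := Nat.exists_eq_add_of_lt hi
      refine ⟨⟨(z⁻¹ ^ n) ^ m * (z⁻¹ ^ n * P.coeff i), ?_⟩, ?_⟩
      · exact mul_mem (pow_mem (pow_mem hmem _) _) (hN i n (hle i hi.le))
      · change (z⁻¹ ^ n) ^ m * (z⁻¹ ^ n * P.coeff i) = _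
        rw [hm, show i + m + 1 - i = m + 1 by omega, pow_succ]
        ring
    · refine ⟨1, ?_⟩
      rw [hi, hPm.coeff_natDegree, Nat.sub_self, pow_zero, one_mul, map_one]
    · refine ⟨0, ?_⟩
      rw [Polynomial.coeff_eq_zero_of_natDegree_lt hi, zero_mul, map_zero]
  obtain ⟨q, hq, _, hqm⟩ := Polynomial.lifts_and_natDegree_eq_and_monic hlift
    ((Polynomial.monic_scaleRoots_iff _).mpr hPm)
  refine ⟨n, ?_⟩
  rw [mem_chart]
  refine ⟨q, hqm, ?_⟩
  have h1 : Polynomial.eval₂ (algebraMap (kz k z⁻¹) F) (algebraMap E F z⁻¹ ^ n * b) q =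
      Polynomial.eval₂ (algebraMap E F) (algebraMap E F z⁻¹ ^ n * b) (P.scaleRoots (z⁻¹ ^ n)) := by
    rw [← hq, Polynomial.eval₂_map]
    rfl
  rw [h1, ← map_pow]
  apply Polynomial.scaleRoots_eval₂_eq_zero
  rw [hP, Polynomial.eval₂_map]
  exact hpb

variable [FiniteDimensional E F] [Algebra.IsSeparable E F]

theorem chart_isDedekind {z : E} (hz : IntermediateField.adjoin k {z} = ⊤) :
    IsDedekindDomain (chart (k := k) F z) := by
  haveI := kz_isPrincipalIdealRing (k := k) z
  haveI := kz_isFractionRing hz
  exact (integralClosure.isDedekindDomain (kz k z) E F :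
    IsDedekindDomain (integralClosure (kz k z) F))

theorem chart_isFractionRing {z : E} (hz : IntermediateField.adjoin k {z} = ⊤) :
    IsFractionRing (chart (k := k) F z) F := by
  haveI := kz_isFractionRing hz
  exact (integralClosure.isFractionRing_of_finite_extension E F :
    IsFractionRing (integralClosure (kz k z) F) F)

theorem chart_finite {z : E} (hz : IntermediateField.adjoin k {z} = ⊤) :
    Module.Finite (kz k z) (integralClosure (kz k z) F) := by
  haveI := kz_isPrincipalIdealRing (k := k) z
  haveI := kz_isFractionRing hz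
  exact IsIntegralClosure.finite (kz k z) E F (integralClosure (kz k z) F)

theorem chart_span {z : E} (hz : IntermediateField.adjoin k {z} = ⊤) :
    ∃ S : Finset F, (Subalgebra.toSubmodule (chart (k := k) F z) : Submodule k F) =
      Submodule.span k {y | ∃ n : ℕ, ∃ b ∈ S, y = (algebraMap E F z) ^ n * b} := by
  classical
  obtain ⟨T, hT⟩ := (chart_finite (F := F) hz).fg_top
  let S : Finset F := T.image (algebraMap (integralClosure (kz k z) F) F)
  have hS : ∀ b ∈ S, b ∈ chart (k := k) F z := by
    intro b hb
    obtain ⟨t, _, rfl⟩ := Finset.mem_image.mp hb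
    exact t.2
  refine ⟨S, le_antisymm ?_ ?_⟩
  · intro y hy
    have hy' : (⟨y, hy⟩ : integralClosure (kz k z) F) ∈ Submodule.span (kz k z) (T : Set _) := by
      rw [hT]
      trivial
    have key : ∀ w : integralClosure (kz k z) F, w ∈ Submodule.span (kz k z) (T : Set _) →
        (w : F) ∈ Submodule.span k {y | ∃ n : ℕ, ∃ b ∈ S, y = (algebraMap E F z) ^ n * b} := by
      intro w hw
      induction hw using Submodule.span_induction with
      | mem w hw =>
        exact Submodule.subset_span ⟨0, w, Finset.mem_image.mpr ⟨w, hw, rfl⟩, by simp⟩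
      | zero => exact zero_mem _
      | add w w' _ _ h h' => exact add_mem h h'
      | smul a w _ h =>
        obtain ⟨a, ha⟩ := a
        have h2 : ∀ a ∈ kz k z, ∀ w ∈ Submodule.span k
            {y | ∃ n : ℕ, ∃ b ∈ S, y = (algebraMap E F z) ^ n * b}, algebraMap E F a * w ∈
            Submodule.span k {y | ∃ n : ℕ, ∃ b ∈ S, y = (algebraMap E F z) ^ n * b} := by
          intro a ha
          induction ha using Algebra.adjoin_induction with
          | mem y hy =>
            rw [Set.mem_singleton_iff] at hy
            subst hy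
            intro w hw
            induction hw using Submodule.span_induction with
            | mem w hw =>
              obtain ⟨n, b, hb, rfl⟩ := hw
              exact Submodule.subset_span ⟨n + 1, b, hb, by ring⟩
            | zero =>
              rw [mul_zero]
              exact zero_mem _
            | add w w' _ _ h h' =>
              rw [mul_add]
              exact add_mem h h'
            | smul c w _ h =>
              rw [mul_smul_comm]
              exact Submodule.smul_mem _ _ h
          | algebraMap r =>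
            intro w hw
            rw [← IsScalarTower.algebraMap_apply, ← Algebra.smul_def]
            exact Submodule.smul_mem _ _ hw
          | add a b _ _ ha hb =>
            intro w hw
            rw [map_add, add_mul]
            exact add_mem (ha w hw) (hb w hw)
          | mul a b _ _ ha hb =>
            intro w hw
            rw [map_mul, mul_assoc]
            exact ha _ (hb w hw)
        have h3 : (((⟨a, ha⟩ : kz k z) • w : integralClosure (kz k z) F) : F) =
            algebraMap E F a * (w : F) := by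
          change (⟨a, ha⟩ : kz k z) • (w : F) = _
          rw [Algebra.smul_def]
          rfl
        rw [h3]
        exact h2 a ha _ h
    exact key _ hy'
  · rw [Submodule.span_le]
    rintro _ ⟨n, b, hb, rfl⟩
    have h1 : algebraMap E F z ^ n * b ∈ chart (k := k) F z :=
      mul_mem (pow_mem (self_mem_chart z) n) (hS b hb)
    exact h1

theorem isCurvePair_chart {x : E} (htr : Transcendental k x)
    (hx : IntermediateField.adjoin k {x} = ⊤) :
    IsCurvePair (chart (k := k) F x) (chart (k := k) F x⁻¹) (algebraMap E F x) := by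
  have hx0 : x ≠ 0 := by
    rintro rfl
    exact htr isAlgebraic_zero
  have hx' : IntermediateField.adjoin k {x⁻¹} = ⊤ := by
    rw [eq_top_iff, ← hx, IntermediateField.adjoin_simple_le_iff]
    have : x⁻¹ ∈ IntermediateField.adjoin k {x⁻¹} := IntermediateField.mem_adjoin_simple_self k _
    simpa using inv_mem this
  refine ⟨?_, self_mem_chart x, ?_, chart_span hx, ?_, ?_, ?_, ?_⟩
  · intro h
    apply htr
    exact (isAlgebraic_algebraMap_iff (algebraMap E F).injective).mp h
  · rw [← map_inv₀]
    exact self_mem_chart x⁻¹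
  · rw [← map_inv₀]
    exact chart_span hx'
  · intro b hb
    rw [← map_inv₀]
    exact exists_pow_mul_mem_chart hx0 hb
  · intro b hb
    have := exists_pow_mul_mem_chart (inv_ne_zero hx0) hb
    rwa [inv_inv] at this
  · intro y
    haveI := chart_isFractionRing (F := F) hx
    obtain ⟨a, b, hb, rfl⟩ := IsFractionRing.div_surjective (A := chart (k := k) F x) y
    refine ⟨a, a.2, b, b.2, ?_, rfl⟩
    have := nonZeroDivisors.ne_zero hb
    intro h
    exact this (Subtype.ext h)

end Chart

end Fermat.Agent.AbVar.CurveAux
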