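import Fermat.Agent.AbVar.CurveAlg

/-!
# S26-B1: the function field of the curve and its valuation ring
-/

set_option autoImplicit false
set_option linter.style.haveILetI false
set_option linter.unusedSectionVars false
universe u

namespace Fermat.Agent.AbVar.CurveAux

open MvPolynomial

/-- a valuation ring dominating the local ring of a prime -/
theorem exists_dominating {S Ω : Type*} [CommRing S] [Field Ω] (ev : S →+* Ω) (Q : Ideal S)
    [Q.IsPrime] (hQ : RingHom.ker ev ≤ Q) : ∃ V : ValuationSubring Ω, (∀ s, ev s ∈ V) ∧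
      (∀ s, s ∈ Q → V.valuation (ev s) < 1) ∧ (∀ s, s ∉ Q → V.valuation (ev s) = 1) := by
  have hu : ∀ y : Q.primeCompl, IsUnit (ev y) := fun y => by
    rw [isUnit_iff_ne_zero]
    intro h
    exact y.2 (hQ h)
  let f : Localization.AtPrime Q →+* Ω := IsLocalization.lift hu
  have hf : ∀ s, f (algebraMap S _ s) = ev s := fun s => IsLocalization.lift_eq hu s
  obtain ⟨A, h, hloc⟩ := IsLocalRing.exists_factor_valuationRing f
  have hA : ∀ s, ev s ∈ A := fun s => hf s ▸ h _
  have heq : ∀ s, (f.codRestrict A.toSubring h) (algebraMap S _ s) = (⟨ev s, hA s⟩ : A) :=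
    fun s => Subtype.ext (hf s)
  refine ⟨A, hA, fun s hs => ?_, fun s hs => ?_⟩
  · have h1 : ¬ IsUnit (algebraMap S (Localization.AtPrime Q) s) := by
      rw [IsLocalization.AtPrime.isUnit_to_map_iff (Localization.AtPrime Q) Q]
      exact fun h => h hs
    have h3 : (⟨ev s, hA s⟩ : A) ∈ IsLocalRing.maximalIdeal A := by
      rw [IsLocalRing.mem_maximalIdeal]
      intro h4
      rw [← heq s] at h4
      exact h1 (hloc.map_nonunit _ h4)
    exact (A.valuation_lt_one_iff _).mp h3
  · have h1 : IsUnit (algebraMap S (Localization.AtPrime Q) s) := by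
      rw [IsLocalization.AtPrime.isUnit_to_map_iff (Localization.AtPrime Q) Q]
      exact hs
    have h2 : IsUnit ((f.codRestrict A.toSubring h) (algebraMap S _ s)) := h1.map _
    have h3 : IsUnit (⟨ev s, hA s⟩ : A) := by
      rw [← heq s]
      exact h2
    exact (A.valuation_eq_one_iff _).mp h3

theorem separable_finite (n : ℕ) (K B F L : Type u) [Field K] [CommRing B] [IsDomain B]
    [Algebra (MvPolynomial (Fin n) K) B] [Algebra.Etale (MvPolynomial (Fin n) K) B] [Field F]
    [Algebra B F] [IsFractionRing B F] [Algebra (MvPolynomial (Fin n) K) F]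
    [IsScalarTower (MvPolynomial (Fin n) K) B F] [Field L] [Algebra (MvPolynomial (Fin n) K) L]
    [IsFractionRing (MvPolynomial (Fin n) K) L] [Algebra L F]
    [IsScalarTower (MvPolynomial (Fin n) K) L F] :
    Algebra.IsSeparable L F ∧ Module.Finite L F := by
  haveI : Algebra.FormallyEtale B F := Algebra.FormallyEtale.of_isLocalization (nonZeroDivisors B)
  haveI : Algebra.FormallyEtale (MvPolynomial (Fin n) K) F :=
    Algebra.FormallyEtale.comp (MvPolynomial (Fin n) K) B F
  haveI : Algebra.FormallyEtale L F :=
    Algebra.FormallyEtale.localization_base (nonZeroDivisors (MvPolynomial (Fin n) K))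
  haveI : Algebra.EssFiniteType B F := Algebra.EssFiniteType.of_isLocalization F (nonZeroDivisors B)
  haveI : Algebra.EssFiniteType (MvPolynomial (Fin n) K) F :=
    Algebra.EssFiniteType.comp (MvPolynomial (Fin n) K) B F
  haveI : Algebra.EssFiniteType L F := Algebra.EssFiniteType.of_comp (MvPolynomial (Fin n) K) L F
  exact ⟨Algebra.FormallyUnramified.isSeparable L F,
    Algebra.FormallyUnramified.finite_of_free (R := L) (S := F)⟩

theorem injective_P (n : ℕ) (K B : Type u) [Field K] [CommRing B] [IsDomain B]
    [Algebra (MvPolynomial (Fin n) K) B] [Algebra.Etale (MvPolynomial (Fin n) K) B] :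
    Function.Injective (algebraMap (MvPolynomial (Fin n) K) B) := by
  haveI : Module.Flat (MvPolynomial (Fin n) K) B := inferInstance
  exact FaithfulSMul.algebraMap_injective _ _

section Main

variable {n : ℕ} (K B F : Type u) [Field K] [CommRing B] [IsDomain B] [Algebra K B]
    [Algebra (MvPolynomial (Fin (n + 1)) K) B] [IsScalarTower K (MvPolynomial (Fin (n + 1)) K) B]
    [Field F] [Algebra B F] [IsFractionRing B F]
    [Algebra (MvPolynomial (Fin (n + 1)) K) F] [IsScalarTower (MvPolynomial (Fin (n + 1)) K) B F]
    [Algebra K F] [IsScalarTower K B F]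

/-- slopes in the algebraic closure -/
noncomputable def ucl (i : Fin n) : AlgebraicClosure F :=
  algebraMap F (AlgebraicClosure F) (uc K B F i)

/-- the field generated by the slopes -/
noncomputable abbrev k1 : IntermediateField K (AlgebraicClosure F) :=
  IntermediateField.adjoin K (Set.range (ucl (n := n) K B F))

/-- its algebraic closure -/
noncomputable abbrev kk : IntermediateField (k1 (n := n) K B F) (AlgebraicClosure F) :=
  algebraicClosure (k1 (n := n) K B F) (AlgebraicClosure F)

instance : IsAlgClosed (kk (n := n) K B F) :=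
  IsAlgClosure.isAlgClosed (k1 (n := n) K B F)

theorem map_evc_map (h : MvPolynomial (Fin n) K) :
    algebraMap F (AlgebraicClosure F) (evc K B F (MvPolynomial.map (algebraMap K B) h)) =
      MvPolynomial.aeval (ucl (n := n) K B F) h := by
  rw [evc, coe_eval₂Hom, eval₂_map, MvPolynomial.aeval_def, hom_eval₂]
  congr 1
  rw [← IsScalarTower.algebraMap_eq K B F, ← IsScalarTower.algebraMap_eq]

/-- the first coordinate in the algebraic closure -/
noncomputable def xcl : AlgebraicClosure F :=
  algebraMap F (AlgebraicClosure F) (algebraMap B F (tc K B (0 : Fin (n + 1))))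

/-- the rational function field of the curve -/
noncomputable abbrev EE : IntermediateField (kk (n := n) K B F) (AlgebraicClosure F) :=
  IntermediateField.adjoin (kk (n := n) K B F) {xcl (n := n) K B F}

/-- the valuation ring -/
theorem exists_V [Algebra.FormallySmooth (MvPolynomial (Fin (n + 1)) K) B] (e : B →ₐ[K] K)
    (he : ∀ i : Fin (n + 1), e (tc K B i) = 0) :
    ∃ V : ValuationSubring (AlgebraicClosure F),
      (∀ b : B, algebraMap F (AlgebraicClosure F) (algebraMap B F b) ∈ V) ∧
      (∀ b : B, e b = 0 →
        V.valuation (algebraMap F (AlgebraicClosure F) (algebraMap B F b)) < 1) ∧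
      (∀ a : kk (n := n) K B F, (a : AlgebraicClosure F) ∈ V) := by
  let ev : MvPolynomial (Fin n) B →+* AlgebraicClosure F :=
    (algebraMap F (AlgebraicClosure F)).comp (evc K B F)
  let Q : Ideal (MvPolynomial (Fin n) B) := RingHom.ker (MvPolynomial.map (e : B →+* K))
  haveI : Q.IsPrime := RingHom.ker_isPrime _
  have hQ : RingHom.ker ev ≤ Q := by
    intro p hp
    have h1 : evc K B F p = 0 := by
      apply (algebraMap F (AlgebraicClosure F)).injective
      rw [map_zero]
      exact hp
    exact red_eq_zero e he (IsFractionRing.injective B F) h1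
  obtain ⟨V, hV1, hV2, hV3⟩ := exists_dominating ev Q hQ
  have hevC : ∀ b : B, ev (C b) = algebraMap F (AlgebraicClosure F) (algebraMap B F b) := by
    intro b
    change algebraMap F (AlgebraicClosure F) (evc K B F (C b)) = _
    rw [evc, coe_eval₂Hom, eval₂_C]
  have hpoly : ∀ h : MvPolynomial (Fin n) K, ev (MvPolynomial.map (algebraMap K B) h) =
      MvPolynomial.aeval (ucl (n := n) K B F) h := fun h => map_evc_map K B F h
  have hpolyV : ∀ h : MvPolynomial (Fin n) K, h ≠ 0 →
      V.valuation (MvPolynomial.aeval (ucl (n := n) K B F) h) = 1 := by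
    intro h hh
    rw [← hpoly]
    apply hV3
    intro h1
    apply hh
    have h2 : MvPolynomial.map (e : B →+* K) (MvPolynomial.map (algebraMap K B) h) = 0 := h1
    rw [MvPolynomial.map_map] at h2
    have h3 : (e : B →+* K).comp (algebraMap K B) = RingHom.id K := by
      ext a
      simp
    rwa [h3, MvPolynomial.map_id] at h2
  have hk1 : ∀ z : k1 (n := n) K B F, (z : AlgebraicClosure F) ∈ V := by
    rintro ⟨z, hz⟩
    obtain ⟨r, s, rfl⟩ := (IntermediateField.mem_adjoin_range_iff K _ z).mp hz
    rw [← ValuationSubring.valuation_le_one_iff]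
    change V.valuation (_ / _) ≤ 1
    rw [map_div₀]
    by_cases hr : r = 0
    · rw [hr, map_zero, map_zero, zero_div]
      exact zero_le_one
    by_cases hs : s = 0
    · rw [hs, map_zero, map_zero, div_zero]
      exact zero_le_one
    rw [hpolyV r hr, hpolyV s hs, div_one]
  refine ⟨V, fun b => hevC b ▸ hV1 _, fun b hb => ?_, ?_⟩
  · rw [← hevC b]
    apply hV2
    change MvPolynomial.map (e : B →+* K) (C b) = 0
    rw [MvPolynomial.map_C]
    change C (e b) = 0
    rw [hb, C_0]
  · rintro ⟨z, hz⟩
    have h1 : IsIntegral (k1 (n := n) K B F) z := by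
      rw [mem_algebraicClosure_iff'] at hz
      exact hz
    let j : k1 (n := n) K B F →+* V :=
      ((algebraMap (k1 (n := n) K B F) (AlgebraicClosure F))).codRestrict V.toSubring hk1
    have h2 : IsIntegral V z := by
      obtain ⟨p, hp, hpz⟩ := h1
      refine ⟨p.map j, hp.map j, ?_⟩
      rw [Polynomial.eval₂_map]
      exact hpz
    have h3 := IsIntegrallyClosed.isIntegral_iff.mp h2
    obtain ⟨y, hy⟩ := h3
    change z ∈ V
    rw [← hy]
    exact y.2

variable {K B F} in
theorem transcendental_of_V {V : ValuationSubring (AlgebraicClosure F)}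
    (hk : ∀ a : kk (n := n) K B F, (a : AlgebraicClosure F) ∈ V) {x : AlgebraicClosure F}
    (hx0 : x ≠ 0) (hx : V.valuation x < 1) : Transcendental (kk (n := n) K B F) x := by
  intro halg
  have hint : IsIntegral (kk (n := n) K B F) x := isAlgebraic_iff_isIntegral.mp halg
  obtain ⟨a, ha⟩ := minpoly.mem_range_of_degree_eq_one (kk (n := n) K B F) x
    (IsAlgClosed.degree_eq_one_of_irreducible _ (minpoly.irreducible hint))
  have h1 : x⁻¹ ∈ V := by
    rw [← ha, ← map_inv₀]
    exact hk a⁻¹
  have h2 : V.valuation x⁻¹ ≤ 1 := V.valuation_le_one ⟨_, h1⟩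
  have h3 : V.valuation x * V.valuation x⁻¹ = 1 := by
    rw [← map_mul, mul_inv_cancel₀ hx0, map_one]
  have h4 : V.valuation x * V.valuation x⁻¹ < 1 := mul_lt_one_of_lt_of_le hx h2
  exact absurd h3 h4.ne

/-- the image of the fraction field of the polynomial ring lies in `EE` -/
theorem mem_EE (hx0 : xcl (n := n) K B F ≠ 0) (p : MvPolynomial (Fin (n + 1)) K) :
    algebraMap F (AlgebraicClosure F) (algebraMap (MvPolynomial (Fin (n + 1)) K) F p) ∈
      EE (n := n) K B F := by
  induction p using MvPolynomial.induction_on with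
  | C a =>
    have h1 : algebraMap (MvPolynomial (Fin (n + 1)) K) F (C a) = algebraMap K F a := by
      rw [IsScalarTower.algebraMap_apply (MvPolynomial (Fin (n + 1)) K) B F,
        ← MvPolynomial.algebraMap_eq, ← IsScalarTower.algebraMap_apply K _ B,
        ← IsScalarTower.algebraMap_apply]
    rw [h1, ← IsScalarTower.algebraMap_apply]
    exact (EE (n := n) K B F).algebraMap_mem (algebraMap K (kk (n := n) K B F) a)
  | add p q hp hq =>
    rw [map_add, map_add]
    exact add_mem hp hq
  | mul_X p i hp =>
    rw [map_mul, map_mul]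
    refine mul_mem hp ?_
    have h0 : algebraMap F (AlgebraicClosure F) (algebraMap B F (tc K B (0 : Fin (n + 1)))) ∈
        EE (n := n) K B F := IntermediateField.mem_adjoin_simple_self _ _
    have h2 : algebraMap F (AlgebraicClosure F) (algebraMap (MvPolynomial (Fin (n + 1)) K) F (X i)) =
        algebraMap F (AlgebraicClosure F) (algebraMap B F (tc K B i)) := by
      rw [tc, ← IsScalarTower.algebraMap_apply (MvPolynomial (Fin (n + 1)) K) B F]
    rw [h2]
    refine Fin.cases h0 (fun i => ?_) i
    have h3 : algebraMap F (AlgebraicClosure F) (algebraMap B F (tc K B i.succ)) =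
        ucl K B F i * algebraMap F (AlgebraicClosure F) (algebraMap B F (tc K B (0 : Fin (n + 1)))) := by
      rw [ucl, uc, ← map_mul]
      congr 1
      rw [div_mul_cancel₀]
      intro h
      apply hx0
      rw [xcl, h, map_zero]
    rw [h3]
    refine mul_mem ?_ h0
    have h4 : ucl K B F i ∈ k1 (n := n) K B F :=
      IntermediateField.subset_adjoin K _ ⟨i, rfl⟩
    have h5 : ucl K B F i ∈ kk (n := n) K B F :=
      (kk (n := n) K B F).algebraMap_mem ⟨_, h4⟩
    exact (EE (n := n) K B F).algebraMap_mem ⟨_, h5⟩

theorem adjoin_gen_eq_top {k Ω : Type*} [Field k] [Field Ω] [Algebra k Ω] (x : Ω) :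
    IntermediateField.adjoin k {(⟨x, IntermediateField.mem_adjoin_simple_self k x⟩ :
      IntermediateField.adjoin k {x})} = ⊤ := by
  apply IntermediateField.lift_injective (IntermediateField.adjoin k {x})
  rw [IntermediateField.lift_top, IntermediateField.lift_adjoin, Set.image_singleton]

/-- separability is inherited along a compatible map of base fields -/
theorem isSeparable_of_comp {L F E Ω : Type*} [Field L] [Field F] [Algebra L F] [Field E] [Field Ω]
    [Algebra E Ω] (i : F →+* Ω) (j : L →+* E)
    (hij : (algebraMap E Ω).comp j = i.comp (algebraMap L F)) {y : F} (hy : IsSeparable L y) :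
    IsSeparable E (i y) := by
  have h1 : ((minpoly L y).map j).Separable := Polynomial.Separable.map hy
  have h2 : Polynomial.aeval (i y) ((minpoly L y).map j) = 0 := by
    rw [Polynomial.aeval_def, Polynomial.eval₂_map, hij, ← Polynomial.hom_eval₂]
    have := minpoly.aeval L y
    rw [Polynomial.aeval_def] at this
    rw [this, map_zero]
  exact Polynomial.Separable.of_dvd h1 (minpoly.dvd E _ h2)

theorem exists_field_data_aux [Algebra.Etale (MvPolynomial (Fin (n + 1)) K) B] (e : B →ₐ[K] K)
    (he : ∀ i : Fin (n + 1), e (tc K B i) = 0) :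
    ∃ (k E F' : Type u) (_ : Field k) (_ : IsAlgClosed k) (_ : Field E) (_ : Field F')
      (_ : Algebra K k) (_ : Algebra k E) (_ : Algebra E F')
      (_ : Algebra.IsSeparable E F') (_ : FiniteDimensional E F')
      (ι : F →+* F') (_ : ∀ a : K, ι (algebraMap K F a) =
        algebraMap E F' (algebraMap k E (algebraMap K k a)))
      (x : E) (_ : Transcendental k x) (_ : IntermediateField.adjoin k {x} = ⊤)
      (V : ValuationSubring F'),
      (∀ a : k, algebraMap E F' (algebraMap k E a) ∈ V) ∧
      (∀ b : B, ∃ h : ι (algebraMap B F b) ∈ V,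
        (e b = 0 → (⟨_, h⟩ : V) ∈ IsLocalRing.maximalIdeal V)) ∧
      (∃ h : algebraMap E F' x ∈ V, (⟨_, h⟩ : V) ∈ IsLocalRing.maximalIdeal V) := by
  classical
  have hx0 : xcl (n := n) K B F ≠ 0 := by
    rw [xcl, Ne, map_eq_zero_iff _ (algebraMap F (AlgebraicClosure F)).injective,
      map_eq_zero_iff _ (IsFractionRing.injective B F)]
    exact tc_zero_ne e he 0
  obtain ⟨V, hV1, hV2, hV3⟩ := exists_V K B F e he
  have htr : Transcendental (kk (n := n) K B F) (xcl (n := n) K B F) :=
    transcendental_of_V hV3 hx0 (hV2 _ (he 0))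
  -- the field of fractions of the polynomial ring
  have hinjPF : Function.Injective (algebraMap (MvPolynomial (Fin (n + 1)) K) F) := by
    rw [IsScalarTower.algebraMap_eq (MvPolynomial (Fin (n + 1)) K) B F]
    exact (IsFractionRing.injective B F).comp (injective_P (n + 1) K B)
  haveI : FaithfulSMul (MvPolynomial (Fin (n + 1)) K) F :=
    (faithfulSMul_iff_algebraMap_injective _ _).mpr hinjPF
  let L := FractionRing (MvPolynomial (Fin (n + 1)) K)
  letI : Algebra L F := FractionRing.liftAlgebra (MvPolynomial (Fin (n + 1)) K) F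
  haveI : IsScalarTower (MvPolynomial (Fin (n + 1)) K) L F :=
    FractionRing.isScalarTower_liftAlgebra _ _
  obtain ⟨hsep, hfin⟩ := separable_finite (n + 1) K B F L
  have hL : ∀ a : L, algebraMap F (AlgebraicClosure F) (algebraMap L F a) ∈
      EE (n := n) K B F := by
    intro a
    obtain ⟨p, q, hq, rfl⟩ := IsFractionRing.div_surjective (A := MvPolynomial (Fin (n + 1)) K) a
    have h1 : ∀ p : MvPolynomial (Fin (n + 1)) K, algebraMap L F (algebraMap _ L p) =
        algebraMap _ F p := fun p =>
      (IsScalarTower.algebraMap_apply (MvPolynomial (Fin (n + 1)) K) L F p).symm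
    rw [map_div₀, map_div₀, h1, h1]
    exact div_mem (mem_EE K B F hx0 p) (mem_EE K B F hx0 q)
  let j : L →+* EE (n := n) K B F :=
    ((algebraMap F (AlgebraicClosure F)).comp (algebraMap L F)).codRestrict
      (EE (n := n) K B F) hL
  have hj : (algebraMap (EE (n := n) K B F) (AlgebraicClosure F)).comp j =
      (algebraMap F (AlgebraicClosure F)).comp (algebraMap L F) := rfl
  obtain ⟨S, hS⟩ := hfin.fg_top
  let T : Set (AlgebraicClosure F) := (algebraMap F (AlgebraicClosure F)) '' (S : Set F)
  haveI hTfin : Finite T := (S.finite_toSet.image _).to_subtype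
  have hTsep : ∀ y ∈ T, IsSeparable (EE (n := n) K B F) y := by
    rintro _ ⟨y, _, rfl⟩
    exact isSeparable_of_comp (algebraMap F (AlgebraicClosure F)) j hj
      (Algebra.IsSeparable.isSeparable L y)
  let F' : IntermediateField (EE (n := n) K B F) (AlgebraicClosure F) :=
    IntermediateField.adjoin (EE (n := n) K B F) T
  haveI hF'sep : Algebra.IsSeparable (EE (n := n) K B F) F' :=
    (IntermediateField.isSeparable_adjoin_iff_isSeparable _ _).mpr hTsep
  haveI hF'fin : FiniteDimensional (EE (n := n) K B F) F' :=
    IntermediateField.finiteDimensional_adjoin fun y hy => (hTsep y hy).isIntegral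
  have hF : ∀ y : F, algebraMap F (AlgebraicClosure F) y ∈ F' := by
    intro y
    have hy : y ∈ Submodule.span L (S : Set F) := by
      rw [hS]
      trivial
    induction hy using Submodule.span_induction with
    | mem y hy => exact IntermediateField.subset_adjoin _ _ ⟨y, hy, rfl⟩
    | zero =>
      rw [map_zero]
      exact zero_mem _
    | add y z _ _ hy hz =>
      rw [map_add]
      exact add_mem hy hz
    | smul a y _ hy =>
      rw [Algebra.smul_def, map_mul]
      exact mul_mem (F'.algebraMap_mem (j a)) hy
  let ι : F →+* F' := (algebraMap F (AlgebraicClosure F)).codRestrict F' hF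
  let x : EE (n := n) K B F := ⟨xcl (n := n) K B F, IntermediateField.mem_adjoin_simple_self _ _⟩
  let V' : ValuationSubring F' := V.comap (algebraMap F' (AlgebraicClosure F))
  have hV' : ∀ (y : F') (hy : V.valuation (y : AlgebraicClosure F) < 1),
      ∃ h : y ∈ V', (⟨_, h⟩ : V') ∈ IsLocalRing.maximalIdeal V' := by
    intro y hy
    have h1 : (y : AlgebraicClosure F) ∈ V := V.mem_of_valuation_le_one _ hy.le
    refine ⟨h1, ?_⟩
    rw [IsLocalRing.mem_maximalIdeal]
    intro hu
    obtain ⟨z, hz⟩ := hu.exists_right_inv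
    have h2 : (y : AlgebraicClosure F) * ((z : F') : AlgebraicClosure F) = 1 := by
      have := congrArg (fun w : V' => ((w : F') : AlgebraicClosure F)) hz
      simpa using this
    have h3 : V.valuation ((z : F') : AlgebraicClosure F) ≤ 1 := V.valuation_le_one ⟨_, z.2⟩
    have h4 : V.valuation (y : AlgebraicClosure F) *
        V.valuation ((z : F') : AlgebraicClosure F) = 1 := by
      rw [← map_mul, h2, map_one]
    exact absurd h4 (mul_lt_one_of_lt_of_le hy h3).ne
  refine ⟨kk (n := n) K B F, EE (n := n) K B F, F', inferInstance, inferInstance, inferInstance,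
    inferInstance, inferInstance, inferInstance, inferInstance, hF'sep, hF'fin, ι, fun a => ?_, x, ?_, ?_, V', hV3,
    fun b => ⟨hV1 b, fun hb => ?_⟩, hV' _ (hV2 _ (he 0))⟩
  · apply Subtype.ext
    change algebraMap F (AlgebraicClosure F) (algebraMap K F a) =
      algebraMap K (AlgebraicClosure F) a
    rw [← IsScalarTower.algebraMap_apply]
  · intro halg
    apply htr
    exact halg.algebraMap (A := AlgebraicClosure F)
  · exact adjoin_gen_eq_top _
  · obtain ⟨h, h'⟩ := hV' (ι (algebraMap B F b)) (hV2 b hb)
    exact h'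

/-- The function field of the curve and its place above the origin. -/
theorem exists_field_data [Algebra.Etale (MvPolynomial (Fin (n + 1)) K) B] (e : B →ₐ[K] K)
    (he : ∀ i : Fin (n + 1), e (tc K B i) = 0) :
    ∃ (k E F' : Type u) (_ : Field k) (_ : IsAlgClosed k) (_ : Field E) (_ : Field F')
      (_ : Algebra K k) (_ : Algebra k E) (_ : Algebra E F') (_ : Algebra k F')
      (_ : Algebra K F') (_ : IsScalarTower k E F') (_ : IsScalarTower K k F')
      (_ : Algebra.IsSeparable E F') (_ : FiniteDimensional E F')
      (ι : F →+* F') (_ : ∀ a : K, ι (algebraMap K F a) = algebraMap K F' a)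
      (x : E) (_ : Transcendental k x) (_ : IntermediateField.adjoin k {x} = ⊤)
      (V : ValuationSubring F'),
      (∀ a : k, algebraMap k F' a ∈ V) ∧
      (∀ b : B, ∃ h : ι (algebraMap B F b) ∈ V,
        (e b = 0 → (⟨_, h⟩ : V) ∈ IsLocalRing.maximalIdeal V)) ∧
      (∃ h : algebraMap E F' x ∈ V, (⟨_, h⟩ : V) ∈ IsLocalRing.maximalIdeal V) := by
  obtain ⟨k, E, F', _, _, _, _, _, _, _, _, _, ι, hι, x, hx, hx', V, hV⟩ :=
    exists_field_data_aux (n := n) K B F e he
  letI akF : Algebra k F' := ((algebraMap E F').comp (algebraMap k E)).toAlgebra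
  haveI tkEF : IsScalarTower k E F' := IsScalarTower.of_algebraMap_eq fun _ => rfl
  letI aKF : Algebra K F' := ((algebraMap k F').comp (algebraMap K k)).toAlgebra
  haveI tKkF : IsScalarTower K k F' := IsScalarTower.of_algebraMap_eq fun _ => rfl
  exact ⟨k, E, F', inferInstance, inferInstance, inferInstance, inferInstance, inferInstance,
    inferInstance, inferInstance, akF, aKF, tkEF, tKkF, inferInstance, inferInstance, ι, hι, x, hx,
    hx', V, hV⟩

end Main

end Fermat.Agent.AbVar.CurveAux
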