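import Mathlib

/-!
# S26: systems of local generators of a fractional ideal (algebra)
-/

set_option autoImplicit false

namespace Fermat.Agent.AbVar

section LocIn

variable {B : Type*} [CommRing B] {E : Type*} [Field E]

/-- the localization of `B` at the prime `q`, inside the field -/
def locIn (ι : B →+* E) (q : PrimeSpectrum B) : Subring E where
  carrier := {y | ∃ a s : B, s ∉ q.asIdeal ∧ y * ι s = ι a}
  mul_mem' := by
    rintro y y' ⟨a, s, hs, h⟩ ⟨a', s', hs', h'⟩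
    refine ⟨a * a', s * s', fun hm => (q.2.mem_or_mem hm).elim hs hs', ?_⟩
    rw [map_mul, map_mul, ← h, ← h']; ring
  one_mem' := ⟨1, 1, fun h => q.2.ne_top ((Ideal.eq_top_iff_one _).2 h), by simp⟩
  add_mem' := by
    rintro y y' ⟨a, s, hs, h⟩ ⟨a', s', hs', h'⟩
    refine ⟨a * s' + a' * s, s * s', fun hm => (q.2.mem_or_mem hm).elim hs hs', ?_⟩
    rw [map_add, map_mul, map_mul, map_mul, ← h, ← h']; ring
  zero_mem' := ⟨0, 1, fun h => q.2.ne_top ((Ideal.eq_top_iff_one _).2 h), by simp⟩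
  neg_mem' := by
    rintro y ⟨a, s, hs, h⟩
    exact ⟨-a, s, hs, by rw [map_neg, ← h]; ring⟩

variable {ι : B →+* E}

lemma mem_locIn {q : PrimeSpectrum B} {y : E} :
    y ∈ locIn ι q ↔ ∃ a s : B, s ∉ q.asIdeal ∧ y * ι s = ι a := Iff.rfl

lemma map_mem_locIn (b : B) (q : PrimeSpectrum B) : ι b ∈ locIn ι q :=
  ⟨b, 1, fun h => q.2.ne_top ((Ideal.eq_top_iff_one _).2 h), by simp⟩

lemma inv_map_mem_locIn (hι : Function.Injective ι) {b : B} {q : PrimeSpectrum B}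
    (hb : b ∉ q.asIdeal) : (ι b)⁻¹ ∈ locIn ι q := by
  refine ⟨1, b, hb, ?_⟩
  rw [map_one, inv_mul_cancel₀]
  intro h
  exact hb ((map_eq_zero_iff ι hι).1 h ▸ q.asIdeal.zero_mem)

lemma locIn_mono {p q : PrimeSpectrum B} (h : p ≤ q) : locIn ι q ≤ locIn ι p := by
  rintro y ⟨a, s, hs, e⟩
  exact ⟨a, s, fun hs' => hs (h hs'), e⟩

lemma locIn_comap {B' : Type*} [CommRing B'] {ι' : B' →+* E} (φ : B →+* B')
    (h : ι'.comp φ = ι) (q : PrimeSpectrum B') :
    locIn ι (PrimeSpectrum.comap φ q) ≤ locIn ι' q := by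
  rintro y ⟨a, s, hs, e⟩
  refine ⟨φ a, φ s, hs, ?_⟩
  rw [← h] at e
  exact e

/-- the map from `B` to the localization -/
def toLoc (ι : B →+* E) (q : PrimeSpectrum B) : B →+* locIn ι q :=
  ι.codRestrict _ (fun b => map_mem_locIn b q)

@[simp] lemma toLoc_coe (q : PrimeSpectrum B) (b : B) : ((toLoc ι q b : locIn ι q) : E) = ι b := rfl

lemma locIn_isUnit_iff {q : PrimeSpectrum B} (y : locIn ι q) :
    IsUnit y ↔ (y : E) ≠ 0 ∧ (y : E)⁻¹ ∈ locIn ι q := by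
  constructor
  · rintro ⟨u, rfl⟩
    have h : ((u : locIn ι q) : E) * ((u⁻¹ : (locIn ι q)ˣ) : locIn ι q) = 1 := by
      rw [← Subring.coe_mul, Units.mul_inv, Subring.coe_one]
    have h0 : ((u : locIn ι q) : E) ≠ 0 := left_ne_zero_of_mul_eq_one h
    refine ⟨h0, ?_⟩
    rw [← eq_inv_of_mul_eq_one_right h]
    exact Subtype.mem _
  · rintro ⟨h0, h⟩
    exact IsUnit.of_mul_eq_one ⟨_, h⟩ (Subtype.ext (mul_inv_cancel₀ h0))

lemma isUnit_toLoc_iff (hι : Function.Injective ι) (q : PrimeSpectrum B) (b : B) :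
    IsUnit (toLoc ι q b) ↔ b ∉ q.asIdeal := by
  rw [locIn_isUnit_iff]
  constructor
  · rintro ⟨h0, a, s, hs, e⟩ hb
    apply hs
    rw [toLoc_coe] at e
    have h1 : ι s = ι (a * b) := by
      rw [toLoc_coe] at h0
      rw [map_mul, ← e, mul_right_comm, inv_mul_cancel₀ h0, one_mul]
    rw [hι h1]
    exact q.asIdeal.mul_mem_left _ hb
  · intro hb
    exact ⟨fun h => hb ((map_eq_zero_iff ι hι).1 h ▸ q.asIdeal.zero_mem),
      inv_map_mem_locIn hι hb⟩

lemma locIn_isLocalRing (hι : Function.Injective ι) (q : PrimeSpectrum B) :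
    IsLocalRing (locIn ι q) := by
  refine IsLocalRing.of_isUnit_or_isUnit_one_sub_self ?_
  rintro ⟨y, a, s, hs, e⟩
  have hs0 : ι s ≠ 0 := fun h => hs ((map_eq_zero_iff ι hι).1 h ▸ q.asIdeal.zero_mem)
  have key : ∀ b : B, b ∉ q.asIdeal → ∀ z : locIn ι q, (z : E) * ι s = ι b → IsUnit z := by
    intro b hb z hz
    have hb0 : ι b ≠ 0 := fun h => hb ((map_eq_zero_iff ι hι).1 h ▸ q.asIdeal.zero_mem)
    have hz0 : (z : E) ≠ 0 := by
      intro h
      rw [h, zero_mul] at hz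
      exact hb0 hz.symm
    rw [locIn_isUnit_iff]
    refine ⟨hz0, s, b, hb, ?_⟩
    rw [← hz, inv_mul_cancel_left₀ hz0]
  by_cases ha : a ∈ q.asIdeal
  · right
    refine key (s - a) (fun h => hs ?_) _ ?_
    · simpa using q.asIdeal.add_mem h ha
    · change (1 - y) * ι s = ι (s - a)
      rw [sub_mul, one_mul, map_sub, e]
  · left
    exact key a ha _ e

lemma mem_range_of_forall_locIn {y : E} (h : ∀ q, y ∈ locIn ι q) : y ∈ ι.range := by
  let I : Ideal B :=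
    { carrier := {s | ∃ a, y * ι s = ι a}
      add_mem' := by
        rintro s s' ⟨a, h⟩ ⟨a', h'⟩
        exact ⟨a + a', by rw [map_add, mul_add, h, h', map_add]⟩
      zero_mem' := ⟨0, by simp⟩
      smul_mem' := by
        rintro c s ⟨a, h⟩
        exact ⟨c * a, by rw [smul_eq_mul, map_mul, map_mul, ← h]; ring⟩ }
  by_cases hI : I = ⊤
  · obtain ⟨a, ha⟩ : (1 : B) ∈ I := hI ▸ trivial
    exact ⟨a, by rw [← ha, map_one, mul_one]⟩
  · obtain ⟨m, hm, hle⟩ := Ideal.exists_le_maximal I hI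
    obtain ⟨a, s, hs, e⟩ := h ⟨m, hm.isPrime⟩
    exact absurd (hle ⟨a, e⟩) hs

lemma exists_pow_mul_mem_range {y : E} (f : B)
    (h : ∀ q : PrimeSpectrum B, f ∉ q.asIdeal → y ∈ locIn ι q) :
    ∃ n : ℕ, y * ι f ^ n ∈ ι.range := by
  let I : Ideal B :=
    { carrier := {s | ∃ a, y * ι s = ι a}
      add_mem' := by
        rintro s s' ⟨a, h⟩ ⟨a', h'⟩
        exact ⟨a + a', by rw [map_add, mul_add, h, h', map_add]⟩
      zero_mem' := ⟨0, by simp⟩
      smul_mem' := by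
        rintro c s ⟨a, h⟩
        exact ⟨c * a, by rw [smul_eq_mul, map_mul, map_mul, ← h]; ring⟩ }
  have hf : f ∈ I.radical := by
    rw [Ideal.radical_eq_sInf, Submodule.mem_sInf]
    rintro p ⟨hp, hpp⟩
    by_contra hfp
    obtain ⟨a, s, hs, e⟩ := h ⟨p, hpp⟩ hfp
    exact hs (hp ⟨a, e⟩)
  obtain ⟨n, a, ha⟩ := hf
  exact ⟨n, a, by rw [← map_pow, ha]⟩

end LocIn

section DSys

variable {B : Type*} [CommRing B] {E : Type*} [Field E] (ι : B →+* E)

/-- local constancy of a family of elements of the fraction field -/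
def IsLC (D : PrimeSpectrum B → Eˣ) : Prop :=
  ∀ q, ∃ f ∉ q.asIdeal, ∀ q' : PrimeSpectrum B, f ∉ q'.asIdeal →
    ((D q / D q' : Eˣ) : E) ∈ locIn ι q' ∧ ((D q' / D q : Eˣ) : E) ∈ locIn ι q'

/-- the fractional ideal of elements `u` with `u * D q` integral at all `q`. -/
def J (D : PrimeSpectrum B → Eˣ) : AddSubgroup E where
  carrier := {u | ∀ q, u * D q ∈ locIn ι q}
  add_mem' := by
    intro u v hu hv q
    rw [add_mul]
    exact add_mem (hu q) (hv q)
  zero_mem' := by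
    intro q
    rw [zero_mul]
    exact zero_mem _
  neg_mem' := by
    intro u hu q
    rw [neg_mul]
    exact neg_mem (hu q)

variable {ι} {D : PrimeSpectrum B → Eˣ}

lemma mem_J {u : E} : u ∈ J ι D ↔ ∀ q, u * D q ∈ locIn ι q := Iff.rfl

lemma J_smul (b : B) {u : E} (hu : u ∈ J ι D) : ι b * u ∈ J ι D := by
  intro q
  rw [mul_assoc]
  exact mul_mem (map_mem_locIn b q) (hu q)

lemma J_mul {u v : E} (hu : u ∈ J ι D) (hv : v ∈ J ι D⁻¹) : u * v ∈ ι.range := by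
  refine mem_range_of_forall_locIn fun q => ?_
  have := mul_mem (hu q) (hv q)
  have e : u * D q * (v * ((D⁻¹) q : Eˣ)) = u * v := by
    rw [Pi.inv_apply, mul_mul_mul_comm, Units.mul_inv, mul_one]
  rwa [e] at this

lemma IsLC.inv (h : IsLC ι D) : IsLC ι D⁻¹ := by
  intro q
  obtain ⟨f, hf, H⟩ := h q
  refine ⟨f, hf, fun q' hq' => ?_⟩
  obtain ⟨h1, h2⟩ := H q' hq'
  have e1 : (D⁻¹) q / (D⁻¹) q' = D q' / D q := by simp [div_eq_mul_inv, mul_comm]
  have e2 : (D⁻¹) q' / (D⁻¹) q = D q / D q' := by simp [div_eq_mul_inv, mul_comm]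
  rw [e1, e2]
  exact ⟨h2, h1⟩

lemma IsLC.div_mem (h : IsLC ι D) {p q : PrimeSpectrum B} (hpq : p ≤ q) :
    ((D q / D p : Eˣ) : E) ∈ locIn ι p ∧ ((D p / D q : Eˣ) : E) ∈ locIn ι p := by
  obtain ⟨f, hf, H⟩ := h q
  exact H p (fun h' => hf (hpq h'))

/-- for each `q`, some element generating near `q` -/
lemma IsLC.exists_gen (h : IsLC ι D) (q : PrimeSpectrum B) :
    ∃ f ∉ q.asIdeal, ∃ N : ℕ, ((D q)⁻¹ : E) * ι f ^ N ∈ J ι D := by
  classical
  choose F hF H using h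
  have hcover : (⋃ q, (PrimeSpectrum.basicOpen (F q) : Set (PrimeSpectrum B))) = Set.univ := by
    rw [Set.eq_univ_iff_forall]
    exact fun q => Set.mem_iUnion.2 ⟨q, hF q⟩
  obtain ⟨T, hT⟩ := isCompact_univ.elim_finite_subcover
    (fun q : PrimeSpectrum B => (PrimeSpectrum.basicOpen (F q) : Set (PrimeSpectrum B)))
    (fun q => (PrimeSpectrum.basicOpen (F q)).2) hcover.ge
  have key : ∀ q₁ : PrimeSpectrum B, ∃ n : ℕ,
      ((D q₁ / D q : Eˣ) : E) * ι (F q * F q₁) ^ n ∈ ι.range := by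
    intro q₁
    refine exists_pow_mul_mem_range _ fun q'' hq'' => ?_
    have h1 : F q ∉ q''.asIdeal := fun h' => hq'' (q''.asIdeal.mul_mem_right _ h')
    have h2 : F q₁ ∉ q''.asIdeal := fun h' => hq'' (q''.asIdeal.mul_mem_left _ h')
    have := mul_mem (H q₁ q'' h2).1 (H q q'' h1).2
    rwa [← Units.val_mul, div_mul_div_cancel] at this
  choose n hn using key
  refine ⟨F q, hF q, T.sup n, fun q' => ?_⟩
  obtain ⟨q₁, hq₁T, hq₁⟩ : ∃ q₁ ∈ T, F q₁ ∉ q'.asIdeal := by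
    have := hT (Set.mem_univ q')
    simpa using this
  have hle : n q₁ ≤ T.sup n := Finset.le_sup hq₁T
  obtain ⟨b, hb⟩ := hn q₁
  -- `D q' = D q₁ * unit`
  have h1 := (H q₁ q' hq₁).2
  have h2 : ((D q₁ / D q : Eˣ) : E) * ι (F q) ^ (T.sup n) ∈ locIn ι q' := by
    obtain ⟨m, hm⟩ := Nat.exists_eq_add_of_le hle
    have h3 : ((D q₁ / D q : Eˣ) : E) * ι (F q) ^ (n q₁) ∈ locIn ι q' := by
      refine ⟨b, F q₁ ^ n q₁, fun h' => hq₁ (q'.2.mem_of_pow_mem _ h'), ?_⟩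
      rw [hb, map_mul, mul_pow, map_pow, mul_assoc]
    rw [hm, pow_add, ← mul_assoc]
    exact mul_mem h3 (pow_mem (map_mem_locIn _ _) _)
  have h4 := mul_mem h1 h2
  have e : ((D q' / D q₁ : Eˣ) : E) * (((D q₁ / D q : Eˣ) : E) * ι (F q) ^ T.sup n) =
      ((D q)⁻¹ : E) * ι (F q) ^ T.sup n * (D q' : E) := by
    rw [← mul_assoc, ← Units.val_mul, div_mul_div_cancel, div_eq_mul_inv, Units.val_mul,
      Units.val_inv_eq_inv_val]
    ring
  rwa [e] at h4

lemma IsLC.exists_dual (h : IsLC ι D) : ∃ (n : ℕ) (a b : Fin n → E),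
    (∀ i, a i ∈ J ι D) ∧ (∀ i, b i ∈ J ι D⁻¹) ∧ ∑ i, a i * b i = 1 := by
  classical
  let I : Ideal B :=
    { carrier := {s | ∃ (n : ℕ) (a b : Fin n → E),
        (∀ i, a i ∈ J ι D) ∧ (∀ i, b i ∈ J ι D⁻¹) ∧ ∑ i, a i * b i = ι s}
      add_mem' := by
        rintro s s' ⟨n, a, b, ha, hb, h⟩ ⟨n', a', b', ha', hb', h'⟩
        refine ⟨n + n', Fin.append a a', Fin.append b b', ?_, ?_, ?_⟩
        · intro i
          refine Fin.addCases (fun i => ?_) (fun i => ?_) i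
          · simpa using ha i
          · simpa using ha' i
        · intro i
          refine Fin.addCases (fun i => ?_) (fun i => ?_) i
          · simpa using hb i
          · simpa using hb' i
        · rw [Fin.sum_univ_add]
          simp [h, h']
      zero_mem' := ⟨0, Fin.elim0, Fin.elim0, fun i => i.elim0, fun i => i.elim0, by simp⟩
      smul_mem' := by
        rintro c s ⟨n, a, b, ha, hb, h⟩
        refine ⟨n, fun i => ι c * a i, b, fun i => J_smul c (ha i), hb, ?_⟩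
        rw [smul_eq_mul, map_mul, ← h, Finset.mul_sum]
        exact Finset.sum_congr rfl fun i _ => mul_assoc _ _ _ }
  by_cases hI : I = ⊤
  · obtain ⟨n, a, b, ha, hb, e⟩ : (1 : B) ∈ I := hI ▸ trivial
    exact ⟨n, a, b, ha, hb, by rw [e, map_one]⟩
  · exfalso
    obtain ⟨m, hm, hle⟩ := Ideal.exists_le_maximal I hI
    obtain ⟨f, hf, N, hN⟩ := h.exists_gen ⟨m, hm.isPrime⟩
    obtain ⟨f', hf', N', hN'⟩ := h.inv.exists_gen ⟨m, hm.isPrime⟩
    have hmem : f ^ N * f' ^ N' ∈ I := by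
      refine ⟨1, fun _ => _, fun _ => _, fun _ => hN, fun _ => hN', ?_⟩
      simp only [Finset.univ_unique, Fin.default_eq_zero, Fin.isValue, Finset.sum_const,
        Finset.card_singleton, one_smul, Pi.inv_apply, map_mul, map_pow]
      rw [mul_mul_mul_comm, Units.val_inv_eq_inv_val, inv_inv, inv_mul_cancel₀ (Units.ne_zero _),
        one_mul]
    rcases hm.isPrime.mem_or_mem (hle hmem) with h1 | h1
    · exact hf (hm.isPrime.mem_of_pow_mem _ h1)
    · exact hf' (hm.isPrime.mem_of_pow_mem _ h1)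

end DSys

section Spz

variable {B B' : Type*} [CommRing B] [CommRing B'] {E E' : Type*} [Field E] [Field E']
  (ι : B →+* E) (ι' : B' →+* E') (ψ : B →+* B')

/-- the kernel of the composition, as a point of the spectrum. -/
def kerPt : PrimeSpectrum B := ⟨RingHom.ker (ι'.comp ψ), RingHom.ker_isPrime _⟩

lemma mem_kerPt {b : B} : b ∈ (kerPt ι' ψ).asIdeal ↔ ι' (ψ b) = 0 := Iff.rfl

lemma kerPt_le_comap (hι' : Function.Injective ι') (q : PrimeSpectrum B') :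
    kerPt ι' ψ ≤ PrimeSpectrum.comap ψ q := by
  intro b hb
  have : ψ b = 0 := (map_eq_zero_iff ι' hι').1 hb
  change ψ b ∈ q.asIdeal
  rw [this]
  exact q.asIdeal.zero_mem

variable {ι ι' ψ}

lemma spz_aux (hι : Function.Injective ι) {y : E} {a s a' s' : B}
    (hs : s ∉ (kerPt ι' ψ).asIdeal) (hs' : s' ∉ (kerPt ι' ψ).asIdeal)
    (h : y * ι s = ι a) (h' : y * ι s' = ι a') :
    ι' (ψ a) / ι' (ψ s) = ι' (ψ a') / ι' (ψ s') := by
  have e : a * s' = a' * s := by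
    apply hι
    rw [map_mul, map_mul, ← h, ← h']; ring
  rw [mem_kerPt] at hs hs'
  rw [div_eq_div_iff hs hs', ← map_mul, ← map_mul, e, map_mul, map_mul]

variable (ι ι' ψ) in
/-- the extension of `ψ` to the localization at its kernel (function) -/
noncomputable def spzFun (y : locIn ι (kerPt ι' ψ)) : E' :=
  ι' (ψ y.2.choose) / ι' (ψ y.2.choose_spec.choose)

lemma spzFun_eq (hι : Function.Injective ι) {y : E} (hy : y ∈ locIn ι (kerPt ι' ψ)) {a s : B}
    (hs : s ∉ (kerPt ι' ψ).asIdeal) (h : y * ι s = ι a) :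
    spzFun ι ι' ψ ⟨y, hy⟩ = ι' (ψ a) / ι' (ψ s) :=
  spz_aux hι hy.choose_spec.choose_spec.1 hs hy.choose_spec.choose_spec.2 h

lemma one_not_mem_kerPt : (1 : B) ∉ (kerPt ι' ψ).asIdeal := by
  rw [mem_kerPt]; simp

variable (ι ι' ψ) in
/-- the extension of `ψ` to the localization at its kernel -/
noncomputable def spz (hι : Function.Injective ι) : locIn ι (kerPt ι' ψ) →+* E' where
  toFun := spzFun ι ι' ψ
  map_one' := by
    rw [show (1 : locIn ι (kerPt ι' ψ)) = ⟨1, one_mem _⟩ from rfl,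
      spzFun_eq hι _ (a := 1) (s := 1) one_not_mem_kerPt (by simp)]
    simp
  map_zero' := by
    rw [show (0 : locIn ι (kerPt ι' ψ)) = ⟨0, zero_mem _⟩ from rfl,
      spzFun_eq hι _ (a := 0) (s := 1) one_not_mem_kerPt (by simp)]
    simp
  map_add' := by
    rintro ⟨y, hy⟩ ⟨z, hz⟩
    obtain ⟨a, s, hs, hy2⟩ := id hy
    obtain ⟨a', s', hs', hz2⟩ := id hz
    have e : (⟨y, hy⟩ + ⟨z, hz⟩ : locIn ι (kerPt ι' ψ)) = ⟨y + z, add_mem hy hz⟩ := rfl
    rw [e, spzFun_eq hι hy hs hy2, spzFun_eq hι hz hs' hz2, spzFun_eq hι _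
      (a := a * s' + a' * s) (s := s * s')
      (fun hm => ((kerPt ι' ψ).2.mem_or_mem hm).elim hs hs')
      (by rw [map_add, map_mul, map_mul, map_mul, ← hy2, ← hz2]; ring)]
    rw [mem_kerPt] at hs hs'
    simp only [map_add, map_mul]
    field_simp
  map_mul' := by
    rintro ⟨y, hy⟩ ⟨z, hz⟩
    obtain ⟨a, s, hs, hy2⟩ := id hy
    obtain ⟨a', s', hs', hz2⟩ := id hz
    have e : (⟨y, hy⟩ * ⟨z, hz⟩ : locIn ι (kerPt ι' ψ)) = ⟨y * z, mul_mem hy hz⟩ := rfl
    rw [e, spzFun_eq hι hy hs hy2, spzFun_eq hι hz hs' hz2, spzFun_eq hι _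
      (a := a * a') (s := s * s')
      (fun hm => ((kerPt ι' ψ).2.mem_or_mem hm).elim hs hs')
      (by rw [map_mul, map_mul, ← hy2, ← hz2]; ring)]
    rw [mem_kerPt] at hs hs'
    simp only [map_mul]
    field_simp

lemma spz_eq (hι : Function.Injective ι) {y : E} (hy : y ∈ locIn ι (kerPt ι' ψ)) {a s : B}
    (hs : s ∉ (kerPt ι' ψ).asIdeal) (h : y * ι s = ι a) :
    spz ι ι' ψ hι ⟨y, hy⟩ = ι' (ψ a) / ι' (ψ s) :=
  spz_aux hι hy.choose_spec.choose_spec.1 hs hy.choose_spec.choose_spec.2 h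

lemma spz_map (hι : Function.Injective ι) (b : B) (hb : ι b ∈ locIn ι (kerPt ι' ψ)) :
    spz ι ι' ψ hι ⟨ι b, hb⟩ = ι' (ψ b) := by
  rw [spz_eq hι hb (a := b) (s := 1) (by rw [mem_kerPt]; simp) (by simp)]
  simp

/-- `spz` maps localizations to localizations. -/
lemma spz_mem_locIn (hι : Function.Injective ι) (hι' : Function.Injective ι')
    (q : PrimeSpectrum B') {y : E} (hy : y ∈ locIn ι (PrimeSpectrum.comap ψ q))
    (hy' : y ∈ locIn ι (kerPt ι' ψ)) : spz ι ι' ψ hι ⟨y, hy'⟩ ∈ locIn ι' q := by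
  obtain ⟨a, s, hs, e⟩ := hy
  have hs' : s ∉ (kerPt ι' ψ).asIdeal := fun h => hs (kerPt_le_comap ι' ψ hι' q h)
  rw [spz_eq hι hy' hs' e]
  refine ⟨ψ a, ψ s, hs, ?_⟩
  rw [div_mul_cancel₀]
  exact hs'

lemma spz_isLocal (hι : Function.Injective ι) (y : locIn ι (kerPt ι' ψ))
    (hy : spz ι ι' ψ hι y ≠ 0) : (y : E)⁻¹ ∈ locIn ι (kerPt ι' ψ) := by
  obtain ⟨y, hy1⟩ := y
  obtain ⟨a, s, hs, e⟩ := id hy1
  rw [spz_eq hι _ hs e] at hy
  have ha : ι' (ψ a) ≠ 0 := by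
    intro h; rw [h, zero_div] at hy; exact hy rfl
  refine ⟨s, a, ha, ?_⟩
  have hy0 : y ≠ 0 := by
    rintro rfl
    rw [zero_mul] at e
    have : a = 0 := (map_eq_zero_iff ι hι).1 e.symm
    rw [this] at ha
    simp at ha
  rw [← e]
  change y⁻¹ * (y * ι s) = ι s
  rw [inv_mul_cancel_left₀ hy0]

variable (ι ι' ψ) in
open Classical in
/-- total version of `spz` -/
noncomputable def spe (y : E) : E' :=
  if h : y ∈ locIn ι (kerPt ι' ψ) then spzFun ι ι' ψ ⟨y, h⟩ else 0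

lemma spe_of_mem (hι : Function.Injective ι) {y : E} (h : y ∈ locIn ι (kerPt ι' ψ)) :
    spe ι ι' ψ y = spz ι ι' ψ hι ⟨y, h⟩ := by
  rw [spe, dif_pos h]; rfl

lemma spe_eq (hι : Function.Injective ι) {y : E} {a s : B}
    (hs : s ∉ (kerPt ι' ψ).asIdeal) (h : y * ι s = ι a) :
    spe ι ι' ψ y = ι' (ψ a) / ι' (ψ s) := by
  have hm : y ∈ locIn ι (kerPt ι' ψ) := ⟨a, s, hs, h⟩
  rw [spe_of_mem hι hm, spz_eq hι hm hs h]

lemma spe_map (hι : Function.Injective ι) (b : B) : spe ι ι' ψ (ι b) = ι' (ψ b) := by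
  rw [spe_of_mem hι (map_mem_locIn b _), spz_map]

lemma spe_one (hι : Function.Injective ι) : spe ι ι' ψ 1 = 1 := by
  rw [← map_one ι, spe_map hι, map_one, map_one]

lemma spe_zero (hι : Function.Injective ι) : spe ι ι' ψ 0 = 0 := by
  rw [← map_zero ι, spe_map hι, map_zero, map_zero]

lemma spe_add (hι : Function.Injective ι) {y z : E} (hy : y ∈ locIn ι (kerPt ι' ψ))
    (hz : z ∈ locIn ι (kerPt ι' ψ)) : spe ι ι' ψ (y + z) = spe ι ι' ψ y + spe ι ι' ψ z := by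
  rw [spe_of_mem hι hy, spe_of_mem hι hz, spe_of_mem hι (add_mem hy hz), ← map_add]
  rfl

lemma spe_sub (hι : Function.Injective ι) {y z : E} (hy : y ∈ locIn ι (kerPt ι' ψ))
    (hz : z ∈ locIn ι (kerPt ι' ψ)) : spe ι ι' ψ (y - z) = spe ι ι' ψ y - spe ι ι' ψ z := by
  rw [spe_of_mem hι hy, spe_of_mem hι hz, spe_of_mem hι (sub_mem hy hz), ← map_sub]
  rfl

lemma spe_mul (hι : Function.Injective ι) {y z : E} (hy : y ∈ locIn ι (kerPt ι' ψ))
    (hz : z ∈ locIn ι (kerPt ι' ψ)) : spe ι ι' ψ (y * z) = spe ι ι' ψ y * spe ι ι' ψ z := by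
  rw [spe_of_mem hι hy, spe_of_mem hι hz, spe_of_mem hι (mul_mem hy hz), ← map_mul]
  rfl

lemma spe_sum (hι : Function.Injective ι) {α : Type*} (s : Finset α) (f : α → E)
    (hf : ∀ i ∈ s, f i ∈ locIn ι (kerPt ι' ψ)) :
    spe ι ι' ψ (∑ i ∈ s, f i) = ∑ i ∈ s, spe ι ι' ψ (f i) := by
  classical
  induction s using Finset.induction_on with
  | empty => simp [spe_zero hι]
  | insert a s ha ih =>
    rw [Finset.sum_insert ha, Finset.sum_insert ha,
      spe_add hι (hf a (Finset.mem_insert_self a s))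
        (sum_mem fun i hi => hf i (Finset.mem_insert_of_mem hi)),
      ih fun i hi => hf i (Finset.mem_insert_of_mem hi)]

lemma spe_inv_mem (hι : Function.Injective ι) {y : E} (hy : y ∈ locIn ι (kerPt ι' ψ))
    (h : spe ι ι' ψ y ≠ 0) : y⁻¹ ∈ locIn ι (kerPt ι' ψ) := by
  rw [spe_of_mem hι hy] at h
  exact spz_isLocal hι _ h

lemma spe_inv (hι : Function.Injective ι) {y : E} (hy : y ∈ locIn ι (kerPt ι' ψ))
    (h : spe ι ι' ψ y ≠ 0) : spe ι ι' ψ y⁻¹ = (spe ι ι' ψ y)⁻¹ := by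
  have hy0 : y ≠ 0 := by
    rintro rfl
    exact h (spe_zero hι)
  refine eq_inv_of_mul_eq_one_left ?_
  rw [← spe_mul hι (spe_inv_mem hι hy h) hy, inv_mul_cancel₀ hy0, spe_one hι]

lemma spe_mem_locIn (hι : Function.Injective ι) (hι' : Function.Injective ι')
    (q : PrimeSpectrum B') {y : E} (hy : y ∈ locIn ι (PrimeSpectrum.comap ψ q)) :
    spe ι ι' ψ y ∈ locIn ι' q := by
  have hy' : y ∈ locIn ι (kerPt ι' ψ) := locIn_mono (kerPt_le_comap ι' ψ hι' q) hy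
  rw [spe_of_mem hι hy']
  exact spz_mem_locIn hι hι' q hy hy'

end Spz


end Fermat.Agent.AbVar
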