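import Fermat.Agent.AbVar.Assembly

/-!
# S26: the case of relative dimension zero
-/

set_option autoImplicit false
universe u
open CategoryTheory CategoryTheory.Limits AlgebraicGeometry TopologicalSpace NeronModelInfra
  GoodReductionJacobian
open GoodReductionJacobian.RelativeGroupLaw (idPoint)

namespace Fermat.Agent.AbVar

namespace Asm

theorem card_zero (K : Type u) [Field K] [IsAlgClosed K] {A : Scheme.{u}}
    (f : A ⟶ Spec (CommRingCat.of K)) (L : RelativeGroupLaw K f)
    (hA : AbelianSchemePropertyBundle K f) [SmoothOfRelativeDimension 0 f] (n : ℕ) :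
    Nat.card {x : SchemeHomOver (𝟙 (Spec (CommRingCat.of K))) f //
        L.IsTorsionPoint (𝟙 (Spec (CommRingCat.of K))) n x} = 1 := by
  have := hA.proper
  have := hA.smooth
  have hconn : ConnectedSpace A := by
    have h1 := hA.connectedFibres (clp K)
    have h2 : f.base ⁻¹' {clp K} = Set.univ :=
      Set.eq_univ_of_forall fun a => Subsingleton.elim (f a) (clp K)
    rw [h2] at h1
    exact connectedSpace_iff_univ.mpr h1
  have : IsIntegral A := isIntegral_of_smooth f
  let x₀ : A := (L.one (𝟙 (Spec (CommRingCat.of K)))).1 (clp K)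
  have hcl : IsClosed {x₀} := isClosed_rational (L.one (𝟙 (Spec (CommRingCat.of K)))) (clp K)
  obtain ⟨t, ht, -⟩ := exists_coords f 0 x₀ hcl
  have hm : IsLocalRing.maximalIdeal (A.presheaf.stalk x₀) = ⊥ := by
    rw [← ht, Set.range_eq_empty, Ideal.span_empty]
  have hgen : genericPoint A = x₀ := by
    have h1 : genericPoint A ∈ Set.range (A.fromSpecStalk x₀) := by
      rw [Scheme.range_fromSpecStalk]
      exact (genericPoint_spec A).specializes trivial
    obtain ⟨p, hp⟩ := h1
    rw [← hp]
    have h2 : p = IsLocalRing.closedPoint (A.presheaf.stalk x₀) := by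
      apply PrimeSpectrum.ext
      change p.asIdeal = IsLocalRing.maximalIdeal (A.presheaf.stalk x₀)
      refine le_antisymm (IsLocalRing.le_maximalIdeal p.2.ne_top) ?_
      rw [hm]
      exact bot_le
    rw [h2]
    exact Scheme.fromSpecStalk_closedPoint
  have hall : ∀ a : A, a = x₀ := by
    intro a
    have h1 : closure {x₀} = Set.univ := by rw [← hgen]; exact genericPoint_spec A
    rw [hcl.closure_eq] at h1
    have h2 : a ∈ ({x₀} : Set A) := by rw [h1]; trivial
    exact h2
  rw [Nat.card_eq_one_iff_unique]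
  refine ⟨⟨?_⟩, ⟨⟨L.one _, L.isTorsionPoint_unit _ n⟩⟩⟩
  rintro ⟨x, hx⟩ ⟨y, hy⟩
  apply Subtype.ext
  apply (pointEquivClosedPoint f).injective
  apply Subtype.ext
  rw [hall ((pointEquivClosedPoint f) x : A), hall ((pointEquivClosedPoint f) y : A)]

end Asm

end Fermat.Agent.AbVar
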