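import Fermat.Agent.AbVar.Polar
import Fermat.Agent.Jac.Defs

/-!
# S26: Cartier divisors and the Cech Picard group
-/

set_option autoImplicit false
universe u
open CategoryTheory CategoryTheory.Limits AlgebraicGeometry TopologicalSpace
open Fermat.Agent.Jac

namespace Fermat.Agent.AbVar

namespace DivPic

variable {X : Scheme.{u}} [IsIntegral X]

theorem germToFF_res {U V : X.Opens} [Nonempty U] [Nonempty V] (h : V ≤ U) (a : Γ(X, U)) :
    X.germToFunctionField V (resO h a) = X.germToFunctionField U a := by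
  simp only [resO]
  exact X.presheaf.germ_res_apply (homOfLE h) _ _ _

theorem exists_section_of_forall_mem {V : X.Opens} [Nonempty V] {f : X.functionField}
    (h : ∀ v ∈ V, f ∈ stalkIn v) : ∃ σ : Γ(X, V), X.germToFunctionField V σ = f := by
  have h1 : ∀ v : V, ∃ (W : X.Opens) (_ : v.1 ∈ W) (_ : W ≤ V) (_ : Nonempty W) (σ : Γ(X, W)),
      X.germToFunctionField W σ = f := by
    rintro ⟨v, hv⟩
    obtain ⟨W, hvW, _, σ, hσ⟩ := Polar.exists_section (h v hv)
    have hne : Nonempty (W ⊓ V : X.Opens) := ⟨⟨v, hvW, hv⟩⟩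
    exact ⟨W ⊓ V, ⟨hvW, hv⟩, inf_le_right, hne, resO inf_le_left σ, by rw [germToFF_res, hσ]⟩
  choose W hW hWV hWne σ hσ using h1
  obtain ⟨τ, hτ, -⟩ := X.sheaf.existsUnique_gluing' W V (fun v => homOfLE (hWV v))
    (fun v hv => Opens.mem_iSup.2 ⟨⟨v, hv⟩, hW ⟨v, hv⟩⟩) σ (by
      intro i j
      have hgen : genericPoint X ∈ W i ⊓ W j :=
        ⟨((genericPoint_spec X).mem_open_set_iff (W i).isOpen).mpr (by simpa using hWne i),
          ((genericPoint_spec X).mem_open_set_iff (W j).isOpen).mpr (by simpa using hWne j)⟩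
      have : Nonempty (W i ⊓ W j : X.Opens) := ⟨⟨_, hgen⟩⟩
      have := hWne i
      have := hWne j
      apply X.germToFunctionField_injective (W i ⊓ W j)
      have e1 := germToFF_res (inf_le_left : W i ⊓ W j ≤ W i) (σ i)
      have e2 := germToFF_res (inf_le_right : W i ⊓ W j ≤ W j) (σ j)
      refine (e1.trans ((hσ i).trans (hσ j).symm)).trans e2.symm)
  refine ⟨τ, ?_⟩
  obtain ⟨v⟩ := ‹Nonempty V›
  have := hWne v
  rw [← hσ v, ← germToFF_res (hWV v) τ]
  congr 1
  exact hτ v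

theorem section_ext {V : X.Opens} {a b : Γ(X, V)}
    (h : ∀ _ : Nonempty V, X.germToFunctionField V a = X.germToFunctionField V b) : a = b := by
  by_cases hV : Nonempty V
  · exact X.germToFunctionField_injective V (h hV)
  · have hV' : V = ⊥ := by
      ext x
      simp only [Opens.coe_bot, Set.mem_empty_iff_false, iff_false, SetLike.mem_coe]
      exact fun hx => hV ⟨⟨x, hx⟩⟩
    subst hV'
    exact Subsingleton.elim _ _

theorem stalkIn_div {v : X} {f g h : X.functionField} (hg : g ≠ 0) (h1 : f / g ∈ stalkIn v)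
    (h2 : g / h ∈ stalkIn v) : f / h ∈ stalkIn v := by
  have := mul_mem h1 h2
  rwa [div_mul_div_cancel₀ hg] at this

theorem exists_unit {V : X.Opens} {f : X.functionField} (hf : f ≠ 0)
    (h : ∀ v ∈ V, f ∈ stalkIn v ∧ f⁻¹ ∈ stalkIn v) :
    ∃ u : Γ(X, V)ˣ, ∀ _ : Nonempty V, X.germToFunctionField V (u : Γ(X, V)) = f := by
  by_cases hV : Nonempty V
  · obtain ⟨σ, hσ⟩ := exists_section_of_forall_mem fun v hv => (h v hv).1
    obtain ⟨τ, hτ⟩ := exists_section_of_forall_mem fun v hv => (h v hv).2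
    have h1 : σ * τ = 1 := by
      apply X.germToFunctionField_injective V
      rw [map_mul, hσ, hτ, mul_inv_cancel₀ hf, map_one]
    exact ⟨⟨σ, τ, h1, by rw [mul_comm]; exact h1⟩, fun _ => hσ⟩
  · exact ⟨1, fun h => absurd h hV⟩

/-- the unit section with given germ -/
noncomputable def unitOf (V : X.Opens) (f : X.functionField) (hf : f ≠ 0)
    (h : ∀ v ∈ V, f ∈ stalkIn v ∧ f⁻¹ ∈ stalkIn v) : Γ(X, V)ˣ := (exists_unit hf h).choose

theorem unitOf_spec {V : X.Opens} [hV : Nonempty V] {f : X.functionField} (hf : f ≠ 0)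
    (h : ∀ v ∈ V, f ∈ stalkIn v ∧ f⁻¹ ∈ stalkIn v) :
    X.germToFunctionField V (unitOf V f hf h : Γ(X, V)) = f := (exists_unit hf h).choose_spec hV

/-- the cocycle of a Cartier divisor: `g x y = t x / t y`. -/
noncomputable def toCocycle (D : CDiv X) : UnitCocycle X where
  U := fun x => (D.loc x).choose
  mem := fun x => (D.loc x).choose_spec.1
  g := fun x y V hx hy => unitOf V (D.t x / D.t y) (div_ne_zero (D.ne_zero x) (D.ne_zero y))
    (fun v hv => by
      obtain ⟨h1, h2⟩ := (D.loc x).choose_spec.2 v (hx hv)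
      obtain ⟨h3, h4⟩ := (D.loc y).choose_spec.2 v (hy hv)
      refine ⟨stalkIn_div (D.ne_zero v) h1 h4, ?_⟩
      rw [inv_div]
      exact stalkIn_div (D.ne_zero v) h3 h2)
  g_res := by
    intro x y V hx hy W h
    ext
    apply section_ext
    intro hW
    have hV : Nonempty V := ⟨⟨hW.some.1, h hW.some.2⟩⟩
    simp only [Units.coe_map, RingHom.toMonoidHom_eq_coe, MonoidHom.coe_coe]
    rw [germToFF_res h, unitOf_spec, unitOf_spec]
  g_mul := by
    intro x y z V hx hy hz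
    ext
    apply section_ext
    intro hV
    rw [Units.val_mul, map_mul, unitOf_spec, unitOf_spec, unitOf_spec,
      div_mul_div_cancel₀ (D.ne_zero y)]

theorem toCocycle_g (D : CDiv X) (x y : X) (V : X.Opens) [Nonempty V]
    (hx : V ≤ (toCocycle D).U x) (hy : V ≤ (toCocycle D).U y) :
    X.germToFunctionField V ((toCocycle D).g x y V hx hy : Γ(X, V)) = D.t x / D.t y := by
  simp only [toCocycle]
  exact unitOf_spec _ _

/-- the class of a Cartier divisor -/
noncomputable def cls (D : CDiv X) : Pic X := Pic.mk (toCocycle D)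

/-- a cocycle with rational trivialisation equal to that of `D` has the same class. -/
theorem cls_eq_mk (D : CDiv X) (c : UnitCocycle X)
    (h : ∀ (x y : X) (V : X.Opens) (hx : V ≤ c.U x) (hy : V ≤ c.U y), ∀ _ : Nonempty V,
      X.germToFunctionField V (c.g x y V hx hy : Γ(X, V)) = D.t x / D.t y) :
    cls D = Pic.mk c := by
  refine Pic.mk_eq_of_g_eq fun x y V hx hy hx' hy' => ?_
  ext
  apply section_ext
  intro hV
  rw [h, toCocycle_g]

/-- product of Cartier divisors -/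
noncomputable def mulD (D D' : CDiv X) : CDiv X where
  t := fun x => D.t x * D'.t x
  ne_zero := fun x => mul_ne_zero (D.ne_zero x) (D'.ne_zero x)
  loc := fun x => by
    obtain ⟨U, hU, H⟩ := D.loc x
    obtain ⟨U', hU', H'⟩ := D'.loc x
    refine ⟨U ⊓ U', ⟨hU, hU'⟩, fun y hy => ?_⟩
    rw [mul_div_mul_comm, mul_div_mul_comm]
    exact ⟨mul_mem (H y hy.1).1 (H' y hy.2).1, mul_mem (H y hy.1).2 (H' y hy.2).2⟩

theorem cls_mulD (D D' : CDiv X) : cls (mulD D D') = cls D * cls D' := by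
  rw [cls, cls, cls, ← Pic.mk_mul]
  refine cls_eq_mk _ _ fun x y V hx hy hV => ?_
  rw [UnitCocycle.mul_g, Units.val_mul, map_mul, toCocycle_g, toCocycle_g]
  simp only [mulD]
  rw [mul_div_mul_comm]

/-- the trivial divisor -/
noncomputable def oneD : CDiv X where
  t := fun _ => 1
  ne_zero := fun _ => one_ne_zero
  loc := fun x => ⟨⊤, trivial, fun y _ => by simp [one_mem]⟩

theorem cls_oneD : cls (oneD : CDiv X) = 1 := by
  rw [← Pic.mk_one]
  refine cls_eq_mk _ _ fun x y V hx hy hV => ?_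
  simp [oneD]

/-- powers of a divisor -/
noncomputable def powD (D : CDiv X) : ℕ → CDiv X
  | 0 => oneD
  | n + 1 => mulD (powD D n) D

theorem powD_t (D : CDiv X) (n : ℕ) (x : X) : (powD D n).t x = D.t x ^ n := by
  induction n with
  | zero => rw [pow_zero]; rfl
  | succ n ih => rw [pow_succ, ← ih]; rfl

theorem cls_powD (D : CDiv X) (n : ℕ) : cls (powD D n) = cls D ^ n := by
  induction n with
  | zero => rw [pow_zero]; exact cls_oneD
  | succ n ih => rw [pow_succ, ← ih]; exact cls_mulD _ _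

/-- linearly equivalent divisors -/
theorem exists_rational {D D' : CDiv X} (h : cls D = cls D') :
    ∃ φ : X.functionField, φ ≠ 0 ∧ ∀ p, φ * D.t p / D'.t p ∈ stalkIn p ∧
      D'.t p / (φ * D.t p) ∈ stalkIn p := by
  rw [cls, cls, Pic.mk_eq] at h
  obtain ⟨W, hW, hU, hU', u, H⟩ := h
  have hgen : ∀ x, genericPoint X ∈ W x := fun x =>
    ((genericPoint_spec X).mem_open_set_iff (W x).isOpen).mpr ⟨x, trivial, hW x⟩
  have hne : ∀ x, Nonempty (W x) := fun x => ⟨⟨x, hW x⟩⟩
  let w : X → X.functionField := fun x => X.germToFunctionField (W x) (u x : Γ(X, W x))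
  have hw0 : ∀ x, w x ≠ 0 := fun x => ((u x).isUnit.map (X.germToFunctionField (W x)).hom).ne_zero
  have hw1 : ∀ x, w x ∈ stalkIn x := fun x => Polar.germ_mem_stalkIn _ (hW x)
  have hw2 : ∀ x, (w x)⁻¹ ∈ stalkIn x := fun x =>
    Polar.inv_mem_stalkIn (hW x) ((u x).isUnit.map (X.presheaf.germ (W x) x (hW x)).hom)
  have key : ∀ x y, D'.t x / D'.t y * w y = w x * (D.t x / D.t y) := by
    intro x y
    have : Nonempty (W x ⊓ W y : X.Opens) := ⟨⟨genericPoint X, hgen x, hgen y⟩⟩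
    have := hne x
    have := hne y
    have e := congrArg (fun a : Γ(X, W x ⊓ W y)ˣ => X.germToFunctionField (W x ⊓ W y) (a : Γ(X, _)))
      (H x y (W x ⊓ W y) inf_le_left inf_le_right)
    simp only [Units.val_mul, map_mul, Units.coe_map, RingHom.toMonoidHom_eq_coe,
      MonoidHom.coe_coe] at e
    rw [toCocycle_g, toCocycle_g, germToFF_res, germToFF_res] at e
    exact e
  obtain ⟨x₀⟩ : Nonempty X := inferInstance
  have hconst : ∀ p, w p * D.t p / D'.t p = w x₀ * D.t x₀ / D'.t x₀ := by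
    intro p
    have h1 := key p x₀
    have a1 := D.ne_zero p
    have a2 := D.ne_zero x₀
    have a3 := D'.ne_zero p
    have a4 := D'.ne_zero x₀
    field_simp at h1 ⊢
    linear_combination (-1 : X.functionField) * h1
  refine ⟨(w x₀ * D.t x₀ / D'.t x₀)⁻¹, ?_, fun p => ?_⟩
  · exact inv_ne_zero (div_ne_zero (mul_ne_zero (hw0 _) (D.ne_zero _)) (D'.ne_zero _))
  · have a1 := D.ne_zero p
    have a3 := D'.ne_zero p
    have a5 := hw0 p
    rw [← hconst p]
    constructor
    · convert hw2 p using 1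
      field_simp
    · convert hw1 p using 1
      field_simp

section Pullback

variable {Y : Scheme.{u}} [IsIntegral Y] (φ : X ⟶ Y) (h : φ (genericPoint X) = genericPoint Y)

theorem ffMap_germ (V : Y.Opens) [Nonempty V] [Nonempty (φ ⁻¹ᵁ V : X.Opens)] (a : Γ(Y, V)) :
    ffMap φ h (Y.germToFunctionField V a) = X.germToFunctionField (φ ⁻¹ᵁ V) (φ.app V a) := by
  have hgenX : genericPoint X ∈ φ ⁻¹ᵁ V :=
    ((genericPoint_spec X).mem_open_set_iff (φ ⁻¹ᵁ V).isOpen).mpr (by simpa using ‹Nonempty (φ ⁻¹ᵁ V : X.Opens)›)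
  have hgenY : genericPoint Y ∈ V :=
    ((genericPoint_spec Y).mem_open_set_iff V.isOpen).mpr (by simpa using ‹Nonempty V›)
  have h1 : (Y.presheaf.stalkCongr (.of_eq h.symm)).hom.hom (Y.presheaf.germ V _ hgenY a) =
      Y.presheaf.germ V (φ (genericPoint X)) hgenX a := by
    rw [TopCat.Presheaf.stalkCongr_hom]
    exact Y.presheaf.germ_stalkSpecializes_apply _ _ _
  change (φ.stalkMap (genericPoint X)).hom ((Y.presheaf.stalkCongr (.of_eq h.symm)).hom.hom
    (Y.presheaf.germ V _ hgenY a)) = _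
  rw [h1]
  exact Scheme.Hom.germ_stalkMap_apply φ V _ hgenX a

theorem ffMap_algebraMap (x : X) (a : Y.presheaf.stalk (φ x)) :
    ffMap φ h (algebraMap (Y.presheaf.stalk (φ x)) Y.functionField a) =
      algebraMap (X.presheaf.stalk x) X.functionField ((φ.stalkMap x).hom a) := by
  obtain ⟨V, hV, a, rfl⟩ := Y.presheaf.exists_germ_eq a
  have hgenX : genericPoint X ∈ φ ⁻¹ᵁ V :=
    ((genericPoint_spec X).mem_open_set_iff (φ ⁻¹ᵁ V).isOpen).mpr ⟨x, trivial, hV⟩
  have hgenY : genericPoint Y ∈ V :=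
    ((genericPoint_spec Y).mem_open_set_iff V.isOpen).mpr ⟨φ x, trivial, hV⟩
  have hne1 : Nonempty V := ⟨⟨_, hgenY⟩⟩
  have hne2 : Nonempty (φ ⁻¹ᵁ V : X.Opens) := ⟨⟨_, hgenX⟩⟩
  rw [Scheme.algebraMap_germ_eq_germToFunctionField Y hV]
  have h1 : (φ.stalkMap x).hom (Y.presheaf.germ V (φ x) hV a) =
      X.presheaf.germ (φ ⁻¹ᵁ V) x hV (φ.app V a) := Scheme.Hom.germ_stalkMap_apply φ V x hV a
  rw [h1, Scheme.algebraMap_germ_eq_germToFunctionField X hV, ffMap_germ]

theorem ffMap_mem (x : X) {a : Y.functionField} (ha : a ∈ stalkIn (φ x)) :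
    ffMap φ h a ∈ stalkIn x := by
  obtain ⟨α, rfl⟩ := ha
  rw [ffMap_algebraMap]
  exact ⟨_, rfl⟩

/-- pullback of a Cartier divisor along a dominant morphism -/
noncomputable def pbD (D : CDiv Y) : CDiv X where
  t := fun x => ffMap φ h (D.t (φ x))
  ne_zero := fun x => (map_ne_zero _).mpr (D.ne_zero _)
  loc := fun x => by
    obtain ⟨U, hU, H⟩ := D.loc (φ x)
    refine ⟨φ ⁻¹ᵁ U, hU, fun y hy => ?_⟩
    rw [← map_div₀, ← map_div₀]
    exact ⟨ffMap_mem φ h y (H (φ y) hy).1, ffMap_mem φ h y (H (φ y) hy).2⟩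

theorem cls_pbD (D : CDiv Y) : cls (pbD φ h D) = Pic.map φ (cls D) := by
  rw [cls, cls, Pic.map_mk]
  refine cls_eq_mk _ _ fun x y V hx hy hV => ?_
  have hW : V ≤ φ ⁻¹ᵁ ((toCocycle D).U (φ x) ⊓ (toCocycle D).U (φ y)) := le_inf hx hy
  rw [UnitCocycle.pb_g φ (toCocycle D) x y V hx hy _ hW inf_le_left inf_le_right]
  have hne2 : Nonempty (φ ⁻¹ᵁ ((toCocycle D).U (φ x) ⊓ (toCocycle D).U (φ y)) : X.Opens) :=
    ⟨⟨hV.some.1, hW hV.some.2⟩⟩
  have hne1 : Nonempty ((toCocycle D).U (φ x) ⊓ (toCocycle D).U (φ y) : Y.Opens) :=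
    ⟨⟨φ hV.some.1, hW hV.some.2⟩⟩
  simp only [Units.coe_map, RingHom.toMonoidHom_eq_coe, MonoidHom.coe_coe]
  have h1 : (φ.appLE ((toCocycle D).U (φ x) ⊓ (toCocycle D).U (φ y)) V hW).hom
      ((toCocycle D).g (φ x) (φ y) _ inf_le_left inf_le_right : Γ(Y, _)) =
      resO hW (φ.app _ ((toCocycle D).g (φ x) (φ y) _ inf_le_left inf_le_right : Γ(Y, _))) := rfl
  rw [h1, germToFF_res hW, ← ffMap_germ φ h, toCocycle_g, map_div₀]
  rfl

end Pullback

/-- pullback along a morphism which is constant on points is trivial -/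
theorem map_of_const {X Y : Scheme.{u}} (φ : X ⟶ Y) (hφ : ∀ x y, φ x = φ y) (ℓ : Pic Y) :
    Pic.map φ ℓ = 1 := by
  obtain ⟨c, rfl⟩ := Pic.mk_surjective ℓ
  rw [Pic.map_mk, ← Pic.mk_one]
  refine Pic.mk_eq_of_g_eq fun x y V hx hy hx' hy' => ?_
  have hW : V ≤ φ ⁻¹ᵁ (c.U (φ x) ⊓ c.U (φ y)) := le_inf hx hy
  rw [UnitCocycle.pb_g φ c x y V hx hy _ hW inf_le_left inf_le_right, UnitCocycle.one_g]
  have key : ∀ (a b : Y) (_ : a = b) (W : Y.Opens) (ha : W ≤ c.U a) (hb : W ≤ c.U b),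
      c.g a b W ha hb = 1 := by
    rintro a _ rfl W ha hb
    exact c.g_self a W ha hb
  rw [key _ _ (hφ x y), map_one]

end DivPic

end Fermat.Agent.AbVar
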