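import Fermat.Agent.AbVar.DivPic
import Fermat.Agent.AbVar.Sq.Geom

/-!
# S26: rational trivialisation over valuation rings implies triviality in the Picard group
-/

set_option autoImplicit false
universe u
open CategoryTheory CategoryTheory.Limits AlgebraicGeometry TopologicalSpace IsLocalRing
open Fermat.Agent.Jac

namespace Fermat.Agent.AbVar

namespace Last

open Sq

section Group

variable {X : Scheme.{u}} [IsIntegral X]

theorem CDiv_ext {D D' : CDiv X} (h : ∀ x, D.t x = D'.t x) : D = D' := by
  cases D; cases D'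
  congr
  exact funext h

/-- inverse of a Cartier divisor -/
noncomputable def invD (D : CDiv X) : CDiv X where
  t := fun x => (D.t x)⁻¹
  ne_zero := fun x => inv_ne_zero (D.ne_zero x)
  loc := fun x => by
    obtain ⟨U, hU, H⟩ := D.loc x
    refine ⟨U, hU, fun y hy => ?_⟩
    have e1 : (D.t x)⁻¹ / (D.t y)⁻¹ = D.t y / D.t x := by rw [inv_div_inv]
    have e2 : (D.t y)⁻¹ / (D.t x)⁻¹ = D.t x / D.t y := by rw [inv_div_inv]
    rw [e1, e2]
    exact (H y hy).symm

noncomputable instance : One (CDiv X) := ⟨DivPic.oneD⟩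
noncomputable instance : Mul (CDiv X) := ⟨DivPic.mulD⟩
noncomputable instance : Inv (CDiv X) := ⟨invD⟩

theorem one_t (x : X) : (1 : CDiv X).t x = 1 := rfl
theorem mul_t (D D' : CDiv X) (x : X) : (D * D').t x = D.t x * D'.t x := rfl
theorem inv_t (D : CDiv X) (x : X) : (D⁻¹).t x = (D.t x)⁻¹ := rfl

noncomputable instance : CommGroup (CDiv X) :=
  { Group.ofLeftAxioms (G := CDiv X)
      (fun a b c => CDiv_ext fun x => by rw [mul_t, mul_t, mul_t, mul_t, mul_assoc])
      (fun a => CDiv_ext fun x => by rw [mul_t, one_t, one_mul])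
      (fun a => CDiv_ext fun x => by
        rw [mul_t, inv_t, one_t, inv_mul_cancel₀ (a.ne_zero x)]) with
    mul_comm := fun a b => CDiv_ext fun x => by rw [mul_t, mul_t, mul_comm] }

/-- the class as a homomorphism -/
noncomputable def clsHom (X : Scheme.{u}) [IsIntegral X] : CDiv X →* Pic X where
  toFun := DivPic.cls
  map_one' := DivPic.cls_oneD
  map_mul' := DivPic.cls_mulD

/-- the local equation as a homomorphism -/
noncomputable def tHom (x : X) : CDiv X →* X.functionFieldˣ where
  toFun D := Units.mk0 (D.t x) (D.ne_zero x)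
  map_one' := Units.ext rfl
  map_mul' _ _ := Units.ext rfl

theorem cls_eq_one_of_rational (E : CDiv X) (l : X.functionField) (hl : l ≠ 0)
    (H : ∀ p, l * E.t p ∈ stalkIn p ∧ (l * E.t p)⁻¹ ∈ stalkIn p) : DivPic.cls E = 1 := by
  have hu : ∀ x : X, ∀ v ∈ (DivPic.toCocycle E).U x,
      l * E.t x ∈ stalkIn v ∧ (l * E.t x)⁻¹ ∈ stalkIn v := by
    intro x v hv
    obtain ⟨h1, h2⟩ := (E.loc x).choose_spec.2 v hv
    obtain ⟨h3, h4⟩ := H v
    have hv0 := E.ne_zero v
    have hx0 := E.ne_zero x
    have e1 : l * E.t x = (l * E.t v) * (E.t x / E.t v) := by field_simp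
    have e2 : (l * E.t x)⁻¹ = (l * E.t v)⁻¹ * (E.t v / E.t x) := by field_simp
    rw [e2, e1]
    exact ⟨mul_mem h3 h1, mul_mem h4 h2⟩
  have hu0 : ∀ x : X, l * E.t x ≠ 0 := fun x => mul_ne_zero hl (E.ne_zero x)
  rw [DivPic.cls, ← Pic.mk_one, Pic.mk_eq]
  apply UnitCocycle.Rel.symm
  refine ⟨(DivPic.toCocycle E).U, (DivPic.toCocycle E).mem, fun _ => le_top, fun _ => le_rfl,
    fun x => DivPic.unitOf _ (l * E.t x) (hu0 x) (hu x), fun x y V hx hy => ?_⟩
  ext
  apply DivPic.section_ext
  intro hV
  have hne : ∀ x : X, Nonempty ((DivPic.toCocycle E).U x) :=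
    fun x => ⟨⟨x, (DivPic.toCocycle E).mem x⟩⟩
  rw [UnitCocycle.one_g, mul_one, Units.val_mul, map_mul]
  simp only [Units.coe_map, RingHom.toMonoidHom_eq_coe, MonoidHom.coe_coe]
  rw [DivPic.toCocycle_g, DivPic.germToFF_res, DivPic.germToFF_res]
  have := hne x
  have := hne y
  rw [DivPic.unitOf_spec, DivPic.unitOf_spec]
  have hy0 := E.ne_zero y
  field_simp

end Group

section Gen

variable {X : Scheme.{u}} [IsIntegral X] {A : Scheme.{u}} (h : X ⟶ A) (c : UnitCocycle A)

/-- the canonical map from the spectrum of the local ring -/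
noncomputable def stkMap {X : Scheme.{u}} (p : X) : Spec (.of (X.presheaf.stalk p)) ⟶ X :=
  X.fromSpecStalk p

/-- the canonical map from the spectrum of the function field -/
noncomputable def genMap (X : Scheme.{u}) [IrreducibleSpace X] : Spec (.of X.functionField) ⟶ X :=
  X.fromSpecStalk (genericPoint X)

theorem stkMap_clp {X : Scheme.{u}} (p : X) : stkMap p (clp (X.presheaf.stalk p)) = p :=
  Scheme.fromSpecStalk_closedPoint

theorem genMap_clp (X : Scheme.{u}) [IsIntegral X] :
    genMap X (clp X.functionField) = genericPoint X :=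
  Scheme.fromSpecStalk_closedPoint

theorem evalAt_stkMap {X : Scheme.{u}} (p : X) (V : X.Opens)
    (hV : stkMap p (clp (X.presheaf.stalk p)) ∈ V) (hp : p ∈ V) (a : Γ(X, V)) :
    evalAt (stkMap p) V hV a = X.presheaf.germ V p hp a := by
  simp only [evalAt]
  have h1 : (stkMap p).appLE V ⊤ (preimage_eq_top _ hV) ≫
      (Scheme.ΓSpecIso (.of (X.presheaf.stalk p))).hom = X.presheaf.germ V p hp := by
    change (X.fromSpecStalk p).appLE V ⊤ (preimage_eq_top (stkMap p) hV) ≫
      (Scheme.ΓSpecIso (X.presheaf.stalk p)).hom = X.presheaf.germ V p hp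
    rw [Scheme.Hom.appLE, Scheme.fromSpecStalk_app hp]
    simp only [Category.assoc]
    rw [← Functor.map_comp_assoc]
    change X.presheaf.germ V p hp ≫ (Scheme.ΓSpecIso (X.presheaf.stalk p)).inv ≫
      (Spec (X.presheaf.stalk p)).presheaf.map (𝟙 _) ≫ _ = _
    rw [CategoryTheory.Functor.map_id, Category.id_comp, Iso.inv_hom_id, Category.comp_id]
  rw [h1]

theorem evalAt_comp_appLE {X A : Scheme.{u}} {O : Type u} [CommRing O] [IsLocalRing O]
    (g : Spec (.of O) ⟶ X) (h : X ⟶ A) (W : A.Opens) (V : X.Opens) (hVW : V ≤ h ⁻¹ᵁ W)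
    (hV : g (clp O) ∈ V) (hW : (g ≫ h) (clp O) ∈ W) (a : Γ(A, W)) :
    evalAt (g ≫ h) W hW a = evalAt g V hV (h.appLE W V hVW a) := by
  simp only [evalAt]
  rw [← CommRingCat.comp_apply, ← Scheme.Hom.appLE_comp_appLE g h W V ⊤ hVW (preimage_eq_top g hV)]
  rfl

/-- the rational local equation of a pulled back cocycle -/
noncomputable def ratU (p : X) : X.functionFieldˣ :=
  lval c (genMap X ≫ h) (h p)

theorem pb_g_germ (x y : X) (V : X.Opens) [Nonempty V] (hx : V ≤ (UnitCocycle.pb h c).U x)
    (hy : V ≤ (UnitCocycle.pb h c).U y) :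
    X.germToFunctionField V ((UnitCocycle.pb h c).g x y V hx hy : Γ(X, V)) =
      (ratU h c x : X.functionField) / (ratU h c y : X.functionField) := by
  have hgenV : genericPoint X ∈ V :=
    ((genericPoint_spec X).mem_open_set_iff V.isOpen).mpr (by simpa using ‹Nonempty V›)
  set η : Spec (.of X.functionField) ⟶ X := genMap X with hη
  have hcl : η (clp X.functionField) = genericPoint X := genMap_clp X
  set q : A := (η ≫ h) (clp X.functionField) with hq
  have hq' : q = h (genericPoint X) := by
    rw [hq, Scheme.Hom.comp_apply, hcl]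
  -- the open where everything is defined
  let W : A.Opens := c.U (h x) ⊓ c.U (h y) ⊓ c.U q
  let V' : X.Opens := V ⊓ h ⁻¹ᵁ W
  have hqW : q ∈ W := by
    refine ⟨⟨?_, ?_⟩, c.mem q⟩
    · rw [hq']; exact hx hgenV
    · rw [hq']; exact hy hgenV
  have hgenV' : genericPoint X ∈ V' := ⟨hgenV, by
    change h (genericPoint X) ∈ W
    rw [← hq']; exact hqW⟩
  have hne : Nonempty V' := ⟨⟨_, hgenV'⟩⟩
  have hV' : V' ≤ h ⁻¹ᵁ W := inf_le_right
  -- the values
  have key : ∀ a : Γ(A, W), X.germToFunctionField V' (h.appLE W V' hV' a) =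
      evalAt (η ≫ h) W hqW a := by
    intro a
    rw [evalAt_comp_appLE η h W V' hV' (by rw [hcl]; exact hgenV') hqW]
    exact (evalAt_stkMap (genericPoint X) V' _ hgenV' _).symm
  have e1 := lval_eq c (η ≫ h) (h x) W hqW (inf_le_left.trans inf_le_left) inf_le_right
  have e2 := lval_eq c (η ≫ h) (h y) W hqW (inf_le_left.trans inf_le_right) inf_le_right
  have e3 := c.g_mul (h x) (h y) q W (inf_le_left.trans inf_le_left)
    (inf_le_left.trans inf_le_right) inf_le_right
  have e4 : ratU h c x = Units.map (evalAt (η ≫ h) W hqW).toMonoidHom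
      (c.g (h x) (h y) W (inf_le_left.trans inf_le_left) (inf_le_left.trans inf_le_right)) *
        ratU h c y := by
    rw [ratU, ratU, ← hη, e1, e2, ← map_mul, e3]
  have e5 : ((ratU h c x : X.functionFieldˣ) : X.functionField) / (ratU h c y : X.functionField) =
      evalAt (η ≫ h) W hqW (c.g (h x) (h y) W (inf_le_left.trans inf_le_left)
        (inf_le_left.trans inf_le_right) : Γ(A, W)) := by
    rw [e4, Units.val_mul, mul_div_cancel_right₀ _ (Units.ne_zero _)]
    rfl
  rw [e5, ← key]
  rw [← DivPic.germToFF_res (inf_le_left : V' ≤ V)]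
  congr 1
  have e6 := (UnitCocycle.pb h c).g_res x y V hx hy V' inf_le_left
  have e7 := UnitCocycle.pb_g h c x y V' (inf_le_left.trans hx) (inf_le_left.trans hy) W hV'
    (inf_le_left.trans inf_le_left) (inf_le_left.trans inf_le_right)
  rw [e7] at e6
  exact congrArg Units.val e6

/-- the Cartier divisor of a pulled back cocycle -/
noncomputable def ratD : CDiv X where
  t := fun p => ratU h c p
  ne_zero := fun p => Units.ne_zero _
  loc := fun x => by
    refine ⟨(UnitCocycle.pb h c).U x, (UnitCocycle.pb h c).mem x, fun y hy => ?_⟩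
    let V : X.Opens := (UnitCocycle.pb h c).U x ⊓ (UnitCocycle.pb h c).U y
    have hyV : y ∈ V := ⟨hy, (UnitCocycle.pb h c).mem y⟩
    have : Nonempty V := ⟨⟨y, hyV⟩⟩
    have e1 := pb_g_germ h c x y V inf_le_left inf_le_right
    have e2 := pb_g_germ h c y x V inf_le_right inf_le_left
    rw [← e1, ← e2]
    exact ⟨Polar.germ_mem_stalkIn _ hyV, Polar.germ_mem_stalkIn _ hyV⟩

theorem cls_ratD : DivPic.cls (ratD h c) = Pic.map h (Pic.mk c) := by
  rw [Pic.map_mk]
  exact DivPic.cls_eq_mk _ _ fun x y V hx hy hV => pb_g_germ h c x y V hx hy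

end Gen

section Val

variable {X : Scheme.{u}} [IsIntegral X] {A : Scheme.{u}} {α : Type*} [Fintype α]
  (c : UnitCocycle A) (e : α → ℤ) (h : α → (X ⟶ A))

theorem prod_ratU (p : X) : ∏ i, ratU (h i) c p ^ e i =
    lvalM c e (fun i => genMap X ≫ h i) (fun i => h i p) := rfl

/-- an element of all valuation rings dominating a normal local ring is in the ring -/
theorem mem_stalkIn_of_dominating (p : X) [IsIntegrallyClosed (X.presheaf.stalk p)]
    (y : X.functionField)
    (H : ∀ (V : ValuationSubring X.functionField) (σ : X.presheaf.stalk p →+* V), IsLocalHom σ →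
      (algebraMap V X.functionField).comp σ = algebraMap (X.presheaf.stalk p) X.functionField →
      y ∈ V) : y ∈ stalkIn p := by
  by_contra hy
  let R : LocalSubring X.functionField :=
    LocalSubring.range (algebraMap (X.presheaf.stalk p) X.functionField)
  have hR : R.toSubring = stalkIn p := by
    rfl
  have : IsIntegrallyClosedIn R.toSubring X.functionField := by
    rw [Subring.isIntegrallyClosedIn_iff]
    intro z hz
    let r : X.presheaf.stalk p →+* R.toSubring :=
      (algebraMap (X.presheaf.stalk p) X.functionField).rangeRestrict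
    let : Algebra (X.presheaf.stalk p) R.toSubring := r.toAlgebra
    have : IsScalarTower (X.presheaf.stalk p) R.toSubring X.functionField :=
      IsScalarTower.of_algebraMap_eq' rfl
    have hsurj : Function.Surjective r := RingHom.rangeRestrict_surjective _
    have : Algebra.IsIntegral (X.presheaf.stalk p) R.toSubring :=
      Algebra.isIntegral_of_surjective hsurj
    have h1 : IsIntegral (X.presheaf.stalk p) z := isIntegral_trans z hz
    obtain ⟨a, ha⟩ := (IsIntegrallyClosed.isIntegral_iff (R := X.presheaf.stalk p)).mp h1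
    exact ⟨a, ha⟩
  obtain ⟨V, hV, hyV⟩ := LocalSubring.exists_le_valuationSubring_of_isIntegrallyClosedIn
    (R := R) (x := y) hy
  refine hyV (H V ((algebraMap (X.presheaf.stalk p) X.functionField).codRestrict V.toSubring
    fun a => hV.1 ⟨a, rfl⟩) ?_ rfl)
  refine ⟨fun a ha => ?_⟩
  obtain ⟨hle, hloc⟩ := hV
  have h1 : IsUnit (Subring.inclusion hle ((algebraMap (X.presheaf.stalk p)
      X.functionField).rangeRestrict a)) := ha
  have h2 := hloc.map_nonunit _ h1
  have h3 : IsLocalHom (algebraMap (X.presheaf.stalk p) X.functionField).rangeRestrict :=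
    .of_surjective _ (RingHom.rangeRestrict_surjective _)
  exact h3.map_nonunit _ h2

/-- rational trivialisation over valuation rings implies triviality in the Picard group -/
theorem pic_eq_one_of_val (hnorm : ∀ p : X, IsIntegrallyClosed (X.presheaf.stalk p))
    (l : X.functionFieldˣ)
    (H : ∀ (V : ValuationSubring X.functionField) (g : Spec (.of V) ⟶ X),
      Spec.map (CommRingCat.ofHom (algebraMap V X.functionField)) ≫ g = genMap X →
      ∃ v : Vˣ, (l : X.functionField) * (dval c e X.functionField (fun i => g ≫ h i) :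
        X.functionFieldˣ) = ((v : V) : X.functionField)) :
    ∏ i, Pic.map (h i) (Pic.mk c) ^ e i = 1 := by
  let E : CDiv X := ∏ i, ratD (h i) c ^ e i
  have hE : DivPic.cls E = ∏ i, Pic.map (h i) (Pic.mk c) ^ e i := by
    change clsHom X E = _
    simp only [E]
    rw [map_prod]
    refine Finset.prod_congr rfl fun i _ => ?_
    rw [map_zpow]
    congr 1
    exact cls_ratD (h i) c
  have hEt : ∀ p, E.t p = ((lvalM c e (fun i => genMap X ≫ h i)
      (fun i => h i p) : X.functionFieldˣ) : X.functionField) := by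
    intro p
    change ((tHom p E : X.functionFieldˣ) : X.functionField) = _
    congr 1
    rw [← prod_ratU]
    simp only [E]
    rw [map_prod]
    refine Finset.prod_congr rfl fun i _ => ?_
    rw [map_zpow]
    congr 1
    exact Units.ext rfl
  rw [← hE]
  refine cls_eq_one_of_rational E l l.ne_zero fun p => ?_
  have key : ∀ (V : ValuationSubring X.functionField) (σ : X.presheaf.stalk p →+* V),
      IsLocalHom σ →
      (algebraMap V X.functionField).comp σ = algebraMap (X.presheaf.stalk p) X.functionField →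
      (l : X.functionField) * E.t p ∈ V ∧ ((l : X.functionField) * E.t p)⁻¹ ∈ V := by
    intro V σ hσ hσ2
    let g : Spec (.of V) ⟶ X := Spec.map (CommRingCat.ofHom σ) ≫ stkMap p
    have hg1 : Spec.map (CommRingCat.ofHom (algebraMap V X.functionField)) ≫ g = genMap X := by
      simp only [g]
      rw [← Category.assoc, ← Spec.map_comp, ← CommRingCat.ofHom_comp, hσ2]
      exact Scheme.SpecMap_stalkSpecializes_fromSpecStalk
        ((genericPoint_spec X).specializes trivial)
    have hg2 : g (clp V) = p := by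
      simp only [g]
      rw [Scheme.Hom.comp_apply]
      have h1 : Spec.map (CommRingCat.ofHom σ) (clp V) = clp (X.presheaf.stalk p) :=
        IsLocalRing.comap_closedPoint σ
      rw [h1, stkMap_clp]
    obtain ⟨v, hv⟩ := H V g hg1
    have h2 : (dval c e X.functionField (fun i => g ≫ h i) : X.functionFieldˣ) =
        lvalM c e (fun i => genMap X ≫ h i) (fun i => h i p) := by
      rw [dval]
      congr 1
      · funext i
        rw [← Category.assoc, hg1]
      · funext i
        rw [Scheme.Hom.comp_apply, hg2]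
    rw [hEt, ← h2, hv]
    refine ⟨(v : V).2, ?_⟩
    have h3 : ((v : V) : X.functionField) * ((v⁻¹ : Vˣ) : V) = 1 := by
      rw [← MulMemClass.coe_mul, Units.mul_inv, OneMemClass.coe_one]
    rw [inv_eq_of_mul_eq_one_right h3]
    exact ((v⁻¹ : Vˣ) : V).2
  have := hnorm p
  exact ⟨mem_stalkIn_of_dominating p _ fun V σ h1 h2 => (key V σ h1 h2).1,
    mem_stalkIn_of_dominating p _ fun V σ h1 h2 => (key V σ h1 h2).2⟩

end Val

end Last

end Fermat.Agent.AbVar
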