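import Fermat.Agent.AbVar.Sq.Geom

/-!
# S26: transfer of local values
-/

set_option autoImplicit false
universe u
open CategoryTheory CategoryTheory.Limits AlgebraicGeometry TopologicalSpace IsLocalRing
open Fermat.Agent.Jac

namespace Fermat.Agent.AbVar

namespace Last

open Sq

variable {A : Scheme.{u}} {α : Type*} [Fintype α] (c : UnitCocycle A) (e : α → ℤ)

theorem dval_transfer {R Ω V L' : Type u} [CommRing R] [IsLocalRing R] [Field Ω] [Algebra R Ω]
    [CommRing V] [IsLocalRing V] [Field L'] [Algebra V L'] (φ : R →+* V) [IsLocalHom φ]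
    (σ : Ω →+* L') (hσ : σ.comp (algebraMap R Ω) = (algebraMap V L').comp φ)
    (h : α → (Spec (.of R) ⟶ A)) :
    dval c e L' (fun i => Spec.map (CommRingCat.ofHom φ) ≫ h i) =
      Units.map σ.toMonoidHom (dval c e Ω h) := by
  have hcl1 : Spec.map (CommRingCat.ofHom φ) (clp V) = clp R := IsLocalRing.comap_closedPoint φ
  have hcl2 : Spec.map (CommRingCat.ofHom σ) (clp L') = clp Ω := IsLocalRing.comap_closedPoint σ
  have hh : ∀ i, Spec.map (CommRingCat.ofHom (algebraMap V L')) ≫
      Spec.map (CommRingCat.ofHom φ) ≫ h i = Spec.map (CommRingCat.ofHom σ) ≫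
        Spec.map (CommRingCat.ofHom (algebraMap R Ω)) ≫ h i := by
    intro i
    rw [← Category.assoc, ← Category.assoc, ← Spec.map_comp, ← Spec.map_comp,
      ← CommRingCat.ofHom_comp, ← CommRingCat.ofHom_comp, hσ]
  have h1 := lvalM_comp σ c e (fun i => Spec.map (CommRingCat.ofHom (algebraMap R Ω)) ≫ h i)
    (fun i => Spec.map (CommRingCat.ofHom (algebraMap V L')) ≫
      Spec.map (CommRingCat.ofHom φ) ≫ h i) hh (fun i => h i (clp R))
    (fun i => mem_of_closedPoint_mem (h i) (c.mem _) _)
  have h2 := lvalM_self c e (fun i => Spec.map (CommRingCat.ofHom (algebraMap V L')) ≫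
      Spec.map (CommRingCat.ofHom φ) ≫ h i)
      (fun i => (Spec.map (CommRingCat.ofHom (algebraMap R Ω)) ≫ h i) (clp Ω)) (fun i => by
        rw [hh i, Scheme.Hom.comp_apply (Spec.map (CommRingCat.ofHom σ)), hcl2])
  rw [h2, mul_one] at h1
  rw [dval, dval, ← h1]
  congr 1
  funext i
  rw [Scheme.Hom.comp_apply, hcl1]

end Last

end Fermat.Agent.AbVar
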