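import Fermat.Agent.AbVar.LastProd
import Fermat.Agent.AbVar.LastPic
import Fermat.Agent.AbVar.LastVal
import Fermat.Agent.AbVar.Sq.ThetaJ

/-!
# S26: the theorem of the cube in the Picard group, from its valuative form
-/

set_option autoImplicit false
universe u
open CategoryTheory CategoryTheory.Limits AlgebraicGeometry TopologicalSpace IsLocalRing
open NeronModelInfra GoodReductionJacobian Fermat.Agent.Jac
open TensorProduct

namespace Fermat.Agent.AbVar

namespace Last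

open Sq

attribute [local instance] isDomain_tensor

theorem exists_sigma_alg {K F F₂ F₃ : Type u} [Field K] [IsAlgClosed K] [Field F] [Algebra K F]
    [Field F₂] [Algebra K F₂] [Field F₃] [Algebra K F₃] (τ₂ : F ⊗[K] F →ₐ[K] F₂)
    (hτ₂ : Function.Injective τ₂) (τ₃ : F₂ ⊗[K] F →ₐ[K] F₃) (hτ₃ : Function.Injective τ₃) :
    ∃ σ : FractionRing (FractionRing (F ⊗[K] F) ⊗[K] F) →ₐ[K] F₃,
      (∀ a : F, σ (algebraMap (FractionRing (F ⊗[K] F) ⊗[K] F) _
        (algebraMap (F ⊗[K] F) (FractionRing (F ⊗[K] F)) (a ⊗ₜ 1) ⊗ₜ 1)) =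
        τ₃ (τ₂ (a ⊗ₜ 1) ⊗ₜ 1)) ∧
      (∀ a : F, σ (algebraMap (FractionRing (F ⊗[K] F) ⊗[K] F) _
        (algebraMap (F ⊗[K] F) (FractionRing (F ⊗[K] F)) (1 ⊗ₜ a) ⊗ₜ 1)) =
        τ₃ (τ₂ (1 ⊗ₜ a) ⊗ₜ 1)) ∧
      (∀ a : F, σ (algebraMap (FractionRing (F ⊗[K] F) ⊗[K] F) _ (1 ⊗ₜ a)) = τ₃ (1 ⊗ₜ a)) := by
  let κ₂ : FractionRing (F ⊗[K] F) →ₐ[K] F₂ := IsFractionRing.liftAlgHom (g := τ₂) hτ₂
  have hκ₂ : ∀ a, κ₂ (algebraMap _ _ a) = τ₂ a := fun a =>
    IsFractionRing.lift_algebraMap (g := τ₂.toRingHom) hτ₂ a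
  let μ : FractionRing (F ⊗[K] F) ⊗[K] F →ₐ[K] F₃ := τ₃.comp (scal F κ₂)
  have hμ : Function.Injective μ := hτ₃.comp (scal_injective κ₂ κ₂.injective)
  let σ : FractionRing (FractionRing (F ⊗[K] F) ⊗[K] F) →ₐ[K] F₃ :=
    IsFractionRing.liftAlgHom (g := μ) hμ
  have hσ : ∀ a, σ (algebraMap _ _ a) = μ a := fun a =>
    IsFractionRing.lift_algebraMap (g := μ.toRingHom) hμ a
  have hμ1 : ∀ a b, μ (a ⊗ₜ b) = τ₃ (κ₂ a ⊗ₜ b) := fun a b => rfl
  refine ⟨σ, fun a => ?_, fun a => ?_, fun a => ?_⟩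
  · rw [hσ, hμ1, hκ₂]
  · rw [hσ, hμ1, hκ₂]
  · rw [hσ, hμ1, map_one]

variable {K : Type u} [Field K] [IsAlgClosed K] {A : Scheme.{u}} (f : A ⟶ Spec (.of K))

/-- the square of `A` -/
noncomputable abbrev P2 : Scheme.{u} := pullback f f

/-- structure map of the square -/
noncomputable abbrev s2 : P2 f ⟶ Spec (.of K) := pullback.fst f f ≫ f

/-- the cube of `A` -/
noncomputable abbrev P3 : Scheme.{u} := pullback (s2 f) f

/-- structure map of the cube -/
noncomputable abbrev s3 : P3 f ⟶ Spec (.of K) := pullback.fst (s2 f) f ≫ s2 f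

section

variable [IsIntegral A] [Smooth f]

instance isIntegral_P2 : IsIntegral (P2 f) := by
  have : IsReduced (pullback f f) := reduced_of_smooth (s2 f)
  exact integral_prod f f

instance isIntegral_P3 : IsIntegral (P3 f) := by
  have : IsReduced (pullback (s2 f) f) := reduced_of_smooth (s3 f)
  exact integral_prod (s2 f) f

theorem exists_sigma : ∃ σ : Ω3 f →ₐ[K] FF (s3 f),
    Spec.map (CommRingCat.ofHom σ.toRingHom) ≫ pt3 f 0 =
      gpt (s3 f) ≫ pullback.fst (s2 f) f ≫ pullback.fst f f ∧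
    Spec.map (CommRingCat.ofHom σ.toRingHom) ≫ pt3 f 1 =
      gpt (s3 f) ≫ pullback.fst (s2 f) f ≫ pullback.snd f f ∧
    Spec.map (CommRingCat.ofHom σ.toRingHom) ≫ pt3 f 2 = gpt (s3 f) ≫ pullback.snd (s2 f) f := by
  obtain ⟨τ₂, hτ₂, h21, h22⟩ := exists_tau f f
  obtain ⟨τ₃, hτ₃, h31, h32⟩ := exists_tau (s2 f) f
  obtain ⟨σ, h1, h2, h3⟩ := exists_sigma_alg τ₂ hτ₂ τ₃ hτ₃
  refine ⟨σ, ?_, ?_, ?_⟩
  · have e : σ.toRingHom.comp (in3 f 0) =
      (τ₃.comp (Algebra.TensorProduct.includeLeft (R := K) (A := FF (s2 f)) (B := FF f))).toRingHom.comp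
        (τ₂.comp (Algebra.TensorProduct.includeLeft (R := K) (A := FF f) (B := FF f))).toRingHom :=
      RingHom.ext h1
    rw [pt3, ← Category.assoc, ← Spec.map_comp, ← CommRingCat.ofHom_comp, ← Category.assoc, ← h31,
      Category.assoc, ← h21, ← Category.assoc, ← Spec.map_comp, ← CommRingCat.ofHom_comp, e]
  · have e : σ.toRingHom.comp (in3 f 1) =
      (τ₃.comp (Algebra.TensorProduct.includeLeft (R := K) (A := FF (s2 f)) (B := FF f))).toRingHom.comp
        (τ₂.comp (Algebra.TensorProduct.includeRight (R := K) (A := FF f) (B := FF f))).toRingHom :=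
      RingHom.ext h2
    rw [pt3, ← Category.assoc, ← Spec.map_comp, ← CommRingCat.ofHom_comp, ← Category.assoc, ← h31,
      Category.assoc, ← h22, ← Category.assoc, ← Spec.map_comp, ← CommRingCat.ofHom_comp, e]
  · have e : σ.toRingHom.comp (in3 f 2) =
      (τ₃.comp (Algebra.TensorProduct.includeRight
        (R := K) (A := FF (s2 f)) (B := FF f))).toRingHom :=
      RingHom.ext h3
    rw [pt3, ← Category.assoc, ← Spec.map_comp, ← CommRingCat.ofHom_comp, ← h32, e]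

end

/-- the three projections -/
noncomputable def prj0 : SchemeHomOver (s3 f) f :=
  ⟨pullback.fst (s2 f) f ≫ pullback.fst f f, by rw [Category.assoc]⟩

/-- the three projections -/
noncomputable def prj1 : SchemeHomOver (s3 f) f :=
  ⟨pullback.fst (s2 f) f ≫ pullback.snd f f, by
    rw [Category.assoc, ← pullback.condition (f := f) (g := f)]⟩

/-- the three projections -/
noncomputable def prj2 : SchemeHomOver (s3 f) f :=
  ⟨pullback.snd (s2 f) f, by rw [← pullback.condition (f := s2 f) (g := f)]⟩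

variable {f} in
/-- the map to the cube defined by three points -/
noncomputable def toP3 {T : Scheme.{u}} (t : T ⟶ Spec (.of K)) (x y z : SchemeHomOver t f) :
    T ⟶ P3 f :=
  pullback.lift (pullback.lift x.1 y.1 (by rw [x.2, y.2])) z.1 (by
    rw [pullback.lift_fst_assoc, x.2, z.2])

omit [IsAlgClosed K] in
theorem toP3_over {T : Scheme.{u}} (t : T ⟶ Spec (.of K)) (x y z : SchemeHomOver t f) :
    toP3 t x y z ≫ s3 f = t := by
  rw [toP3, pullback.lift_fst_assoc, pullback.lift_fst_assoc, x.2]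

omit [IsAlgClosed K] in
theorem toP3_prj0 {T : Scheme.{u}} (t : T ⟶ Spec (.of K)) (x y z : SchemeHomOver t f) :
    schemeHomOverComp (toP3 t x y z) (toP3_over f t x y z) (prj0 f) = x := by
  apply Subtype.ext
  rw [schemeHomOverComp_coe, toP3, prj0, pullback.lift_fst_assoc, pullback.lift_fst]

omit [IsAlgClosed K] in
theorem toP3_prj1 {T : Scheme.{u}} (t : T ⟶ Spec (.of K)) (x y z : SchemeHomOver t f) :
    schemeHomOverComp (toP3 t x y z) (toP3_over f t x y z) (prj1 f) = y := by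
  apply Subtype.ext
  rw [schemeHomOverComp_coe, toP3, prj1, pullback.lift_fst_assoc, pullback.lift_snd]

omit [IsAlgClosed K] in
theorem toP3_prj2 {T : Scheme.{u}} (t : T ⟶ Spec (.of K)) (x y z : SchemeHomOver t f) :
    schemeHomOverComp (toP3 t x y z) (toP3_over f t x y z) (prj2 f) = z := by
  apply Subtype.ext
  rw [schemeHomOverComp_coe, toP3, prj2, pullback.lift_snd]

variable {f} in
omit [IsAlgClosed K] in
/-- the cube relation, from its universal case -/
theorem cube_of_univ (L : RelativeGroupLaw K f) (c : UnitCocycle A)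
    (h : ∏ i, Pic.map (sq8 L (s3 f) (prj0 f) (prj1 f) (prj2 f) i) (Pic.mk c) ^ e8 i = 1)
    {T : Scheme.{u}} (t : T ⟶ Spec (.of K)) (x y z : SchemeHomOver t f) :
    ∏ i, Pic.map (sq8 L t x y z i) (Pic.mk c) ^ e8 i = 1 := by
  have h1 := congrArg (Pic.map (toP3 t x y z)) h
  rw [map_one, map_prod] at h1
  rw [← h1]
  refine Finset.prod_congr rfl fun i _ => ?_
  rw [map_zpow, ← Pic.map_comp_apply]
  congr 2
  rw [sq8_comp L (toP3 t x y z) (toP3_over f t x y z), toP3_prj0, toP3_prj1, toP3_prj2]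

section Univ

variable [IsIntegral A]

theorem in3_algebraMap (i : Fin 3) (a : K) :
    in3 f i (algebraMap K (FF f) a) = algebraMap K (Ω3 f) a := by
  have h1 : algebraMap K (Ω3 f) a = algebraMap (K2 f ⊗[K] FF f) (Ω3 f)
      (algebraMap K (K2 f ⊗[K] FF f) a) := IsScalarTower.algebraMap_apply K _ _ a
  have h2 : algebraMap K (K2 f) a = algebraMap (FF f ⊗[K] FF f) (K2 f)
      (algebraMap K (FF f ⊗[K] FF f) a) := IsScalarTower.algebraMap_apply K _ _ a
  have h3 : algebraMap K (K2 f ⊗[K] FF f) a = algebraMap K (K2 f) a ⊗ₜ 1 :=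
    Algebra.TensorProduct.algebraMap_apply a
  have h3' : algebraMap K (K2 f ⊗[K] FF f) a = 1 ⊗ₜ algebraMap K (FF f) a := by
    rw [h3, Algebra.TensorProduct.tmul_one_eq_one_tmul]
  have h4 : algebraMap K (FF f ⊗[K] FF f) a = algebraMap K (FF f) a ⊗ₜ 1 :=
    Algebra.TensorProduct.algebraMap_apply a
  have h4' : algebraMap K (FF f ⊗[K] FF f) a = 1 ⊗ₜ algebraMap K (FF f) a := by
    rw [h4, Algebra.TensorProduct.tmul_one_eq_one_tmul]
  fin_cases i
  · rw [h1, h3, h2, h4]; rfl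
  · rw [h1, h3, h2, h4']; rfl
  · rw [h1, h3']; rfl

theorem pt3_over (i : Fin 3) :
    pt3 f i ≫ f = Spec.map (CommRingCat.ofHom (algebraMap K (Ω3 f))) := by
  rw [pt3, Category.assoc, gpt_comp, ← Spec.map_comp, ← CommRingCat.ofHom_comp]
  congr 2
  exact RingHom.ext (in3_algebraMap f i)

theorem univ_cube [Smooth f] [IsProper f] (L : RelativeGroupLaw K f) (c : UnitCocycle A)
    (hstar : StarProp f L c) :
    ∏ i, Pic.map (sq8 L (s3 f) (prj0 f) (prj1 f) (prj2 f) i) (Pic.mk c) ^ e8 i = 1 := by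
  obtain ⟨θ, hθ, H⟩ := hstar
  obtain ⟨σ, h0, h1, h2⟩ := exists_sigma f
  have hσθ : σ θ ≠ 0 := (map_ne_zero σ).mpr hθ
  refine pic_eq_one_of_val c e8 (sq8 L (s3 f) (prj0 f) (prj1 f) (prj2 f))
    (fun p => (stalk_normal (s3 f) p).2) (Units.mk0 (σ θ) hσθ) ?_
  intro V g hg
  -- the valuation ring downstairs
  let R : ValuationSubring (Ω3 f) := ValuationSubring.comap V σ.toRingHom
  let φ : R →+* V := (σ.toRingHom.comp R.subtype).codRestrict V.toSubring (fun a => a.2)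
  have hφ : ∀ a : R, algebraMap V (P3 f).functionField (φ a) = σ (a : Ω3 f) := fun a => rfl
  have hφl : IsLocalHom φ := by
    refine ⟨fun a ha => ?_⟩
    obtain ⟨b, hb⟩ := isUnit_iff_exists_inv.mp ha
    have ha0 : (a : Ω3 f) ≠ 0 := by
      intro h
      have h1 : φ a = 0 := Subtype.ext (by
        change σ (a : Ω3 f) = 0
        rw [h, map_zero])
      rw [h1, zero_mul] at hb
      exact zero_ne_one hb
    have hb' : σ (a : Ω3 f) * (show FF (s3 f) from (b : (P3 f).functionField)) = 1 :=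
      congrArg Subtype.val hb
    have hinv : (a : Ω3 f)⁻¹ ∈ R := by
      change σ ((a : Ω3 f)⁻¹) ∈ V
      rw [map_inv₀, inv_eq_of_mul_eq_one_right hb']
      exact b.2
    exact IsUnit.of_mul_eq_one ⟨_, hinv⟩ (Subtype.ext (mul_inv_cancel₀ ha0))
  -- structure map
  obtain ⟨κV, hκV⟩ := Spec.map_surjective (g ≫ s3 f)
  have hκ : ∀ a : K, algebraMap V (P3 f).functionField (κV.hom a) = kFun (s3 f) a := by
    intro a
    have e1 : Spec.map (CommRingCat.ofHom ((algebraMap V (P3 f).functionField).comp κV.hom)) =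
        Spec.map (CommRingCat.ofHom (kFun (s3 f))) := by
      rw [CommRingCat.ofHom_comp, Spec.map_comp, CommRingCat.ofHom_hom, hκV, ← Category.assoc, hg]
      exact fromSpecStalk_comp_str (s3 f) _
    exact congrArg (fun w => w.hom a) (Spec.map_injective e1)
  have hKR : ∀ a : K, algebraMap K (Ω3 f) a ∈ R := by
    intro a
    change σ (algebraMap K (Ω3 f) a) ∈ V
    rw [σ.commutes]
    have e1 : algebraMap K (FF (s3 f)) a = algebraMap V (P3 f).functionField (κV.hom a) :=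
      (hκ a).symm
    rw [e1]
    exact (κV.hom a).2
  let κ : K →+* R := (algebraMap K (Ω3 f)).codRestrict R.toSubring hKR
  let t : Spec (.of R) ⟶ Spec (.of K) := Spec.map (CommRingCat.ofHom κ)
  have ht : ∀ i, pt3 f i ≫ f = Spec.map (CommRingCat.ofHom (algebraMap R (Ω3 f))) ≫ t := by
    intro i
    rw [pt3_over, ← Spec.map_comp, ← CommRingCat.ofHom_comp]
    rfl
  have hφt : Spec.map (CommRingCat.ofHom φ) ≫ t = g ≫ s3 f := by
    rw [← hκV, ← Spec.map_comp, ← CommRingCat.ofHom_comp]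
    have e1 : φ.comp κ = κV.hom := by
      refine RingHom.ext fun a => Subtype.ext ?_
      exact (σ.commutes a).trans (hκ a).symm
    rw [e1, CommRingCat.ofHom_hom]
  -- extension of the points
  have hext : ∀ (i : Fin 3) (w : P3 f ⟶ A), w ≫ f = s3 f →
      Spec.map (CommRingCat.ofHom σ.toRingHom) ≫ pt3 f i = gpt (s3 f) ≫ w →
      ∃ x : SchemeHomOver t f, Spec.map (CommRingCat.ofHom (algebraMap R (Ω3 f))) ≫ x.1 = pt3 f i ∧
        Spec.map (CommRingCat.ofHom φ) ≫ x.1 = g ≫ w := by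
    intro i w hw hi
    obtain ⟨x, hx1, hx2⟩ := exists_extend f R (Ω3 f) t (pt3 f i) (ht i)
    refine ⟨⟨x, hx1⟩, hx2, ?_⟩
    refine extend_unique f V (P3 f).functionField ?_ ?_
    · rw [Category.assoc, hx1, Category.assoc, hw, hφt]
    · have e1 : Spec.map (CommRingCat.ofHom (algebraMap V (P3 f).functionField)) ≫ g ≫ w =
          gpt (s3 f) ≫ w := by rw [← Category.assoc, hg]; rfl
      rw [e1, ← hi, ← hx2, ← Category.assoc, ← Category.assoc, ← Spec.map_comp, ← Spec.map_comp,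
        ← CommRingCat.ofHom_comp, ← CommRingCat.ofHom_comp]
      rfl
  obtain ⟨x, hx, hx'⟩ := hext 0 (prj0 f).1 (prj0 f).2 h0
  obtain ⟨y, hy, hy'⟩ := hext 1 (prj1 f).1 (prj1 f).2 h1
  obtain ⟨z, hz, hz'⟩ := hext 2 (prj2 f).1 (prj2 f).2 h2
  obtain ⟨v, hv⟩ := H R t x y z hx hy hz
  have hsq : ∀ i, Spec.map (CommRingCat.ofHom φ) ≫ sq8 L t x y z i =
      g ≫ sq8 L (s3 f) (prj0 f) (prj1 f) (prj2 f) i := by
    intro i
    rw [sq8_comp L (Spec.map (CommRingCat.ofHom φ)) hφt, sq8_comp L g rfl]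
    exact congrFun (sq8_congr L hx' hy' hz') i
  have hd := dval_transfer c e8 (L' := (P3 f).functionField) φ σ.toRingHom (RingHom.ext fun a => (hφ a).symm)
    (sq8 L t x y z)
  simp only [hsq] at hd
  refine ⟨Units.map φ.toMonoidHom v, ?_⟩
  rw [hd]
  change σ θ * σ (dval c e8 (Ω3 f) (sq8 L t x y z) : Ω3 f) = algebraMap V (P3 f).functionField (φ v)
  rw [hφ, ← map_mul, hv]
  rfl

/-- the theorem of the cube in the Picard group -/
theorem cube_of_star [Smooth f] [IsProper f] (L : RelativeGroupLaw K f)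
    (hstar : ∀ c : UnitCocycle A, StarProp f L c) {T : Scheme.{u}} (t : T ⟶ Spec (.of K))
    (ℓ : Pic A) (x y z : SchemeHomOver t f) :
    Pic.map (L.mul t (L.mul t x y) z).1 ℓ * Pic.map x.1 ℓ * Pic.map y.1 ℓ * Pic.map z.1 ℓ =
      Pic.map (L.mul t x y).1 ℓ * Pic.map (L.mul t x z).1 ℓ * Pic.map (L.mul t y z).1 ℓ *
        Pic.map (L.one t).1 ℓ := by
  obtain ⟨c, rfl⟩ := Pic.mk_surjective ℓ
  have h1 := cube_of_univ L c (univ_cube f L c (hstar c)) t x y z
  rw [prod_e8 (fun h => Pic.map h (Pic.mk c))] at h1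
  change Pic.map (L.mul t (L.mul t x y) z).1 (Pic.mk c) * (Pic.map (L.mul t x y).1 (Pic.mk c))⁻¹ *
    (Pic.map (L.mul t x z).1 (Pic.mk c))⁻¹ * (Pic.map (L.mul t y z).1 (Pic.mk c))⁻¹ *
    Pic.map x.1 (Pic.mk c) * Pic.map y.1 (Pic.mk c) * Pic.map z.1 (Pic.mk c) *
    (Pic.map (L.one t).1 (Pic.mk c))⁻¹ = 1 at h1
  generalize Pic.map (L.mul t (L.mul t x y) z).1 (Pic.mk c) = a0 at *
  generalize Pic.map (L.mul t x y).1 (Pic.mk c) = a1 at *
  generalize Pic.map (L.mul t x z).1 (Pic.mk c) = a2 at *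
  generalize Pic.map (L.mul t y z).1 (Pic.mk c) = a3 at *
  generalize Pic.map x.1 (Pic.mk c) = a4 at *
  generalize Pic.map y.1 (Pic.mk c) = a5 at *
  generalize Pic.map z.1 (Pic.mk c) = a6 at *
  generalize Pic.map (L.one t).1 (Pic.mk c) = a7 at *
  rw [mul_inv_eq_one] at h1
  rw [← h1]
  have e : a1 * a2 * a3 * (a0 * a1⁻¹ * a2⁻¹ * a3⁻¹ * a4 * a5 * a6) =
      (a0 * a4 * a5 * a6) * (a1 * a1⁻¹) * (a2 * a2⁻¹) * (a3 * a3⁻¹) := by
    ac_rfl
  rw [e, mul_inv_cancel, mul_inv_cancel, mul_inv_cancel, mul_one, mul_one, mul_one]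

end Univ

end Last

end Fermat.Agent.AbVar
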