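import Mathlib

/-!
# Growth lemma, integrality and trace lemmas (helper70)
-/

set_option autoImplicit false

open Polynomial

namespace Fermat.Agent.AbVar.Growth

theorem isIntegralElem_of_factor {R S B : Type*} [CommRing R] [CommRing S] [Ring B]
    (f : R →+* B) (h : R →+* S) (g : S →+* B) (hfg : g.comp h = f) {y : B}
    (hy : f.IsIntegralElem y) : g.IsIntegralElem y := by
  obtain ⟨p, hp, hpy⟩ := hy
  refine ⟨p.map h, hp.map h, ?_⟩
  rw [Polynomial.eval₂_map, hfg]
  exact hpy

theorem isIntegralElem_of_surjective {R S B : Type*} [CommRing R] [CommRing S] [Ring B]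
    (f : R →+* S) (hf : Function.Surjective f) (g : S →+* B) {y : B}
    (hy : g.IsIntegralElem y) : (g.comp f).IsIntegralElem y := by
  obtain ⟨p, hp, hpy⟩ := hy
  obtain ⟨q, hq, -, hqm⟩ := Polynomial.lifts_and_natDegree_eq_and_monic
    ((Polynomial.mem_lifts p).mpr (Polynomial.map_surjective f hf p)) hp
  refine ⟨q, hqm, ?_⟩
  rw [← Polynomial.eval₂_map, hq]
  exact hpy

section Val

variable {F : Type*} [Field F]

theorem isIntegral_of_valuation' {R : Subring F} {y : F}
    (h : ∀ V : ValuationSubring F, R ≤ V.toSubring → y ∈ V) : IsIntegral R y := by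
  have h1 := iInf_valuationSubring_superset (K := F) (s := (R : Set F))
  have h2 : y ∈ (integralClosure (Subring.closure (R : Set F)) F).toSubring := by
    rw [← h1, Subring.mem_iInf]
    rintro ⟨V, hV⟩
    exact h V hV
  rw [Subring.closure_eq] at h2
  exact h2

variable {R : Type*} [CommRing R] [Algebra R F]

theorem isIntegral_of_valuation {y : F}
    (h : ∀ V : ValuationSubring F, (∀ r : R, algebraMap R F r ∈ V) → y ∈ V) : IsIntegral R y := by
  have h1 : IsIntegral (algebraMap R F).range y := by
    refine isIntegral_of_valuation' fun V hV => h V fun r => hV ⟨r, rfl⟩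
  have h2 := isIntegralElem_of_surjective (algebraMap R F).rangeRestrict
    (algebraMap R F).rangeRestrict_surjective (algebraMap (algebraMap R F).range F) h1
  exact h2

theorem mem_of_isIntegral {V : ValuationSubring F} (hV : ∀ r : R, algebraMap R F r ∈ V) {y : F}
    (hy : IsIntegral R y) : y ∈ V := by
  have h1 : IsIntegral V y := by
    refine isIntegralElem_of_factor (algebraMap R F)
      ((algebraMap R F).codRestrict V hV) (algebraMap V F) ?_ hy
    rfl
  obtain ⟨z, hz⟩ := (IsIntegrallyClosed.isIntegral_iff (K := F)).mp h1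
  rw [← hz]
  exact z.2

end Val

section UB

variable {R L F : Type*} [CommRing R] [IsDomain R] [Field L] [Field F] [Algebra R L] [Algebra L F]
  [Algebra R F] [IsScalarTower R L F] [IsFractionRing R L] [IsIntegrallyClosed R]
  [FiniteDimensional L F]

omit [IsIntegrallyClosed R] in
include L in
theorem isAlgebraic_of_tower : Algebra.IsAlgebraic R F := by
  have : Algebra.IsAlgebraic L F := inferInstance
  exact (IsFractionRing.comap_isAlgebraic_iff (A := R) (K := L) (C := F)).mpr this

omit [IsIntegrallyClosed R] in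
include L in
theorem exists_clear (T : Finset F) :
    ∃ r : R, r ≠ 0 ∧ ∀ τ ∈ T, IsIntegral R (algebraMap R F r * τ) := by
  classical
  have halg := isAlgebraic_of_tower (R := R) (L := L) (F := F)
  induction T using Finset.induction with
  | empty => exact ⟨1, one_ne_zero, by simp⟩
  | insert a T _ ih =>
    obtain ⟨r, hr, h⟩ := ih
    obtain ⟨s, hs, h'⟩ := (halg.isAlgebraic a).exists_integral_multiple
    rw [Algebra.smul_def] at h'
    refine ⟨r * s, mul_ne_zero hr hs, fun τ hτ => ?_⟩
    rcases Finset.mem_insert.mp hτ with rfl | hτ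
    · rw [map_mul, mul_assoc]
      exact isIntegral_algebraMap.mul h'
    · rw [map_mul, mul_comm (algebraMap R F r), mul_assoc]
      exact isIntegral_algebraMap.mul (h τ hτ)

/-- The trace estimate. -/
theorem exists_trace_bound (T : Finset F) {ι : Type*} [Finite ι] (e : ι → F) :
    ∃ r c : R, r ≠ 0 ∧ c ≠ 0 ∧ ∀ (m : ℕ) (y : F),
      (∀ V : ValuationSubring F, (∀ r : R, algebraMap R F r ∈ V) →
        ∃ τ ∈ T, τ ≠ 0 ∧ y * τ ^ m ∈ V) →
      ∀ l, ∃ z : R, algebraMap R L z = algebraMap R L (r ^ m * c) * Algebra.trace L F (y * e l) := by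
  classical
  obtain ⟨r, hr, h1⟩ := exists_clear (R := R) (L := L) (T.image fun τ => τ⁻¹)
  have : Fintype ι := Fintype.ofFinite ι
  obtain ⟨c, hc, h2⟩ := exists_clear (R := R) (L := L) (Finset.univ.image e)
  refine ⟨r, c, hr, hc, fun m y hy l => ?_⟩
  have h3 : IsIntegral R (y * algebraMap R F r ^ m) := by
    refine isIntegral_of_valuation fun V hV => ?_
    obtain ⟨τ, hτ, hτ0, hyτ⟩ := hy V hV
    have h4 := mem_of_isIntegral hV (h1 _ (Finset.mem_image_of_mem _ hτ))
    have h5 : y * algebraMap R F r ^ m = y * τ ^ m * (algebraMap R F r * τ⁻¹) ^ m := by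
      rw [mul_pow, inv_pow]
      field_simp
    rw [h5]
    exact mul_mem hyτ (pow_mem h4 m)
  have h4 : IsIntegral R (y * algebraMap R F r ^ m * (algebraMap R F c * e l)) :=
    h3.mul (h2 _ (Finset.mem_image_of_mem _ (Finset.mem_univ l)))
  have h5 : IsIntegral R (Algebra.trace L F (y * algebraMap R F r ^ m * (algebraMap R F c * e l))) :=
    Algebra.isIntegral_trace h4
  obtain ⟨z, hz⟩ := IsIntegrallyClosed.isIntegral_iff.mp h5
  refine ⟨z, ?_⟩
  have h6 : y * algebraMap R F r ^ m * (algebraMap R F c * e l) =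
      algebraMap R L (r ^ m * c) • (y * e l) := by
    rw [Algebra.smul_def, ← IsScalarTower.algebraMap_apply, map_mul, map_pow]
    ring
  rw [hz, h6, map_smul, smul_eq_mul]

end UB

end Fermat.Agent.AbVar.Growth
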