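import Mathlib
import Fermat.Agent.AbVar.CurvePair

/-! S26-B2: a rank one sheaf with `h⁰ = 1`, `h¹ = 0` (helper80). -/

set_option autoImplicit false

namespace Fermat.Agent.AbVar

namespace SheafAux

variable {k F : Type*} [Field k] [Field F] [Algebra k F] {B₀ B₁ : Subalgebra k F} {x : F}

theorem x_ne_zero (hB : IsCurvePair B₀ B₁ x) : x ≠ 0 := by
  rintro rfl
  exact hB.transcendental isAlgebraic_zero

/-- a subalgebra generated as a module by `x ^ n * b`, `b ∈ S`, lies in every valuation ring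
containing `k` and `x` -/
theorem mem_of_span {B : Subalgebra k F} {x : F} (S : Finset F)
    (hS : (Subalgebra.toSubmodule B : Submodule k F) =
      Submodule.span k {y | ∃ n : ℕ, ∃ b ∈ S, y = x ^ n * b}) (V : ValuationSubring F)
    (hV : ∀ c : k, algebraMap k F c ∈ V) (hx : x ∈ V) {y : F} (hy : y ∈ B) : y ∈ V := by
  classical
  let M : Submodule V F := Submodule.span V (S : Set F)
  have hSB : ∀ b ∈ S, b ∈ B := by
    intro b hb
    have : b ∈ (Subalgebra.toSubmodule B : Submodule k F) := by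
      rw [hS]
      exact Submodule.subset_span ⟨0, b, hb, by rw [pow_zero, one_mul]⟩
    exact this
  have hBM : ∀ z ∈ B, z ∈ M := by
    intro z hz
    have hz' : z ∈ (Subalgebra.toSubmodule B : Submodule k F) := hz
    clear hz
    rw [hS] at hz'
    induction hz' using Submodule.span_induction with
    | mem z hz =>
      obtain ⟨n, b, hb, rfl⟩ := hz
      exact M.smul_mem (⟨x ^ n, pow_mem hx n⟩ : V) (Submodule.subset_span hb)
    | zero => exact M.zero_mem
    | add z w _ _ h1 h2 => exact M.add_mem h1 h2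
    | smul c z _ h =>
      rw [Algebra.smul_def]
      exact M.smul_mem (⟨algebraMap k F c, hV c⟩ : V) h
  have hone : (1 : F) ∈ M := hBM 1 (one_mem B)
  have hstab : ∀ m ∈ M, y • m ∈ M := by
    intro m hm
    induction hm using Submodule.span_induction with
    | mem z hz => exact hBM _ (mul_mem hy (hSB z hz))
    | zero => rw [smul_zero]; exact M.zero_mem
    | add z w _ _ h1 h2 => rw [smul_add]; exact M.add_mem h1 h2
    | smul c z _ h =>
      rw [smul_comm]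
      exact M.smul_mem c h
  have hint : IsIntegral V y :=
    isIntegral_of_smul_mem_submodule (A := F) M (fun h => one_ne_zero (α := F) (by
      rw [h] at hone; exact hone)) ⟨S, rfl⟩ y hstab
  obtain ⟨z, hz⟩ := IsIntegrallyClosed.isIntegral_iff.mp hint
  rw [← hz]
  exact z.2

/-- `B₀ ∩ B₁ = k` -/
theorem eq_const_of_mem [IsAlgClosed k] (hB : IsCurvePair B₀ B₁ x) {y : F} (h₀ : y ∈ B₀)
    (h₁ : y ∈ B₁) : ∃ c : k, y = algebraMap k F c := by
  obtain ⟨S₀, hS₀⟩ := hB.fin₀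
  obtain ⟨S₁, hS₁⟩ := hB.fin₁
  have hmem : ∀ V : ValuationSubring F, (∀ c : k, algebraMap k F c ∈ V) → y ∈ V := by
    intro V hV
    rcases V.mem_or_inv_mem x with hx | hx
    · exact mem_of_span S₀ hS₀ V hV hx h₀
    · exact mem_of_span S₁ hS₁ V hV hx h₁
  have hint : IsIntegral k y := by
    by_contra hcon
    let R : Subring F := (integralClosure k F).toSubring
    have : IsIntegrallyClosedIn R F := by
      change IsIntegrallyClosedIn (integralClosure k F) F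
      infer_instance
    obtain ⟨V, hV1, hV2⟩ := Subring.exists_le_valuationSubring_of_isIntegrallyClosedIn
      (R := R) (x := y) hcon
    exact hV2 (hmem V fun c => hV1 (algebraMap_mem (integralClosure k F) c))
  let A : Subalgebra k F := integralClosure k F
  have hA : Algebra.IsIntegral k A := ⟨fun z => integralClosure.isIntegral z⟩
  obtain ⟨c, hc⟩ := (IsAlgClosed.algebraMap_bijective_of_isIntegral (k := k) (K := A)).2 ⟨y, hint⟩
  exact ⟨c, (congrArg Subtype.val hc).symm⟩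

/-- nullstellensatz: a point not killing `w`. -/
theorem exists_point [IsAlgClosed k] (T : Finset F) {w : F} (hw : w ∈ Algebra.adjoin k (T : Set F))
    (hw0 : w ≠ 0) : ∃ P : Algebra.adjoin k (T : Set F) →ₐ[k] k, P ⟨w, hw⟩ ≠ 0 := by
  classical
  let D : Subalgebra k F := Algebra.adjoin k ((insert w⁻¹ T : Finset F) : Set F)
  have hle : Algebra.adjoin k (T : Set F) ≤ D :=
    Algebra.adjoin_mono (by rw [Finset.coe_insert]; exact Set.subset_insert _ _)
  have hwD : w⁻¹ ∈ D := Algebra.subset_adjoin (by simp)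
  have hft : Algebra.FiniteType k D :=
    (Subalgebra.fg_iff_finiteType D).mp (Subalgebra.fg_adjoin_finset _)
  obtain ⟨m, hm⟩ := Ideal.exists_maximal D
  let _ : Field (D ⧸ m) := Ideal.Quotient.field m
  have hft' : Algebra.FiniteType k (D ⧸ m) := Algebra.FiniteType.of_surjective
    (Ideal.Quotient.mkₐ k m) (Ideal.Quotient.mkₐ_surjective k m)
  have hfin : Module.Finite k (D ⧸ m) := finite_of_finite_type_of_isJacobsonRing k (D ⧸ m)
  have hbij := IsAlgClosed.algebraMap_bijective_of_isIntegral (k := k) (K := D ⧸ m)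
  let e : k ≃ₐ[k] (D ⧸ m) := AlgEquiv.ofBijective (Algebra.ofId k (D ⧸ m)) hbij
  let P₀ : D →ₐ[k] k := (e.symm.toAlgHom).comp (Ideal.Quotient.mkₐ k m)
  refine ⟨P₀.comp (Subalgebra.inclusion hle), fun h => ?_⟩
  have h1 : P₀ (⟨w, hle hw⟩ * ⟨w⁻¹, hwD⟩) = 1 := by
    have : (⟨w, hle hw⟩ * ⟨w⁻¹, hwD⟩ : D) = 1 := Subtype.ext (mul_inv_cancel₀ hw0)
    rw [this, map_one]
  rw [map_mul] at h1
  have h2 : P₀ ⟨w, hle hw⟩ = 0 := h
  rw [h2, zero_mul] at h1
  exact zero_ne_one h1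

/-- submodules over `k[t]` -/
theorem mem_span_adjoin_iff (t : F) (S : Set F) (z : F) :
    z ∈ Submodule.span (Algebra.adjoin k ({t} : Set F)) S ↔
      z ∈ Submodule.span k {y | ∃ n : ℕ, ∃ b ∈ S, y = t ^ n * b} := by
  constructor
  · intro hz
    induction hz using Submodule.span_induction with
    | mem z hz => exact Submodule.subset_span ⟨0, z, hz, by rw [pow_zero, one_mul]⟩
    | zero => exact Submodule.zero_mem _
    | add z w _ _ h1 h2 => exact Submodule.add_mem _ h1 h2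
    | smul a z _ h =>
      have key : ∀ a ∈ Algebra.adjoin k ({t} : Set F), ∀ z ∈ Submodule.span k
          {y | ∃ n : ℕ, ∃ b ∈ S, y = t ^ n * b}, a * z ∈ Submodule.span k
          {y | ∃ n : ℕ, ∃ b ∈ S, y = t ^ n * b} := by
        intro a ha
        induction ha using Algebra.adjoin_induction with
        | mem a ha =>
          rw [Set.mem_singleton_iff.mp ha]
          intro z hz
          induction hz using Submodule.span_induction with
          | mem z hz =>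
            obtain ⟨n, b, hb, rfl⟩ := hz
            exact Submodule.subset_span ⟨n + 1, b, hb, by ring⟩
          | zero => rw [mul_zero]; exact Submodule.zero_mem _
          | add z w _ _ h1 h2 => rw [mul_add]; exact Submodule.add_mem _ h1 h2
          | smul c z _ h => rw [mul_smul_comm]; exact Submodule.smul_mem _ _ h
        | algebraMap r =>
          intro z hz
          rw [← Algebra.smul_def]
          exact Submodule.smul_mem _ _ hz
        | add a b _ _ h1 h2 => intro z hz; rw [add_mul]; exact Submodule.add_mem _ (h1 z hz) (h2 z hz)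
        | mul a b _ _ h1 h2 => intro z hz; rw [mul_assoc]; exact h1 _ (h2 z hz)
      exact key a a.2 z h
  · intro hz
    induction hz using Submodule.span_induction with
    | mem z hz =>
      obtain ⟨n, b, hb, rfl⟩ := hz
      exact Submodule.smul_mem _ (⟨t, Algebra.subset_adjoin rfl⟩ ^ n :
        Algebra.adjoin k ({t} : Set F)) (Submodule.subset_span hb)
    | zero => exact Submodule.zero_mem _
    | add z w _ _ h1 h2 => exact Submodule.add_mem _ h1 h2
    | smul c z _ h =>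
      have := Submodule.smul_mem _ (algebraMap k (Algebra.adjoin k ({t} : Set F)) c) h
      rwa [algebraMap_smul] at this

/-- the noetherian argument -/
theorem fg_of_le (t : F) {I I' : Submodule k F} (hle : I' ≤ I) (ht : ∀ a ∈ I', t * a ∈ I')
    (hfg : ∃ S : Finset F, I = Submodule.span k {y | ∃ n : ℕ, ∃ b ∈ S, y = t ^ n * b}) :
    ∃ S : Finset F, I' = Submodule.span k {y | ∃ n : ℕ, ∃ b ∈ S, y = t ^ n * b} := by
  classical
  obtain ⟨S, hS⟩ := hfg
  let A := Algebra.adjoin k ({t} : Set F)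
  have hA : IsNoetherianRing A := isNoetherianRing_of_fg
    (Subalgebra.fg_def.2 ⟨{t}, Set.finite_singleton t, rfl⟩)
  let J : Submodule A F := Submodule.span A (S : Set F)
  have hJ : IsNoetherian A J := isNoetherian_of_fg_of_noetherian _ ⟨S, rfl⟩
  have hstab : ∀ a ∈ A, ∀ z ∈ I', a * z ∈ I' := by
    intro a ha
    induction ha using Algebra.adjoin_induction with
    | mem a ha =>
      rw [Set.mem_singleton_iff.mp ha]
      exact ht
    | algebraMap r =>
      intro z hz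
      rw [← Algebra.smul_def]
      exact Submodule.smul_mem _ _ hz
    | add a b _ _ h1 h2 => intro z hz; rw [add_mul]; exact Submodule.add_mem _ (h1 z hz) (h2 z hz)
    | mul a b _ _ h1 h2 => intro z hz; rw [mul_assoc]; exact h1 _ (h2 z hz)
  let J' : Submodule A F :=
    { carrier := I'
      add_mem' := fun h1 h2 => I'.add_mem h1 h2
      zero_mem' := I'.zero_mem
      smul_mem' := fun a z hz => hstab a a.2 z hz }
  have hJJ : J' ≤ J := by
    intro z hz
    have h1 : z ∈ I := hle hz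
    rw [hS] at h1
    exact (mem_span_adjoin_iff t (S : Set F) z).mpr h1
  obtain ⟨S', hS'⟩ := (isNoetherian_submodule.mp hJ) J' hJJ
  refine ⟨S', ?_⟩
  ext z
  have h2 := mem_span_adjoin_iff (k := k) t (S' : Set F) z
  have h3 : z ∈ I' ↔ z ∈ J' := Iff.rfl
  rw [h3, ← hS', h2]
  rfl

/-- the invariant -/
structure Inv (B₀ B₁ : Subalgebra k F) (x : F) (ε : B₀ →ₐ[k] k) (I₀ I₁ : Submodule k F) :
    Prop where
  mul₀ : ∀ b ∈ B₀, ∀ a ∈ I₀, b * a ∈ I₀
  mul₁ : ∀ b ∈ B₁, ∀ a ∈ I₁, b * a ∈ I₁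
  le₀ : ∀ a ∈ I₀, a ∈ B₀
  le₁ : ∃ N : ℕ, ∀ a ∈ I₁, x⁻¹ ^ N * a ∈ B₁
  loc₀ : ∀ a ∈ I₀, ∃ n : ℕ, x⁻¹ ^ n * a ∈ I₁
  loc₁ : ∀ a ∈ I₁, ∃ n : ℕ, x ^ n * a ∈ I₀
  fg : ∃ S : Finset F, I₁ = Submodule.span k {y | ∃ n : ℕ, ∃ b ∈ S, y = x⁻¹ ^ n * b}
  h1 : ∀ y : F, (∃ n : ℕ, x ^ n * y ∈ I₀) → ∃ a ∈ I₀, ∃ b ∈ I₁, y = a + b
  fin : FiniteDimensional k (I₀ ⊓ I₁ : Submodule k F)
  sec : ∃ s : B₀, (s : F) ∈ I₀ ∧ (s : F) ∈ I₁ ∧ ε s ≠ 0

theorem step [IsAlgClosed k] (hB : IsCurvePair B₀ B₁ x) {ε : B₀ →ₐ[k] k} {I₀ I₁ : Submodule k F}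
    (H : Inv B₀ B₁ x ε I₀ I₁) {w : B₀} (hw₀ : (w : F) ∈ I₀) (hw₁ : (w : F) ∈ I₁) (hw : w ≠ 0)
    (hε : ε w = 0) : ∃ I₀' I₁' : Submodule k F, Inv B₀ B₁ x ε I₀' I₁' ∧
      Module.finrank k (I₀' ⊓ I₁' : Submodule k F) < Module.finrank k (I₀ ⊓ I₁ : Submodule k F) := by
  classical
  have hx := x_ne_zero hB
  obtain ⟨S₀, hS₀⟩ := hB.fin₀
  let T : Finset F := insert x (insert x⁻¹ S₀)
  let C : Subalgebra k F := Algebra.adjoin k (T : Set F)
  have hxC : x ∈ C := Algebra.subset_adjoin (by simp [T])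
  have hxC' : x⁻¹ ∈ C := Algebra.subset_adjoin (by simp [T])
  have hB₀C : ∀ b ∈ B₀, b ∈ C := by
    intro b hb
    have hb' : b ∈ (Subalgebra.toSubmodule B₀ : Submodule k F) := hb
    clear hb
    rw [hS₀] at hb'
    induction hb' using Submodule.span_induction with
    | mem z hz =>
      obtain ⟨n, b, hb, rfl⟩ := hz
      exact mul_mem (pow_mem hxC n) (Algebra.subset_adjoin (by simp [T, hb]))
    | zero => exact zero_mem _
    | add z w _ _ h1 h2 => exact add_mem h1 h2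
    | smul c z _ h => exact C.smul_mem h c
  have hI₀C : ∀ a ∈ I₀, a ∈ C := fun a ha => hB₀C a (H.le₀ a ha)
  have hunx : ∀ (n : ℕ) (a : F), x ^ n * a ∈ C → a ∈ C := by
    intro n a ha
    have h1 : a = x⁻¹ ^ n * (x ^ n * a) := by
      rw [← mul_assoc, ← mul_pow, inv_mul_cancel₀ hx, one_pow, one_mul]
    rw [h1]
    exact mul_mem (pow_mem hxC' n) ha
  have hI₁C : ∀ a ∈ I₁, a ∈ C := by
    intro a ha
    obtain ⟨n, hn⟩ := H.loc₁ a ha
    exact hunx n a (hI₀C _ hn)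
  have hB₁C : ∀ b ∈ B₁, b ∈ C := by
    intro b hb
    obtain ⟨n, hn⟩ := hB.loc₁ b hb
    exact hunx n b (hB₀C _ hn)
  obtain ⟨P, hP⟩ := exists_point T (hI₀C _ hw₀) (fun h => hw (Subtype.ext h))
  let Z : Submodule k F := Submodule.map C.val.toLinearMap (LinearMap.ker P.toLinearMap)
  have hZ : ∀ (a : F) (ha : a ∈ C), a ∈ Z ↔ P ⟨a, ha⟩ = 0 := by
    intro a ha
    constructor
    · rintro ⟨c, hc, rfl⟩
      exact hc
    · intro h
      exact ⟨⟨a, ha⟩, h, rfl⟩
  have hZC : ∀ a ∈ Z, a ∈ C := by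
    rintro a ⟨c, hc, rfl⟩
    exact c.2
  have hZmul : ∀ b ∈ C, ∀ a ∈ Z, b * a ∈ Z := by
    intro b hb a ha
    have haC := hZC a ha
    rw [hZ _ (mul_mem hb haC)]
    have : (⟨b * a, mul_mem hb haC⟩ : C) = ⟨b, hb⟩ * ⟨a, haC⟩ := rfl
    rw [this, map_mul, (hZ a haC).mp ha, mul_zero]
  have hwZ : (w : F) ∉ Z := fun h => hP ((hZ _ _).mp h)
  refine ⟨I₀ ⊓ Z, I₁ ⊓ Z, ?_, ?_⟩
  · have hfin := H.fin
    refine ⟨?_, ?_, ?_, ?_, ?_, ?_, ?_, ?_, ?_, ?_⟩
    · exact fun b hb a ha => ⟨H.mul₀ b hb a ha.1, hZmul b (hB₀C b hb) a ha.2⟩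
    · exact fun b hb a ha => ⟨H.mul₁ b hb a ha.1, hZmul b (hB₁C b hb) a ha.2⟩
    · exact fun a ha => H.le₀ a ha.1
    · obtain ⟨N, hN⟩ := H.le₁
      exact ⟨N, fun a ha => hN a ha.1⟩
    · intro a ha
      obtain ⟨n, hn⟩ := H.loc₀ a ha.1
      exact ⟨n, hn, hZmul _ (pow_mem hxC' n) a ha.2⟩
    · intro a ha
      obtain ⟨n, hn⟩ := H.loc₁ a ha.1
      exact ⟨n, hn, hZmul _ (pow_mem hxC n) a ha.2⟩
    · refine fg_of_le x⁻¹ inf_le_left ?_ H.fg
      exact fun a ha => ⟨H.mul₁ _ hB.mem₁ a ha.1, hZmul _ hxC' a ha.2⟩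
    · rintro y ⟨n, hn⟩
      obtain ⟨a, ha, b, hb, hab⟩ := H.h1 y ⟨n, hn.1⟩
      have haC := hI₀C a ha
      have hyZ : y ∈ Z := by
        have h1 : y = x⁻¹ ^ n * (x ^ n * y) := by
          rw [← mul_assoc, ← mul_pow, inv_mul_cancel₀ hx, one_pow, one_mul]
        rw [h1]
        exact hZmul _ (pow_mem hxC' n) _ hn.2
      let c : k := P ⟨a, haC⟩ / P ⟨(w : F), hI₀C _ hw₀⟩
      have h2 : a - c • (w : F) ∈ Z := by
        have hC : a - c • (w : F) ∈ C := sub_mem haC (C.smul_mem (hI₀C _ hw₀) c)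
        rw [hZ _ hC]
        have : (⟨a - c • (w : F), hC⟩ : C) = ⟨a, haC⟩ - c • ⟨(w : F), hI₀C _ hw₀⟩ := rfl
        rw [this, map_sub, map_smul, smul_eq_mul, div_mul_cancel₀ _ hP, sub_self]
      have h3 : b + c • (w : F) ∈ Z := by
        have : b + c • (w : F) = y - (a - c • (w : F)) := by rw [hab]; ring
        rw [this]
        exact Z.sub_mem hyZ h2
      refine ⟨a - c • (w : F), ⟨I₀.sub_mem ha (I₀.smul_mem c hw₀), h2⟩, b + c • (w : F),
        ⟨I₁.add_mem hb (I₁.smul_mem c hw₁), h3⟩, ?_⟩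
      rw [hab]; ring
    · exact Submodule.finiteDimensional_of_le (S₂ := I₀ ⊓ I₁)
        (inf_le_inf inf_le_left inf_le_left)
    · obtain ⟨s, hs0, hs1, hs⟩ := H.sec
      let c : k := P ⟨(s : F), hI₀C _ hs0⟩ / P ⟨(w : F), hI₀C _ hw₀⟩
      have h2 : (s : F) - c • (w : F) ∈ Z := by
        have hC : (s : F) - c • (w : F) ∈ C := sub_mem (hI₀C _ hs0) (C.smul_mem (hI₀C _ hw₀) c)
        rw [hZ _ hC]
        have : (⟨(s : F) - c • (w : F), hC⟩ : C) =
            ⟨(s : F), hI₀C _ hs0⟩ - c • ⟨(w : F), hI₀C _ hw₀⟩ := rfl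
        rw [this, map_sub, map_smul, smul_eq_mul, div_mul_cancel₀ _ hP, sub_self]
      refine ⟨s - c • w, ⟨I₀.sub_mem hs0 (I₀.smul_mem c hw₀), h2⟩,
        ⟨I₁.sub_mem hs1 (I₁.smul_mem c hw₁), h2⟩, ?_⟩
      rw [map_sub, map_smul, hε, smul_zero, sub_zero]
      exact hs
  · have hfin := H.fin
    refine Submodule.finrank_lt_finrank_of_lt (lt_of_le_of_ne
      (inf_le_inf inf_le_left inf_le_left) fun h => ?_)
    have h1 : (w : F) ∈ (I₀ ⊓ I₁ : Submodule k F) := ⟨hw₀, hw₁⟩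
    rw [← h] at h1
    exact hwZ h1.1.2

/-! ### the initial sheaf -/

/-- the submodule `x ^ N * B₁` -/
def twistSub (B₁ : Subalgebra k F) (x : F) (N : ℕ) : Submodule k F :=
  (Subalgebra.toSubmodule B₁).comap (LinearMap.mulLeft k (x⁻¹ ^ N))

theorem mem_twistSub {N : ℕ} {a : F} : a ∈ twistSub B₁ x N ↔ x⁻¹ ^ N * a ∈ B₁ := Iff.rfl

theorem fg_inf_twistSub [IsAlgClosed k] (hB : IsCurvePair B₀ B₁ x) (N : ℕ) :
    (Subalgebra.toSubmodule B₀ ⊓ twistSub B₁ x N).FG := by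
  classical
  have hx := x_ne_zero hB
  induction N with
  | zero =>
    refine Submodule.FG.of_le (T := Submodule.span k {(1 : F)}) ⟨{1}, by simp⟩ ?_
    rintro y ⟨h0, h1⟩
    rw [SetLike.mem_coe, mem_twistSub, pow_zero, one_mul] at h1
    obtain ⟨c, rfl⟩ := eq_const_of_mem hB h0 h1
    rw [Algebra.algebraMap_eq_smul_one]
    exact Submodule.smul_mem _ _ (Submodule.subset_span rfl)
  | succ N ih =>
    obtain ⟨S₁, hS₁⟩ := hB.fin₁
    let W : Submodule k F := (Subalgebra.toSubmodule B₁).map (LinearMap.mulLeft k x⁻¹)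
    let φ : F →ₗ[k] (F ⧸ W) := W.mkQ ∘ₗ LinearMap.mulLeft k (x⁻¹ ^ (N + 1))
    refine Submodule.fg_of_fg_map_of_fg_inf_ker φ ?_ ?_
    · refine Submodule.FG.of_le (T := Submodule.span k (W.mkQ '' (S₁ : Set F)))
        ⟨S₁.image W.mkQ, by rw [Finset.coe_image]⟩ ?_
      rintro _ ⟨y, hy, rfl⟩
      have h1 : x⁻¹ ^ (N + 1) * y ∈ (Subalgebra.toSubmodule B₁ : Submodule k F) := hy.2
      change W.mkQ (x⁻¹ ^ (N + 1) * y) ∈ _
      generalize x⁻¹ ^ (N + 1) * y = z at h1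
      rw [hS₁] at h1
      induction h1 using Submodule.span_induction with
      | mem z hz =>
        obtain ⟨n, b, hb, rfl⟩ := hz
        rcases n with _ | n
        · rw [pow_zero, one_mul]
          exact Submodule.subset_span ⟨b, hb, rfl⟩
        · have h2 : W.mkQ (x⁻¹ ^ (n + 1) * b) = 0 := by
            rw [Submodule.mkQ_apply, Submodule.Quotient.mk_eq_zero]
            refine ⟨x⁻¹ ^ n * b, ?_, ?_⟩
            · rw [hS₁]
              exact Submodule.subset_span ⟨n, b, hb, rfl⟩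
            · rw [LinearMap.mulLeft_apply, ← mul_assoc, ← pow_succ']
          rw [h2]
          exact Submodule.zero_mem _
      | zero => rw [map_zero]; exact Submodule.zero_mem _
      | add z w _ _ h1 h2 => rw [map_add]; exact Submodule.add_mem _ h1 h2
      | smul c z _ h => rw [map_smul]; exact Submodule.smul_mem _ _ h
    · refine Submodule.FG.of_le ih ?_
      rintro y ⟨⟨h0, h1⟩, h2⟩
      refine ⟨h0, ?_⟩
      rw [SetLike.mem_coe, LinearMap.mem_ker] at h2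
      change W.mkQ (x⁻¹ ^ (N + 1) * y) = 0 at h2
      rw [Submodule.mkQ_apply, Submodule.Quotient.mk_eq_zero] at h2
      obtain ⟨b, hb, hb'⟩ := h2
      rw [LinearMap.mulLeft_apply, pow_succ', mul_assoc] at hb'
      have h3 := mul_left_cancel₀ (inv_ne_zero hx) hb'
      rw [SetLike.mem_coe, mem_twistSub, ← h3]
      exact hb

theorem exists_inv [IsAlgClosed k] (hB : IsCurvePair B₀ B₁ x) (ε : B₀ →ₐ[k] k) :
    ∃ I₀ I₁ : Submodule k F, Inv B₀ B₁ x ε I₀ I₁ := by
  classical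
  have hx := x_ne_zero hB
  obtain ⟨S₁, hS₁⟩ := hB.fin₁
  have hSB : ∀ b ∈ S₁, b ∈ B₁ := by
    intro b hb
    have : b ∈ (Subalgebra.toSubmodule B₁ : Submodule k F) := by
      rw [hS₁]
      exact Submodule.subset_span ⟨0, b, hb, by rw [pow_zero, one_mul]⟩
    exact this
  have hexp : ∃ N : ℕ, ∀ b ∈ S₁, ∀ n, N ≤ n → x ^ n * b ∈ B₀ := by
    have h1 : ∀ b : F, ∃ n : ℕ, b ∈ S₁ → x ^ n * b ∈ B₀ := by
      intro b
      by_cases hb : b ∈ S₁
      · obtain ⟨n, hn⟩ := hB.loc₁ b (hSB b hb)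
        exact ⟨n, fun _ => hn⟩
      · exact ⟨0, fun h => absurd h hb⟩
    choose e he using h1
    refine ⟨S₁.sup e, fun b hb n hn => ?_⟩
    have h2 : e b ≤ n := (Finset.le_sup hb).trans hn
    obtain ⟨m, rfl⟩ := Nat.exists_eq_add_of_le' h2
    rw [pow_add, mul_assoc]
    exact mul_mem (pow_mem hB.mem₀ m) (he b hb)
  obtain ⟨N, hN⟩ := hexp
  refine ⟨Subalgebra.toSubmodule B₀, twistSub B₁ x N, ?_⟩
  have hcancel : ∀ n : ℕ, x⁻¹ ^ n * x ^ n = 1 := by
    intro n
    rw [← mul_pow, inv_mul_cancel₀ hx, one_pow]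
  refine ⟨?_, ?_, ?_, ?_, ?_, ?_, ?_, ?_, ?_, ?_⟩
  · exact fun b hb a ha => B₀.mul_mem hb ha
  · intro b hb a ha
    rw [mem_twistSub] at ha ⊢
    rw [mul_left_comm]
    exact mul_mem hb ha
  · exact fun a ha => ha
  · exact ⟨N, fun a ha => ha⟩
  · intro a ha
    obtain ⟨n, hn⟩ := hB.loc₀ a ha
    refine ⟨n, ?_⟩
    rw [mem_twistSub]
    exact mul_mem (pow_mem hB.mem₁ N) hn
  · intro a ha
    rw [mem_twistSub] at ha
    obtain ⟨n, hn⟩ := hB.loc₁ _ ha
    refine ⟨n, ?_⟩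
    have h1 : x ^ n * a = x ^ N * (x ^ n * (x⁻¹ ^ N * a)) := by
      have := hcancel N
      linear_combination (-(x ^ n * a)) * this
    rw [h1]
    exact B₀.mul_mem (pow_mem hB.mem₀ N) hn
  · refine ⟨S₁.image (fun b => x ^ N * b), ?_⟩
    ext a
    rw [mem_twistSub]
    constructor
    · intro ha
      have ha' : x⁻¹ ^ N * a ∈ (Subalgebra.toSubmodule B₁ : Submodule k F) := ha
      have h1 : a = x ^ N * (x⁻¹ ^ N * a) := by
        have := hcancel N
        linear_combination (-a) * this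
      rw [h1]
      generalize x⁻¹ ^ N * a = z at ha'
      rw [hS₁] at ha'
      induction ha' using Submodule.span_induction with
      | mem z hz =>
        obtain ⟨n, b, hb, rfl⟩ := hz
        exact Submodule.subset_span ⟨n, x ^ N * b, Finset.mem_image_of_mem _ hb, by ring⟩
      | zero => rw [mul_zero]; exact Submodule.zero_mem _
      | add z w _ _ h1 h2 => rw [mul_add]; exact Submodule.add_mem _ h1 h2
      | smul c z _ h => rw [mul_smul_comm]; exact Submodule.smul_mem _ _ h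
    · intro ha
      induction ha using Submodule.span_induction with
      | mem z hz =>
        obtain ⟨n, b, hb, rfl⟩ := hz
        obtain ⟨b', hb', rfl⟩ := Finset.mem_image.mp hb
        have h1 : x⁻¹ ^ N * (x⁻¹ ^ n * (x ^ N * b')) = x⁻¹ ^ n * b' := by
          have := hcancel N
          linear_combination (x⁻¹ ^ n * b') * this
        rw [h1]
        exact mul_mem (pow_mem hB.mem₁ n) (hSB b' hb')
      | zero => rw [mul_zero]; exact zero_mem _
      | add z w _ _ h1 h2 => rw [mul_add]; exact add_mem h1 h2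
      | smul c z _ h => rw [mul_smul_comm]; exact B₁.smul_mem h c
  · rintro y ⟨n, hn⟩
    obtain ⟨m, hm⟩ := hB.loc₀ _ hn
    have key : ∀ z ∈ (Subalgebra.toSubmodule B₁ : Submodule k F), ∀ m n : ℕ,
        x ^ m * (x⁻¹ ^ n * z) ∈ Subalgebra.toSubmodule B₀ ⊔ twistSub B₁ x N := by
      intro z hz m n
      rw [hS₁] at hz
      induction hz using Submodule.span_induction with
      | mem z hz =>
        obtain ⟨i, b, hb, rfl⟩ := hz
        rcases le_or_gt m (n + i + N) with hle | hlt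
        · refine Submodule.mem_sup_right ?_
          rw [mem_twistSub]
          obtain ⟨d, hd⟩ := Nat.exists_eq_add_of_le hle
          have h1 : x⁻¹ ^ N * (x ^ m * (x⁻¹ ^ n * (x⁻¹ ^ i * b))) = x⁻¹ ^ d * b := by
            have h2 : x⁻¹ ^ (n + i + N) = x⁻¹ ^ m * x⁻¹ ^ d := by rw [hd, pow_add]
            rw [pow_add, pow_add] at h2
            have h3 := hcancel m
            linear_combination (x ^ m * b) * h2 + (x⁻¹ ^ d * b) * h3
          rw [h1]
          exact mul_mem (pow_mem hB.mem₁ d) (hSB b hb)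
        · refine Submodule.mem_sup_left ?_
          obtain ⟨d, hd⟩ := Nat.exists_eq_add_of_lt hlt
          have h1 : x ^ m * (x⁻¹ ^ n * (x⁻¹ ^ i * b)) = x ^ (N + d + 1) * b := by
            have h2 : x ^ m = x ^ (N + d + 1) * x ^ n * x ^ i := by
              rw [hd, ← pow_add, ← pow_add]; congr 1; omega
            have h3 := hcancel n
            have h4 := hcancel i
            rw [h2]
            linear_combination (x ^ (N + d + 1) * b * x⁻¹ ^ i * x ^ i) * h3 +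
              (x ^ (N + d + 1) * b) * h4
          rw [h1]
          exact hN b hb _ (by omega)
      | zero => rw [mul_zero, mul_zero]; exact Submodule.zero_mem _
      | add z w _ _ h1 h2 => rw [mul_add, mul_add]; exact Submodule.add_mem _ h1 h2
      | smul c z _ h =>
        rw [mul_smul_comm, mul_smul_comm]
        exact Submodule.smul_mem _ _ h
    have h1 := key _ hm m n
    have h2 : x ^ m * (x⁻¹ ^ n * (x⁻¹ ^ m * (x ^ n * y))) = y := by
      have h3 := hcancel n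
      have h4 := hcancel m
      linear_combination (x⁻¹ ^ n * x ^ n * y) * h4 + y * h3
    rw [h2] at h1
    obtain ⟨a, ha, b, hb, hab⟩ := Submodule.mem_sup.mp h1
    exact ⟨a, ha, b, hb, hab.symm⟩
  · exact Module.Finite.iff_fg.mpr (fg_inf_twistSub hB N)
  · refine ⟨1, B₀.one_mem, ?_, ?_⟩
    · rw [mem_twistSub]
      exact mul_mem (pow_mem hB.mem₁ N) (one_mem _)
    · rw [map_one]
      exact one_ne_zero

theorem exists_min [IsAlgClosed k] (hB : IsCurvePair B₀ B₁ x) (ε : B₀ →ₐ[k] k) :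
    ∃ I₀ I₁ : Submodule k F, Inv B₀ B₁ x ε I₀ I₁ ∧
      ∀ w : B₀, (w : F) ∈ I₀ → (w : F) ∈ I₁ → ε w = 0 → w = 0 := by
  classical
  have key : ∀ d : ℕ, ∀ I₀ I₁ : Submodule k F, Inv B₀ B₁ x ε I₀ I₁ →
      Module.finrank k (I₀ ⊓ I₁ : Submodule k F) = d →
      ∃ I₀ I₁ : Submodule k F, Inv B₀ B₁ x ε I₀ I₁ ∧
      ∀ w : B₀, (w : F) ∈ I₀ → (w : F) ∈ I₁ → ε w = 0 → w = 0 := by
    intro d
    induction d using Nat.strong_induction_on with
    | _ d ih =>
      intro I₀ I₁ H hd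
      by_cases h : ∀ w : B₀, (w : F) ∈ I₀ → (w : F) ∈ I₁ → ε w = 0 → w = 0
      · exact ⟨I₀, I₁, H, h⟩
      · push Not at h
        obtain ⟨w, hw0, hw1, hε, hw⟩ := h
        obtain ⟨I₀', I₁', H', hlt⟩ := step hB H hw0 hw1 hw hε
        exact ih _ (hd ▸ hlt) I₀' I₁' H' rfl
  obtain ⟨I₀, I₁, H⟩ := exists_inv hB ε
  exact key _ I₀ I₁ H rfl

end SheafAux

/-- B2: a rank one sheaf with `h⁰ = 1`, `h¹ = 0`, whose section does not vanish at `ε`. -/
theorem exists_sheaf {k F : Type*} [Field k] [IsAlgClosed k] [Field F] [Algebra k F]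
    {B₀ B₁ : Subalgebra k F} {x : F} (hB : IsCurvePair B₀ B₁ x) (ε : B₀ →ₐ[k] k) :
    ∃ (I₀ I₁ : Submodule k F) (s : B₀),
      (∀ b ∈ B₀, ∀ a ∈ I₀, b * a ∈ I₀) ∧ (∀ b ∈ B₁, ∀ a ∈ I₁, b * a ∈ I₁) ∧
      (∀ a ∈ I₀, a ∈ B₀) ∧ (∃ N : ℕ, ∀ a ∈ I₁, x⁻¹ ^ N * a ∈ B₁) ∧
      (∀ a ∈ I₀, ∃ n : ℕ, x⁻¹ ^ n * a ∈ I₁) ∧ (∀ a ∈ I₁, ∃ n : ℕ, x ^ n * a ∈ I₀) ∧
      (∃ S : Finset F, I₁ = Submodule.span k {y | ∃ n : ℕ, ∃ b ∈ S, y = x⁻¹ ^ n * b}) ∧
      (∀ y : F, (∃ n : ℕ, x ^ n * y ∈ I₀) → ∃ a ∈ I₀, ∃ b ∈ I₁, y = a + b) ∧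
      (s : F) ∈ I₀ ∧ (s : F) ∈ I₁ ∧ (∀ y ∈ I₀, y ∈ I₁ → ∃ c : k, y = c • (s : F)) ∧
      ε s ≠ 0 := by
  obtain ⟨I₀, I₁, H, hmin⟩ := SheafAux.exists_min hB ε
  obtain ⟨s, hs0, hs1, hs⟩ := H.sec
  refine ⟨I₀, I₁, s, H.mul₀, H.mul₁, H.le₀, H.le₁, H.loc₀, H.loc₁, H.fg, H.h1, hs0, hs1, ?_, hs⟩
  intro y hy0 hy1
  let y' : B₀ := ⟨y, H.le₀ y hy0⟩
  refine ⟨ε y' / ε s, ?_⟩
  have h1 := hmin (y' - (ε y' / ε s) • s) (I₀.sub_mem hy0 (I₀.smul_mem _ hs0))
    (I₁.sub_mem hy1 (I₁.smul_mem _ hs1)) (by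
      rw [map_sub, map_smul, smul_eq_mul, div_mul_cancel₀ _ hs, sub_self])
  exact congrArg Subtype.val (sub_eq_zero.mp h1)

end Fermat.Agent.AbVar
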