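import Fermat.Agent.AbVar.DimZero
import Fermat.Agent.AbVar.LastCube
import Fermat.Agent.AbVar.Sq.ExistsGen
import Fermat.Agent.AbVar.Sq.Descent
import Fermat.Agent.AbVar.Sq.Seesaw

/-!
# S26: the number of torsion points of an abelian variety
-/

set_option autoImplicit false
universe u
open CategoryTheory CategoryTheory.Limits AlgebraicGeometry TopologicalSpace NeronModelInfra
  GoodReductionJacobian
open Fermat.Agent.Jac

namespace Fermat.Agent.AbVar

open Sq

attribute [local instance] isDomain_tensor

/-- The number of `n`-torsion points of an abelian variety over an algebraically closed field. -/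
theorem card_isTorsionPoint
    (K : Type u) [Field K] [IsAlgClosed K] {A : Scheme.{u}} (f : A ⟶ Spec (CommRingCat.of K))
    (L : RelativeGroupLaw K f) (hc : L.IsCommutative) (hA : AbelianSchemePropertyBundle K f)
    (g : ℕ) [SmoothOfRelativeDimension g f] (n : ℕ) (hn : (n : K) ≠ 0) :
    Nat.card {x : SchemeHomOver (𝟙 (Spec (CommRingCat.of K))) f //
        L.IsTorsionPoint (𝟙 (Spec (CommRingCat.of K))) n x} = n ^ (2 * g) := by
  by_cases hg : g = 0
  · subst hg
    rw [Asm.card_zero K f L hA n, mul_zero, pow_zero]
  · have := hA.proper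
    have := hA.smooth
    have hconn : ConnectedSpace A := by
      have h1 := hA.connectedFibres (clp K)
      have h2 : f.base ⁻¹' {clp K} = Set.univ :=
        Set.eq_univ_of_forall fun a => Subsingleton.elim (f a) (clp K)
      rw [h2] at h1
      exact connectedSpace_iff_univ.mpr h1
    have : IsIntegral A := isIntegral_of_smooth f
    have hs : ∀ c : UnitCocycle A, StarProp f L c := by
      intro c
      obtain ⟨k', _, _, ρ, θ, h⟩ := exists_isGen L c g (Nat.one_le_iff_ne_zero.mpr hg)
      obtain ⟨u, hu⟩ := IsGen.descend L c ρ _ _ h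
      exact star_of_isGen hu
    refine Asm.card_of_cube K f L hc hA g n hn fun ℓ x y z => ⟨1, le_rfl, ?_⟩
    rw [Last.cube_of_star f L hs f ℓ x y z]

end Fermat.Agent.AbVar
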