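import Mathlib

/-!
# S26: tensor products of domains over an algebraically closed field are domains
-/

set_option autoImplicit false

open TensorProduct

namespace Fermat.Agent.AbVar

/-- an algebra of finite type over an algebraically closed field has a point where a given
non-nilpotent element does not vanish. -/
lemma exists_algHom_apply_ne_zero {k A : Type*} [Field k] [IsAlgClosed k] [CommRing A] [IsDomain A]
    [Algebra k A] [Algebra.FiniteType k A] (c : A) (hc : c ≠ 0) :
    ∃ φ : A →ₐ[k] k, φ c ≠ 0 := by
  have : Nontrivial (Localization.Away c) := by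
    have hle : Submonoid.powers c ≤ nonZeroDivisors A :=
      powers_le_nonZeroDivisors_of_noZeroDivisors hc
    exact (IsLocalization.injective (Localization.Away c) hle).nontrivial
  have : Algebra.FiniteType k (Localization.Away c) := inferInstance
  obtain ⟨m, hm⟩ := Ideal.exists_maximal (Localization.Away c)
  let _ : Field (Localization.Away c ⧸ m) := Ideal.Quotient.field m
  have : Algebra.FiniteType k (Localization.Away c ⧸ m) := inferInstance
  have : Module.Finite k (Localization.Away c ⧸ m) := finite_of_finite_type_of_isJacobsonRing k _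
  have : Algebra.IsAlgebraic k (Localization.Away c ⧸ m) := inferInstance
  let e := AlgEquiv.ofBijective (Algebra.ofId k (Localization.Away c ⧸ m))
    IsAlgClosed.algebraMap_bijective_of_isIntegral
  let φ : A →ₐ[k] k := e.symm.toAlgHom.comp ((Ideal.Quotient.mkₐ k m).comp
    (IsScalarTower.toAlgHom k A (Localization.Away c)))
  refine ⟨φ, ?_⟩
  have h1 : IsUnit (algebraMap A (Localization.Away c) c) :=
    IsLocalization.map_units (Localization.Away c) ⟨c, Submonoid.mem_powers c⟩
  have h2 : IsUnit (φ c) := by
    have := h1.map (e.symm.toAlgHom.comp (Ideal.Quotient.mkₐ k m))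
    exact this
  exact h2.ne_zero

lemma isDomain_tensor (k A B : Type*) [Field k] [IsAlgClosed k] [CommRing A] [IsDomain A]
    [Algebra k A] [CommRing B] [IsDomain B] [Algebra k B] : IsDomain (A ⊗[k] B) := by
  classical
  have : Nontrivial (A ⊗[k] B) := by
    have : Function.Injective (algebraMap A (A ⊗[k] B)) :=
      Algebra.TensorProduct.includeLeft_injective (S := A) (FaithfulSMul.algebraMap_injective k B)
    exact this.nontrivial
  have : NoZeroDivisors (A ⊗[k] B) := by
    refine ⟨fun {x y} hxy => ?_⟩
    by_contra hne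
    push Not at hne
    obtain ⟨hx, hy⟩ := hne
    let β := Module.Basis.ofVectorSpace k B
    let βA := Algebra.TensorProduct.basis A β
    have hx' : βA.repr x ≠ 0 := by simpa using hx
    have hy' : βA.repr y ≠ 0 := by simpa using hy
    obtain ⟨i, hi⟩ := Finsupp.ne_iff.1 hx'
    obtain ⟨j, hj⟩ := Finsupp.ne_iff.1 hy'
    rw [Finsupp.zero_apply] at hi hj
    let S : Set A := (βA.repr x).support.image (βA.repr x) ∪ (βA.repr y).support.image (βA.repr y)
    have hS : S.Finite := (Finset.finite_toSet _).union (Finset.finite_toSet _)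
    let A' : Subalgebra k A := Algebra.adjoin k S
    have : Algebra.FiniteType k A' :=
      (Subalgebra.fg_iff_finiteType _).1 ((Subalgebra.fg_def).2 ⟨S, hS, rfl⟩)
    have hxA : ∀ l, βA.repr x l ∈ A' := by
      intro l
      by_cases hl : βA.repr x l = 0
      · rw [hl]; exact zero_mem _
      · exact Algebra.subset_adjoin (Or.inl (by
          simp only [Finset.coe_image, Set.mem_image, Finset.mem_coe, Finsupp.mem_support_iff]
          exact ⟨l, hl, rfl⟩))
    have hyA : ∀ l, βA.repr y l ∈ A' := by
      intro l
      by_cases hl : βA.repr y l = 0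
      · rw [hl]; exact zero_mem _
      · exact Algebra.subset_adjoin (Or.inr (by
          simp only [Finset.coe_image, Set.mem_image, Finset.mem_coe, Finsupp.mem_support_iff]
          exact ⟨l, hl, rfl⟩))
    let x' : A' ⊗[k] B := ∑ l ∈ (βA.repr x).support, (⟨βA.repr x l, hxA l⟩ : A') ⊗ₜ β l
    let y' : A' ⊗[k] B := ∑ l ∈ (βA.repr y).support, (⟨βA.repr y l, hyA l⟩ : A') ⊗ₜ β l
    let ι : A' ⊗[k] B →ₐ[k] A ⊗[k] B := Algebra.TensorProduct.map A'.val (AlgHom.id k B)
    have hι : Function.Injective ι :=
      Module.Flat.rTensor_preserves_injective_linearMap (M := B) A'.val.toLinearMap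
        Subtype.val_injective
    have hx1 : ι x' = x := by
      conv_rhs => rw [← βA.linearCombination_repr x]
      rw [Finsupp.linearCombination_apply, Finsupp.sum, map_sum]
      refine Finset.sum_congr rfl fun l _ => ?_
      simp only [ι, Algebra.TensorProduct.map_tmul, Subalgebra.coe_val, AlgHom.coe_id, id_eq, βA,
        Algebra.TensorProduct.basis_apply, TensorProduct.smul_tmul', smul_eq_mul, mul_one]
    have hy1 : ι y' = y := by
      conv_rhs => rw [← βA.linearCombination_repr y]
      rw [Finsupp.linearCombination_apply, Finsupp.sum, map_sum]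
      refine Finset.sum_congr rfl fun l _ => ?_
      simp only [ι, Algebra.TensorProduct.map_tmul, Subalgebra.coe_val, AlgHom.coe_id, id_eq, βA,
        Algebra.TensorProduct.basis_apply, TensorProduct.smul_tmul', smul_eq_mul, mul_one]
    have hxy' : x' * y' = 0 := by
      apply hι
      rw [map_mul, hx1, hy1, hxy, map_zero]
    obtain ⟨φ, hφ⟩ := exists_algHom_apply_ne_zero (k := k) (A := A')
      (⟨βA.repr x i, hxA i⟩ * ⟨βA.repr y j, hyA j⟩) (by
        intro h
        have := congrArg (Subtype.val) h
        simp only [Subalgebra.coe_mul, ZeroMemClass.coe_zero, mul_eq_zero] at this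
        exact this.elim hi hj)
    rw [map_mul] at hφ
    let ev : A' ⊗[k] B →ₐ[k] B := Algebra.TensorProduct.lift
      ((Algebra.ofId k B).comp φ) (AlgHom.id k B) (fun _ _ => Commute.all _ _)
    have hev : ∀ (z : ↥A' ⊗[k] B) (f : _ →₀ A) (hf : ∀ l, f l ∈ A')
        (_ : z = ∑ l ∈ f.support, (⟨f l, hf l⟩ : A') ⊗ₜ β l) (l₀), φ ⟨f l₀, hf l₀⟩ ≠ 0 →
        ev z ≠ 0 := by
      rintro z f hf rfl l₀ hl₀ h
      rw [map_sum] at h
      simp only [ev, Algebra.TensorProduct.lift_tmul, AlgHom.coe_comp, Function.comp_apply,
        AlgHom.coe_id, id_eq] at h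
      have h2 : ∑ l ∈ f.support, φ ⟨f l, hf l⟩ • β l = 0 := by
        rw [← h]
        refine Finset.sum_congr rfl fun l _ => ?_
        rw [Algebra.smul_def]; rfl
      have h3 := (linearIndependent_iff'.1 β.linearIndependent) f.support (fun l => φ ⟨f l, hf l⟩) h2
      by_cases hl : l₀ ∈ f.support
      · exact hl₀ (h3 l₀ hl)
      · rw [Finsupp.notMem_support_iff] at hl
        apply hl₀
        have : (⟨f l₀, hf l₀⟩ : A') = 0 := Subtype.ext hl
        rw [this, map_zero]
    have h1 : ev x' ≠ 0 := hev x' _ hxA rfl i (left_ne_zero_of_mul hφ)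
    have h2 : ev y' ≠ 0 := hev y' _ hyA rfl j (right_ne_zero_of_mul hφ)
    apply mul_ne_zero h1 h2
    rw [← map_mul, hxy', map_zero]
  exact NoZeroDivisors.to_isDomain _

end Fermat.Agent.AbVar
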