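import Fermat.Agent.AbVar.DSys
import Fermat.Agent.AbVar.TensorDomain

/-!
# S26: contents and Gauss valuations on tensor products
-/

set_option autoImplicit false
set_option linter.unusedSectionVars false

open TensorProduct

namespace Fermat.Agent.AbVar

section TSum

variable {k F : Type*} [Field k] [CommRing F] [Algebra k F] {I : Submodule k F}
  {ι : Type*} (β : Module.Basis ι k I)
  {T T' : Type*} [CommRing T] [Algebra k T] [CommRing T'] [Algebra k T']

/-- the change of scalars on the left factor -/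
noncomputable def scal (F : Type*) [CommRing F] [Algebra k F] (φ : T →ₐ[k] T') :
    T ⊗[k] F →ₐ[k] T' ⊗[k] F :=
  Algebra.TensorProduct.map φ (AlgHom.id k F)

@[simp] lemma scal_tmul (φ : T →ₐ[k] T') (t : T) (x : F) : scal F φ (t ⊗ₜ x) = φ t ⊗ₜ x := rfl

lemma scal_smul (φ : T →ₐ[k] T') (t : T) (x : T ⊗[k] F) : scal F φ (t • x) = φ t • scal F φ x := by
  induction x with
  | zero => simp
  | tmul a b => simp [smul_tmul']
  | add x y hx hy => rw [smul_add, map_add, hx, hy, map_add, smul_add]

/-- a combination of basis elements with coefficients in `T`. -/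
noncomputable def tsum (c : ι →₀ T) : T ⊗[k] F := c.sum fun i t => t ⊗ₜ (β i : F)

lemma tsum_eq (c : ι →₀ T) : tsum β c = (I.subtype.baseChange T)
    (((β.baseChange T).repr).symm c) := by
  rw [Module.Basis.repr_symm_apply, Finsupp.linearCombination_apply, map_finsuppSum, tsum]
  refine Finsupp.sum_congr fun i _ => ?_
  rw [map_smul, Module.Basis.baseChange_apply, LinearMap.baseChange_tmul, smul_tmul', smul_eq_mul,
    mul_one, Submodule.subtype_apply]

lemma mem_baseChange_iff (a : T ⊗[k] F) : a ∈ I.baseChange T ↔ ∃ c : ι →₀ T, a = tsum β c := by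
  constructor
  · intro h
    obtain ⟨b, hb⟩ := LinearMap.mem_range.1 h
    refine ⟨(β.baseChange T).repr b, ?_⟩
    rw [tsum_eq, LinearEquiv.symm_apply_apply, ← hb]
  · rintro ⟨c, rfl⟩
    rw [tsum_eq]
    exact LinearMap.mem_range_self _ _

lemma baseChange_subtype_injective : Function.Injective (I.subtype.baseChange T) := by
  rw [LinearMap.baseChange_eq_ltensor]
  exact Module.Flat.lTensor_preserves_injective_linearMap _ Subtype.val_injective

lemma tsum_injective : Function.Injective (tsum β : (ι →₀ T) → T ⊗[k] F) := by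
  intro c c' h
  rw [tsum_eq, tsum_eq] at h
  exact (LinearEquiv.injective _) (baseChange_subtype_injective h)

lemma scal_tsum (φ : T →ₐ[k] T') (c : ι →₀ T) :
    scal F φ (tsum β c) = tsum β (c.mapRange φ (map_zero φ)) := by
  rw [tsum, map_finsuppSum, tsum, Finsupp.sum_mapRange_index (fun i => by simp)]
  rfl

lemma smul_tsum (t : T) (c : ι →₀ T) : t • tsum β c = tsum β (t • c) := by
  rw [tsum_eq, tsum_eq, ← map_smul, ← map_smul]

lemma scal_mem_baseChange (φ : T →ₐ[k] T') {a : T ⊗[k] F} (ha : a ∈ I.baseChange T) :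
    scal F φ a ∈ I.baseChange T' := by
  let β := Module.Basis.ofVectorSpace k I
  rw [mem_baseChange_iff β] at ha
  obtain ⟨c, rfl⟩ := ha
  rw [mem_baseChange_iff β, scal_tsum]
  exact ⟨_, rfl⟩

lemma scal_surj_baseChange (φ : T →ₐ[k] T') (hφ : Function.Surjective φ) {a : T' ⊗[k] F}
    (ha : a ∈ I.baseChange T') : ∃ b ∈ I.baseChange T, scal F φ b = a := by
  let β := Module.Basis.ofVectorSpace k I
  rw [mem_baseChange_iff β] at ha
  obtain ⟨c, rfl⟩ := ha
  obtain ⟨d, rfl⟩ := Finsupp.mapRange_surjective φ (map_zero φ) hφ c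
  exact ⟨tsum β d, (mem_baseChange_iff β _).2 ⟨d, rfl⟩, scal_tsum β φ d⟩

lemma scal_injective (φ : T →ₐ[k] T') (hφ : Function.Injective φ) :
    Function.Injective (scal F φ) :=
  Module.Flat.rTensor_preserves_injective_linearMap (M := F) φ.toLinearMap hφ

/-- an element of `T' ⊗ F` which lies in `T ⊗ F` and `T' ⊗ I` lies in `T ⊗ I`. -/
lemma mem_baseChange_of_scal (φ : T →ₐ[k] T') (hφ : Function.Injective φ) {a : T ⊗[k] F}
    (ha : scal F φ a ∈ I.baseChange T') : a ∈ I.baseChange T := by
  obtain ⟨g, hg⟩ := LinearMap.exists_leftInverse_of_injective I.subtype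
    (LinearMap.ker_eq_bot.2 Subtype.val_injective)
  have hg1 : ∀ x : I, g x = x := fun x => LinearMap.congr_fun hg x
  have key1 : ∀ x ∈ I.baseChange T', (I.subtype.baseChange T') ((g.baseChange T') x) = x := by
    intro x hx
    obtain ⟨y, rfl⟩ := LinearMap.mem_range.1 hx
    induction y with
    | zero => simp
    | tmul t y =>
      rw [LinearMap.baseChange_tmul, LinearMap.baseChange_tmul, LinearMap.baseChange_tmul,
        Submodule.subtype_apply, Submodule.subtype_apply, hg1]
    | add y z hy hz =>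
      have h1 := hy (LinearMap.mem_range_self _ _)
      have h2 := hz (LinearMap.mem_range_self _ _)
      rw [map_add, map_add, map_add, h1, h2]
  have key2 : ∀ x : T ⊗[k] F, (I.subtype.baseChange T') ((g.baseChange T') (scal F φ x)) =
      scal F φ ((I.subtype.baseChange T) ((g.baseChange T) x)) := by
    intro x
    induction x with
    | zero => simp
    | tmul t y =>
      rw [scal_tmul, LinearMap.baseChange_tmul, LinearMap.baseChange_tmul, LinearMap.baseChange_tmul,
        LinearMap.baseChange_tmul, scal_tmul]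
    | add y z hy hz => simp only [map_add, hy, hz]
  have h := key1 _ ha
  rw [key2] at h
  rw [← scal_injective φ hφ h]
  exact LinearMap.mem_range_self _ _

end TSum

section Content

variable {k F : Type*} [Field k] [CommRing F] [Algebra k F]
  {R κ κ' : Type*} [CommRing R] [IsDomain R] [ValuationRing R] [Algebra k R]
  [Field κ] [Algebra k κ] [Algebra R κ] [IsFractionRing R κ] [IsScalarTower k R κ]
  [Field κ'] [Algebra k κ'] (res : R →ₐ[k] κ') [IsLocalHom res.toRingHom]

variable (k R κ) in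
/-- the inclusion of `R` in its fraction field as a `k`-algebra map -/
def frc : R →ₐ[k] κ := IsScalarTower.toAlgHom k R κ

omit [IsDomain R] [ValuationRing R] in
variable (k R κ) in
lemma frc_injective : Function.Injective (frc k R κ) := IsFractionRing.injective R κ

omit [IsScalarTower k R κ] in
/-- some element of a nonempty finite family of elements of the fraction field has minimal
valuation -/
lemma exists_min_val {ι : Type*} (c : ι →₀ κ) (hc : c ≠ 0) :
    ∃ j, c j ≠ 0 ∧ ∀ i, ∃ r : R, c i = algebraMap R κ r * c j := by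
  classical
  have hne : c.support.Nonempty := Finsupp.support_nonempty_iff.2 hc
  obtain ⟨j, hj, hmax⟩ := Finset.exists_max_image c.support
    (fun i => ValuationRing.valuation R κ (c i)) hne
  rw [Finsupp.mem_support_iff] at hj
  refine ⟨j, hj, fun i => ?_⟩
  by_cases hi : c i = 0
  · exact ⟨0, by rw [hi, map_zero, zero_mul]⟩
  · have h := hmax i (Finsupp.mem_support_iff.2 hi)
    have h1 : c i / c j ∈ (ValuationRing.valuation R κ).integer := by
      rw [Valuation.mem_integer_iff, map_div₀]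
      have h0 : ValuationRing.valuation R κ (c j) ≠ 0 := (Valuation.ne_zero_iff _).2 hj
      exact div_le_one_of_le₀ h zero_le
    rw [ValuationRing.mem_integer_iff] at h1
    obtain ⟨r, hr⟩ := h1
    exact ⟨r, by rw [hr, div_mul_cancel₀ _ hj]⟩

omit [IsLocalHom res.toRingHom] in
/-- the content of an element -/
lemma exists_content {I : Submodule k F} {a : κ ⊗[k] F} (ha : a ∈ I.baseChange κ) (h0 : a ≠ 0) :
    ∃ (r : κ) (a₀ : R ⊗[k] F), r ≠ 0 ∧ a₀ ∈ I.baseChange R ∧ scal F res a₀ ≠ 0 ∧
      a = r • scal F (frc k R κ) a₀ := by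
  classical
  let β := Module.Basis.ofVectorSpace k I
  obtain ⟨c, rfl⟩ := (mem_baseChange_iff β a).1 ha
  have hc : c ≠ 0 := by
    rintro rfl
    exact h0 (by simp [tsum])
  obtain ⟨j, hj, hmin⟩ := exists_min_val (R := R) c hc
  choose r hr using hmin
  -- coefficients
  have hr0 : ∀ i, c i = 0 → r i = 0 := by
    intro i hi
    have h := hr i
    rw [hi] at h
    rcases mul_eq_zero.1 h.symm with h | h
    · exact (map_eq_zero_iff _ (IsFractionRing.injective R κ)).1 h
    · exact absurd h hj
  let d : _ →₀ R := Finsupp.onFinset c.support r (by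
    intro i hi
    rw [Finsupp.mem_support_iff]
    exact fun h => hi (hr0 i h))
  have hd : ∀ i, d i = r i := fun i => Finsupp.onFinset_apply
  have hrj : r j = 1 := by
    have h := hr j
    have h2 : algebraMap R κ (r j) = algebraMap R κ 1 := by
      rw [map_one]
      exact mul_right_cancel₀ hj (by rw [← h, one_mul])
    exact IsFractionRing.injective R κ h2
  refine ⟨c j, tsum β d, hj, (mem_baseChange_iff β _).2 ⟨d, rfl⟩, ?_, ?_⟩
  · rw [scal_tsum]
    intro h
    have h2 : d.mapRange res (map_zero res) = 0 := by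
      apply tsum_injective β
      rw [h]
      simp [tsum]
    have h3 := DFunLike.congr_fun h2 j
    rw [Finsupp.mapRange_apply, hd, hrj, map_one] at h3
    simp at h3
  · rw [scal_tsum, smul_tsum]
    congr 1
    ext i
    rw [Finsupp.smul_apply, Finsupp.mapRange_apply, hd, smul_eq_mul, mul_comm]
    exact hr i

omit [IsDomain R] [ValuationRing R] in
lemma frc_apply (r : R) : frc k R κ r = algebraMap R κ r := rfl

/-! ### The Gauss ring -/

variable {E E' : Type*} [Field E] [Field E'] (τ : κ ⊗[k] F →+* E) (τ' : κ' ⊗[k] F →+* E')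

variable (R) in
/-- the map from `R ⊗ F` to the big field -/
noncomputable def tauR : R ⊗[k] F →+* E := τ.comp (scal F (frc k R κ)).toRingHom

omit [IsDomain R] [ValuationRing R] in
lemma tauR_apply (a : R ⊗[k] F) : tauR R τ a = τ (scal F (frc k R κ) a) := rfl

omit [IsDomain R] [ValuationRing R] in
lemma tauR_injective (hτ : Function.Injective τ) : Function.Injective (tauR R τ) :=
  hτ.comp (scal_injective _ (frc_injective k R κ))

omit [IsDomain R] [ValuationRing R] in
lemma tauR_smul (r : R) (a : R ⊗[k] F) :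
    tauR R τ (r • a) = tauR R τ (r ⊗ₜ 1) * tauR R τ a := by
  rw [← map_mul]
  congr 1
  rw [Algebra.smul_def]
  rfl

/-- the Gauss ring: localization of `R ⊗ F` at the kernel of the reduction. -/
noncomputable abbrev gaussRing : Subring E := locIn (tauR R τ) (kerPt τ' (scal F res).toRingHom)

/-- the residue map of the Gauss ring -/
noncomputable abbrev gres (y : E) : E' := spe (tauR R τ) τ' (scal F res).toRingHom y

lemma tauR_mem_gauss (a : R ⊗[k] F) : tauR R τ a ∈ gaussRing res τ τ' := map_mem_locIn _ _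

lemma gres_tauR (hτ : Function.Injective τ) (a : R ⊗[k] F) :
    gres res τ τ' (tauR R τ a) = τ' (scal F res a) :=
  spe_map (tauR_injective τ hτ) _

lemma smul_eq_tmul_one_mul {T : Type*} [CommRing T] [Algebra k T] (t : T) (a : T ⊗[k] F) :
    t • a = (t ⊗ₜ 1) * a := by
  rw [Algebra.smul_def]; rfl

/-- every nonzero element of `E` becomes a unit of the Gauss ring after scaling by an element
of the fraction field of `R`. -/
lemma exists_scale (hτ : Function.Injective τ)
    (hfr : ∀ u : E, ∃ a b : κ ⊗[k] F, b ≠ 0 ∧ u * τ b = τ a) (hτ' : Function.Injective τ')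
    (u : E) (hu : u ≠ 0) : ∃ r : κ, r ≠ 0 ∧ τ (r ⊗ₜ 1) * u ∈ gaussRing res τ τ' ∧
      gres res τ τ' (τ (r ⊗ₜ 1) * u) ≠ 0 := by
  obtain ⟨a, b, hb, hab⟩ := hfr u
  have ha : a ≠ 0 := by
    rintro rfl
    rw [map_zero, mul_eq_zero] at hab
    exact hab.elim hu (fun h => hb ((map_eq_zero_iff τ hτ).1 h))
  obtain ⟨r, a₀, hr, -, ha₀, rfl⟩ := exists_content (R := R) res (I := (⊤ : Submodule k F))
    (a := a) (by rw [Submodule.baseChange_top]; trivial) ha
  obtain ⟨s, b₀, hs, -, hb₀, rfl⟩ := exists_content (R := R) res (I := (⊤ : Submodule k F))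
    (a := b) (by rw [Submodule.baseChange_top]; trivial) hb
  have hker : b₀ ∉ (kerPt τ' (scal F res).toRingHom).asIdeal := by
    rw [mem_kerPt]
    exact fun h => hb₀ ((map_eq_zero_iff τ' hτ').1 h)
  have hrs : τ ((r⁻¹ * s) ⊗ₜ 1) * u * tauR R τ b₀ = tauR R τ a₀ := by
    rw [smul_eq_tmul_one_mul, smul_eq_tmul_one_mul, map_mul, map_mul] at hab
    rw [tauR_apply, tauR_apply]
    have e1 : τ ((r⁻¹ * s) ⊗ₜ 1) = τ (r⁻¹ ⊗ₜ 1) * τ (s ⊗ₜ 1) := by
      rw [← map_mul, Algebra.TensorProduct.tmul_mul_tmul, one_mul]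
    have e2 : τ (r⁻¹ ⊗ₜ 1) * τ (r ⊗ₜ 1) = 1 := by
      rw [← map_mul, Algebra.TensorProduct.tmul_mul_tmul, one_mul, inv_mul_cancel₀ hr]
      exact map_one τ
    rw [e1]
    calc τ (r⁻¹ ⊗ₜ 1) * τ (s ⊗ₜ 1) * u * τ (scal F (frc k R κ) b₀)
        = τ (r⁻¹ ⊗ₜ 1) * (u * (τ (s ⊗ₜ 1) * τ (scal F (frc k R κ) b₀))) := by ring
      _ = τ (r⁻¹ ⊗ₜ 1) * τ (r ⊗ₜ 1) * τ (scal F (frc k R κ) a₀) := by rw [hab]; ring
      _ = _ := by rw [e2, one_mul]
  have hmem : τ ((r⁻¹ * s) ⊗ₜ 1) * u ∈ gaussRing res τ τ' := ⟨a₀, b₀, hker, hrs⟩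
  refine ⟨r⁻¹ * s, mul_ne_zero (inv_ne_zero hr) hs, hmem, ?_⟩
  have := spe_eq (ι := tauR R τ) (ι' := τ') (ψ := (scal F res).toRingHom)
    (tauR_injective τ hτ) hker hrs
  rw [gres, this]
  refine div_ne_zero ?_ ?_
  · exact fun h => ha₀ ((map_eq_zero_iff τ' hτ').1 h)
  · exact fun h => hb₀ ((map_eq_zero_iff τ' hτ').1 h)

/-- the integral elements of `κ ⊗ I` are the elements of `R ⊗ I`. -/
lemma mem_of_mem_gauss (hτ : Function.Injective τ) (hτ' : Function.Injective τ')
    {I : Submodule k F} {a : κ ⊗[k] F} (ha : a ∈ I.baseChange κ)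
    (hmem : τ a ∈ gaussRing res τ τ') : ∃ a₀ ∈ I.baseChange R, scal F (frc k R κ) a₀ = a := by
  by_cases h0 : a = 0
  · exact ⟨0, zero_mem _, by rw [h0, map_zero]⟩
  obtain ⟨r, a₀, hr, ha₀, hred, rfl⟩ := exists_content (R := R) res ha h0
  obtain ⟨s, t, ht, hst⟩ := hmem
  rcases ValuationRing.isInteger_or_isInteger R r with ⟨r₀, hr₀⟩ | ⟨r₀, hr₀⟩
  · refine ⟨r₀ • a₀, Submodule.smul_mem _ _ ha₀, ?_⟩
    rw [scal_smul, frc_apply, hr₀]
  · by_cases hu : IsUnit r₀
    · obtain ⟨v, rfl⟩ := hu
      refine ⟨((v⁻¹ : Rˣ) : R) • a₀, Submodule.smul_mem _ _ ha₀, ?_⟩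
      rw [scal_smul, frc_apply]
      congr 1
      have : algebraMap R κ ((v⁻¹ : Rˣ) : R) * algebraMap R κ (v : R) = 1 := by
        rw [← map_mul, Units.inv_mul, map_one]
      rw [hr₀] at this
      rw [← mul_inv_cancel_right₀ (inv_ne_zero hr) (algebraMap R κ ((v⁻¹ : Rˣ) : R)), this,
        one_mul, inv_inv]
    · exfalso
      have hres : res r₀ = 0 := by
        by_contra h
        exact hu ((isUnit_map_iff res.toRingHom r₀).1 (isUnit_iff_ne_zero.2 h))
      have e : a₀ * t = r₀ • s := by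
        apply tauR_injective (R := R) τ hτ
        rw [map_mul, tauR_smul, ← hst, smul_eq_tmul_one_mul, map_mul, tauR_apply _ a₀,
          tauR_apply _ (r₀ ⊗ₜ[k] (1 : F)), scal_tmul, frc_apply, hr₀]
        have e2 : τ (r⁻¹ ⊗ₜ 1) * τ (r ⊗ₜ 1) = 1 := by
          rw [← map_mul, Algebra.TensorProduct.tmul_mul_tmul, one_mul, inv_mul_cancel₀ hr]
          exact map_one τ
        calc τ (scal F (frc k R κ) a₀) * tauR R τ t
            = (τ (r⁻¹ ⊗ₜ 1) * τ (r ⊗ₜ 1)) * τ (scal F (frc k R κ) a₀) * tauR R τ t := by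
              rw [e2, one_mul]
          _ = _ := by ring
      have h2 := congrArg (fun z => τ' (scal F res z)) e
      simp only [map_mul, scal_smul, hres, zero_smul, map_zero, mul_eq_zero] at h2
      rcases h2 with h2 | h2
      · exact hred ((map_eq_zero_iff τ' hτ').1 h2)
      · exact ht h2

/-- elements of `R ⊗ I` reducing to zero are multiples of elements of the maximal ideal. -/
lemma exists_smul_of_scal_eq_zero {I : Submodule k F} {a₀ : R ⊗[k] F} (ha : a₀ ∈ I.baseChange R)
    (h0 : scal F res a₀ = 0) : ∃ m : R, res m = 0 ∧ ∃ a₁ ∈ I.baseChange R, a₀ = m • a₁ := by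
  by_cases hz : a₀ = 0
  · exact ⟨0, map_zero _, 0, zero_mem _, by rw [hz, zero_smul]⟩
  classical
  let β := Module.Basis.ofVectorSpace k I
  obtain ⟨c, rfl⟩ := (mem_baseChange_iff β a₀).1 ha
  have hc : c ≠ 0 := by
    rintro rfl
    exact hz (by simp [tsum])
  obtain ⟨K', _, _, _⟩ : ∃ K' : Type _, ∃ (_ : Field K') (_ : Algebra R K'), IsFractionRing R K' :=
    ⟨FractionRing R, inferInstance, inferInstance, inferInstance⟩
  have hc' : c.mapRange (algebraMap R K') (map_zero _) ≠ 0 := by
    intro h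
    apply hc
    ext i
    have := DFunLike.congr_fun h i
    rw [Finsupp.mapRange_apply, Finsupp.zero_apply] at this
    exact (map_eq_zero_iff _ (IsFractionRing.injective R K')).1 this
  obtain ⟨j, hj, hmin⟩ := exists_min_val (R := R) _ hc'
  simp only [Finsupp.mapRange_apply, ← map_mul] at hj hmin
  choose r hr using hmin
  have hr' : ∀ i, c i = r i * c j := fun i => IsFractionRing.injective R K' (hr i)
  have hj' : c j ≠ 0 := fun h => hj (by rw [h, map_zero])
  let d : _ →₀ R := Finsupp.onFinset c.support r (by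
    intro i hi
    rw [Finsupp.mem_support_iff]
    intro h
    apply hi
    have h1 := hr' i
    rw [h] at h1
    exact (mul_eq_zero.1 h1.symm).resolve_right hj')
  have hd : ∀ i, d i = r i := fun i => Finsupp.onFinset_apply
  refine ⟨c j, ?_, tsum β d, (mem_baseChange_iff β _).2 ⟨d, rfl⟩, ?_⟩
  · rw [scal_tsum] at h0
    have h2 : c.mapRange res (map_zero res) = 0 := by
      apply tsum_injective β
      rw [h0]
      simp [tsum]
    have h3 := DFunLike.congr_fun h2 j
    rwa [Finsupp.mapRange_apply] at h3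
  · rw [smul_tsum]
    congr 1
    ext i
    rw [Finsupp.smul_apply, hd, smul_eq_mul, mul_comm]
    exact hr' i

end Content

end Fermat.Agent.AbVar
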