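import Fermat.Agent.AbVar.Sq.ExistsGen
import Fermat.Agent.AbVar.Sq.Descent
import Fermat.Agent.AbVar.Sq.Seesaw
import Fermat.Agent.AbVar.LastCube
import Fermat.Agent.AbVar.Assembly

/-!
# S26: the number of torsion points of an abelian variety, positive dimension
-/

set_option autoImplicit false
universe u

open CategoryTheory CategoryTheory.Limits AlgebraicGeometry TopologicalSpace IsLocalRing
open NeronModelInfra GoodReductionJacobian GoodReductionJacobian.RelativeGroupLaw
open Fermat.Agent.Jac

namespace Fermat.Agent.AbVar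

section

attribute [local instance] isDomain_tensor

/-- a generator over the function field of `A × A` -/
theorem exists_gen_pos {K : Type u} [Field K] [IsAlgClosed K] {A : Scheme.{u}}
    {f : A ⟶ Spec (.of K)}
    [IsIntegral A] (L : RelativeGroupLaw K f) (g : ℕ) (hg : 1 ≤ g)
    [SmoothOfRelativeDimension g f] [IsProper f] (c : UnitCocycle A) :
    ∃ u, Sq.IsGen L c (Sq.xy2 f 0) (Sq.xy2 f 1) u := by
  obtain ⟨k', _, _, ρ, θ, hθ⟩ := Sq.exists_isGen L c g hg
  exact Sq.IsGen.descend L c ρ _ _ hθ

/-- the valuative theorem of the cube -/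
theorem star_pos {K : Type u} [Field K] [IsAlgClosed K] {A : Scheme.{u}} {f : A ⟶ Spec (.of K)}
    [IsIntegral A] (L : RelativeGroupLaw K f) (g : ℕ) (hg : 1 ≤ g)
    [SmoothOfRelativeDimension g f] [IsProper f] (c : UnitCocycle A) : Sq.StarProp f L c := by
  obtain ⟨u, hu⟩ := exists_gen_pos L g hg c
  exact Sq.star_of_isGen hu

end

theorem card_pos (K : Type u) [Field K] [IsAlgClosed K] {A : Scheme.{u}}
    (f : A ⟶ Spec (CommRingCat.of K)) (L : RelativeGroupLaw K f) (hc : L.IsCommutative)
    (hA : AbelianSchemePropertyBundle K f) (g : ℕ) (hg : 1 ≤ g) [SmoothOfRelativeDimension g f]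
    (n : ℕ) (hn : (n : K) ≠ 0) :
    Nat.card {x : SchemeHomOver (𝟙 (Spec (CommRingCat.of K))) f //
        L.IsTorsionPoint (𝟙 (Spec (CommRingCat.of K))) n x} = n ^ (2 * g) := by
  have := hA.proper
  have := hA.smooth
  have hconn : ConnectedSpace A := by
    have h1 := hA.connectedFibres (clp K)
    have h2 : f.base ⁻¹' {clp K} = Set.univ :=
      Set.eq_univ_of_forall fun a => Subsingleton.elim (f a) (clp K)
    rw [h2] at h1
    exact connectedSpace_iff_univ.mpr h1
  have : IsIntegral A := isIntegral_of_smooth f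
  refine Asm.card_of_cube K f L hc hA g n hn fun ℓ x y z => ⟨1, le_rfl, ?_⟩
  rw [Last.cube_of_star f L (star_pos L g hg) f ℓ x y z]

end Fermat.Agent.AbVar
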