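import Mathlib

/-!
# Growth lemma, numerical part (helper70)
-/

set_option autoImplicit false

namespace Fermat.Agent.AbVar.Growth

open Filter Topology

/-- If `a ^ j ≤ C j ^ g b ^ j` for all `j ≥ 1` then `a ≤ b`. -/
theorem le_of_pow_le {a b C g : ℕ} (h : ∀ j : ℕ, 1 ≤ j → a ^ j ≤ C * j ^ g * b ^ j) : a ≤ b := by
  by_contra hlt
  push Not at hlt
  have ha : (0 : ℝ) < a := by exact_mod_cast (Nat.zero_le b).trans_lt hlt
  have hr1 : (b : ℝ) / a < 1 := by
    rw [div_lt_one ha]
    exact_mod_cast hlt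
  have hr0 : (0 : ℝ) ≤ (b : ℝ) / a := by positivity
  have h1 := tendsto_pow_const_mul_const_pow_of_lt_one g hr0 hr1
  have h2 := h1.const_mul (C : ℝ)
  rw [mul_zero] at h2
  have h3 : ∀ᶠ j : ℕ in atTop, (C : ℝ) * ((j : ℝ) ^ g * ((b : ℝ) / a) ^ j) < 1 :=
    h2.eventually_lt_const zero_lt_one
  obtain ⟨j, hj, hj1⟩ := (h3.and (eventually_ge_atTop 1)).exists
  have h4 : ((a : ℝ)) ^ j ≤ C * (j : ℝ) ^ g * (b : ℝ) ^ j := by exact_mod_cast h j hj1
  have h5 : (C : ℝ) * ((j : ℝ) ^ g * ((b : ℝ) / a) ^ j) = (C * (j : ℝ) ^ g * (b : ℝ) ^ j) / a ^ j := by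
    rw [div_pow]
    ring
  rw [h5, div_lt_one (pow_pos ha j)] at hj
  exact absurd h4 (not_le.mpr hj)

theorem numeric (h : ℕ → ℕ) (g d N m0 C : ℕ) (hN : 1 ≤ N) (hd : 1 ≤ d) (hmono : Monotone h)
    (h3 : ∀ m, d * h m ≤ h (N * (m + m0))) (h4 : ∀ m, h (N * m) ≤ d * h (m + m0))
    (ub : ∀ m, h m ≤ C * (m + 1) ^ g) (lb : ∀ e, (e + 1) ^ g ≤ h (g * e)) : d = N ^ g := by
  apply le_antisymm
  · -- `d ≤ N ^ g`
    let s : ℕ → ℕ := fun j => Nat.rec 0 (fun _ m => N * (m + m0)) j
    have hs0 : s 0 = 0 := rfl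
    have hs : ∀ j, s (j + 1) = N * (s j + m0) := fun _ => rfl
    have hsb : ∀ j, s j ≤ N ^ j * (j * m0) := by
      intro j
      induction j with
      | zero => simp [hs0]
      | succ j ih =>
        rw [hs]
        have h1 : m0 ≤ N ^ j * m0 := Nat.le_mul_of_pos_left _ (pow_pos hN j)
        calc N * (s j + m0) ≤ N * (N ^ j * (j * m0) + N ^ j * m0) := by gcongr
          _ = N ^ (j + 1) * ((j + 1) * m0) := by ring
    have hsd : ∀ j, d ^ j ≤ h (s j) := by
      intro j
      induction j with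
      | zero => simpa [hs0] using lb 0
      | succ j ih =>
        rw [hs, pow_succ']
        exact (Nat.mul_le_mul_left d ih).trans (h3 _)
    refine le_of_pow_le (C := C * (m0 + 1) ^ g) (g := g) fun j hj => ?_
    have h1 : s j + 1 ≤ N ^ j * (j * (m0 + 1)) := by
      have h2 := hsb j
      have h3 : 1 ≤ N ^ j := Nat.one_le_pow _ _ hN
      calc s j + 1 ≤ N ^ j * (j * m0) + N ^ j * j := by
            have : 1 ≤ N ^ j * j := Nat.mul_pos h3 hj
            omega
        _ = N ^ j * (j * (m0 + 1)) := by ring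
    calc d ^ j ≤ h (s j) := hsd j
      _ ≤ C * (s j + 1) ^ g := ub _
      _ ≤ C * (N ^ j * (j * (m0 + 1))) ^ g := by gcongr
      _ = C * (m0 + 1) ^ g * j ^ g * (N ^ g) ^ j := by
        rw [mul_pow, mul_pow, ← pow_mul, ← pow_mul, mul_comm g j]
        ring
  · -- `N ^ g ≤ d`
    rcases Nat.lt_or_ge N 2 with hN2 | hN2
    · have : N = 1 := by omega
      subst this
      simpa using hd
    rcases Nat.eq_zero_or_pos g with hg | hg
    · subst hg; simpa using hd
    let s : ℕ → ℕ := fun j => Nat.rec (2 * m0 + 1) (fun _ m => N * (m - m0)) j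
    have hs0 : s 0 = 2 * m0 + 1 := rfl
    have hs : ∀ j, s (j + 1) = N * (s j - m0) := fun _ => rfl
    have hsb : ∀ j, 2 * m0 + N ^ j ≤ s j := by
      intro j
      induction j with
      | zero => simp [hs0]
      | succ j ih =>
        rw [hs]
        have h1 : m0 + N ^ j ≤ s j - m0 := by omega
        calc 2 * m0 + N ^ (j + 1) ≤ N * m0 + N ^ (j + 1) := by gcongr
          _ = N * (m0 + N ^ j) := by ring
          _ ≤ N * (s j - m0) := by gcongr
    have hsd : ∀ j, h (s j) ≤ d ^ j * h (s 0) := by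
      intro j
      induction j with
      | zero => simp
      | succ j ih =>
        rw [hs]
        have h1 := h4 (s j - m0)
        have h2 : s j - m0 + m0 = s j := Nat.sub_add_cancel (by have := hsb j; omega)
        rw [h2] at h1
        calc h (N * (s j - m0)) ≤ d * h (s j) := h1
          _ ≤ d * (d ^ j * h (s 0)) := by gcongr
          _ = d ^ (j + 1) * h (s 0) := by ring
    refine le_of_pow_le (C := g ^ g * h (s 0)) (g := 0) fun j _ => ?_
    set e := N ^ j / g with he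
    have h1 : N ^ j ≤ g * (e + 1) := by
      have := Nat.lt_mul_div_succ (N ^ j) hg
      exact this.le
    have h2 : g * e ≤ s j := by
      have h5 : g * e ≤ N ^ j := Nat.mul_div_le _ _
      have := hsb j
      omega
    calc (N ^ g) ^ j = (N ^ j) ^ g := by rw [← pow_mul, ← pow_mul, mul_comm]
      _ ≤ (g * (e + 1)) ^ g := by gcongr
      _ = g ^ g * (e + 1) ^ g := mul_pow _ _ _
      _ ≤ g ^ g * h (g * e) := by gcongr; exact lb e
      _ ≤ g ^ g * h (s j) := by gcongr; exact hmono h2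
      _ ≤ g ^ g * (d ^ j * h (s 0)) := by gcongr; exact hsd j
      _ = g ^ g * h (s 0) * j ^ 0 * d ^ j := by ring

end Fermat.Agent.AbVar.Growth
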