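import Fermat.Agent.AbVar.GrowthUpper
import Fermat.Agent.AbVar.GrowthNum

/-!
# Growth lemma (helper70)
-/

set_option autoImplicit false

open MvPolynomial Module

namespace Fermat.Agent.AbVar.Growth

variable {K F P : Type*} [Field K] [Field F] [Algebra K F]

theorem isIntegral_of_coeffs {R : Subring F} {q : Polynomial F} (hq : q.Monic)
    (hc : ∀ n, q.coeff n ∈ R) {w : F} (hw : q.eval w = 0) : IsIntegral R w := by
  have h1 : (↑q.coeffs : Set F) ⊆ R := by
    intro a ha
    rw [Finset.mem_coe, Polynomial.mem_coeffs_iff] at ha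
    obtain ⟨n, -, rfl⟩ := ha
    exact hc n
  refine ⟨q.toSubring R h1, (Polynomial.monic_toSubring q R h1).mpr hq, ?_⟩
  have h2 := Polynomial.map_toSubring q R h1
  have h3 : Polynomial.eval₂ (algebraMap R F) w (q.toSubring R h1) =
      (Polynomial.map R.subtype (q.toSubring R h1)).eval w := by
    rw [Polynomial.eval_map]
    rfl
  rw [h3, h2, hw]

/-- scaling trick -/
theorem isIntegral_scale {R : Subring F} {q : Polynomial F} (hq : q.Monic) {s u : F}
    (hs : s ∈ R) (hc : ∀ n, q.coeff n * s ∈ R) (hu : q.eval u = 0) : IsIntegral R (s * u) := by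
  refine isIntegral_of_coeffs (q := q.scaleRoots s) ((Polynomial.monic_scaleRoots_iff s).mpr hq)
    (fun n => ?_) ?_
  · rw [Polynomial.coeff_scaleRoots]
    rcases lt_trichotomy n q.natDegree with h | h | h
    · obtain ⟨k, hk⟩ : ∃ k, q.natDegree - n = k + 1 := ⟨q.natDegree - n - 1, by omega⟩
      rw [hk, pow_succ', ← mul_assoc]
      exact mul_mem (hc n) (pow_mem hs k)
    · rw [h, hq.coeff_natDegree, Nat.sub_self, pow_zero, mul_one]
      exact one_mem _
    · rw [Polynomial.coeff_eq_zero_of_natDegree_lt h, zero_mul]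
      exact zero_mem _
  · have h1 := Polynomial.scaleRoots_eval₂_eq_zero (f := RingHom.id F) (s := s)
      (p := q) (r := u) hu
    exact h1

section VR

variable (O : P → Subring F) (t : P → F)

/-- `L(m D)` -/
def VV (hK : ∀ p (a : K), algebraMap K F a ∈ O p) (m : ℕ) : Submodule K F where
  carrier := {y | ∀ p, y * t p ^ m ∈ O p}
  zero_mem' := fun p => by rw [zero_mul]; exact zero_mem _
  add_mem' := fun {a b} ha hb p => by rw [add_mul]; exact add_mem (ha p) (hb p)
  smul_mem' := fun c y hy p => by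
    rw [Algebra.smul_def, mul_assoc]
    exact mul_mem (hK p c) (hy p)

variable {O t}

theorem mem_VV {hK : ∀ p (a : K), algebraMap K F a ∈ O p} {m : ℕ} {y : F} :
    y ∈ VV O t hK m ↔ ∀ p, y * t p ^ m ∈ O p := Iff.rfl

theorem VV_mono {hK : ∀ p (a : K), algebraMap K F a ∈ O p} (ht : ∀ p, t p ∈ O p) {m n : ℕ}
    (h : m ≤ n) : VV O t hK m ≤ VV O t hK n := by
  intro y hy p
  obtain ⟨k, rfl⟩ := Nat.exists_eq_add_of_le h
  rw [pow_add, ← mul_assoc]
  exact mul_mem (hy p) (pow_mem (ht p) k)

variable (O t)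

/-- the union of the `L(m D)` -/
def VR (ht : ∀ p, t p ∈ O p) : Subring F where
  carrier := {y | ∃ m : ℕ, ∀ p, y * t p ^ m ∈ O p}
  mul_mem' := by
    rintro a b ⟨m, hm⟩ ⟨n, hn⟩
    refine ⟨m + n, fun p => ?_⟩
    have : a * b * t p ^ (m + n) = (a * t p ^ m) * (b * t p ^ n) := by ring
    rw [this]
    exact mul_mem (hm p) (hn p)
  one_mem' := ⟨0, fun p => by simp⟩
  add_mem' := by
    rintro a b ⟨m, hm⟩ ⟨n, hn⟩
    refine ⟨m + n, fun p => ?_⟩
    have : (a + b) * t p ^ (m + n) = (a * t p ^ m) * t p ^ n + (b * t p ^ n) * t p ^ m := by ring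
    rw [this]
    exact add_mem (mul_mem (hm p) (pow_mem (ht p) _)) (mul_mem (hn p) (pow_mem (ht p) _))
  zero_mem' := ⟨0, fun p => by simp⟩
  neg_mem' := by
    rintro a ⟨m, hm⟩
    exact ⟨m, fun p => by rw [neg_mul]; exact neg_mem (hm p)⟩

variable {O t}

theorem mem_VR {ht : ∀ p, t p ∈ O p} {y : F} :
    y ∈ VR O t ht ↔ ∃ m : ℕ, ∀ p, y * t p ^ m ∈ O p := Iff.rfl

theorem exists_common {ht : ∀ p, t p ∈ O p} (S : Finset F) (hS : ∀ y ∈ S, y ∈ VR O t ht) :
    ∃ m : ℕ, ∀ y ∈ S, ∀ p, y * t p ^ m ∈ O p := by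
  classical
  induction S using Finset.induction with
  | empty => exact ⟨0, by simp⟩
  | insert a S _ ih =>
    obtain ⟨m, hm⟩ := ih fun y hy => hS y (Finset.mem_insert_of_mem hy)
    obtain ⟨n, hn⟩ := hS a (Finset.mem_insert_self a S)
    refine ⟨m + n, fun y hy p => ?_⟩
    rcases Finset.mem_insert.mp hy with rfl | hy
    · have : y * t p ^ (m + n) = y * t p ^ n * t p ^ m := by ring
      rw [this]
      exact mul_mem (hn p) (pow_mem (ht p) _)
    · have : y * t p ^ (m + n) = y * t p ^ m * t p ^ n := by ring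
      rw [this]
      exact mul_mem (hm y hy p) (pow_mem (ht p) _)

/-- Lemma A: `VR` is integrally closed. -/
theorem mem_VR_of_isIntegral (hint : ∀ p (y : F), IsIntegral (O p) y → y ∈ O p)
    {ht : ∀ p, t p ∈ O p} {u : F} (hu : IsIntegral (VR O t ht) u) : u ∈ VR O t ht := by
  obtain ⟨f, hf, hfu⟩ := hu
  set q := f.map (algebraMap (VR O t ht) F) with hq
  have hqm : q.Monic := hf.map _
  have hqu : q.eval u = 0 := by rw [hq, Polynomial.eval_map]; exact hfu
  obtain ⟨m, hm⟩ := exists_common (ht := ht) q.coeffs (by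
    intro y hy
    rw [Polynomial.mem_coeffs_iff] at hy
    obtain ⟨n, -, rfl⟩ := hy
    rw [hq, Polynomial.coeff_map]
    exact (f.coeff n).2)
  refine ⟨m, fun p => hint p _ ?_⟩
  rw [mul_comm]
  refine isIntegral_scale hqm (pow_mem (ht p) m) (fun n => ?_) hqu
  by_cases h0 : q.coeff n = 0
  · rw [h0, zero_mul]; exact zero_mem _
  · exact hm _ (Polynomial.coeff_mem_coeffs h0) p

end VR

section Denominators

variable {g : ℕ} {x : Fin g → F}

theorem exists_denominator (hx : AlgebraicIndependent K x)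
    [FiniteDimensional (IntermediateField.adjoin K (Set.range x)) F] (f : F) :
    ∃ p : MvPolynomial (Fin g) K, p ≠ 0 ∧
      (aeval x : MvPolynomial (Fin g) K →ₐ[K] F).toRingHom.IsIntegralElem (aeval x p * f) := by
  let i1 : Algebra (MvPolynomial (Fin g) K) (IntermediateField.adjoin K (Set.range x)) :=
    (toL hx).toRingHom.toAlgebra
  have i2 : IsScalarTower K (MvPolynomial (Fin g) K) (IntermediateField.adjoin K (Set.range x)) :=
    IsScalarTower.of_algebraMap_eq fun a => ((toL hx).commutes a).symm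
  have i3 : IsFractionRing (MvPolynomial (Fin g) K) (IntermediateField.adjoin K (Set.range x)) := by
    let e : FractionRing (MvPolynomial (Fin g) K) ≃ₐ[MvPolynomial (Fin g) K]
        (IntermediateField.adjoin K (Set.range x)) :=
      AlgEquiv.ofRingEquiv (f := hx.aevalEquivField.toRingEquiv) fun p => rfl
    exact IsLocalization.isLocalization_of_algEquiv _ e
  let i4 : Algebra (MvPolynomial (Fin g) K) F :=
    (aeval x : MvPolynomial (Fin g) K →ₐ[K] F).toRingHom.toAlgebra
  have i5 : IsScalarTower (MvPolynomial (Fin g) K)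
      (IntermediateField.adjoin K (Set.range x)) F :=
    IsScalarTower.of_algebraMap_eq fun p => (toL_coe hx p).symm
  obtain ⟨r, hr, h⟩ := exists_clear (R := MvPolynomial (Fin g) K)
    (L := IntermediateField.adjoin K (Set.range x)) {f}
  exact ⟨r, hr, h f (Finset.mem_singleton_self f)⟩

variable {O : P → Subring F} {t : P → F}

theorem aeval_mem {S : Subring F} (hK : ∀ a : K, algebraMap K F a ∈ S) (hxS : ∀ i, x i ∈ S)
    (p : MvPolynomial (Fin g) K) : aeval x p ∈ S := by
  induction p using MvPolynomial.induction_on with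
  | C a => rw [MvPolynomial.aeval_C]; exact hK a
  | add p q hp hq => rw [map_add]; exact add_mem hp hq
  | mul_X p i hp => rw [map_mul, MvPolynomial.aeval_X]; exact mul_mem hp (hxS i)

theorem exists_denominator_VR (hx : AlgebraicIndependent K x)
    [FiniteDimensional (IntermediateField.adjoin K (Set.range x)) F]
    (hK : ∀ p (a : K), algebraMap K F a ∈ O p)
    (hint : ∀ p (y : F), IsIntegral (O p) y → y ∈ O p) (ht : ∀ p, t p ∈ O p)
    (hxt : ∀ i p, x i * t p ∈ O p) (f : F) :
    ∃ c : F, c ≠ 0 ∧ c ∈ VR O t ht ∧ c * f ∈ VR O t ht := by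
  obtain ⟨p, hp, hpf⟩ := exists_denominator hx f
  have hK' : ∀ a : K, algebraMap K F a ∈ VR O t ht := fun a => ⟨0, fun p => by
    rw [pow_zero, mul_one]; exact hK p a⟩
  have hx' : ∀ i, x i ∈ VR O t ht := fun i => ⟨1, fun p => by rw [pow_one]; exact hxt i p⟩
  refine ⟨aeval x p, ?_, aeval_mem hK' hx' p, mem_VR_of_isIntegral hint ?_⟩
  · rwa [Ne, (injective_iff_map_eq_zero' _).mp hx]
  · exact isIntegralElem_of_factor _
      ((aeval x : MvPolynomial (Fin g) K →ₐ[K] F).toRingHom.codRestrict (VR O t ht)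
        (aeval_mem hK' hx')) _ rfl hpf

theorem exists_common_denominator (hx : AlgebraicIndependent K x)
    [FiniteDimensional (IntermediateField.adjoin K (Set.range x)) F]
    (hK : ∀ p (a : K), algebraMap K F a ∈ O p)
    (hint : ∀ p (y : F), IsIntegral (O p) y → y ∈ O p) (ht : ∀ p, t p ∈ O p)
    (hxt : ∀ i p, x i * t p ∈ O p) (S : Finset F) :
    ∃ c : F, c ≠ 0 ∧ c ∈ VR O t ht ∧ ∀ f ∈ S, c * f ∈ VR O t ht := by
  classical
  induction S using Finset.induction with
  | empty => exact ⟨1, one_ne_zero, one_mem _, by simp⟩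
  | insert a S _ ih =>
    obtain ⟨c, hc, hcm, h⟩ := ih
    obtain ⟨c', hc', hcm', h'⟩ := exists_denominator_VR hx hK hint ht hxt a
    refine ⟨c * c', mul_ne_zero hc hc', mul_mem hcm hcm', fun f hf => ?_⟩
    rcases Finset.mem_insert.mp hf with rfl | hf
    · rw [mul_assoc]; exact mul_mem hcm h'
    · have : c * c' * f = c' * (c * f) := by ring
      rw [this]; exact mul_mem hcm' (h f hf)

end Denominators

section Trace

variable (π : F →+* F)

/-- the inverse of `π` on its range -/
noncomputable def inv : π.fieldRange →+* F :=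
  (RingEquiv.ofBijective π.rangeRestrictField
    ⟨fun _ _ h => π.injective (congrArg Subtype.val h), π.rangeRestrictField_bijective.2⟩).symm.toRingHom

theorem pi_inv (z : π.fieldRange) : π (inv π z) = z := by
  have h := (RingEquiv.ofBijective π.rangeRestrictField
    ⟨fun _ _ h => π.injective (congrArg Subtype.val h),
      π.rangeRestrictField_bijective.2⟩).apply_symm_apply z
  exact congrArg Subtype.val h

theorem trace_mem [FiniteDimensional π.fieldRange F] {A : Subring F}
    (hA : ∀ y : F, IsIntegral A y → y ∈ A) {w : F} (hw : IsIntegral (A.map π) w) :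
    inv π (Algebra.trace π.fieldRange F w) ∈ A := by
  have hle : ∀ r : A.map π, (r : F) ∈ π.fieldRange := by
    rintro ⟨_, ⟨a, -, rfl⟩⟩
    exact ⟨a, rfl⟩
  let i1 : Algebra (A.map π) π.fieldRange :=
    ((A.map π).subtype.codRestrict π.fieldRange hle).toAlgebra
  have i2 : IsScalarTower (A.map π) π.fieldRange F := IsScalarTower.of_algebraMap_eq fun _ => rfl
  have h1 : IsIntegral (A.map π) (Algebra.trace π.fieldRange F w) := Algebra.isIntegral_trace hw
  apply hA
  have h2 : ((inv π).comp (algebraMap (A.map π) π.fieldRange)).IsIntegralElem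
      (inv π (Algebra.trace π.fieldRange F w)) := by
    obtain ⟨p, hp, hpy⟩ := h1
    refine ⟨p, hp, ?_⟩
    rw [← Polynomial.hom_eval₂, hpy, map_zero]
  have h3 : ∀ r : A.map π, (inv π).comp (algebraMap (A.map π) π.fieldRange) r ∈ A := by
    rintro ⟨_, ⟨a, ha, rfl⟩⟩
    have h4 : inv π ⟨π a, ⟨a, rfl⟩⟩ = a := π.injective (pi_inv π _)
    change inv π ⟨π a, _⟩ ∈ A
    rw [h4]
    exact ha
  exact isIntegralElem_of_factor _ (((inv π).comp (algebraMap (A.map π) π.fieldRange)).codRestrict
    A h3) _ rfl h2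

end Trace

section Main

variable (O : P → Subring F) {g : ℕ} {x : Fin g → F}

theorem lower (hx : AlgebraicIndependent K x) {hK : ∀ p (a : K), algebraMap K F a ∈ O p}
    {t : P → F} (ht : ∀ p, t p ∈ O p) (hxt : ∀ i p, x i * t p ∈ O p)
    (hfin : ∀ m, FiniteDimensional K (VV O t hK m)) (e : ℕ) :
    (e + 1) ^ g ≤ finrank K (VV O t hK (g * e)) := by
  classical
  let mon : (Fin g → Fin (e + 1)) → F := fun s => ∏ i, x i ^ (s i : ℕ)
  have hmem : ∀ s, mon s ∈ VV O t hK (g * e) := by
    intro s p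
    have h1 : mon s * t p ^ (g * e) = ∏ i, (x i ^ (s i : ℕ) * t p ^ e) := by
      rw [Finset.prod_mul_distrib, Finset.prod_const, Finset.card_univ, Fintype.card_fin, ← pow_mul,
        mul_comm e g]
    rw [h1]
    refine prod_mem fun i _ => ?_
    have h2 : (s i : ℕ) ≤ e := Nat.lt_succ_iff.mp (s i).2
    obtain ⟨k, hk⟩ := Nat.exists_eq_add_of_le h2
    have h3 : x i ^ (s i : ℕ) * t p ^ e = (x i * t p) ^ (s i : ℕ) * t p ^ k := by
      have h5 : t p ^ e = t p ^ (s i : ℕ) * t p ^ k := by rw [← pow_add, ← hk]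
      rw [h5]
      ring
    rw [h3]
    exact mul_mem (pow_mem (hxt i p) _) (pow_mem (ht p) _)
  have hli : LinearIndependent K mon := by
    have h1 : LinearIndependent K (fun s : Fin g →₀ ℕ => aeval x (monomial s (1 : K))) := by
      have h2 := (basisMonomials (Fin g) K).linearIndependent
      have h3 : Function.Injective (aeval x : MvPolynomial (Fin g) K →ₐ[K] F).toLinearMap := hx
      exact h2.map' _ (LinearMap.ker_eq_bot.mpr h3)
    have h2 : Function.Injective fun s : Fin g → Fin (e + 1) =>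
        (Finsupp.equivFunOnFinite.symm fun i => (s i : ℕ)) := by
      intro s s' h
      funext i
      have := DFunLike.congr_fun h i
      exact Fin.ext (by simpa using this)
    have h3 := h1.comp _ h2
    convert h3 using 1
    funext s
    change mon s = aeval x (monomial _ (1 : K))
    rw [aeval_monomial, map_one, one_mul]
    change _ = (Finsupp.equivFunOnFinite.symm fun i => (s i : ℕ)).prod fun i k => x i ^ k
    rw [Finsupp.prod_fintype]
    · rfl
    · intro i; exact pow_zero _
  have hli' : LinearIndependent K (fun s => (⟨mon s, hmem s⟩ : VV O t hK (g * e))) :=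
    LinearIndependent.of_comp (VV O t hK (g * e)).subtype hli
  have := hfin (g * e)
  have h4 := hli'.fintype_card_le_finrank
  rwa [Fintype.card_fun, Fintype.card_fin, Fintype.card_fin] at h4

variable (hK : ∀ p (a : K), algebraMap K F a ∈ O p)
    (hint : ∀ p (y : F), IsIntegral (O p) y → y ∈ O p)
    (hx : AlgebraicIndependent K x)
    [hfin : FiniteDimensional (IntermediateField.adjoin K (Set.range x)) F]
    (t : P → F) (ht0 : ∀ p, t p ≠ 0) (ht : ∀ p, t p ∈ O p)
    (hxt : ∀ i p, x i * t p ∈ O p)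
    (π : F →+* F) (hπK : ∀ a : K, π (algebraMap K F a) = algebraMap K F a)
    [hπfin : FiniteDimensional π.fieldRange F]
    (πP : P → P) (hπO : ∀ p, ∀ y ∈ O (πP p), π y ∈ O p)

include hK hint hx hfin ht hxt hπfin hπO in
/-- Lemma C -/
theorem exists_denominator_pi (ht' : ∀ p, π (t (πP p)) ∈ O p) (e : F) :
    ∃ c : F, c ≠ 0 ∧ π c * e ∈ VR O (fun p => π (t (πP p))) ht' := by
  classical
  set q := (minpoly π.fieldRange e).map (algebraMap π.fieldRange F) with hq
  have hint' : IsIntegral π.fieldRange e := Algebra.IsIntegral.isIntegral e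
  have hqm : q.Monic := (minpoly.monic hint').map _
  have hqe : q.eval e = 0 := by
    rw [hq, Polynomial.eval_map]
    exact minpoly.aeval π.fieldRange e
  obtain ⟨c, hc, hcm, h⟩ := exists_common_denominator hx hK hint ht hxt
    ((minpoly π.fieldRange e).coeffs.image (inv π))
  have hmap : ∀ y ∈ VR O t ht, π y ∈ VR O (fun p => π (t (πP p))) ht' := by
    rintro y ⟨m, hm⟩
    refine ⟨m, fun p => ?_⟩
    rw [← map_pow, ← map_mul]
    exact hπO p _ (hm (πP p))
  refine ⟨c, hc, mem_VR_of_isIntegral hint (isIntegral_scale hqm (hmap c hcm) (fun n => ?_) hqe)⟩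
  rw [hq, Polynomial.coeff_map]
  change ((minpoly π.fieldRange e).coeff n : F) * π c ∈ _
  by_cases h0 : (minpoly π.fieldRange e).coeff n = 0
  · rw [h0]
    change (0 : F) * π c ∈ _
    rw [zero_mul]; exact zero_mem _
  · rw [← pi_inv, ← map_mul, mul_comm]
    exact hmap _ (h _ (Finset.mem_image_of_mem _ (Polynomial.coeff_mem_coeffs h0)))

end Main

end Fermat.Agent.AbVar.Growth
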