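import Fermat.Agent.AbVar.GrowthAlg

/-!
# Growth lemma, the upper bound (helper70)
-/

set_option autoImplicit false

open MvPolynomial Module

namespace Fermat.Agent.AbVar.Growth

section Degree

variable (K : Type*) [Field K] (g : ℕ)

theorem finrank_restrictTotalDegree_le (D : ℕ) :
    finrank K (restrictTotalDegree (Fin g) K D) ≤ (D + 1) ^ g := by
  let f : restrictTotalDegree (Fin g) K D →ₗ[K] ((Fin g → Fin (D + 1)) → K) :=
    LinearMap.pi fun s => (lcoeff K (Finsupp.equivFunOnFinite.symm fun i => (s i : ℕ))) ∘ₗ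
      (restrictTotalDegree (Fin g) K D).subtype
  have hf : Function.Injective f := by
    rw [injective_iff_map_eq_zero]
    rintro ⟨p, hp⟩ h
    rw [mem_restrictTotalDegree] at hp
    refine Subtype.ext ?_
    change p = 0
    ext s
    rw [coeff_zero]
    by_cases hs : ∀ i, s i ≤ D
    · have h1 := congrFun h fun i => ⟨s i, Nat.lt_succ_of_le (hs i)⟩
      change coeff (Finsupp.equivFunOnFinite.symm fun i => s i) p = 0 at h1
      have h2 : (Finsupp.equivFunOnFinite.symm fun i => s i) = s := by ext; simp
      rwa [h2] at h1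
    · by_contra hne
      push Not at hs
      obtain ⟨i, hi⟩ := hs
      have h1 := le_totalDegree (mem_support_iff.mpr hne)
      have h2 : s i ≤ s.sum fun _ e => e := by
        by_cases h0 : s i = 0
        · rw [h0]; exact Nat.zero_le _
        · exact Finset.single_le_sum (f := fun j => s j) (fun _ _ => Nat.zero_le _)
            (Finsupp.mem_support_iff.mpr h0)
      omega
  have h1 := LinearMap.finrank_le_finrank_of_injective hf
  rw [Module.finrank_fintype_fun_eq_card, Fintype.card_fun, Fintype.card_fin, Fintype.card_fin] at h1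
  exact h1

end Degree

section Rinf

variable {K : Type*} [Field K] {g : ℕ} (L : Type*) [Field L] [Algebra (MvPolynomial (Fin g) K) L]
  [IsFractionRing (MvPolynomial (Fin g) K) L]

/-- the valuation ring at infinity -/
noncomputable def Rinf : ValuationSubring L where
  carrier := {z | ∃ a b : MvPolynomial (Fin g) K, b ≠ 0 ∧
    z * algebraMap _ L b = algebraMap _ L a ∧ a.totalDegree ≤ b.totalDegree}
  mul_mem' := by
    rintro z z' ⟨a, b, hb, hz, hd⟩ ⟨a', b', hb', hz', hd'⟩
    refine ⟨a * a', b * b', mul_ne_zero hb hb', ?_, ?_⟩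
    · rw [map_mul, map_mul, ← hz, ← hz']; ring
    · rw [totalDegree_mul_of_isDomain hb hb']
      exact (totalDegree_mul _ _).trans (add_le_add hd hd')
  one_mem' := ⟨1, 1, one_ne_zero, by simp, le_rfl⟩
  add_mem' := by
    rintro z z' ⟨a, b, hb, hz, hd⟩ ⟨a', b', hb', hz', hd'⟩
    refine ⟨a * b' + a' * b, b * b', mul_ne_zero hb hb', ?_, ?_⟩
    · rw [map_add, map_mul, map_mul, map_mul, ← hz, ← hz']; ring
    · rw [totalDegree_mul_of_isDomain hb hb']
      refine (totalDegree_add _ _).trans (max_le ?_ ?_)
      · exact (totalDegree_mul _ _).trans (add_le_add hd le_rfl)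
      · exact (totalDegree_mul _ _).trans (by omega)
  zero_mem' := ⟨0, 1, one_ne_zero, by simp, by simp⟩
  neg_mem' := by
    rintro z ⟨a, b, hb, hz, hd⟩
    exact ⟨-a, b, hb, by rw [map_neg, ← hz]; ring, by rwa [totalDegree_neg]⟩
  mem_or_inv_mem' := by
    intro z
    obtain ⟨a, b, hb, hab⟩ := IsFractionRing.div_surjective (A := MvPolynomial (Fin g) K) z
    have hb0 : b ≠ 0 := nonZeroDivisors.ne_zero hb
    have hb1 : algebraMap _ L b ≠ 0 := by
      rwa [Ne, FaithfulSMul.algebraMap_eq_zero_iff]
    by_cases ha : a = 0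
    · left
      refine ⟨0, 1, one_ne_zero, ?_, by simp⟩
      rw [← hab, ha]; simp
    have ha1 : algebraMap _ L a ≠ 0 := by
      rwa [Ne, FaithfulSMul.algebraMap_eq_zero_iff]
    rcases le_total a.totalDegree b.totalDegree with h | h
    · left
      exact ⟨a, b, hb0, by rw [← hab]; field_simp, h⟩
    · right
      exact ⟨b, a, ha, by rw [← hab]; field_simp, h⟩

theorem mem_Rinf {z : L} : z ∈ Rinf (K := K) (g := g) L ↔ ∃ a b : MvPolynomial (Fin g) K, b ≠ 0 ∧
    z * algebraMap _ L b = algebraMap _ L a ∧ a.totalDegree ≤ b.totalDegree := Iff.rfl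

end Rinf

section Upper

variable {K F : Type*} [Field K] [Field F] [Algebra K F] {g : ℕ}

/-- The upper bound, abstract version. -/
theorem upper_aux (L : Type*) [Field L] [Algebra L F] [Algebra K L] [IsScalarTower K L F]
    [Algebra (MvPolynomial (Fin g) K) L] [IsScalarTower K (MvPolynomial (Fin g) K) L]
    [IsFractionRing (MvPolynomial (Fin g) K) L]
    [FiniteDimensional L F] [Algebra.IsSeparable L F] (T : Finset F) :
    ∃ C : ℕ, ∀ (m : ℕ) (W : Submodule K F), (∀ y ∈ W, ∀ V : ValuationSubring F,
      (∀ a : K, algebraMap K F a ∈ V) → ∃ τ ∈ T, τ ≠ 0 ∧ y * τ ^ m ∈ V) →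
      FiniteDimensional K W ∧ finrank K W ≤ C * (m + 1) ^ g := by
  classical
  let e := Module.finBasis L F
  let i1 : Algebra (MvPolynomial (Fin g) K) F :=
    ((algebraMap L F).comp (algebraMap (MvPolynomial (Fin g) K) L)).toAlgebra
  have i2 : IsScalarTower (MvPolynomial (Fin g) K) L F := IsScalarTower.of_algebraMap_eq fun _ => rfl
  set R := Rinf (K := K) (g := g) L with hR
  let i3 : Algebra R F := ((algebraMap L F).comp (algebraMap R L)).toAlgebra
  have i4 : IsScalarTower R L F := IsScalarTower.of_algebraMap_eq fun _ => rfl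
  obtain ⟨r, c, hr, hc, h1⟩ := exists_trace_bound (R := MvPolynomial (Fin g) K) (L := L) T e
  obtain ⟨r', c', hr', hc', h2⟩ := exists_trace_bound (R := R) (L := L) T e
  obtain ⟨a, b, hb, hab, -⟩ := (mem_Rinf L).mp r'.2
  obtain ⟨a', b', hb', hab', -⟩ := (mem_Rinf L).mp c'.2
  have hinj := IsFractionRing.injective (MvPolynomial (Fin g) K) L
  have hne : ∀ p : MvPolynomial (Fin g) K, p ≠ 0 → algebraMap _ L p ≠ 0 := by
    intro p hp
    rwa [Ne, FaithfulSMul.algebraMap_eq_zero_iff]
  have ha : a ≠ 0 := by
    rintro rfl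
    rw [map_zero] at hab
    rcases mul_eq_zero.mp hab with h | h
    · exact hr' (Subtype.ext h)
    · exact hne b hb h
  have ha' : a' ≠ 0 := by
    rintro rfl
    rw [map_zero] at hab'
    rcases mul_eq_zero.mp hab' with h | h
    · exact hc' (Subtype.ext h)
    · exact hne b' hb' h
  set A1 := r.totalDegree + b.totalDegree with hA1
  set A2 := c.totalDegree + b'.totalDegree with hA2
  refine ⟨finrank L F * (A1 + A2 + 1) ^ g, fun m W hW => ?_⟩
  set D := m * A1 + A2 with hD
  have hKV1 : ∀ V : ValuationSubring F, (∀ p : MvPolynomial (Fin g) K, algebraMap _ F p ∈ V) →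
      ∀ a : K, algebraMap K F a ∈ V := by
    intro V hV a
    have := hV (C a)
    have h3 : algebraMap (MvPolynomial (Fin g) K) F (C a) = algebraMap K F a := by
      change algebraMap L F (algebraMap (MvPolynomial (Fin g) K) L (algebraMap K _ a)) = _
      rw [← IsScalarTower.algebraMap_apply K (MvPolynomial (Fin g) K) L,
        ← IsScalarTower.algebraMap_apply K L F]
    rwa [h3] at this
  have hKV2 : ∀ V : ValuationSubring F, (∀ p : R, algebraMap _ F p ∈ V) →
      ∀ a : K, algebraMap K F a ∈ V := by
    intro V hV a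
    have hmem : algebraMap K L a ∈ R := by
      refine (mem_Rinf L).mpr ⟨C a, 1, one_ne_zero, ?_, by simp⟩
      rw [map_one, mul_one]
      exact IsScalarTower.algebraMap_apply K (MvPolynomial (Fin g) K) L a
    have := hV ⟨_, hmem⟩
    have h3 : algebraMap R F ⟨_, hmem⟩ = algebraMap K F a := by
      change algebraMap L F (algebraMap K L a) = _
      rw [← IsScalarTower.algebraMap_apply]
    rwa [h3] at this
  set U : Submodule K L := (restrictTotalDegree (Fin g) K D).map
    (IsScalarTower.toAlgHom K (MvPolynomial (Fin g) K) L).toLinearMap with hU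
  have hmemU : ∀ y ∈ W, ∀ l, algebraMap _ L (r ^ m * c) * Algebra.trace L F (y * e l) ∈ U := by
    intro y hy l
    obtain ⟨z, hz⟩ := h1 m y (fun V hV => hW y hy V (hKV1 V hV)) l
    obtain ⟨z', hz'⟩ := h2 m y (fun V hV => hW y hy V (hKV2 V hV)) l
    refine ⟨z, ?_, hz⟩
    rw [SetLike.mem_coe, mem_restrictTotalDegree]
    obtain ⟨A, B, hB, hAB, hd⟩ := (mem_Rinf L).mp z'.2
    have h3 : z * (a ^ m * a' * B) = r ^ m * c * (b ^ m * b') * A := by
      apply hinj
      have h4 : (z' : L) = (r' : L) ^ m * c' * Algebra.trace L F (y * e l) := hz'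
      simp only [map_mul, map_pow] at hz ⊢
      rw [hz, ← hAB, ← hab, ← hab', h4]
      ring
    rcases eq_or_ne z 0 with h0 | h0
    · rw [h0]; simp
    have h5 : (z * (a ^ m * a' * B)).totalDegree = z.totalDegree + (m * a.totalDegree +
        a'.totalDegree + B.totalDegree) := by
      rw [totalDegree_mul_of_isDomain h0 (mul_ne_zero (mul_ne_zero (pow_ne_zero _ ha) ha') hB),
        totalDegree_mul_of_isDomain (mul_ne_zero (pow_ne_zero _ ha) ha') hB,
        totalDegree_mul_of_isDomain (pow_ne_zero _ ha) ha']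
      congr 3
      clear * - ha
      induction m with
      | zero => simp
      | succ m ih => rw [pow_succ, totalDegree_mul_of_isDomain (pow_ne_zero _ ha) ha, ih]; ring
    have h6 : (r ^ m * c * (b ^ m * b') * A).totalDegree ≤ m * r.totalDegree + c.totalDegree +
        (m * b.totalDegree + b'.totalDegree) + A.totalDegree := by
      refine (totalDegree_mul _ _).trans (add_le_add ?_ le_rfl)
      refine (totalDegree_mul _ _).trans (add_le_add ?_ ?_)
      · exact (totalDegree_mul _ _).trans (add_le_add (totalDegree_pow _ _) le_rfl)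
      · exact (totalDegree_mul _ _).trans (add_le_add (totalDegree_pow _ _) le_rfl)
    rw [h3] at h5
    rw [h5] at h6
    have h7 : m * A1 = m * r.totalDegree + m * b.totalDegree := by rw [hA1]; ring
    rw [hD, h7, hA2]
    omega
  let Θ : W →ₗ[K] (Fin (finrank L F) → U) :=
    LinearMap.pi fun l => LinearMap.codRestrict U
      (((LinearMap.mulLeft K (algebraMap _ L (r ^ m * c))) ∘ₗ
        ((Algebra.trace L F).restrictScalars K) ∘ₗ (LinearMap.mulRight K (e l))) ∘ₗ W.subtype)
      (fun y => hmemU y y.2 l)
  have hΘ : Function.Injective Θ := by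
    rw [injective_iff_map_eq_zero]
    rintro ⟨y, hy⟩ h0
    have h3 : ∀ l, Algebra.trace L F (y * e l) = 0 := by
      intro l
      have h4 := congrArg Subtype.val (congrFun h0 l)
      change algebraMap _ L (r ^ m * c) * Algebra.trace L F (y * e l) = 0 at h4
      exact (mul_eq_zero.mp h4).resolve_left (hne _ (mul_ne_zero (pow_ne_zero _ hr) hc))
    have h5 : ∀ z, Algebra.trace L F (y * z) = 0 := by
      intro z
      have h6 : (Algebra.traceForm L F y) = 0 := by
        apply e.ext
        intro l
        rw [Algebra.traceForm_apply, h3]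
        rfl
      have := LinearMap.congr_fun h6 z
      rwa [Algebra.traceForm_apply] at this
    have h7 : y = 0 := by
      have hnd := traceForm_nondegenerate L F
      exact hnd.1 y fun z => by rw [Algebra.traceForm_apply]; exact h5 z
    exact Subtype.ext h7
  have hUfin : FiniteDimensional K U := inferInstance
  have hWfin : FiniteDimensional K W := Module.Finite.of_injective Θ hΘ
  refine ⟨hWfin, ?_⟩
  have h8 := LinearMap.finrank_le_finrank_of_injective hΘ
  rw [Module.finrank_pi_fintype, Finset.sum_const, Finset.card_univ, Fintype.card_fin,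
    smul_eq_mul] at h8
  have h9 : finrank K U ≤ (D + 1) ^ g :=
    (Submodule.finrank_map_le _ _).trans (finrank_restrictTotalDegree_le K g D)
  have h10 : D + 1 ≤ (A1 + A2 + 1) * (m + 1) := by
    rw [hD]
    nlinarith [Nat.zero_le (A2 * m), Nat.zero_le m, Nat.zero_le A1]
  calc finrank K W ≤ finrank L F * finrank K U := h8
    _ ≤ finrank L F * (D + 1) ^ g := by gcongr
    _ ≤ finrank L F * ((A1 + A2 + 1) * (m + 1)) ^ g := by gcongr
    _ = finrank L F * (A1 + A2 + 1) ^ g * (m + 1) ^ g := by rw [mul_pow, mul_assoc]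

end Upper

section Concrete

variable {K F : Type*} [Field K] [Field F] [Algebra K F] {g : ℕ} {x : Fin g → F}

/-- `K(x)` as an algebra over the polynomial ring -/
noncomputable def toL (hx : AlgebraicIndependent K x) :
    MvPolynomial (Fin g) K →ₐ[K] IntermediateField.adjoin K (Set.range x) :=
  (hx.aevalEquivField.toAlgHom).comp (IsScalarTower.toAlgHom K _ _)

theorem toL_coe (hx : AlgebraicIndependent K x) (p : MvPolynomial (Fin g) K) :
    ((toL hx p : IntermediateField.adjoin K (Set.range x)) : F) = aeval x p :=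
  hx.aevalEquivField_algebraMap_apply_coe p

/-- The upper bound. -/
theorem upper (hx : AlgebraicIndependent K x)
    [FiniteDimensional (IntermediateField.adjoin K (Set.range x)) F]
    [Algebra.IsSeparable (IntermediateField.adjoin K (Set.range x)) F] (T : Finset F) :
    ∃ C : ℕ, ∀ (m : ℕ) (W : Submodule K F), (∀ y ∈ W, ∀ V : ValuationSubring F,
      (∀ a : K, algebraMap K F a ∈ V) → ∃ τ ∈ T, τ ≠ 0 ∧ y * τ ^ m ∈ V) →
      FiniteDimensional K W ∧ finrank K W ≤ C * (m + 1) ^ g := by
  let i1 : Algebra (MvPolynomial (Fin g) K) (IntermediateField.adjoin K (Set.range x)) :=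
    (toL hx).toRingHom.toAlgebra
  have i2 : IsScalarTower K (MvPolynomial (Fin g) K) (IntermediateField.adjoin K (Set.range x)) :=
    IsScalarTower.of_algebraMap_eq fun a => ((toL hx).commutes a).symm
  have i3 : IsFractionRing (MvPolynomial (Fin g) K) (IntermediateField.adjoin K (Set.range x)) := by
    let e : FractionRing (MvPolynomial (Fin g) K) ≃ₐ[MvPolynomial (Fin g) K]
        (IntermediateField.adjoin K (Set.range x)) :=
      AlgEquiv.ofRingEquiv (f := hx.aevalEquivField.toRingEquiv) fun p => rfl
    exact IsLocalization.isLocalization_of_algEquiv _ e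
  exact upper_aux (IntermediateField.adjoin K (Set.range x)) T

end Concrete

end Fermat.Agent.AbVar.Growth
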