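import Fermat.Agent.AbVar.Sq.StarDef
import Fermat.Agent.AbVar.Isogeny
import Fermat.Agent.AbVar.Normal

/-!
# S26: products of integral schemes over an algebraically closed field
-/

set_option autoImplicit false
universe u
open CategoryTheory CategoryTheory.Limits AlgebraicGeometry TopologicalSpace IsLocalRing
open TensorProduct

namespace Fermat.Agent.AbVar

namespace Last

open Sq

attribute [local instance] isDomain_tensor

variable {K : Type u} [Field K] [IsAlgClosed K] {X Y : Scheme.{u}} (f : X ⟶ Spec (.of K))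
  (g : Y ⟶ Spec (.of K)) [IsIntegral X] [IsIntegral Y]

omit [IsAlgClosed K] in
theorem gpt_comp : gpt f ≫ f = Spec.map (CommRingCat.ofHom (algebraMap K (FF f))) :=
  fromSpecStalk_comp_str f _

omit [IsAlgClosed K] in
theorem gpt_clp : gpt f (clp (FF f)) = genericPoint X := Scheme.fromSpecStalk_closedPoint

/-- the product of the generic points -/
noncomputable def jj : Spec (.of (FF f ⊗[K] FF g)) ⟶ pullback f g :=
  pullback.lift
    (Spec.map (CommRingCat.ofHom (Algebra.TensorProduct.includeLeftRingHom
      (R := K) (A := FF f) (B := FF g))) ≫ gpt f)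
    (Spec.map (CommRingCat.ofHom (Algebra.TensorProduct.includeRight
      (R := K) (A := FF f) (B := FF g)).toRingHom) ≫ gpt g)
    (by
      rw [Category.assoc, Category.assoc, gpt_comp, gpt_comp, ← Spec.map_comp, ← Spec.map_comp,
        ← CommRingCat.ofHom_comp, ← CommRingCat.ofHom_comp]
      congr 2
      ext a
      exact (Algebra.TensorProduct.tmul_one_eq_one_tmul a))

omit [IsAlgClosed K] in
theorem generic_mem {Z : Scheme.{u}} [IsIntegral Z] {U : Set Z} (hU : IsOpen U)
    (hne : U.Nonempty) : genericPoint Z ∈ U :=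
  ((genericPoint_spec Z).mem_open_set_iff hU).mpr (by simpa using hne)

omit [IsAlgClosed K] in
theorem exists_jj_mem (W : (pullback f g).Opens) (w : ↥(pullback f g)) (hw : w ∈ W) :
    ∃ s, jj f g s ∈ W := by
  -- a point of `W` over the generic point of `Y`
  have h1 : IsOpen ((pullback.snd f g) '' (W : Set ↥(pullback f g))) :=
    (pullback.snd f g).isOpenMap _ W.isOpen
  obtain ⟨w₁, hw₁, hη₁⟩ := generic_mem h1 ⟨_, w, hw, rfl⟩
  obtain ⟨t₁, ht₁, -⟩ := Scheme.Pullback.exists_preimage_pullback (f := pullback.snd f g)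
    (g := gpt g) w₁ (clp (FF g)) (by rw [hη₁, gpt_clp])
  set a₁ := pullback.fst (pullback.snd f g) (gpt g) with ha₁
  set b₁ := pullback.snd (pullback.snd f g) (gpt g) with hb₁
  have hpb : IsPullback (a₁ ≫ pullback.fst f g) b₁ f (gpt g ≫ g) :=
    (IsPullback.of_hasPullback (pullback.snd f g) (gpt g)).paste_horiz
      (IsPullback.of_hasPullback f g)
  have : UniversallyOpen (a₁ ≫ pullback.fst f g) :=
    MorphismProperty.of_isPullback (P := @UniversallyOpen) hpb.flip inferInstance
  have h2 : IsOpen ((a₁ ≫ pullback.fst f g) '' ((a₁ ⁻¹ᵁ W : Scheme.Opens _) : Set _)) :=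
    (a₁ ≫ pullback.fst f g).isOpenMap _ (a₁ ⁻¹ᵁ W).isOpen
  obtain ⟨t₂, ht₂, hη₂⟩ := generic_mem h2 ⟨_, t₁, (by
    change a₁ t₁ ∈ W
    rw [ht₁]; exact hw₁), rfl⟩
  obtain ⟨t₃, ht₃, -⟩ := Scheme.Pullback.exists_preimage_pullback
    (f := a₁ ≫ pullback.fst f g) (g := gpt f) t₂ (clp (FF f)) (by rw [hη₂, gpt_clp])
  let r : pullback (a₁ ≫ pullback.fst f g) (gpt f) ⟶ Spec (.of (FF f ⊗[K] FF g)) :=
    pullback.lift (pullback.snd _ _) (pullback.fst _ _ ≫ b₁) (by
      rw [Category.assoc, ← gpt_comp, ← gpt_comp, ← hpb.w, ← pullback.condition_assoc]) ≫ (pullbackSpecIso K (FF f) (FF g)).hom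
  have hr : r ≫ jj f g = pullback.fst _ _ ≫ a₁ := by
    apply pullback.hom_ext
    · simp only [r, jj, Category.assoc, pullback.lift_fst]
      have e1 : (pullbackSpecIso K (FF f) (FF g)).hom ≫ Spec.map (CommRingCat.ofHom
          (Algebra.TensorProduct.includeLeftRingHom (R := K) (A := FF f) (B := FF g))) =
          pullback.fst _ _ := pullbackSpecIso_hom_fst K (FF f) (FF g)
      rw [reassoc_of% e1, pullback.lift_fst_assoc, ← pullback.condition]
    · simp only [r, jj, Category.assoc, pullback.lift_snd]
      have e1 : (pullbackSpecIso K (FF f) (FF g)).hom ≫ Spec.map (CommRingCat.ofHom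
          (Algebra.TensorProduct.includeRight (R := K) (A := FF f) (B := FF g)).toRingHom) =
          pullback.snd _ _ := pullbackSpecIso_hom_snd K (FF f) (FF g)
      rw [reassoc_of% e1, pullback.lift_snd_assoc, Category.assoc, ← pullback.condition]
  refine ⟨r t₃, ?_⟩
  have h3 : jj f g (r t₃) = a₁ t₂ := by
    have h4 : (r ≫ jj f g) t₃ = (pullback.fst _ _ ≫ a₁) t₃ := by rw [hr]
    calc jj f g (r t₃) = (r ≫ jj f g) t₃ := rfl
      _ = (pullback.fst _ _ ≫ a₁) t₃ := h4
      _ = a₁ t₂ := by rw [Scheme.Hom.comp_apply, ht₃]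
  rw [h3]
  exact ht₂

/-- the generic point of the product -/
noncomputable def gq : Spec (.of (FractionRing (FF f ⊗[K] FF g))) ⟶ pullback f g :=
  Spec.map (CommRingCat.ofHom (algebraMap (FF f ⊗[K] FF g) (FractionRing (FF f ⊗[K] FF g)))) ≫
    jj f g

theorem gq_mem (W : (pullback f g).Opens) (w : ↥(pullback f g)) (hw : w ∈ W) :
    gq f g (clp _) ∈ W := by
  obtain ⟨s, hs⟩ := exists_jj_mem f g W w hw
  set z := Spec.map (CommRingCat.ofHom (algebraMap (FF f ⊗[K] FF g)
    (FractionRing (FF f ⊗[K] FF g)))) (clp _) with hz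
  have h1 : @LE.le (PrimeSpectrum (FF f ⊗[K] FF g)) _ z s := by
    intro a ha
    have h2 : algebraMap (FF f ⊗[K] FF g) (FractionRing (FF f ⊗[K] FF g)) a = 0 := by
      have h3 : algebraMap (FF f ⊗[K] FF g) (FractionRing (FF f ⊗[K] FF g)) a ∈
        maximalIdeal (FractionRing (FF f ⊗[K] FF g)) := ha
      rwa [IsLocalRing.maximalIdeal_eq_bot, Ideal.mem_bot] at h3
    rw [(map_eq_zero_iff _ (IsFractionRing.injective _ _)).mp h2]
    exact Ideal.zero_mem _
  have h2 : (z : Spec (.of (FF f ⊗[K] FF g))) ⤳ s := (PrimeSpectrum.le_iff_specializes _ _).1 h1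
  exact (h2.map (jj f g).continuous).mem_open W.isOpen hs

theorem irreducible_prod : IrreducibleSpace ↥(pullback f g) := by
  have : PreirreducibleSpace ↥(pullback f g) := by
    refine ⟨?_⟩
    rintro u v hu hv ⟨x, -, hx⟩ ⟨y, -, hy⟩
    exact ⟨gq f g (clp _), trivial, gq_mem f g ⟨u, hu⟩ x hx, gq_mem f g ⟨v, hv⟩ y hy⟩
  exact ⟨⟨gq f g (clp _)⟩⟩

theorem integral_prod [IsReduced (pullback f g)] : IsIntegral (pullback f g) := by
  have := irreducible_prod f g
  exact isIntegral_of_irreducibleSpace_of_isReduced _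

omit [IsAlgClosed K] in
theorem reduced_of_smooth {Z : Scheme.{u}} (h : Z ⟶ Spec (.of K)) [Smooth h] : IsReduced Z := by
  have : ∀ x : Z, _root_.IsReduced (Z.presheaf.stalk x) := fun x => by
    have := (stalk_normal h x).1
    infer_instance
  exact isReduced_of_isReduced_stalk Z

theorem generic_prod [IsIntegral (pullback f g)] :
    gq f g (clp _) = genericPoint ↥(pullback f g) := by
  have h1 : IsGenericPoint (gq f g (clp _)) (Set.univ : Set ↥(pullback f g)) := by
    rw [IsGenericPoint, Set.eq_univ_iff_forall]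
    intro y
    rw [mem_closure_iff]
    intro o ho hy
    exact ⟨_, gq_mem f g ⟨o, ho⟩ y hy, rfl⟩
  exact h1.eq (genericPoint_spec _)

omit [IsAlgClosed K] in
theorem gq_fst : gq f g ≫ pullback.fst f g =
    Spec.map (CommRingCat.ofHom ((algebraMap (FF f ⊗[K] FF g) (FractionRing (FF f ⊗[K] FF g))).comp
      (Algebra.TensorProduct.includeLeftRingHom (R := K) (A := FF f) (B := FF g)))) ≫ gpt f := by
  rw [gq, Category.assoc, jj, pullback.lift_fst, ← Category.assoc, ← Spec.map_comp,
    ← CommRingCat.ofHom_comp]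

omit [IsAlgClosed K] in
theorem gq_snd : gq f g ≫ pullback.snd f g =
    Spec.map (CommRingCat.ofHom ((algebraMap (FF f ⊗[K] FF g) (FractionRing (FF f ⊗[K] FF g))).comp
      (Algebra.TensorProduct.includeRight (R := K) (A := FF f) (B := FF g)).toRingHom)) ≫
        gpt g := by
  rw [gq, Category.assoc, jj, pullback.lift_snd, ← Category.assoc, ← Spec.map_comp,
    ← CommRingCat.ofHom_comp]

theorem fst_generic [IsIntegral (pullback f g)] :
    (pullback.fst f g) (genericPoint ↥(pullback f g)) = genericPoint X := by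
  rw [← generic_prod]
  have h1 : (pullback.fst f g) (gq f g (clp _)) = (gq f g ≫ pullback.fst f g) (clp _) := rfl
  rw [h1, gq_fst, ← gpt_clp f]
  change gpt f _ = gpt f _
  congr 1
  exact Subsingleton.elim (α := PrimeSpectrum (FF f)) _ _

theorem snd_generic [IsIntegral (pullback f g)] :
    (pullback.snd f g) (genericPoint ↥(pullback f g)) = genericPoint Y := by
  rw [← generic_prod]
  have h1 : (pullback.snd f g) (gq f g (clp _)) = (gq f g ≫ pullback.snd f g) (clp _) := rfl
  rw [h1, gq_snd, ← gpt_clp g]
  change gpt g _ = gpt g _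
  congr 1
  exact Subsingleton.elim (α := PrimeSpectrum (FF g)) _ _

omit [IsAlgClosed K] in
/-- pullback of rational functions as an algebra homomorphism -/
theorem ffMap_kFun (φ : X ⟶ Y) (hφ : φ ≫ g = f)
    (h : φ (genericPoint X) = genericPoint Y) (c : K) : ffMap φ h (kFun g c) = kFun f c := by
  have h3 := ffMap_fromSpecStalk φ h
  have h4 : Spec.map (CommRingCat.ofHom ((ffMap φ h).comp (kFun g))) =
      Spec.map (CommRingCat.ofHom (kFun f)) := by
    rw [CommRingCat.ofHom_comp, Spec.map_comp]
    have h5 : Spec.map (CommRingCat.ofHom (kFun f)) = X.fromSpecStalk (genericPoint X) ≫ f :=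
      (fromSpecStalk_comp_str f _).symm
    have h6 : Spec.map (CommRingCat.ofHom (kFun g)) = Y.fromSpecStalk (genericPoint Y) ≫ g :=
      (fromSpecStalk_comp_str g _).symm
    rw [h5, h6, ← Category.assoc, h3, Category.assoc, hφ]
  exact congrArg (fun g => g.hom c) (Spec.map_injective h4)

variable {f g} in
omit [IsAlgClosed K] in
/-- pullback of rational functions as an algebra homomorphism -/
noncomputable def ffAlg (φ : X ⟶ Y) (hφ : φ ≫ g = f) (h : φ (genericPoint X) = genericPoint Y) :
    FF g →ₐ[K] FF f :=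
  { ffMap φ h with commutes' := fun c => ffMap_kFun f g φ hφ h c }

omit [IsAlgClosed K] in
theorem ffAlg_gpt (φ : X ⟶ Y) (hφ : φ ≫ g = f) (h : φ (genericPoint X) = genericPoint Y) :
    Spec.map (CommRingCat.ofHom (ffAlg φ hφ h).toRingHom) ≫ gpt g = gpt f ≫ φ :=
  ffMap_fromSpecStalk φ h

/-- the tensor product of the function fields embeds into the function field of the product -/
theorem exists_tau [IsIntegral (pullback f g)] :
    ∃ τ : FF f ⊗[K] FF g →ₐ[K] FF (pullback.fst f g ≫ f), Function.Injective τ ∧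
      Spec.map (CommRingCat.ofHom (τ.comp (Algebra.TensorProduct.includeLeft
        (R := K) (A := FF f) (B := FF g))).toRingHom) ≫ gpt f =
          gpt (pullback.fst f g ≫ f) ≫ pullback.fst f g ∧
      Spec.map (CommRingCat.ofHom (τ.comp (Algebra.TensorProduct.includeRight
        (R := K) (A := FF f) (B := FF g))).toRingHom) ≫ gpt g =
          gpt (pullback.fst f g ≫ f) ≫ pullback.snd f g := by
  let α := ffAlg (f := pullback.fst f g ≫ f) (g := f) (pullback.fst f g) rfl (fst_generic f g)
  let β := ffAlg (f := pullback.fst f g ≫ f) (g := g) (pullback.snd f g)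
    pullback.condition.symm (snd_generic f g)
  let τ : FF f ⊗[K] FF g →ₐ[K] FF (pullback.fst f g ≫ f) :=
    Algebra.TensorProduct.lift α β (fun _ _ => Commute.all _ _)
  have h1 : τ.comp Algebra.TensorProduct.includeLeft = α := by
    refine AlgHom.ext fun a => ?_
    simp [τ]
  have h2 : τ.comp Algebra.TensorProduct.includeRight = β := by
    refine AlgHom.ext fun a => ?_
    simp [τ]
  refine ⟨τ, ?_, ?_, ?_⟩
  · -- injectivity
    obtain ⟨ρ, hρ⟩ := exists_fromSpecStalk _ (gq f g) _ (generic_prod f g)
    have key : ρ.comp τ.toRingHom =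
        algebraMap (FF f ⊗[K] FF g) (FractionRing (FF f ⊗[K] FF g)) := by
      have hf : Mono (gpt f) := inferInstanceAs (Mono (X.fromSpecStalk _))
      have hg : Mono (gpt g) := inferInstanceAs (Mono (Y.fromSpecStalk _))
      apply Algebra.TensorProduct.ringHom_ext
      · have e1 : Spec.map (CommRingCat.ofHom ((ρ.comp τ.toRingHom).comp
            (Algebra.TensorProduct.includeLeftRingHom (R := K) (A := FF f) (B := FF g)))) ≫ gpt f =
            Spec.map (CommRingCat.ofHom ((algebraMap (FF f ⊗[K] FF g)
              (FractionRing (FF f ⊗[K] FF g))).comp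
              (Algebra.TensorProduct.includeLeftRingHom (R := K) (A := FF f) (B := FF g)))) ≫
              gpt f := by
          rw [← gq_fst, ← hρ]
          have e2 : (ρ.comp τ.toRingHom).comp
            (Algebra.TensorProduct.includeLeftRingHom (R := K) (A := FF f) (B := FF g)) =
              ρ.comp α.toRingHom := by
            ext a
            exact congrArg ρ (AlgHom.congr_fun h1 a)
          rw [e2, CommRingCat.ofHom_comp, Spec.map_comp, Category.assoc, Category.assoc]
          congr 1
          exact ffAlg_gpt _ _ _ _ _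
        rw [cancel_mono] at e1
        exact congrArg CommRingCat.Hom.hom (Spec.map_injective e1)
      · have e1 : Spec.map (CommRingCat.ofHom ((ρ.comp τ.toRingHom).comp
            (Algebra.TensorProduct.includeRight (R := K) (A := FF f) (B := FF g)).toRingHom)) ≫
              gpt g =
            Spec.map (CommRingCat.ofHom ((algebraMap (FF f ⊗[K] FF g)
              (FractionRing (FF f ⊗[K] FF g))).comp
              (Algebra.TensorProduct.includeRight (R := K) (A := FF f) (B := FF g)).toRingHom)) ≫
              gpt g := by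
          rw [← gq_snd, ← hρ]
          have e2 : (ρ.comp τ.toRingHom).comp
            (Algebra.TensorProduct.includeRight (R := K) (A := FF f) (B := FF g)).toRingHom =
              ρ.comp β.toRingHom := by
            ext a
            exact congrArg ρ (AlgHom.congr_fun h2 a)
          rw [e2, CommRingCat.ofHom_comp, Spec.map_comp, Category.assoc, Category.assoc]
          congr 1
          exact ffAlg_gpt _ _ _ _ _
        rw [cancel_mono] at e1
        exact congrArg CommRingCat.Hom.hom (Spec.map_injective e1)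
    have h3 : Function.Injective (ρ.comp τ.toRingHom) := by
      rw [key]; exact IsFractionRing.injective _ _
    exact Function.Injective.of_comp h3
  · rw [h1]
    exact ffAlg_gpt _ _ _ _ _
  · rw [h2]
    exact ffAlg_gpt _ _ _ _ _

end Last

end Fermat.Agent.AbVar
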