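import Fermat.Agent.AbVar.Chart
import Fermat.Agent.S26.SmoothUFD

/-!
# S26: polar divisors exist on smooth varieties (local factoriality)
-/

set_option autoImplicit false
universe u
open CategoryTheory CategoryTheory.Limits AlgebraicGeometry NeronModelInfra GoodReductionJacobian

namespace Fermat.Agent.AbVar

namespace Polar

variable {X : Scheme.{u}} [IsIntegral X]

/-- `a` is a denominator of `f` at `x`. -/
def Den (x : X) (f a : X.functionField) : Prop := a ∈ stalkIn x ∧ f * a ∈ stalkIn x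

/-- `t` generates the ideal of denominators of `f` at `x`. -/
def IsDenGen (x : X) (f t : X.functionField) : Prop :=
  t ≠ 0 ∧ Den x f t ∧ ∀ a, Den x f a → a / t ∈ stalkIn x

theorem germ_mem_stalkIn {U : X.Opens} [Nonempty U] (σ : Γ(X, U)) {y : X} (hy : y ∈ U) :
    X.germToFunctionField U σ ∈ stalkIn y :=
  ⟨X.presheaf.germ U y hy σ, Scheme.algebraMap_germ_eq_germToFunctionField X hy σ⟩

theorem exists_section {x : X} {a : X.functionField} (ha : a ∈ stalkIn x) :
    ∃ (U : X.Opens) (_ : x ∈ U), ∃ (_ : Nonempty U) (σ : Γ(X, U)), X.germToFunctionField U σ = a := by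
  obtain ⟨α, rfl⟩ := ha
  obtain ⟨U, hU, σ, rfl⟩ := X.presheaf.exists_germ_eq α
  have : Nonempty U := ⟨⟨x, hU⟩⟩
  exact ⟨U, hU, this, σ, (Scheme.algebraMap_germ_eq_germToFunctionField X hU σ).symm⟩

theorem exists_open_mem {x : X} {a : X.functionField} (ha : a ∈ stalkIn x) :
    ∃ U : X.Opens, x ∈ U ∧ ∀ y ∈ U, a ∈ stalkIn y := by
  obtain ⟨U, hx, _, σ, rfl⟩ := exists_section ha
  exact ⟨U, hx, fun y hy => germ_mem_stalkIn σ hy⟩

theorem stalkIn_le_of_specializes {x y : X} (h : y ⤳ x) : stalkIn x ≤ stalkIn y := by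
  intro a ha
  obtain ⟨U, hU, hy⟩ := exists_open_mem ha
  exact hy y (h.mem_open U.isOpen hU)

theorem exists_num_den {V : X.Opens} (hV : IsAffineOpen V) [Nonempty V] {x : X} (hx : x ∈ V)
    {a : X.functionField} (ha : a ∈ stalkIn x) :
    ∃ b s : Γ(X, V), IsUnit (X.presheaf.germ V x hx s) ∧
      X.germToFunctionField V s * a = X.germToFunctionField V b := by
  obtain ⟨α, rfl⟩ := ha
  have := hV.isLocalization_stalk ⟨x, hx⟩
  let := (X.presheaf.algebra_section_stalk ⟨x, hx⟩)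
  obtain ⟨⟨b, s⟩, h⟩ := IsLocalization.surj (hV.primeIdealOf ⟨x, hx⟩).asIdeal.primeCompl α
  refine ⟨b, s, IsLocalization.map_units (X.presheaf.stalk x) s, ?_⟩
  rw [← Scheme.algebraMap_germ_eq_germToFunctionField X hx,
    ← Scheme.algebraMap_germ_eq_germToFunctionField X hx, ← map_mul]
  congr 1
  rw [mul_comm]
  exact h

theorem inv_mem_stalkIn {V : X.Opens} [Nonempty V] {x : X} (hx : x ∈ V) {s : Γ(X, V)}
    (hs : IsUnit (X.presheaf.germ V x hx s)) : (X.germToFunctionField V s)⁻¹ ∈ stalkIn x := by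
  obtain ⟨u, hu⟩ := hs
  refine ⟨↑u⁻¹, ?_⟩
  have h1 : algebraMap (X.presheaf.stalk x) X.functionField u = X.germToFunctionField V s := by
    rw [hu]; exact Scheme.algebraMap_germ_eq_germToFunctionField X hx s
  rw [← h1]
  have : algebraMap (X.presheaf.stalk x) X.functionField u *
      algebraMap (X.presheaf.stalk x) X.functionField ↑u⁻¹ = 1 := by
    rw [← map_mul, Units.mul_inv, map_one]
  exact eq_inv_of_mul_eq_one_right this

theorem ne_zero_of_isUnit_germ {V : X.Opens} [Nonempty V] {x : X} (hx : x ∈ V) {s : Γ(X, V)}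
    (hs : IsUnit (X.presheaf.germ V x hx s)) : X.germToFunctionField V s ≠ 0 := by
  rw [← Scheme.algebraMap_germ_eq_germToFunctionField X hx s]
  exact (hs.map _).ne_zero

/-- the ideal of denominators on an open subset -/
def denIdeal (V : X.Opens) [Nonempty V] (f : X.functionField) : Ideal Γ(X, V) where
  carrier := {b | ∃ c, f * X.germToFunctionField V b = X.germToFunctionField V c}
  zero_mem' := ⟨0, by simp⟩
  add_mem' := by
    rintro a b ⟨c, hc⟩ ⟨d, hd⟩
    exact ⟨c + d, by rw [map_add, mul_add, hc, hd, map_add]⟩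
  smul_mem' := by
    rintro a b ⟨c, hc⟩
    exact ⟨a * c, by rw [smul_eq_mul, map_mul, map_mul, ← hc]; ring⟩

theorem den_of_mem_denIdeal {V : X.Opens} [Nonempty V] {f : X.functionField} {b : Γ(X, V)}
    (hb : b ∈ denIdeal V f) {x : X} (hx : x ∈ V) : Den x f (X.germToFunctionField V b) := by
  obtain ⟨c, hc⟩ := hb
  exact ⟨germ_mem_stalkIn b hx, hc ▸ germ_mem_stalkIn c hx⟩

theorem exists_mem_denIdeal {V : X.Opens} (hV : IsAffineOpen V) [Nonempty V] {x : X} (hx : x ∈ V)
    {f a : X.functionField} (ha : Den x f a) :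
    ∃ b s : Γ(X, V), b ∈ denIdeal V f ∧ IsUnit (X.presheaf.germ V x hx s) ∧
      X.germToFunctionField V s * a = X.germToFunctionField V b := by
  obtain ⟨b₁, s₁, h₁, e₁⟩ := exists_num_den hV hx ha.1
  obtain ⟨b₂, s₂, h₂, e₂⟩ := exists_num_den hV hx ha.2
  refine ⟨s₂ * b₁, s₂ * s₁, ⟨s₁ * b₂, ?_⟩, ?_, ?_⟩
  · rw [map_mul, map_mul, ← e₁, ← e₂]; ring
  · rw [map_mul]; exact h₂.mul h₁
  · rw [map_mul, map_mul, ← e₁]; ring

theorem isDenGen_of_specializes {V : X.Opens} (hV : IsAffineOpen V) {x y : X} (hx : x ∈ V)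
    (h : y ⤳ x) {f t : X.functionField} (ht : IsDenGen x f t) : IsDenGen y f t := by
  have : Nonempty V := ⟨⟨x, hx⟩⟩
  have hy : y ∈ V := h.mem_open V.isOpen hx
  have hle := stalkIn_le_of_specializes h
  refine ⟨ht.1, ⟨hle ht.2.1.1, hle ht.2.1.2⟩, fun a ha => ?_⟩
  obtain ⟨b, s, hb, hs, e⟩ := exists_mem_denIdeal hV hy ha
  have h1 := hle (ht.2.2 _ (den_of_mem_denIdeal hb hx))
  have h2 := mul_mem (inv_mem_stalkIn hy hs) h1
  have h0 := ne_zero_of_isUnit_germ hy hs
  convert h2 using 1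
  rw [← e]
  field_simp

theorem exists_open_isDenGen {V : X.Opens} (hV : IsAffineOpen V) [IsNoetherianRing Γ(X, V)] {x : X}
    (hx : x ∈ V) {f t : X.functionField} (ht : IsDenGen x f t) :
    ∃ U : X.Opens, x ∈ U ∧ ∀ y ∈ U, IsDenGen y f t := by
  classical
  have : Nonempty V := ⟨⟨x, hx⟩⟩
  obtain ⟨S, hS⟩ := (isNoetherianRing_iff_ideal_fg _).mp ‹IsNoetherianRing Γ(X, V)› (denIdeal V f)
  obtain ⟨U₁, hU₁, H₁⟩ := exists_open_mem ht.2.1.1
  obtain ⟨U₂, hU₂, H₂⟩ := exists_open_mem ht.2.1.2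
  have h3 : ∀ b ∈ S, ∃ U : X.Opens, x ∈ U ∧ ∀ y ∈ U, X.germToFunctionField V b / t ∈ stalkIn y :=
    fun b hb => exists_open_mem (ht.2.2 _ (den_of_mem_denIdeal (hS ▸ Ideal.subset_span hb) hx))
  choose! W hW1 hW2 using h3
  refine ⟨V ⊓ (U₁ ⊓ U₂) ⊓ S.inf W, ⟨⟨hx, hU₁, hU₂⟩, ?_⟩, ?_⟩
  · have : ∀ S' ⊆ S, x ∈ S'.inf W := by
      intro S'
      induction S' using Finset.induction_on with
      | empty => intro _; simp
      | insert a S' ha ih =>
        intro h
        rw [Finset.inf_insert]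
        exact ⟨hW1 a (h (Finset.mem_insert_self _ _)),
          ih ((Finset.subset_insert _ _).trans h)⟩
    exact this S subset_rfl
  · rintro y ⟨⟨hyV, hy1, hy2⟩, hy3⟩
    refine ⟨ht.1, ⟨H₁ y hy1, H₂ y hy2⟩, fun a ha => ?_⟩
    obtain ⟨b, s, hb, hs, e⟩ := exists_mem_denIdeal hV hyV ha
    have key : ∀ b ∈ denIdeal V f, X.germToFunctionField V b / t ∈ stalkIn y := by
      intro b hb
      rw [← hS] at hb
      induction hb using Submodule.span_induction with
      | mem b hb => exact hW2 b hb y (Finset.inf_le (f := W) hb hy3)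
      | zero => simp [zero_mem]
      | add a b _ _ h1 h2 => rw [map_add, add_div]; exact add_mem h1 h2
      | smul c b _ h =>
        rw [smul_eq_mul, map_mul, mul_div_assoc]
        exact mul_mem (germ_mem_stalkIn c hyV) h
    have h2 := mul_mem (inv_mem_stalkIn hyV hs) (key b hb)
    have h0 := ne_zero_of_isUnit_germ hyV hs
    convert h2 using 1
    rw [← e]
    field_simp

theorem exists_den_of_ufd (O F : Type*) [CommRing O] [IsDomain O] [UniqueFactorizationMonoid O]
    [Field F] [Algebra O F] [IsFractionRing O F] (f : F) :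
    ∃ d : O, algebraMap O F d ≠ 0 ∧ (∃ β, algebraMap O F β = f * algebraMap O F d) ∧
      ∀ α β, algebraMap O F β = f * algebraMap O F α → d ∣ α := by
  have h0 := IsFractionRing.to_map_ne_zero_of_mem_nonZeroDivisors (K := F)
    (IsFractionRing.den O f).2
  have h1 := IsFractionRing.mk'_num_den' O f
  have h2 : algebraMap O F (IsFractionRing.num O f) = f * algebraMap O F (IsFractionRing.den O f) := by
    rw [eq_comm, ← eq_div_iff h0, h1]
  refine ⟨IsFractionRing.den O f, h0, ⟨IsFractionRing.num O f, h2⟩, fun α β hβ => ?_⟩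
  have h3 : (IsFractionRing.den O f : O) ∣ IsFractionRing.num O f * α := by
    refine ⟨β, ?_⟩
    apply IsFractionRing.injective O F
    rw [map_mul, map_mul, hβ, h2]
    ring
  exact IsRelPrime.dvd_of_dvd_mul_left (IsFractionRing.num_den_reduced O f).symm h3

theorem exists_isDenGen_of_ufd {x : X} [UniqueFactorizationMonoid (X.presheaf.stalk x)]
    (f : X.functionField) : ∃ t, IsDenGen x f t := by
  obtain ⟨d, h0, ⟨β, hβ⟩, H⟩ := exists_den_of_ufd (X.presheaf.stalk x) X.functionField f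
  refine ⟨_, h0, ⟨⟨d, rfl⟩, ⟨β, hβ⟩⟩, ?_⟩
  rintro a ⟨⟨α, rfl⟩, ⟨β', hβ'⟩⟩
  obtain ⟨γ, rfl⟩ := H α β' hβ'
  refine ⟨γ, ?_⟩
  rw [map_mul]
  field_simp

omit [IsIntegral X] in
theorem exists_closed_specialization {V : X.Opens} (hV : IsAffineOpen V) {x : X} (hx : x ∈ V) :
    ∃ (x₀ : X) (h₀ : x₀ ∈ V), x ⤳ x₀ ∧ (hV.primeIdealOf ⟨x₀, h₀⟩).asIdeal.IsMaximal := by
  obtain ⟨m, hm, hle⟩ := Ideal.exists_le_maximal (hV.primeIdealOf ⟨x, hx⟩).asIdeal
    (hV.primeIdealOf ⟨x, hx⟩).2.ne_top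
  let q : PrimeSpectrum Γ(X, V) := ⟨m, hm.isPrime⟩
  have h₀ : hV.fromSpec q ∈ V := by
    have : hV.fromSpec q ∈ hV.fromSpec.opensRange := ⟨q, rfl⟩
    rwa [hV.opensRange_fromSpec] at this
  refine ⟨hV.fromSpec q, h₀, ?_, ?_⟩
  · have h1 : (hV.primeIdealOf ⟨x, hx⟩) ⤳ q := (PrimeSpectrum.le_iff_specializes _ _).mp hle
    have h2 := h1.map hV.fromSpec.continuous
    rwa [hV.fromSpec_primeIdealOf] at h2
  · have : hV.primeIdealOf ⟨hV.fromSpec q, h₀⟩ = q := by
      apply hV.fromSpec.isOpenEmbedding.injective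
      exact hV.fromSpec_primeIdealOf _
    rw [this]
    exact hm

theorem surjective_algebraMap_quotient {K B : Type*} [Field K] [IsAlgClosed K] [CommRing B]
    [Algebra K B] [Algebra.FiniteType K B] (m : Ideal B) [m.IsMaximal] :
    Function.Surjective (algebraMap K (B ⧸ m)) := by
  let := Ideal.Quotient.field m
  have : Algebra.FiniteType K (B ⧸ m) := .of_surjective (Ideal.Quotient.mkₐ K m)
    (Ideal.Quotient.mkₐ_surjective K m)
  have : Module.Finite K (B ⧸ m) := finite_of_finite_type_of_isJacobsonRing K (B ⧸ m)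
  exact IsAlgClosed.algebraMap_bijective_of_isIntegral.2

omit [IsIntegral X] in
theorem ufd_stalk {K : Type u} [Field K] [IsAlgClosed K] {V : X.Opens} (hV : IsAffineOpen V)
    {n : ℕ} (g : MvPolynomial (Fin n) K →+* Γ(X, V)) (hg : g.Etale) {x : X} (hx : x ∈ V)
    [hm : (hV.primeIdealOf ⟨x, hx⟩).asIdeal.IsMaximal] :
    UniqueFactorizationMonoid (X.presheaf.stalk x) := by
  let : Algebra K Γ(X, V) := (g.comp MvPolynomial.C).toAlgebra
  let g' : MvPolynomial (Fin n) K →ₐ[K] Γ(X, V) := { g with commutes' := fun _ => rfl }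
  have hfin : Algebra.FiniteType K Γ(X, V) := by
    have h1 : g.FiniteType := RingHom.FiniteType.of_finitePresentation (Algebra.Etale.finitePresentation (self := hg))
    exact h1.comp (RingHom.finiteType_algebraMap.mpr inferInstance)
  have hu := (S26ufd.ufd_localization_of_etale g' hg (hV.primeIdealOf ⟨x, hx⟩).asIdeal
    (surjective_algebraMap_quotient _))
  have := hu.1
  have hu2 := hu.2
  have := hV.isLocalization_stalk ⟨x, hx⟩
  let := (X.presheaf.algebra_section_stalk ⟨x, hx⟩)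
  exact MulEquiv.uniqueFactorizationMonoid (IsLocalization.algEquiv
    (hV.primeIdealOf ⟨x, hx⟩).asIdeal.primeCompl (Localization.AtPrime
      (hV.primeIdealOf ⟨x, hx⟩).asIdeal) (X.presheaf.stalk x)).toMulEquiv hu2

omit [IsIntegral X] in
theorem isNoetherianRing_of_chart {K : Type u} [Field K] {V : X.Opens}
    {n : ℕ} (g : MvPolynomial (Fin n) K →+* Γ(X, V)) (hg : g.Etale) : IsNoetherianRing Γ(X, V) := by
  let := g.toAlgebra
  have : Algebra.FiniteType (MvPolynomial (Fin n) K) Γ(X, V) := RingHom.FiniteType.of_finitePresentation (Algebra.Etale.finitePresentation (self := hg))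
  exact Algebra.FiniteType.isNoetherianRing (MvPolynomial (Fin n) K) Γ(X, V)

end Polar

open Polar in
/-- A3: polar divisors. -/
theorem exists_polar {X : Scheme.{u}} {K : Type u} [Field K] [IsAlgClosed K] [IsIntegral X]
    (s : X ⟶ Spec (.of K)) [Smooth s] (f : X.functionField) :
    ∃ D : CDiv X, (∀ x, D.t x ∈ stalkIn x) ∧ ∀ x, f * D.t x ∈ stalkIn x := by
  have h1 : ∀ x : X, ∃ t, IsDenGen x f t := by
    intro x
    obtain ⟨V, hV, hx, n, g, -, hg⟩ := exists_chart s x
    obtain ⟨x₀, h₀, hsp, hmax⟩ := exists_closed_specialization hV hx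
    have := ufd_stalk hV g hg h₀
    obtain ⟨t, ht⟩ := exists_isDenGen_of_ufd (x := x₀) f
    exact ⟨t, isDenGen_of_specializes hV h₀ hsp ht⟩
  choose t ht using h1
  refine ⟨⟨t, fun x => (ht x).1, fun x => ?_⟩, fun x => (ht x).2.1.1, fun x => (ht x).2.1.2⟩
  obtain ⟨V, hV, hx, n, g, -, hg⟩ := exists_chart s x
  have := isNoetherianRing_of_chart g hg
  obtain ⟨U, hU, H⟩ := exists_open_isDenGen hV hx (ht x)
  exact ⟨U, hU, fun y hy => ⟨(ht y).2.2 _ (H y hy).2.1, (H y hy).2.2 _ (ht y).2.1⟩⟩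

end Fermat.Agent.AbVar
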