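import Fermat.Agent.AbVar.Base

/-!
# S26: points with values in algebras, and infinitesimal points near the identity

The group law on the kernel of `A(R) → A(R/I)`, `I² = 0`, is addition of derivations.
-/

set_option autoImplicit false
universe u
open CategoryTheory CategoryTheory.Limits AlgebraicGeometry NeronModelInfra GoodReductionJacobian

namespace Fermat.Agent.AbVar

/-- the structure morphism of the spectrum of a `K`-algebra -/
noncomputable abbrev aStr (K : Type u) [CommRing K] (R : Type u) [CommRing R] [Algebra K R] :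
    Spec (CommRingCat.of R) ⟶ Spec (CommRingCat.of K) :=
  Spec.map (CommRingCat.ofHom (algebraMap K R))

section APt

variable {K : Type u} [CommRing K] {A : Scheme.{u}} (f : A ⟶ Spec (CommRingCat.of K))

/-- `R`-valued points of `A`. -/
abbrev APt (R : Type u) [CommRing R] [Algebra K R] := SchemeHomOver (aStr K R) f

variable {f} {R S T : Type u} [CommRing R] [Algebra K R] [CommRing S] [Algebra K S]
  [CommRing T] [Algebra K T]

theorem specMap_algHom_comp (φ : R →ₐ[K] S) :
    Spec.map (CommRingCat.ofHom (φ : R →+* S)) ≫ aStr K R = aStr K S := by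
  rw [← Spec.map_comp, ← CommRingCat.ofHom_comp, AlgHom.comp_algebraMap]

/-- functoriality of points -/
noncomputable def ptMap (φ : R →ₐ[K] S) (x : APt f R) : APt f S :=
  schemeHomOverComp (Spec.map (CommRingCat.ofHom (φ : R →+* S))) (specMap_algHom_comp φ) x

@[simp] theorem ptMap_coe (φ : R →ₐ[K] S) (x : APt f R) :
    (ptMap φ x).1 = Spec.map (CommRingCat.ofHom (φ : R →+* S)) ≫ x.1 := rfl

theorem ptMap_ptMap (φ : R →ₐ[K] S) (ψ : S →ₐ[K] T) (x : APt f R) :
    ptMap ψ (ptMap φ x) = ptMap (ψ.comp φ) x := by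
  apply Subtype.ext
  simp only [ptMap_coe]
  rw [← Category.assoc, ← Spec.map_comp, ← CommRingCat.ofHom_comp]
  rfl

theorem ptMap_id (x : APt f R) : ptMap (AlgHom.id K R) x = x := by
  apply Subtype.ext
  simp only [ptMap_coe]
  have : CommRingCat.ofHom ((AlgHom.id K R : R →ₐ[K] R) : R →+* R) = 𝟙 _ := rfl
  rw [this, Spec.map_id, Category.id_comp]

theorem ptMap_mul (L : RelativeGroupLaw K f) (φ : R →ₐ[K] S) (x y : APt f R) :
    ptMap φ (L.mul _ x y) = L.mul _ (ptMap φ x) (ptMap φ y) := L.mul_natural _ _ _ _ _ _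

theorem ptMap_one (L : RelativeGroupLaw K f) (φ : R →ₐ[K] S) :
    ptMap φ (L.one _) = L.one _ := L.one_natural _ _ _ _

theorem ptMap_nsmul (L : RelativeGroupLaw K f) (φ : R →ₐ[K] S) (n : ℕ) (x : APt f R) :
    ptMap φ (L.nsmul _ n x) = L.nsmul _ n (ptMap φ x) := L.nsmul_natural _ _ _ _ _ _

end APt

namespace Tangent

variable {K : Type u} [Field K] {A : Scheme.{u}} {f : A ⟶ Spec (CommRingCat.of K)}
  (L : RelativeGroupLaw K f) {U : A.Opens} (hU : IsAffineOpen U)

theorem exists_hom {R : CommRingCat.{u}} (x : Spec R ⟶ A) (h : ∀ p, x p ∈ U) :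
    ∃ ψ : Γ(A, U) ⟶ R, x = Spec.map ψ ≫ hU.fromSpec := by
  have h' : Set.range x ⊆ Set.range hU.fromSpec := by
    rw [hU.range_fromSpec]
    rintro _ ⟨p, rfl⟩
    exact h p
  obtain ⟨ψ, hψ⟩ := Spec.map_surjective (IsOpenImmersion.lift hU.fromSpec x h')
  exact ⟨ψ, by rw [hψ, IsOpenImmersion.lift_fac]⟩

theorem hom_unique {R : CommRingCat.{u}} {ψ ψ' : Γ(A, U) ⟶ R}
    (h : Spec.map ψ ≫ hU.fromSpec = Spec.map ψ' ≫ hU.fromSpec) : ψ = ψ' := by
  rw [cancel_mono] at h
  exact Spec.map_injective h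

theorem specMap_surjective {R S : CommRingCat.{u}} (φ : R ⟶ S)
    (hφ : Function.Surjective φ) (h2 : RingHom.ker φ.hom ^ 2 = ⊥) :
    Function.Surjective (Spec.map φ) := by
  rw [← Set.range_eq_univ]
  change Set.range (PrimeSpectrum.comap φ.hom) = Set.univ
  rw [range_comap_of_surjective _ _ hφ]
  rw [Set.eq_univ_iff_forall]
  intro p a ha
  have : a ^ 2 ∈ RingHom.ker φ.hom ^ 2 := Ideal.pow_mem_pow ha 2
  rw [h2] at this
  have h0 : a ^ 2 = 0 := this
  exact p.2.mem_of_pow_mem 2 (h0 ▸ p.asIdeal.zero_mem)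

section Split

variable {M N : Type u} [AddCommGroup M] [Module K M] [Module Kᵐᵒᵖ M] [IsCentralScalar K M]
  [AddCommGroup N] [Module K N] [Module Kᵐᵒᵖ N] [IsCentralScalar K N]

/-- the identity section at `K` -/
noncomputable abbrev eK : APt f K := L.one (aStr K K)

/-- `x` is the infinitesimal point attached to the derivation `D`. -/
def IsTan (e0 : Γ(A, U) →+* K) (x : APt f (TrivSqZeroExt K M)) (D : Γ(A, U) → M) : Prop :=
  ∃ ψ : Γ(A, U) →+* TrivSqZeroExt K M, x.1 = Spec.map (CommRingCat.ofHom ψ) ≫ hU.fromSpec ∧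
    ∀ b, ψ b = TrivSqZeroExt.inl (e0 b) + TrivSqZeroExt.inr (D b)

variable {hU}

theorem IsTan.unique {e0 : Γ(A, U) →+* K} {x : APt f (TrivSqZeroExt K M)} {D D' : Γ(A, U) → M}
    (h : IsTan hU e0 x D) (h' : IsTan hU e0 x D') : D = D' := by
  obtain ⟨ψ, h1, h2⟩ := h
  obtain ⟨ψ', h1', h2'⟩ := h'
  have h3 := hom_unique hU (h1.symm.trans h1')
  have h4 : ψ = ψ' := congrArg CommRingCat.Hom.hom h3
  funext b
  have h5 : ψ b = ψ' b := by rw [h4]
  rw [h2, h2', add_right_inj] at h5
  exact TrivSqZeroExt.inr_injective h5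

theorem IsTan.eq {e0 : Γ(A, U) →+* K} {x y : APt f (TrivSqZeroExt K M)} {D : Γ(A, U) → M}
    (h : IsTan hU e0 x D) (h' : IsTan hU e0 y D) : x = y := by
  obtain ⟨ψ, h1, h2⟩ := h
  obtain ⟨ψ', h1', h2'⟩ := h'
  have h4 : ψ = ψ' := RingHom.ext fun b => by rw [h2, h2']
  exact Subtype.ext (by rw [h1, h1', h4])

theorem IsTan.map {e0 : Γ(A, U) →+* K} {x : APt f (TrivSqZeroExt K M)} {D : Γ(A, U) → M}
    (h : IsTan hU e0 x D) (g : M →ₗ[K] N) :
    IsTan hU e0 (ptMap (TrivSqZeroExt.map g) x) (fun b => g (D b)) := by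
  obtain ⟨ψ, h1, h2⟩ := h
  refine ⟨(TrivSqZeroExt.map g : TrivSqZeroExt K M →+* TrivSqZeroExt K N).comp ψ, ?_, fun b => ?_⟩
  · rw [ptMap_coe, h1, CommRingCat.ofHom_comp, Spec.map_comp, Category.assoc]
  · simp [h2]

variable (hU) in
theorem exists_isTan {e0 : Γ(A, U) →+* K}
    (he : (eK L).1 = Spec.map (CommRingCat.ofHom e0) ≫ hU.fromSpec)
    (x : APt f (TrivSqZeroExt K M)) (hx : ptMap (TrivSqZeroExt.fstHom K K M) x = eK L) :
    ∃ D, IsTan hU e0 x D := by
  have h1 : ∀ p, x.1 p ∈ U := by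
    intro p
    have hs : Function.Surjective
        (Spec.map (CommRingCat.ofHom ((TrivSqZeroExt.fstHom K K M : TrivSqZeroExt K M →ₐ[K] K) :
          TrivSqZeroExt K M →+* K))) := by
      apply specMap_surjective
      · intro a
        exact ⟨TrivSqZeroExt.inl a, rfl⟩
      · rw [pow_two]
        refine (Ideal.mul_le.mpr ?_).antisymm bot_le
        intro a ha b hb
        rw [Ideal.mem_bot]
        have ha' : a.fst = 0 := ha
        have hb' : b.fst = 0 := hb
        ext
        · simp [ha']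
        · simp [ha', hb']
    obtain ⟨q, rfl⟩ := hs p
    rw [← Scheme.Hom.comp_apply]
    have h2 : Spec.map (CommRingCat.ofHom ((TrivSqZeroExt.fstHom K K M : TrivSqZeroExt K M →ₐ[K] K) :
          TrivSqZeroExt K M →+* K)) ≫ x.1 = Spec.map (CommRingCat.ofHom e0) ≫ hU.fromSpec := by
      rw [← he, ← hx, ptMap_coe]
    rw [h2, Scheme.Hom.comp_apply]
    have h3 : hU.fromSpec (Spec.map (CommRingCat.ofHom e0) q) ∈ hU.fromSpec.opensRange := ⟨_, rfl⟩
    rwa [hU.opensRange_fromSpec] at h3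
  obtain ⟨ψ, hψ⟩ := exists_hom hU x.1 h1
  refine ⟨fun b => (ψ.hom b).snd, ψ.hom, hψ, fun b => ?_⟩
  have h4 : ψ ≫ CommRingCat.ofHom ((TrivSqZeroExt.fstHom K K M : TrivSqZeroExt K M →ₐ[K] K) :
          TrivSqZeroExt K M →+* K) = CommRingCat.ofHom e0 := by
    apply hom_unique hU
    rw [← he, ← hx, ptMap_coe, hψ, Spec.map_comp, Category.assoc]
  have h5 : (ψ.hom b).fst = e0 b := congrArg (fun g => g.hom b) h4
  ext
  · simp [h5]
  · simp

theorem isTan_one {e0 : Γ(A, U) →+* K}
    (he : (eK L).1 = Spec.map (CommRingCat.ofHom e0) ≫ hU.fromSpec) :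
    IsTan hU e0 (L.one (aStr K (TrivSqZeroExt K M))) 0 := by
  refine ⟨(algebraMap K (TrivSqZeroExt K M)).comp e0, ?_, fun b => ?_⟩
  · rw [← ptMap_one L (Algebra.ofId K (TrivSqZeroExt K M)), ptMap_coe]
    change _ ≫ (eK L).1 = _
    rw [he, CommRingCat.ofHom_comp, Spec.map_comp, Category.assoc]
    rfl
  · simp [TrivSqZeroExt.algebraMap_eq_inl]

theorem ptMap_fst_of_isTan {e0 : Γ(A, U) →+* K}
    (he : (eK L).1 = Spec.map (CommRingCat.ofHom e0) ≫ hU.fromSpec)
    {x : APt f (TrivSqZeroExt K M)} {D : Γ(A, U) → M} (h : IsTan hU e0 x D) :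
    ptMap (TrivSqZeroExt.fstHom K K M) x = eK L := by
  obtain ⟨ψ, h1, h2⟩ := h
  apply Subtype.ext
  rw [ptMap_coe, h1, he, ← Category.assoc, ← Spec.map_comp, ← CommRingCat.ofHom_comp]
  congr 3
  ext b
  simp [h2]

end Split

section Mul

variable {M : Type u} [AddCommGroup M] [Module K M] [Module Kᵐᵒᵖ M] [IsCentralScalar K M]

variable {hU}

theorem IsTan.mul {e0 : Γ(A, U) →+* K}
    (he : (eK L).1 = Spec.map (CommRingCat.ofHom e0) ≫ hU.fromSpec)
    {x y : APt f (TrivSqZeroExt K M)} {D D' : Γ(A, U) → M} (h : IsTan hU e0 x D)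
    (h' : IsTan hU e0 y D') : IsTan hU e0 (L.mul _ x y) (D + D') := by
  have hx := ptMap_fst_of_isTan L he h
  have hy := ptMap_fst_of_isTan L he h'
  let i₁ : TrivSqZeroExt K M →ₐ[K] TrivSqZeroExt K (M × M) :=
    TrivSqZeroExt.map (LinearMap.inl K M M)
  let i₂ : TrivSqZeroExt K M →ₐ[K] TrivSqZeroExt K (M × M) :=
    TrivSqZeroExt.map (LinearMap.inr K M M)
  let p₁ : TrivSqZeroExt K (M × M) →ₐ[K] TrivSqZeroExt K M :=
    TrivSqZeroExt.map (LinearMap.fst K M M)
  let p₂ : TrivSqZeroExt K (M × M) →ₐ[K] TrivSqZeroExt K M :=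
    TrivSqZeroExt.map (LinearMap.snd K M M)
  let s : TrivSqZeroExt K (M × M) →ₐ[K] TrivSqZeroExt K M :=
    TrivSqZeroExt.map (LinearMap.fst K M M + LinearMap.snd K M M)
  let w : APt f (TrivSqZeroExt K (M × M)) := L.mul _ (ptMap i₁ x) (ptMap i₂ y)
  have hw : ptMap (TrivSqZeroExt.fstHom K K (M × M)) w = eK L := by
    rw [ptMap_mul, ptMap_ptMap, ptMap_ptMap, TrivSqZeroExt.fstHom_comp_map,
      TrivSqZeroExt.fstHom_comp_map, hx, hy, L.one_mul]
  obtain ⟨Dw, hDw⟩ := exists_isTan L hU he w hw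
  have hconst : ∀ (z : APt f (TrivSqZeroExt K M)) (_ : ptMap (TrivSqZeroExt.fstHom K K M) z = eK L)
      (g : TrivSqZeroExt K M →ₐ[K] TrivSqZeroExt K M) (_ : g = (TrivSqZeroExt.inlAlgHom K K M).comp
        (TrivSqZeroExt.fstHom K K M)), ptMap g z = L.one _ := by
    rintro z hz g rfl
    rw [← ptMap_ptMap, hz]
    exact ptMap_one L _
  have e₁₁ : p₁.comp i₁ = AlgHom.id K _ := by
    apply TrivSqZeroExt.algHom_ext; intro m; simp [p₁, i₁]
  have e₂₂ : p₂.comp i₂ = AlgHom.id K _ := by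
    apply TrivSqZeroExt.algHom_ext; intro m; simp [p₂, i₂]
  have e₁₂ : p₁.comp i₂ = (TrivSqZeroExt.inlAlgHom K K M).comp (TrivSqZeroExt.fstHom K K M) := by
    apply TrivSqZeroExt.algHom_ext; intro m; simp [p₁, i₂]
  have e₂₁ : p₂.comp i₁ = (TrivSqZeroExt.inlAlgHom K K M).comp (TrivSqZeroExt.fstHom K K M) := by
    apply TrivSqZeroExt.algHom_ext; intro m; simp [p₂, i₁]
  have e₃₁ : s.comp i₁ = AlgHom.id K _ := by
    apply TrivSqZeroExt.algHom_ext; intro m; simp [s, i₁]
  have e₃₂ : s.comp i₂ = AlgHom.id K _ := by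
    apply TrivSqZeroExt.algHom_ext; intro m; simp [s, i₂]
  have h1 : ptMap p₁ w = x := by
    rw [ptMap_mul, ptMap_ptMap, ptMap_ptMap, e₁₁, ptMap_id, hconst y hy _ e₁₂, L.mul_one]
  have h2 : ptMap p₂ w = y := by
    rw [ptMap_mul, ptMap_ptMap, ptMap_ptMap, e₂₂, ptMap_id, hconst x hx _ e₂₁, L.one_mul]
  have h3 : ptMap s w = L.mul _ x y := by
    rw [ptMap_mul, ptMap_ptMap, ptMap_ptMap, e₃₁, e₃₂, ptMap_id, ptMap_id]
  have k1 := (hDw.map (LinearMap.fst K M M)).unique (h1.symm ▸ h)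
  have k2 := (hDw.map (LinearMap.snd K M M)).unique (h2.symm ▸ h')
  have k3 := hDw.map (LinearMap.fst K M M + LinearMap.snd K M M)
  rw [show ptMap (TrivSqZeroExt.map (LinearMap.fst K M M + LinearMap.snd K M M)) w = L.mul _ x y
    from h3] at k3
  rw [← k1, ← k2]
  exact k3

theorem IsTan.nsmul {e0 : Γ(A, U) →+* K}
    (he : (eK L).1 = Spec.map (CommRingCat.ofHom e0) ≫ hU.fromSpec)
    {x : APt f (TrivSqZeroExt K M)} {D : Γ(A, U) → M} (h : IsTan hU e0 x D) (n : ℕ) :
    IsTan hU e0 (L.nsmul _ n x) (n • D) := by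
  induction n with
  | zero => rw [zero_smul]; exact isTan_one L he
  | succ n ih =>
    rw [L.nsmul_succ, succ_nsmul]
    exact ih.mul L he h

end Mul

theorem fromSpec_comp_str : hU.fromSpec ≫ f = Spec.map (CommRingCat.ofHom (kSec f U)) := by
  have h := IsAffineOpen.SpecMap_appLE_fromSpec f (isAffineOpen_top _) hU (le_top : U ≤ f ⁻¹ᵁ ⊤)
  rw [IsAffineOpen.fromSpec_top, Scheme.isoSpec_Spec_inv] at h
  rw [← h, ← Spec.map_comp]
  rfl

section General

open TrivSqZeroExt

/-- infinitesimal points near the identity have no `n`-torsion -/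
theorem eq_one_of_algebra (n : ℕ) (hn : (n : K) ≠ 0) {R S : Type u} [CommRing R] [Algebra K R]
    [CommRing S] [Algebra K S] (φ : R →ₐ[K] S) (hφ : Function.Surjective φ)
    (h2 : RingHom.ker φ ^ 2 = ⊥) (x : APt f R) (hx : L.nsmul _ n x = L.one _)
    (hx1 : ptMap φ x = L.one _) : x = L.one _ := by
  obtain ⟨_, ⟨U, hU, rfl⟩, hoU, -⟩ := A.isBasis_affineOpens.exists_subset_of_mem_open
    (Set.mem_univ ((eK L).1 (IsLocalRing.closedPoint K))) isOpen_univ
  replace hoU : (eK L).1 (IsLocalRing.closedPoint K) ∈ U := hoU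
  replace hU : IsAffineOpen U := hU
  have hoU' : ∀ p, (eK L).1 p ∈ U := fun p => by
    rw [Subsingleton.elim p (IsLocalRing.closedPoint K)]; exact hoU
  obtain ⟨e0, he⟩ := exists_hom hU (eK L).1 hoU'
  have he' : (eK L).1 = Spec.map (CommRingCat.ofHom e0.hom) ≫ hU.fromSpec := he
  have hone : ∀ (T : Type u) [CommRing T] [Algebra K T], (L.one (aStr K T)).1 =
      Spec.map (CommRingCat.ofHom ((algebraMap K T).comp e0.hom)) ≫ hU.fromSpec := by
    intro T _ _
    rw [← ptMap_one L (Algebra.ofId K T), ptMap_coe]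
    change _ ≫ (eK L).1 = _
    rw [he', CommRingCat.ofHom_comp, Spec.map_comp, Category.assoc]
    rfl
  have hsurj := specMap_surjective (CommRingCat.ofHom (φ : R →+* S)) hφ h2
  have hxU : ∀ p, x.1 p ∈ U := by
    intro p
    obtain ⟨q, rfl⟩ := hsurj p
    rw [← Scheme.Hom.comp_apply]
    have h3 : Spec.map (CommRingCat.ofHom (φ : R →+* S)) ≫ x.1 = (L.one (aStr K S)).1 := by
      rw [← hx1, ptMap_coe]
    rw [h3, hone S, Scheme.Hom.comp_apply]
    have h3 : hU.fromSpec (Spec.map (CommRingCat.ofHom ((algebraMap K S).comp e0.hom)) q) ∈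
      hU.fromSpec.opensRange := ⟨_, rfl⟩
    rwa [hU.opensRange_fromSpec] at h3
  obtain ⟨ψ, hψ⟩ := exists_hom hU x.1 hxU
  have hφψ : ∀ b, φ (ψ.hom b) = algebraMap K S (e0.hom b) := by
    have h3 : ψ ≫ CommRingCat.ofHom (φ : R →+* S) =
        CommRingCat.ofHom ((algebraMap K S).comp e0.hom) := by
      apply hom_unique hU
      rw [Spec.map_comp, Category.assoc, ← hψ, ← hone S, ← hx1, ptMap_coe]
    intro b
    exact congrArg (fun g => g.hom b) h3
  have hsec0 : ∀ c, e0.hom (kSec f U c) = c := by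
    have h3 : CommRingCat.ofHom (kSec f U) ≫ e0 = 𝟙 _ := by
      apply Spec.map_injective
      rw [Spec.map_comp, ← fromSpec_comp_str hU, ← Category.assoc, ← he, (eK L).2]
      rfl
    intro c
    exact congrArg (fun g => g.hom c) h3
  have hsecψ : ∀ c, ψ.hom (kSec f U c) = algebraMap K R c := by
    have h3 : CommRingCat.ofHom (kSec f U) ≫ ψ = CommRingCat.ofHom (algebraMap K R) := by
      apply Spec.map_injective
      rw [Spec.map_comp, ← fromSpec_comp_str hU, ← Category.assoc, ← hψ, x.2]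
    intro c
    exact congrArg (fun g => g.hom c) h3
  let I : Ideal R := RingHom.ker φ
  let : Module Kᵐᵒᵖ I := Module.compHom _ ((RingHom.id K).fromOpposite mul_comm)
  have : IsCentralScalar K I := ⟨fun m a => rfl⟩
  have hsm : ∀ (c : K) (m : I), ((c • m : I) : R) = algebraMap K R c * m :=
    fun c m => Algebra.smul_def c (m : R)
  have hI2 : ∀ a b : I, (a : R) * (b : R) = 0 := by
    intro a b
    have : (a : R) * b ∈ RingHom.ker φ ^ 2 := by
      rw [pow_two]; exact Ideal.mul_mem_mul a.2 b.2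
    rw [h2] at this
    exact this
  let D : Γ(A, U) → I := fun b => ⟨ψ.hom b - algebraMap K R (e0.hom b), by
    rw [RingHom.mem_ker, map_sub, AlgHom.commutes, hφψ, sub_self]⟩
  let ψ' : Γ(A, U) →+* TrivSqZeroExt K I :=
    { toFun := fun b => inl (e0.hom b) + inr (D b)
      map_one' := by
        ext
        · simp
        · simp [D]
      map_zero' := by
        ext
        · simp
        · simp [D]
      map_add' := fun a b => by
        ext
        · simp
        · simp only [map_add, snd_add, snd_inl, snd_inr, D, zero_add, Submodule.coe_add]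
          ring
      map_mul' := fun a b => by
        ext
        · simp
        · have h3 := hI2 (D a) (D b)
          simp only [D] at h3
          simp only [map_mul, snd_add, snd_inl, snd_inr, D, zero_add, snd_mul, fst_add, fst_inl,
            fst_inr, add_zero, Submodule.coe_add, op_smul_eq_smul, hsm]
          linear_combination h3 }
  let ι : I →ₗ[K] R :=
    { toFun := fun m => (m : R), map_add' := fun _ _ => rfl, map_smul' := fun _ _ => rfl }
  let j : TrivSqZeroExt K I →ₐ[K] R := liftEquivOfComm ⟨ι, fun a b => hI2 a b⟩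
  have hj : ∀ c (m : I), j (inl c + inr m) = algebraMap K R c + m := by
    intro c m
    have h4 : j (inl c) = algebraMap K R c := j.commutes c
    have h5 : j (inr m) = m := by
      simp only [j, liftEquivOfComm_apply]
      rw [lift_apply_inr]
      rfl
    rw [map_add, h4, h5]
  have hψ' : (CommRingCat.ofHom ψ') ≫ CommRingCat.ofHom (j : TrivSqZeroExt K I →+* R) = ψ := by
    ext b
    change j (inl (e0.hom b) + inr (D b)) = _
    rw [hj]
    simp [D]
  let x' : APt f (TrivSqZeroExt K I) := ⟨Spec.map (CommRingCat.ofHom ψ') ≫ hU.fromSpec, by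
    rw [Category.assoc, fromSpec_comp_str, ← Spec.map_comp, ← CommRingCat.ofHom_comp]
    congr 2
    ext c
    · simp [ψ', hsec0, algebraMap_eq_inl]
    · simp only [ψ', RingHom.comp_apply, RingHom.coe_mk, MonoidHom.coe_mk, OneHom.coe_mk, snd_add,
        snd_inl, snd_inr, zero_add, D, hsec0, hsecψ, sub_self, algebraMap_eq_inl]
      rfl⟩
  have hjx' : ptMap j x' = x := by
    apply Subtype.ext
    rw [ptMap_coe, hψ]
    simp only [x']
    rw [← Category.assoc, ← Spec.map_comp, hψ']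
  have htan : IsTan hU e0.hom x' D := ⟨ψ', rfl, fun b => rfl⟩
  obtain ⟨ψn, hψn1, hψn2⟩ := htan.nsmul L he' n
  have h6 : ptMap j (L.nsmul _ n x') = L.one _ := by rw [ptMap_nsmul, hjx', hx]
  have h7 : ∀ b, j (ψn b) = algebraMap K R (e0.hom b) := by
    have h8 : CommRingCat.ofHom ψn ≫ CommRingCat.ofHom (j : TrivSqZeroExt K I →+* R) =
        CommRingCat.ofHom ((algebraMap K R).comp e0.hom) := by
      apply hom_unique hU
      rw [Spec.map_comp, Category.assoc, ← hψn1, ← hone R, ← h6, ptMap_coe]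
    intro b
    exact congrArg (fun g => g.hom b) h8
  have h9 : ∀ b, D b = 0 := by
    intro b
    have h10 := h7 b
    rw [hψn2, hj, add_eq_left] at h10
    have h11 : n • D b = 0 := Subtype.ext h10
    rw [← Nat.cast_smul_eq_nsmul K] at h11
    exact (smul_eq_zero_iff_right hn).mp h11
  have h12 : ψ = CommRingCat.ofHom ((algebraMap K R).comp e0.hom) := by
    ext b
    have := congrArg Subtype.val (h9 b)
    simp only [D] at this
    exact sub_eq_zero.mp this
  apply Subtype.ext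
  rw [hψ, hone R, h12]

end General

end Tangent

end Fermat.Agent.AbVar
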