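import Fermat.Agent.AbVar.Tangent
import Fermat.Agent.AbVar.Chart

/-!
# S26: multiplication by `n` is unramified, étale, finite, surjective
-/

set_option autoImplicit false
universe u
open CategoryTheory CategoryTheory.Limits AlgebraicGeometry NeronModelInfra GoodReductionJacobian

namespace Fermat.Agent.AbVar

section Group

variable {R : Type u} [CommRing R] {A : Scheme.{u}} {f : A ⟶ Spec (CommRingCat.of R)}

/-- the commutative group structure on points -/
@[reducible]
def commPointGroup (L : RelativeGroupLaw R f) (hc : L.IsCommutative) {T : Scheme.{u}}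
    (t : T ⟶ Spec (CommRingCat.of R)) : CommGroup (SchemeHomOver t f) :=
  { L.pointGroup t with mul_comm := fun x y => hc t x y }

theorem nsmul_eq_pow (L : RelativeGroupLaw R f) (hc : L.IsCommutative) {T : Scheme.{u}}
    (t : T ⟶ Spec (CommRingCat.of R)) (n : ℕ) (x : SchemeHomOver t f) :
    letI := commPointGroup L hc t
    L.nsmul t n x = x ^ n := by
  let := commPointGroup L hc t
  induction n with
  | zero => exact (pow_zero x).symm
  | succ n ih =>
    rw [L.nsmul_succ]
    refine Eq.trans ?_ (pow_succ x n).symm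
    rw [← ih]
    rfl

theorem comp_schemeNsmul (L : RelativeGroupLaw R f) {T : Scheme.{u}}
    (t : T ⟶ Spec (CommRingCat.of R)) (n : ℕ) (x : SchemeHomOver t f) :
    x.1 ≫ L.schemeNsmul n = (L.nsmul t n x).1 := by
  have h := L.nsmul_natural f t x.1 x.2 n RelativeGroupLaw.idPoint
  have h1 : schemeHomOverComp x.1 x.2 RelativeGroupLaw.idPoint = x :=
    Subtype.ext (Category.comp_id _)
  rw [h1] at h
  rw [← h]
  rfl

end Group

variable {K : Type u} [Field K] {A : Scheme.{u}} {f : A ⟶ Spec (CommRingCat.of K)}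
  (L : RelativeGroupLaw K f)

theorem formallyUnramified_nsmul (hc : L.IsCommutative) (n : ℕ) (hn : (n : K) ≠ 0) :
    FormallyUnramified (L.schemeNsmul n) := by
  apply FormallyUnramified.of_hom_ext
  intro R S φ hφ h2 g₁ g₂ hg1 hg2
  have hf : g₁ ≫ f = g₂ ≫ f := by
    rw [← L.schemeNsmul_over n, reassoc_of% hg2]
  obtain ⟨τ, hτ⟩ := Spec.map_surjective (g₂ ≫ f)
  let : Algebra K R := τ.hom.toAlgebra
  let : Algebra K S := (τ ≫ φ).hom.toAlgebra
  let φ' : R →ₐ[K] S := { φ.hom with commutes' := fun _ => rfl }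
  let x₁ : APt f R := ⟨g₁, by rw [hf]; exact hτ.symm⟩
  let x₂ : APt f R := ⟨g₂, hτ.symm⟩
  have key := Tangent.eq_one_of_algebra L n hn φ' hφ h2 (L.mul _ x₁ (L.inv _ x₂)) ?_ ?_
  · let := commPointGroup L hc (aStr K R)
    have h3 : x₁ = x₂ := mul_inv_eq_one.mp key
    exact congrArg Subtype.val h3
  · rw [nsmul_eq_pow L hc]
    let := commPointGroup L hc (aStr K R)
    change (x₁ * x₂⁻¹) ^ n = 1
    rw [mul_pow, inv_pow, mul_inv_eq_one, ← nsmul_eq_pow L hc, ← nsmul_eq_pow L hc]
    apply Subtype.ext
    rw [← comp_schemeNsmul, ← comp_schemeNsmul]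
    exact hg2
  · have h3 : ptMap φ' x₁ = ptMap φ' x₂ := Subtype.ext hg1
    let := commPointGroup L hc (aStr K R)
    let := commPointGroup L hc (aStr K S)
    have h4 : ptMap φ' (L.mul _ x₁ (L.inv _ x₂)) = ptMap φ' x₁ * ptMap φ' (L.inv _ x₂) :=
      ptMap_mul L φ' _ _
    have h5 : ptMap φ' (L.mul _ x₂ (L.inv _ x₂)) = ptMap φ' x₂ * ptMap φ' (L.inv _ x₂) :=
      ptMap_mul L φ' _ _
    rw [h4, h3, ← h5, L.mul_inv_cancel, ptMap_one]

section Etale

open TensorProduct KaehlerDifferential

/-- an unramified map between standard smooth algebras of the same dimension is étale -/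
theorem etale_of_formallyUnramified (g : ℕ) (K B C : Type u) [CommRing K] [CommRing B] [CommRing C] [Nontrivial C] [Algebra K B]
    [Algebra K C] [Algebra B C] [IsScalarTower K B C]
    [Algebra.IsStandardSmoothOfRelativeDimension g K B]
    [Algebra.IsStandardSmoothOfRelativeDimension g K C] [Algebra.FormallyUnramified B C] :
    Algebra.Etale B C := by
  have : Algebra.IsStandardSmooth K B := Algebra.IsStandardSmoothOfRelativeDimension.isStandardSmooth g
  have : Algebra.IsStandardSmooth K C := Algebra.IsStandardSmoothOfRelativeDimension.isStandardSmooth g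
  have hB : Nontrivial B := (algebraMap B C).domain_nontrivial
  have hsurj : Function.Surjective (mapBaseChange K B C) := fun x ↦
    (KaehlerDifferential.exact_mapBaseChange_map K B C x).mp (Subsingleton.elim _ _)
  have r1 : Module.rank B Ω[B⁄K] = g := Algebra.IsStandardSmoothOfRelativeDimension.rank_kaehlerDifferential g
  have r2 : Module.rank C Ω[C⁄K] = g := Algebra.IsStandardSmoothOfRelativeDimension.rank_kaehlerDifferential g
  have r3 : Module.rank C (C ⊗[B] Ω[B⁄K]) = g := by
    rw [Module.rank_baseChange, r1]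
    simp
  let e : Ω[C⁄K] ≃ₗ[C] (C ⊗[B] Ω[B⁄K]) := LinearEquiv.ofRankEq _ _ (r2.trans r3.symm)
  have hinj : Function.Injective (mapBaseChange K B C) := by
    have h1 : Function.Surjective (e.toLinearMap ∘ₗ mapBaseChange K B C) := e.surjective.comp hsurj
    have h2 := OrzechProperty.injective_of_surjective_endomorphism _ h1
    exact Function.Injective.of_comp h2
  have hH1 : Subsingleton (Algebra.H1Cotangent B C) := by
    refine subsingleton_of_forall_eq 0 fun x => ?_
    have h1 : Algebra.H1Cotangent.δ K B C x = 0 := by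
      apply hinj
      rw [map_zero]
      exact (Algebra.H1Cotangent.exact_δ_mapBaseChange K B C _).mpr ⟨x, rfl⟩
    obtain ⟨y, rfl⟩ := (Algebra.H1Cotangent.exact_map_δ K B C x).mp h1
    rw [Subsingleton.elim y 0, map_zero]
  have : Algebra.FormallySmooth B C :=
    { projective_kaehlerDifferential := inferInstance
      subsingleton_h1Cotangent := hH1 }
  have : Algebra.FinitePresentation B C :=
    Algebra.FinitePresentation.of_restrict_scalars_finitePresentation K B C
  have : Algebra.FormallyEtale B C := Algebra.FormallyEtale.iff_formallyUnramified_and_formallySmooth.mpr ⟨inferInstance, inferInstance⟩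
  exact ⟨inferInstance, inferInstance⟩


end Etale

theorem locallyQuasiFinite_of_formallyUnramified {X Y : Scheme.{u}} (φ : X ⟶ Y)
    [FormallyUnramified φ] [LocallyOfFiniteType φ] : LocallyQuasiFinite φ where
  quasiFinite_appLE {U} hU {V} hV e := by
    have h1 := φ.formallyUnramified_appLE hU hV e
    have h2 := φ.finiteType_appLE hU hV e
    algebraize [(φ.appLE U V e).hom]
    exact inferInstanceAs (Algebra.QuasiFinite Γ(Y, U) Γ(X, V))

theorem finite_nsmul [IsProper f] (hc : L.IsCommutative) (n : ℕ) (hn : (n : K) ≠ 0) :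
    IsFinite (L.schemeNsmul n) := by
  have := formallyUnramified_nsmul L hc n hn
  have h1 : IsProper (L.schemeNsmul n ≫ f) := by rw [L.schemeNsmul_over n]; infer_instance
  have : IsProper (L.schemeNsmul n) := IsProper.of_comp (L.schemeNsmul n) f
  have := locallyQuasiFinite_of_formallyUnramified (L.schemeNsmul n)
  exact IsFinite.of_isProper_of_locallyQuasiFinite _

theorem kSec_comp_appLE {X Y : Scheme.{u}} (φ : X ⟶ Y) (s : X ⟶ Spec (.of K))
    (t : Y ⟶ Spec (.of K)) (h : φ ≫ t = s) (V : Y.Opens) (U : X.Opens) (e : U ≤ φ ⁻¹ᵁ V) :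
    (φ.appLE V U e).hom.comp (kSec t V) = kSec s U := by
  subst h
  have e1 : V ≤ t ⁻¹ᵁ ⊤ := le_top
  have e2 : U ≤ (φ ≫ t) ⁻¹ᵁ ⊤ := le_top
  rw [kSec_eq t V e1, kSec_eq (φ ≫ t) U e2, ← RingHom.comp_assoc, ← CommRingCat.hom_comp,
    Scheme.Hom.appLE_comp_appLE]

/-- an unramified `K`-morphism between smooth `K`-schemes of the same dimension is étale -/
theorem etale_of_unramified_of_dim {X Y : Scheme.{u}} (φ : X ⟶ Y) (s : X ⟶ Spec (.of K))
    (t : Y ⟶ Spec (.of K)) (h : φ ≫ t = s) (g : ℕ) [SmoothOfRelativeDimension g s]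
    [SmoothOfRelativeDimension g t] [FormallyUnramified φ] : Etale φ := by
  have hloc : RingHom.StableUnderCompositionWithLocalizationAwaySource RingHom.Etale :=
    (RingHom.Etale.stableUnderComposition.stableUnderCompositionWithLocalizationAway
      (fun R S _ _ _ r _ => by
        have : Algebra.Etale R S := Algebra.Etale.of_isLocalizationAway r
        exact (RingHom.etale_algebraMap (R := R) (S := S)).mpr this)).left
  rw [HasRingHomProperty.iff_exists_appLE (P := @Etale) hloc]
  intro x
  obtain ⟨V, hV, hy, hVs⟩ := exists_stdSmooth_dim t g (φ x)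
  obtain ⟨U, hU, hx, hUV, hUs⟩ := exists_stdSmooth_dim_le s g x (φ ⁻¹ᵁ V) hy
  refine ⟨⟨V, hV⟩, ⟨U, hU⟩, hx, hUV, ?_⟩
  change (φ.appLE V U hUV).hom.Etale
  have h1 := φ.formallyUnramified_appLE hV hU hUV
  have : Nonempty U := ⟨⟨x, hx⟩⟩
  have : Nontrivial Γ(X, U) := inferInstance
  algebraize [kSec t V, (φ.appLE V U hUV).hom, kSec s U]
  have : IsScalarTower K Γ(Y, V) Γ(X, U) := IsScalarTower.of_algebraMap_eq'
    (kSec_comp_appLE φ s t h V U hUV).symm
  exact etale_of_formallyUnramified g K Γ(Y, V) Γ(X, U)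

end Fermat.Agent.AbVar
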